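import Fermat.Agent.S35.FDefs
import Fermat.Agent.S37.TrMain
import Fermat.Agent.S37.EsSwap
import Fermat.Agent.S18.InjDescent

/-!
# S35 (NODE-2), leaf (LVL): level raising for the hub `s35_FPow`

`s35_lvl` : the statement **(F'-pow)** at level `N * l` follows from the statements at the levels
`L' * l`, where `L'` runs over the multiples of `N` prime to `l` which are divisible by some
`M₀ ∈ {2, 3}`, `M₀ ≠ l`.

Route (function level): for `M₀ ∈ {2, 3}`, `M₀ ≠ l`, put `L' := lcm N M₀`, and view the function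
`g` of level `N * l` at level `L' * l`.

* the orders stay divisible by `m` (`s18_d7_dvd`);
* the norm to level `L'` of a function of level `N * l` is its norm to level `N`
  (`s35_lvl_norm`: base change of characteristic polynomials, `s37_tr_chi_inclusion`);
* a swap of level `L' * l` restricts to the given swap of level `N * l` (`s35_lvl_swap`: both are
  determined on the generators `j(q^e)`);
* the Galois action commutes with the inclusion (`s35_lvl_fp_mul_coe`);
* the `m`-th root descends to level `N * l` up to the exponent `M₀ + 1` (`s18_descent_pow`).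
-/

set_option autoImplicit false
set_option linter.style.haveILetI false

open ModularCurve AlgebraicCurve

noncomputable section

namespace Fermat.Agent.S35

open Fermat.Agent.S29 Fermat.Agent.S37 Fermat.Agent.S18

local notation "Qb" => AlgebraicClosure ℚ
local notation "Γ" => (AlgebraicClosure ℚ ≃ₐ[ℚ] AlgebraicClosure ℚ)

/-- The norm along a homomorphism is `± ` the constant coefficient of the characteristic
polynomial. -/
theorem s35_lvl_norm_eq_coeff {K F F' : Type*} [Field K] [Field F] [Field F'] [Algebra K F]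
    [Algebra K F'] (ψ : F →ₐ[K] F') (hfin : FiniteAlong K ψ) (x : F') :
    s29_kh_normAlong ψ x = (-1) ^ finrankAlong K ψ * (s37_tr_chi ψ hfin x).coeff 0 := by
  unfold s29_kh_normAlong finrankAlong s37_tr_chi
  letI := algebraAlong ψ
  haveI : Module.Finite F F' := hfin
  rw [Algebra.norm_apply, LinearMap.det_eq_sign_charpoly_coeff]
  rfl

/-- The norm to level `L'` of a function of level `N * l` is its norm to level `N`
(`N ∣ L'`, `l` a prime not dividing `L'`). -/
theorem s35_lvl_norm (N L' l : ℕ) [NeZero N] [NeZero L'] [NeZero l] (hl : l.Prime)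
    (hNL : N ∣ L') (hlL : ¬ l ∣ L') (g : modularFunctionFieldBar (N * l)) :
    s29_kh_normAlong (heckeAlphaBar Qb L' l) (s37_tr_incl (Nat.mul_dvd_mul_right hNL l) g)
      = s37_tr_incl hNL (s29_kh_normAlong (heckeAlphaBar Qb N l) g) := by
  have hlN : ¬ l ∣ N := fun h => hlL (h.trans hNL)
  have hF := s37_h_isFF_bar N
  have hF₁ := s37_h_isFF_bar (N * l)
  have hF₂ := s37_h_isFF_bar L'
  have hE := s37_h_isFF_bar (L' * l)
  have hfin₂ : FiniteAlong Qb (heckeAlphaBar Qb N l) := hF.finiteAlong hF₁ _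
  have hfin₁ : FiniteAlong Qb (heckeAlphaBar Qb L' l) := hF₂.finiteAlong hE _
  have hAB := s18_d5_le (dvd_mul_right N l)
  have hAC := s18_d5_le hNL
  have hBD := s18_d5_le (Nat.mul_dvd_mul_right hNL l)
  have hCD := s18_d5_le (dvd_mul_right L' l)
  have hr1 := s18_d5_relfinrank_mul_prime N l hl hlN
  have hr2 := s18_d5_relfinrank_mul_prime L' l hl hlL
  have hlcm : ∀ c : ℤ, ((N * l : ℕ) : ℤ) ∣ c → ((L' : ℕ) : ℤ) ∣ c → ((L' * l : ℕ) : ℤ) ∣ c := by
    intro c h1 h2
    rw [Int.natCast_dvd] at h1 h2 ⊢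
    have hcop : Nat.Coprime L' l := (hl.coprime_iff_not_dvd.mpr hlL).symm
    exact hcop.mul_dvd_of_dvd_of_dvd h2 ((Dvd.intro_left N rfl).trans h1)
  have hchi := s37_tr_chi_inclusion (K := Qb) hAB hAC hBD hCD (hr2.trans hr1.symm)
    (fun C' hB hC hD => s37_tr_compositum (N * l) L' (L' * l) (Nat.mul_dvd_mul_right hNL l)
      (dvd_mul_right L' l) hlcm C' hB hC hD) hfin₂ hfin₁ g
  have e1 : finrankAlong Qb (heckeAlphaBar Qb L' l) = l + 1 :=
    (s37_tr_finrankAlong_inclusion hCD).trans hr2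
  have e2 : finrankAlong Qb (heckeAlphaBar Qb N l) = l + 1 :=
    (s37_tr_finrankAlong_inclusion hAB).trans hr1
  rw [s35_lvl_norm_eq_coeff _ hfin₁, s35_lvl_norm_eq_coeff _ hfin₂, e1, e2, map_mul, map_pow,
    map_neg, map_one]
  congr 1
  have h3 := congrArg (fun p => p.coeff 0) hchi
  simp only [Polynomial.coeff_map] at h3
  exact h3

/-- A swap of level `L' * l` restricts to any swap of level `N * l` (`N ∣ L'`). -/
theorem s35_lvl_swap (N L' l : ℕ) [NeZero N] [NeZero L'] [NeZero l] (hl : l.Prime)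
    (hNL : N ∣ L')
    (W : modularFunctionFieldBar (N * l) ≃ₐ[Qb] modularFunctionFieldBar (N * l))
    (hWα : ∀ x, W (heckeAlphaBar Qb N l x) = heckeBetaBar Qb N l x)
    (hWβ : ∀ x, W (heckeBetaBar Qb N l x) = heckeAlphaBar Qb N l x)
    (W' : modularFunctionFieldBar (L' * l) ≃ₐ[Qb] modularFunctionFieldBar (L' * l))
    (hW'α : ∀ x, W' (heckeAlphaBar Qb L' l x) = heckeBetaBar Qb L' l x)
    (hW'β : ∀ x, W' (heckeBetaBar Qb L' l x) = heckeAlphaBar Qb L' l x)
    (g : modularFunctionFieldBar (N * l)) :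
    W' (s37_tr_incl (Nat.mul_dvd_mul_right hNL l) g)
      = s37_tr_incl (Nat.mul_dvd_mul_right hNL l) (W g) := by
  have hdvd : N * l ∣ L' * l := Nat.mul_dvd_mul_right hNL l
  have hA : ∀ x : modularFunctionFieldBar N,
      s37_tr_incl hdvd (heckeAlphaBar Qb N l x) = heckeAlphaBar Qb L' l (s37_tr_incl hNL x) := by
    intro x
    apply Subtype.ext
    rw [s37_tr_coe_incl, coe_heckeAlphaBar, coe_heckeAlphaBar, s37_tr_coe_incl]
  have hB : ∀ x : modularFunctionFieldBar N,
      s37_tr_incl hdvd (heckeBetaBar Qb N l x) = heckeBetaBar Qb L' l (s37_tr_incl hNL x) := by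
    intro x
    apply Subtype.ext
    rw [s37_tr_coe_incl, coe_heckeBetaBar, coe_heckeBetaBar, s37_tr_coe_incl]
  have h1 : ∀ x : modularFunctionFieldBar N,
      W' (s37_tr_incl hdvd (heckeAlphaBar Qb N l x))
        = s37_tr_incl hdvd (W (heckeAlphaBar Qb N l x)) := by
    intro x
    rw [hA, hW'α, hWα, hB]
  have h2 : ∀ x : modularFunctionFieldBar N,
      W' (s37_tr_incl hdvd (heckeBetaBar Qb N l x))
        = s37_tr_incl hdvd (W (heckeBetaBar Qb N l x)) := by
    intro x
    rw [hB, hW'β, hWβ, hA]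
  have key : (W' : modularFunctionFieldBar (L' * l) →ₐ[Qb] modularFunctionFieldBar (L' * l)).comp
        (s37_tr_incl hdvd)
      = (s37_tr_incl hdvd).comp
        (W : modularFunctionFieldBar (N * l) →ₐ[Qb] modularFunctionFieldBar (N * l)) := by
    apply s37_ew_algHom_ext
    intro e _ he
    obtain ⟨d, m', hd, hm', rfl⟩ := (Nat.dvd_mul).mp he
    have hd0 : d ≠ 0 := fun h0 => NeZero.ne (d * m') (by rw [h0, zero_mul])
    haveI : NeZero d := ⟨hd0⟩
    rcases (Nat.dvd_prime hl).mp hm' with rfl | rfl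
    · have h3 : (⟨coeffEmb Qb (qExpand ℚ (d * 1) jq), s37_ew_s_mem (N * l) (d * 1) he⟩ :
          modularFunctionFieldBar (N * l))
          = heckeAlphaBar Qb N l ⟨coeffEmb Qb (qExpand ℚ d jq), s37_ew_s_mem N d hd⟩ := by
        apply Subtype.ext
        rw [coe_heckeAlphaBar]
        show coeffEmb Qb (qExpand ℚ (d * 1) jq) = coeffEmb Qb (qExpand ℚ d jq)
        rw [qExpand_congr (mul_one d)]
      rw [h3]
      exact h1 _
    · have h3 : (⟨coeffEmb Qb (qExpand ℚ (d * m') jq), s37_ew_s_mem (N * m') (d * m') he⟩ :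
          modularFunctionFieldBar (N * m'))
          = heckeBetaBar Qb N m' ⟨coeffEmb Qb (qExpand ℚ d jq), s37_ew_s_mem N d hd⟩ := by
        apply Subtype.ext
        rw [coe_heckeBetaBar]
        show coeffEmb Qb (qExpand ℚ (d * m') jq)
          = qExpand Qb m' (coeffMap (algebraMap ℚ Qb) (qExpand ℚ d jq))
        rw [← coeffMap_qExpand, qExpand_qExpand, qExpand_congr (mul_comm m' d)]
        rfl
      rw [h3]
      exact h2 _
  exact DFunLike.congr_fun key g

/-- The multiplicative operator `s35_fp_mul` of the arithmetic Galois action commutes with the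
inclusion of levels. -/
theorem s35_lvl_fp_mul_coe {K K' : ℕ} [NeZero K] [NeZero K'] (hdvd : K ∣ K') (γ : Γ)
    (rs : List ℤ) (g : modularFunctionFieldBar K) :
    ((s35_fp_mul (arithmeticGalois (modularFunctionFieldFull K') γ) rs (s37_tr_incl hdvd g)
        : modularFunctionFieldBar K') : LaurentSeries Qb)
      = ((s35_fp_mul (arithmeticGalois (modularFunctionFieldFull K) γ) rs g
        : modularFunctionFieldBar K) : LaurentSeries Qb) := by
  induction rs with
  | nil => rw [s35_fp_mul_nil, s35_fp_mul_nil, s37_tr_coe_incl]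
  | cons r rs ih =>
    rw [s35_fp_mul_cons, s35_fp_mul_cons]
    have hc : ∀ (K₀ : ℕ) (y : modularFunctionFieldBar K₀),
        (((arithmeticGalois (modularFunctionFieldFull K₀) γ • y) / y ^ r
          : modularFunctionFieldBar K₀) : LaurentSeries Qb)
          = coeffMap (γ : Qb →+* Qb) (y : LaurentSeries Qb) / (y : LaurentSeries Qb) ^ r := by
      intro K₀ y
      show (modularFunctionFieldBar K₀).val
          ((arithmeticGalois (modularFunctionFieldFull K₀) γ • y) / y ^ r) = _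
      rw [map_div₀, map_zpow₀]
      rfl
    rw [hc, hc, ih]

/-- Arithmetic of the auxiliary level. -/
theorem s35_lvl_arith (N l M : ℕ) (hl : l.Prime) (hM : M.Prime) (hMl : M ≠ l) (hlN : ¬ l ∣ N) :
    ¬ l ∣ Nat.lcm N M ∧ Nat.lcm N M * l = Nat.lcm (N * l) M := by
  have hnot : ¬ l ∣ Nat.lcm N M := by
    intro hd
    have h1 : l ∣ N * M := hd.trans (Nat.lcm_dvd_mul N M)
    rcases hl.dvd_mul.mp h1 with h2 | h2
    · exact hlN h2
    · exact hMl ((Nat.prime_dvd_prime_iff_eq hl hM).mp h2).symm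
  refine ⟨hnot, ?_⟩
  apply Nat.dvd_antisymm
  · have hcop : Nat.Coprime (Nat.lcm N M) l := (hl.coprime_iff_not_dvd.mpr hnot).symm
    apply hcop.mul_dvd_of_dvd_of_dvd
    · apply Nat.lcm_dvd
      · exact (Dvd.intro l rfl).trans (Nat.dvd_lcm_left (N * l) M)
      · exact Nat.dvd_lcm_right (N * l) M
    · exact (Dvd.intro_left N rfl).trans (Nat.dvd_lcm_left (N * l) M)
  · apply Nat.lcm_dvd
    · exact Nat.mul_dvd_mul_right (Nat.dvd_lcm_left N M) l
    · exact (Nat.dvd_lcm_right N M).mul_right l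

/-- **(LVL)** level raising for the hub: `s35_FPow N l` follows from `s35_FPow L' l` for the
multiples `L'` of `N` prime to `l` which are divisible by some `M₀ ∈ {2, 3}`, `M₀ ≠ l`. -/
theorem s35_lvl (N l : ℕ) [NeZero N] [NeZero l] (hl : l.Prime) (hlN : ¬ l ∣ N)
    (h : ∀ (L' : ℕ) [NeZero L'], N ∣ L' → ¬ l ∣ L' →
      ((2 ∣ L' ∧ l ≠ 2) ∨ (3 ∣ L' ∧ l ≠ 3)) → s35_FPow L' l) :
    s35_FPow N l := by
  intro P hP γ hγ m hm0 hlm W hWα hWβ g hg0 hdiv hn1 hn2
  set v : modularFunctionFieldBar (N * l) :=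
    s35_fp_mul (arithmeticGalois (modularFunctionFieldFull (N * l)) γ)
      [(l : ℤ), -(l : ℤ), 1, -1, 1, -1] g with hv
  haveI hNl0 : NeZero (N * l) := ⟨Nat.mul_ne_zero (NeZero.ne N) (NeZero.ne l)⟩
  -- for each admissible `M`, `v ^ (M + 1)` is an `m`-th power at level `N * l`
  have key : ∀ M : ℕ, (M = 2 ∨ M = 3) → M ≠ l → ∃ y : modularFunctionFieldBar (N * l),
      y ^ m = v ^ (M + 1) := by
    intro M hM hMl
    have hMp : M.Prime := by
      rcases hM with rfl | rfl
      · exact Nat.prime_two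
      · exact Nat.prime_three
    haveI : NeZero (Nat.lcm N M) := ⟨Nat.lcm_ne_zero (NeZero.ne N) hMp.ne_zero⟩
    obtain ⟨hlL, hlev⟩ := s35_lvl_arith N l M hl hMp hMl hlN
    have hNL : N ∣ Nat.lcm N M := Nat.dvd_lcm_left N M
    have hFP : s35_FPow (Nat.lcm N M) l := h (Nat.lcm N M) hNL hlL (by
      rcases hM with rfl | rfl
      · exact Or.inl ⟨Nat.dvd_lcm_right N 2, fun h => hMl h.symm⟩
      · exact Or.inr ⟨Nat.dvd_lcm_right N 3, fun h => hMl h.symm⟩)
    have hcop : Nat.Coprime l (Nat.lcm N M) := hl.coprime_iff_not_dvd.mpr hlL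
    obtain ⟨W', hW'α, hW'β⟩ := s37_es_swap (Nat.lcm N M) l hcop
    have hdvd : N * l ∣ Nat.lcm N M * l := Nat.mul_dvd_mul_right hNL l
    haveI : NeZero (Nat.lcm N M * l) :=
      ⟨Nat.mul_ne_zero (NeZero.ne (Nat.lcm N M)) (NeZero.ne l)⟩
    have hg'0 : s37_tr_incl hdvd g ≠ 0 := fun h0 =>
      hg0 ((s37_tr_incl hdvd).toRingHom.injective (h0.trans (map_zero _).symm))
    have hdiv' : ∀ P' : Place Qb (modularFunctionFieldBar (Nat.lcm N M * l)),
        (m : ℤ) ∣ P'.ord (s37_tr_incl hdvd g) :=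
      s18_d7_dvd hdvd (m : ℤ) (g : LaurentSeries Qb) g.2 (fun P => hdiv P)
    have hn1' : ∃ (c : Qb) (f : modularFunctionFieldBar (Nat.lcm N M)),
        s29_kh_normAlong (heckeAlphaBar Qb (Nat.lcm N M) l) (s37_tr_incl hdvd g)
          = algebraMap Qb (modularFunctionFieldBar (Nat.lcm N M)) c * f ^ m := by
      obtain ⟨c, f, hcf⟩ := hn1
      refine ⟨c, s37_tr_incl hNL f, ?_⟩
      rw [s35_lvl_norm N (Nat.lcm N M) l hl hNL hlL g, hcf, map_mul, map_pow, AlgHom.commutes]
    have hn2' : ∃ (c : Qb) (f : modularFunctionFieldBar (Nat.lcm N M)),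
        s29_kh_normAlong (heckeAlphaBar Qb (Nat.lcm N M) l) (W' (s37_tr_incl hdvd g))
          = algebraMap Qb (modularFunctionFieldBar (Nat.lcm N M)) c * f ^ m := by
      obtain ⟨c, f, hcf⟩ := hn2
      refine ⟨c, s37_tr_incl hNL f, ?_⟩
      rw [s35_lvl_swap N (Nat.lcm N M) l hl hNL W hWα hWβ W' hW'α hW'β g,
        s35_lvl_norm N (Nat.lcm N M) l hl hNL hlL (W g), hcf, map_mul, map_pow, AlgHom.commutes]
    obtain ⟨x, hx⟩ := hFP P hP γ hγ m hm0 hlm W' hW'α hW'β (s37_tr_incl hdvd g) hg'0 hdiv'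
      hn1' hn2'
    have hxp : (x : LaurentSeries Qb) ^ m = (v : LaurentSeries Qb) := by
      have h1 : (x : LaurentSeries Qb) ^ m = _ := congrArg Subtype.val hx
      rw [hv, ← s35_lvl_fp_mul_coe hdvd γ _ g]
      exact h1
    have hxmem : (x : LaurentSeries Qb) ∈ modularFunctionFieldBar (Nat.lcm (N * l) M) := by
      rw [← hlev]
      exact x.2
    haveI : NeZero (Nat.lcm (N * l) M) := ⟨Nat.lcm_ne_zero (NeZero.ne (N * l)) hMp.ne_zero⟩
    obtain ⟨y, hy, hym⟩ := s18_descent_pow (N * l) M hM m (v : LaurentSeries Qb) v.2 x hxmem hxp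
    exact ⟨⟨y, hy⟩, Subtype.ext (by simpa using hym)⟩
  have hlm' : Nat.Coprime m l := (hl.coprime_iff_not_dvd.mpr hlm).symm
  by_cases h2 : l = 2
  · obtain ⟨y, hy⟩ := key 3 (Or.inr rfl) (by omega)
    have hcop : Nat.Coprime m (3 + 1) := by
      subst h2
      exact Nat.Coprime.pow_right 2 hlm'
    exact s18_root_of_coprime m (3 + 1) hm0 hcop _ y hy
  by_cases h3 : l = 3
  · obtain ⟨y, hy⟩ := key 2 (Or.inl rfl) (by omega)
    have hcop : Nat.Coprime m (2 + 1) := by
      subst h3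
      exact hlm'
    exact s18_root_of_coprime m (2 + 1) hm0 hcop _ y hy
  · obtain ⟨y2, hy2⟩ := key 2 (Or.inl rfl) (fun h => h2 h.symm)
    obtain ⟨y3, hy3⟩ := key 3 (Or.inr rfl) (fun h => h3 h.symm)
    by_cases h0 : v = 0
    · exact ⟨0, by rw [h0, zero_pow hm0.ne']⟩
    refine ⟨y3 / y2, ?_⟩
    rw [div_pow, hy3, hy2]
    field_simp
    rw [pow_succ]

end Fermat.Agent.S35
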