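import Mathlib
import Fermat.Agent.S31.TraceInvAbs

/-!
# S35, block (T): the abstract transfer congruence

Abstract form of the transfer of a polynomial relation satisfied by a Frobenius element at a
bad prime `q` on a Hecke-stable part of the torsion to the Hecke algebra.

`M` is a finite abelian group killed by `p ^ n` with commuting actions of `Γ = Gal(ℚ̄/ℚ)` and of
operators `T_ℓ` (smooth, Eichler–Shimura relation at Frobenius lifts outside `S`),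
`ι : Λ → M` is additive with kernel `p ^ n Λ` and intertwines operators `Tc ℓ` on `Λ` with
the `T_ℓ`.  Let `γ` be a Frobenius lift at `q ≠ p`, `θ` an endomorphism of `Λ` and `rs` a list
of integers such that `∏_{r ∈ rs} (γ - r)` kills `ι (θ Λ)`.  Then weak Chebotarev produces a
Frobenius lift `σ` at some `ℓ ∉ S` and an exponent `j` with `γ = σ ^ j` on a given finite level,
`ℓ ^ j ≡ q mod p ^ n`, such that `∏_{r ∈ rs} (r² + q - r D_j(Tc ℓ, ℓ)) θ` maps `Λ` into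
`p ^ n Λ` (`s35_ft_abs`).
-/

set_option autoImplicit false

open Fermat.Agent.S18 Fermat.Agent.S29 Fermat.Agent.S31

namespace Fermat.Agent.S35

local notation "Qb" => AlgebraicClosure ℚ
local notation "Γ" => (AlgebraicClosure ℚ ≃ₐ[ℚ] AlgebraicClosure ℚ)

/-- `∏_{r ∈ rs} (r² + d - r t)`: the value at `(t, d)` of `∏_r χ(r)`, `χ = X² - t X + d`. -/
def s35_ft_R {B : Type*} [Ring B] (rs : List ℤ) (t d : B) : B :=
  (rs.map fun r : ℤ => (r : B) ^ 2 + d - (r : B) * t).prod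

theorem s35_ft_R_nil {B : Type*} [Ring B] (t d : B) : s35_ft_R [] t d = 1 := rfl

theorem s35_ft_R_cons {B : Type*} [Ring B] (r : ℤ) (rs : List ℤ) (t d : B) :
    s35_ft_R (r :: rs) t d = ((r : B) ^ 2 + d - (r : B) * t) * s35_ft_R rs t d := by
  unfold s35_ft_R
  rw [List.map_cons, List.prod_cons]

theorem s35_ft_R_map {B B' : Type*} [Ring B] [Ring B'] (f : B →+* B') (rs : List ℤ) (t d : B) :
    f (s35_ft_R rs t d) = s35_ft_R rs (f t) (f d) := by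
  induction rs with
  | nil => rw [s35_ft_R_nil, s35_ft_R_nil, map_one]
  | cons r rs ih =>
    rw [s35_ft_R_cons, s35_ft_R_cons, map_mul, ih, map_sub, map_add, map_pow, map_mul,
      map_intCast]

/-- `s35_ft_R` is intertwined by additive maps intertwining `t` and `d`. -/
theorem s35_ft_R_intertwine {Λ M : Type*} [AddCommGroup Λ] [AddCommGroup M] (ι : Λ →+ M)
    (t d : Module.End ℤ Λ) (t' d' : Module.End ℤ M) (ht : ∀ ψ, ι (t ψ) = t' (ι ψ))
    (hd : ∀ ψ, ι (d ψ) = d' (ι ψ)) (rs : List ℤ) (ψ : Λ) :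
    ι (s35_ft_R rs t d ψ) = s35_ft_R rs t' d' (ι ψ) := by
  induction rs generalizing ψ with
  | nil => rw [s35_ft_R_nil, s35_ft_R_nil, Module.End.one_apply, Module.End.one_apply]
  | cons r rs ih =>
    rw [s35_ft_R_cons, s35_ft_R_cons, Module.End.mul_apply, Module.End.mul_apply, ← ih]
    generalize s35_ft_R rs t d ψ = y
    rw [LinearMap.sub_apply, LinearMap.sub_apply, LinearMap.add_apply, LinearMap.add_apply,
      Module.End.mul_apply, Module.End.mul_apply, ← Int.cast_pow, ← Int.cast_pow,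
      Module.End.intCast_apply, Module.End.intCast_apply, Module.End.intCast_apply,
      Module.End.intCast_apply, map_sub, map_add, map_zsmul, map_zsmul, hd, ht]

/-- Pure algebra behind `s35_ft_abs`: if `G` and `t` commute and `G t = G² + d`, then
`∏ (t - G - r) · ∏ (G - r) = ∏ (r² + d - r t)`. -/
theorem s35_ft_alg {B : Type*} [Ring B] (G t d : B) (hc : Commute G t) (h : G * t = G * G + d)
    (rs : List ℤ) :
    (rs.map fun r : ℤ => t - G - (r : B)).prod * (rs.map fun r : ℤ => G - (r : B)).prod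
      = s35_ft_R rs t d := by
  induction rs with
  | nil => rw [List.map_nil, List.map_nil, List.prod_nil, one_mul, s35_ft_R_nil]
  | cons r rs ih =>
    rw [List.map_cons, List.map_cons, List.prod_cons, List.prod_cons, s35_ft_R_cons, ← ih]
    have hr : ∀ (z : ℤ) (x : B), Commute (z : B) x := fun z x => Int.cast_commute z x
    have hcomm : Commute (G - (r : B)) (rs.map fun r : ℤ => t - G - (r : B)).prod := by
      refine Commute.list_prod_right _ _ fun x hx => ?_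
      obtain ⟨r', -, rfl⟩ := List.mem_map.mp hx
      refine Commute.sub_right (Commute.sub_right ?_ ?_) ?_
      · exact hc.sub_left (hr r t)
      · exact (Commute.refl G).sub_left (hr r G)
      · exact (hr r' (G - (r : B))).symm
    have key : (t - G - (r : B)) * (G - (r : B)) = (r : B) ^ 2 + d - (r : B) * t := by
      have e1 : t * G = G * G + d := by rw [← hc.eq, h]
      have e2 : t * (r : B) = (r : B) * t := ((hr r t).eq).symm
      have e3 : G * (r : B) = (r : B) * G := ((hr r G).eq).symm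
      rw [sub_mul, sub_mul, mul_sub, mul_sub, mul_sub, e1, e2, e3, pow_two]
      abel
    calc (t - G - (r : B)) * (rs.map fun r : ℤ => t - G - (r : B)).prod
          * ((G - (r : B)) * (rs.map fun r : ℤ => G - (r : B)).prod)
        = (t - G - (r : B)) * ((rs.map fun r : ℤ => t - G - (r : B)).prod * (G - (r : B)))
          * (rs.map fun r : ℤ => G - (r : B)).prod := by simp only [mul_assoc]
      _ = (t - G - (r : B)) * ((G - (r : B)) * (rs.map fun r : ℤ => t - G - (r : B)).prod)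
          * (rs.map fun r : ℤ => G - (r : B)).prod := by rw [hcomm.eq]
      _ = ((t - G - (r : B)) * (G - (r : B))) * ((rs.map fun r : ℤ => t - G - (r : B)).prod
          * (rs.map fun r : ℤ => G - (r : B)).prod) := by simp only [mul_assoc]
      _ = _ := by rw [key]

/-- **Abstract transfer congruence.** -/
theorem s35_ft_abs (p n : ℕ) (hp : p.Prime) (S : Finset ℕ) (hpS : p ∈ S)
    (hcheb : s29_asm_Cheb)
    {M : Type*} [AddCommGroup M] [Finite M] (gM : Γ →* Module.End ℤ M)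
    (TM : Nat.Primes → Module.End ℤ M)
    (hGH : ∀ (ℓ : Nat.Primes) (σ : Γ) (x : M), TM ℓ (gM σ x) = gM σ (TM ℓ x))
    (hm : ∀ x : M, (p ^ n) • x = 0)
    (hfix : ∀ x : M, ∃ K₁ : IntermediateField ℚ Qb, s18_d1_IsGaloisNF K₁ ∧
      ∀ σ : Γ, (∀ c ∈ K₁, σ c = c) → gM σ x = x)
    (hES : ∀ ℓ : Nat.Primes, (ℓ : ℕ) ∉ S → ∀ A : ValuationSubring Qb,
      A.LiesOverPrime ℓ → ∀ σ : Γ, A.IsFrobeniusAt σ ℓ → ∀ x : M,
        gM σ (gM σ x) - TM ℓ (gM σ x) + (ℓ : ℕ) • x = 0)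
    {Λ : Type*} [AddCommGroup Λ] (Tc : Nat.Primes → Module.End ℤ Λ)
    (ι : Λ →+ M)
    (hker : ∀ ψ : Λ, ι ψ = 0 → ∃ ψ' : Λ, ψ = (p ^ n) • ψ')
    (hιT : ∀ ℓ : Nat.Primes, (ℓ : ℕ) ∉ S → ∀ ψ : Λ, ι (Tc ℓ ψ) = TM ℓ (ι ψ))
    (L : IntermediateField ℚ Qb) [FiniteDimensional ℚ L]
    (q : ℕ) (hq : q.Prime) (hqp : q ≠ p) (P : ValuationSubring Qb) (hP : P.LiesOverPrime q)
    (γ : Γ) (hγ : P.IsFrobeniusAt γ q) (θ : Module.End ℤ Λ) (rs : List ℤ)
    (hF : ∀ ψ : Λ, (rs.map fun r : ℤ => gM γ - (r : Module.End ℤ M)).prod (ι (θ ψ)) = 0) :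
    ∃ (ℓ : Nat.Primes) (A : ValuationSubring Qb) (σ : Γ) (j : ℕ),
      (ℓ : ℕ) ∉ S ∧ A.LiesOverPrime ℓ ∧ A.IsFrobeniusAt σ ℓ ∧
      (∀ x ∈ L, γ x = (σ ^ j) x) ∧ (ℓ : ℕ) ^ j ≡ q [MOD p ^ n] ∧
      ∀ ψ : Λ, ∃ ψ' : Λ,
        (s35_ft_R rs (s31_dk (Tc ℓ) (((ℓ : ℕ) : ℕ) : Module.End ℤ Λ) j)
          ((q : ℕ) : Module.End ℤ Λ) * θ) ψ = (p ^ n) • ψ' := by
  classical
  have hm0 : p ^ n ≠ 0 := pow_ne_zero n hp.ne_zero
  -- (1) a finite Galois field whose fixing subgroup acts trivially on `M`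
  have : Fintype M := Fintype.ofFinite M
  have key : ∀ s' : Finset M, ∃ K₀ : IntermediateField ℚ Qb, s18_d1_IsGaloisNF K₀ ∧
      ∀ σ : Γ, (∀ c ∈ K₀, σ c = c) → ∀ e ∈ s', gM σ e = e := by
    intro s'
    induction s' using Finset.induction_on with
    | empty =>
      obtain ⟨K₁, h₁, -⟩ := s18_d1_exists_galois (0 : Qb)
      exact ⟨K₁, h₁, fun σ _ e he => absurd he (Finset.notMem_empty e)⟩
    | insert a s' _ ih =>
      obtain ⟨K₁, h₁, hK₁⟩ := hfix a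
      obtain ⟨K₂, h₂, hK₂⟩ := ih
      refine ⟨K₁ ⊔ K₂, h₁.sup h₂, fun σ hσ e he => ?_⟩
      rcases Finset.mem_insert.mp he with rfl | he
      · exact hK₁ σ (fun c hc => hσ c ((le_sup_left : K₁ ≤ K₁ ⊔ K₂) hc))
      · exact hK₂ σ (fun c hc => hσ c ((le_sup_right : K₂ ≤ K₁ ⊔ K₂) hc)) e he
  obtain ⟨K₀, hK₀G, hK₀fix⟩ := key Finset.univ
  have hK₀all : ∀ σ : Γ, (∀ c ∈ K₀, σ c = c) → gM σ = 1 := fun σ hσ =>
    LinearMap.ext fun x => hK₀fix σ hσ x (Finset.mem_univ x)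
  -- (2) a primitive root of unity, (3) the level `L`
  obtain ⟨ζ, hζ⟩ := s31_cy_exists_primitive (p ^ n) hm0
  obtain ⟨Kζ, hKζG, hζK⟩ := s18_d1_exists_galois ζ
  obtain ⟨KL, hKLG, hLK⟩ := s31_ti_exists_galois_ge L
  -- (4) the common level
  have hKG : s18_d1_IsGaloisNF (K₀ ⊔ Kζ ⊔ KL) := (hK₀G.sup hKζG).sup hKLG
  have hK₀K : K₀ ≤ K₀ ⊔ Kζ ⊔ KL := le_sup_left.trans le_sup_left
  have hKζK : Kζ ≤ K₀ ⊔ Kζ ⊔ KL := le_sup_right.trans le_sup_left
  have hKLK : KL ≤ K₀ ⊔ Kζ ⊔ KL := le_sup_right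
  have : FiniteDimensional ℚ ↥(K₀ ⊔ Kζ ⊔ KL) := hKG.1
  obtain ⟨ℓ, A, σ, j, hℓ, hℓS, hA, hσ, hg⟩ := hcheb (K₀ ⊔ Kζ ⊔ KL) S γ
  -- the cyclotomic congruence
  have hζm : ζ ^ (p ^ n) = 1 := hζ.pow_eq_one
  have hneℓ : Nat.Coprime (p ^ n) ℓ := by
    refine Nat.Coprime.pow_left n ((Nat.coprime_primes hp hℓ).mpr ?_)
    rintro rfl
    exact hℓS hpS
  have hneq : Nat.Coprime (p ^ n) q :=
    Nat.Coprime.pow_left n ((Nat.coprime_primes hp hq).mpr (fun h => hqp h.symm))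
  have hc1 : ζ ^ (ℓ ^ j) = ζ ^ q := by
    rw [← s31_cy_frob_pow_root (p ^ n) ℓ hm0 hneℓ A hA σ hσ ζ hζm j,
      ← hg ζ (hKζK hζK)]
    exact s31_cy_frob_root (p ^ n) q hm0 hneq P hP γ hγ ζ hζm
  have hmod : ℓ ^ j ≡ q [MOD p ^ n] := s31_cy_pow_eq (p ^ n) ζ hζ hm0 _ _ hc1
  refine ⟨⟨ℓ, hℓ⟩, A, σ, j, hℓS, hA, hσ, fun x hx => hg x (hKLK (hLK hx)), hmod, fun ψ => ?_⟩
  -- the operators on `M`
  have hGσ : gM γ = gM σ ^ j := by
    have hh : ∀ c ∈ K₀, (γ⁻¹ * σ ^ j) c = c := by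
      intro c hc'
      rw [AlgEquiv.mul_apply, ← hg c (hK₀K hc')]
      exact γ.symm_apply_apply c
    have hσj : σ ^ j = γ * (γ⁻¹ * σ ^ j) := by rw [mul_inv_cancel_left]
    rw [← map_pow, hσj, map_mul, hK₀all _ hh, mul_one]
  have hcσ : Commute (gM σ) (TM ⟨ℓ, hℓ⟩) := by
    refine LinearMap.ext fun x => ?_
    rw [Module.End.mul_apply, Module.End.mul_apply]
    exact (hGH ⟨ℓ, hℓ⟩ σ x).symm
  have h0 : gM σ * gM σ - TM ⟨ℓ, hℓ⟩ * gM σ + ((ℓ : ℕ) : Module.End ℤ M) = 0 := by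
    refine LinearMap.ext fun x => ?_
    rw [LinearMap.add_apply, LinearMap.sub_apply, Module.End.mul_apply, Module.End.mul_apply,
      Module.End.natCast_apply, LinearMap.zero_apply]
    exact hES ⟨ℓ, hℓ⟩ hℓS A hA σ hσ x
  have hop := s31_dk_op (gM σ) (TM ⟨ℓ, hℓ⟩) ((ℓ : ℕ) : Module.End ℤ M) hcσ h0 j
  have hcγ : Commute (gM γ) (s31_dk (TM ⟨ℓ, hℓ⟩) ((ℓ : ℕ) : Module.End ℤ M) j) :=
    s31_dk_commute _ _ _ (LinearMap.ext fun x => by
      rw [Module.End.mul_apply, Module.End.mul_apply]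
      exact (hGH ⟨ℓ, hℓ⟩ γ x).symm) (Nat.commute_cast _ _) j
  have hℓq : ((ℓ : ℕ) : Module.End ℤ M) ^ j = ((q : ℕ) : Module.End ℤ M) := by
    rw [← Nat.cast_pow]
    refine LinearMap.ext fun x => ?_
    rw [Module.End.natCast_apply, Module.End.natCast_apply]
    exact s31_ti_modEq_nsmul hmod (hm x)
  have hrel : gM γ * s31_dk (TM ⟨ℓ, hℓ⟩) ((ℓ : ℕ) : Module.End ℤ M) j
      = gM γ * gM γ + ((q : ℕ) : Module.End ℤ M) := by
    rw [hcγ.eq, hGσ, hop, hℓq, ← pow_add, two_mul]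
  have halg := s35_ft_alg (gM γ) (s31_dk (TM ⟨ℓ, hℓ⟩) ((ℓ : ℕ) : Module.End ℤ M) j)
    ((q : ℕ) : Module.End ℤ M) hcγ hrel rs
  -- transfer to `Λ`
  have e5 : ι ((s35_ft_R rs (s31_dk (Tc ⟨ℓ, hℓ⟩) ((ℓ : ℕ) : Module.End ℤ Λ) j)
      ((q : ℕ) : Module.End ℤ Λ) * θ) ψ) = 0 := by
    rw [Module.End.mul_apply, s35_ft_R_intertwine ι _ _
      (s31_dk (TM ⟨ℓ, hℓ⟩) ((ℓ : ℕ) : Module.End ℤ M) j) ((q : ℕ) : Module.End ℤ M)
      (fun ψ => s31_dk_intertwine ι _ _ _ _ (hιT ⟨ℓ, hℓ⟩ hℓS) (fun ψ => by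
        rw [Module.End.natCast_apply, Module.End.natCast_apply, map_nsmul]) j ψ)
      (fun ψ => by rw [Module.End.natCast_apply, Module.End.natCast_apply, map_nsmul]) rs,
      ← halg, Module.End.mul_apply, hF ψ, map_zero]
  exact hker _ e5

end Fermat.Agent.S35
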