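import Mathlib
import Fermat.Agent.S29.HeckeLatSat
import Fermat.Agent.S29.BrTowerFin
import Fermat.Agent.S31.TraceInvCore
import Fermat.Agent.S34.Det
import Fermat.Agent.S35.FrobTransferAbs

/-!
# S35, block (T): transfer of a Frobenius relation at a bad prime to the Galois representation

Let `ρ` be a Galois representation over a local ring `T` with
`charpoly ρ(Frob_ℓ) = X² - π(T_ℓ) X + ℓ` (`ℓ ∉ S`), `γ` a Frobenius lift at a prime `q ≠ p`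
(possibly dividing the level), `e` an element of the Hecke algebra and `rs` a list of integers.

* `s35_ft_level` : the abstract congruence `s35_ft_abs` for `M = J₀(N)[p ^ n]`.
* `s35_ft_main` : if for every `n` there is a bridge map `ι_n : Λ → J₀(N)[p ^ n]` such that
  `∏_{r ∈ rs} (γ - r)` kills `ι_n (Θ(e) Λ)`, then
  `∏_{r ∈ rs} (r² + q - r · tr ρ(γ)) · π(e) = 0`.
* `s35_ft_det` : `det ρ(γ) = q`.
* `s35_ft_charpoly` : if moreover `T` is a domain, `π(e) ≠ 0`, `q ≠ 0` in `T` and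
  `rs ⊆ {1, -1, q, -q}`, then `charpoly ρ(γ) = X² ∓ (q + 1) X + q`.
-/

set_option autoImplicit false

open Polynomial AlgebraicCurve ModularCurve CongruenceSubgroup ModularCurve.Period
open Fermat.Agent.S18 Fermat.Agent.S29 Fermat.Agent.S31 Fermat.Agent.S34

noncomputable section

namespace Fermat.Agent.S35

local notation "Qb" => AlgebraicClosure ℚ
local notation "Γ" => (AlgebraicClosure ℚ ≃ₐ[ℚ] AlgebraicClosure ℚ)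

/-- The operator `∏_{r ∈ rs} (γ - r)` on `J₀(N)(ℚ̄)`, applied to `x`. -/
def s35_ft_app (N : ℕ) [NeZero N] (γ : Γ) (rs : List ℤ) (x : JZero N) : JZero N :=
  rs.foldr (fun (r : ℤ) (y : JZero N) => γ • y - r • y) x

theorem s35_ft_app_nil (N : ℕ) [NeZero N] (γ : Γ) (x : JZero N) : s35_ft_app N γ [] x = x := rfl

theorem s35_ft_app_cons (N : ℕ) [NeZero N] (γ : Γ) (r : ℤ) (rs : List ℤ) (x : JZero N) :
    s35_ft_app N γ (r :: rs) x = γ • s35_ft_app N γ rs x - r • s35_ft_app N γ rs x := rfl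

theorem s35_ft_app_coe_one (N m : ℕ) [NeZero N] (γ : Γ) (r : ℤ) (y : s29_wa_Jp N m) :
    (((s29_wa_gal N m γ - (r : Module.End ℤ (s29_wa_Jp N m))) y : s29_wa_Jp N m) : JZero N)
      = γ • (y : JZero N) - r • (y : JZero N) := by
  rw [LinearMap.sub_apply, Module.End.intCast_apply, AddSubgroup.coe_sub, s29_wa_gal_coe]
  congr 1

/-- `s35_ft_app` on the torsion is the product of the operators `γ - r`. -/
theorem s35_ft_app_coe (N m : ℕ) [NeZero N] (γ : Γ) (rs : List ℤ) (x : s29_wa_Jp N m) :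
    (((rs.map fun r : ℤ => s29_wa_gal N m γ - (r : Module.End ℤ (s29_wa_Jp N m))).prod x :
      s29_wa_Jp N m) : JZero N) = s35_ft_app N γ rs (x : JZero N) := by
  induction rs with
  | nil => rw [List.map_nil, List.prod_nil, Module.End.one_apply, s35_ft_app_nil]
  | cons r rs ih =>
    rw [List.map_cons, List.prod_cons, Module.End.mul_apply, s35_ft_app_coe_one, ih,
      s35_ft_app_cons]

/-- **Level `n` congruence** on the lattice `Λ = parabolicHoms ℤ (Gamma0 N) ℤ`. -/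
theorem s35_ft_level (N : ℕ) [NeZero N] (p : ℕ) (hp : p.Prime) (S : Finset ℕ) (hpS : p ∈ S)
    (hNS : ∀ q : ℕ, q.Prime → q ∣ N → q ∈ S) (hcheb : s29_asm_Cheb) (n : ℕ)
    (ι : ↥(parabolicHoms ℤ (Gamma0 N) ℤ) →+ JZero N)
    (hι1 : ∀ ψ, (p ^ n) • ι ψ = 0)
    (hι2 : ∀ ψ, ι ψ = 0 → ∃ ψ', ψ = (p ^ n) • ψ')
    (hι3 : ∀ (ℓ : ℕ) (hℓ : ℓ.Prime) (hℓN : ¬ ℓ ∣ N), ¬ ℓ ∣ N * p → ∀ ψ,
      ι (s29_cp_Tpar N ℓ hℓ hℓN ℤ ℤ ψ) = heckeOperatorBar N ⟨ℓ, hℓ⟩ (ι ψ))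
    (L : IntermediateField ℚ Qb) [FiniteDimensional ℚ L]
    (q : ℕ) (hq : q.Prime) (hqp : q ≠ p) (P : ValuationSubring Qb) (hP : P.LiesOverPrime q)
    (γ : Γ) (hγ : P.IsFrobeniusAt γ q)
    (θ : Module.End ℤ ↥(parabolicHoms ℤ (Gamma0 N) ℤ)) (rs : List ℤ)
    (hF : ∀ ψ, s35_ft_app N γ rs (ι (θ ψ)) = 0) :
    ∃ (ℓ : ℕ) (hℓ : ℓ.Prime) (hℓN : ¬ ℓ ∣ N) (A : ValuationSubring Qb) (σ : Γ) (j : ℕ),
      ℓ ∉ S ∧ A.LiesOverPrime ℓ ∧ A.IsFrobeniusAt σ ℓ ∧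
      (∀ x ∈ L, γ x = (σ ^ j) x) ∧ ℓ ^ j ≡ q [MOD p ^ n] ∧
      ∀ ψ : ↥(parabolicHoms ℤ (Gamma0 N) ℤ), ∃ ψ' : ↥(parabolicHoms ℤ (Gamma0 N) ℤ),
        (s35_ft_R rs (s31_dk (s29_cp_Tpar N ℓ hℓ hℓN ℤ ℤ)
            ((ℓ : ℕ) : Module.End ℤ ↥(parabolicHoms ℤ (Gamma0 N) ℤ)) j)
          ((q : ℕ) : Module.End ℤ ↥(parabolicHoms ℤ (Gamma0 N) ℤ)) * θ) ψ = (p ^ n) • ψ' := by
  classical
  have hpn0 : p ^ n ≠ 0 := pow_ne_zero n hp.ne_zero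
  have hS37 := Fermat.Agent.S37.result N (p ^ n) (s29_hc_commute N)
  have hnd : ∀ ℓ : ℕ, ℓ.Prime → ℓ ∉ S → ¬ ℓ ∣ N * p ^ n :=
    fun ℓ hℓ hℓS => s31_ti_not_dvd N p n hp S hpS hNS ℓ hℓ hℓS
  have hnd1 : ∀ ℓ : ℕ, ℓ.Prime → ℓ ∉ S → ¬ ℓ ∣ N * p := by
    intro ℓ hℓ hℓS
    have := s31_ti_not_dvd N p 1 hp S hpS hNS ℓ hℓ hℓS
    rwa [pow_one] at this
  have hndN : ∀ ℓ : ℕ, ℓ.Prime → ℓ ∉ S → ¬ ℓ ∣ N := fun ℓ hℓ hℓS h => hℓS (hNS ℓ hℓ h)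
  -- finiteness of the torsion
  have hfin : Finite (s29_wa_Jp N (p ^ n)) := by
    have := s29_bt_finite_sub N (p ^ n) hpn0
    exact Finite.of_injective
      (fun x : s29_wa_Jp N (p ^ n) => (⟨x.1, x.2⟩ : {x : JZero N // (p ^ n) • x = 0}))
      (fun x y hxy => Subtype.ext (congrArg Subtype.val hxy))
  -- the operators on `Λ`
  let Tc : Nat.Primes → Module.End ℤ ↥(parabolicHoms ℤ (Gamma0 N) ℤ) := fun ℓ =>
    if h : ¬ (ℓ : ℕ) ∣ N then s29_cp_Tpar N ℓ ℓ.2 h ℤ ℤ else 0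
  -- the map into the torsion
  let ι' : ↥(parabolicHoms ℤ (Gamma0 N) ℤ) →+ s29_wa_Jp N (p ^ n) :=
    { toFun := fun ψ => ⟨ι ψ, s29_wa_mem_Jp.mpr (hι1 ψ)⟩
      map_zero' := Subtype.ext (map_zero ι)
      map_add' := fun a b => Subtype.ext (map_add ι a b) }
  have h1 : ∀ (ℓ : Nat.Primes) (σ : Γ) (x : s29_wa_Jp N (p ^ n)),
      s29_wa_hecke N (p ^ n) ℓ (s29_wa_gal N (p ^ n) σ x)
        = s29_wa_gal N (p ^ n) σ (s29_wa_hecke N (p ^ n) ℓ x) :=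
    fun ℓ σ x => Subtype.ext (s29_hc_galois_heckeBar N ℓ σ (x : JZero N))
  have h2 : ∀ x : s29_wa_Jp N (p ^ n), (p ^ n) • x = 0 := fun x => Subtype.ext x.2
  have h3 : ∀ x : s29_wa_Jp N (p ^ n), ∃ K₁ : IntermediateField ℚ Qb, s18_d1_IsGaloisNF K₁ ∧
      ∀ σ : Γ, (∀ c ∈ K₁, σ c = c) → s29_wa_gal N (p ^ n) σ x = x := by
    intro x
    obtain ⟨K₁, hK₁, h⟩ := s29_wa_fix N (x : JZero N)
    exact ⟨K₁, hK₁, fun σ hσ => Subtype.ext (h σ hσ)⟩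
  have h5 : ∀ ℓ : Nat.Primes, (ℓ : ℕ) ∉ S → ∀ A : ValuationSubring Qb,
      A.LiesOverPrime ℓ → ∀ σ : Γ, A.IsFrobeniusAt σ ℓ → ∀ x : s29_wa_Jp N (p ^ n),
        s29_wa_gal N (p ^ n) σ (s29_wa_gal N (p ^ n) σ x)
          - s29_wa_hecke N (p ^ n) ℓ (s29_wa_gal N (p ^ n) σ x) + (ℓ : ℕ) • x = 0 :=
    fun ℓ hℓS A hA σ hσ x =>
      Subtype.ext (s29_wa_es N (p ^ n) (s29_hc_commute N) hS37 ℓ (hnd ℓ ℓ.2 hℓS) A hA σ hσ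
        (x : JZero N) x.2)
  have h6 : ∀ ψ : ↥(parabolicHoms ℤ (Gamma0 N) ℤ), ι' ψ = 0 → ∃ ψ', ψ = (p ^ n) • ψ' :=
    fun ψ hψ => hι2 ψ (congrArg Subtype.val hψ)
  have h7 : ∀ ℓ : Nat.Primes, (ℓ : ℕ) ∉ S → ∀ ψ : ↥(parabolicHoms ℤ (Gamma0 N) ℤ),
      ι' (Tc ℓ ψ) = s29_wa_hecke N (p ^ n) ℓ (ι' ψ) := by
    intro ℓ hℓS ψ
    apply Subtype.ext
    have hN : ¬ (ℓ : ℕ) ∣ N := hndN ℓ ℓ.2 hℓS
    have e : Tc ℓ = s29_cp_Tpar N ℓ ℓ.2 hN ℤ ℤ := dif_pos hN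
    rw [e]
    exact hι3 ℓ ℓ.2 hN (hnd1 ℓ ℓ.2 hℓS) ψ
  have h8 : ∀ ψ : ↥(parabolicHoms ℤ (Gamma0 N) ℤ),
      (rs.map fun r : ℤ => s29_wa_gal N (p ^ n) γ
        - (r : Module.End ℤ (s29_wa_Jp N (p ^ n)))).prod (ι' (θ ψ)) = 0 := by
    intro ψ
    apply Subtype.ext
    rw [s35_ft_app_coe]
    exact hF ψ
  obtain ⟨ℓ, A, σ, j, hℓS, hA, hσ, hg, hmod, hu⟩ :=
    s35_ft_abs p n hp S hpS hcheb (s29_wa_gal N (p ^ n)) (s29_wa_hecke N (p ^ n)) h1 h2 h3 h5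
      Tc ι' h6 h7 L q hq hqp P hP γ hγ θ rs h8
  have hℓN : ¬ (ℓ : ℕ) ∣ N := hndN ℓ ℓ.2 hℓS
  refine ⟨ℓ, ℓ.2, hℓN, A, σ, j, hℓS, hA, hσ, hg, hmod, fun ψ => ?_⟩
  obtain ⟨ψ', hψ'⟩ := hu ψ
  refine ⟨ψ', ?_⟩
  have e1 : Tc ℓ = s29_cp_Tpar N ℓ ℓ.2 hℓN ℤ ℤ := dif_pos hℓN
  rw [e1] at hψ'
  exact hψ'

/-- **(T) Transfer, core.**  `θ` is an endomorphism of the lattice `Λ`, `d` an element of `T`.
If `∏_{r ∈ rs} (γ - r)` kills `ι_n (θ Λ)` at every level `n`, and congruences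
`∏_r (r² + q - r D_j(T_ℓ, ℓ)) θ Λ ⊆ p ^ (k + c) Λ` transfer to
`∏_r (r² + q - r D_j(π T_ℓ, ℓ)) d ∈ 𝔪 ^ k` (`hfin`), then
`∏_{r ∈ rs} (r² + q - r · tr ρ(γ)) · d = 0`. -/
theorem s35_ft_core (N : ℕ) [NeZero N] (p : ℕ) (hp : p.Prime) (S : Finset ℕ) (hpS : p ∈ S)
    (hNS : ∀ q : ℕ, q.Prime → q ∣ N → q ∈ S) (hcheb : s29_asm_Cheb)
    {T : Type} [CommRing T] [IsLocalRing T] [IsHausdorff (IsLocalRing.maximalIdeal T) T]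
    (π : CuspForm.heckeAlgebra N 2 (↑S : Set ℕ) →+* T) (ρ : GaloisRepAdic T)
    (hfrob : ∀ (ℓ : ℕ) (hℓ : ℓ.Prime) (hℓN : ¬ ℓ ∣ N) (hℓS : ℓ ∉ (↑S : Set ℕ))
      (A : ValuationSubring Qb), A.LiesOverPrime ℓ → ∀ σ : Γ, A.IsFrobeniusAt σ ℓ →
        LinearMap.charpoly (ρ.ρ σ)
          = X ^ 2 - C (π (CuspForm.heckeAlgebra.T hℓ hℓN hℓS)) * X + C ((ℓ : T)))
    (q : ℕ) (hq : q.Prime) (hqp : q ≠ p) (P : ValuationSubring Qb) (hP : P.LiesOverPrime q)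
    (γ : Γ) (hγ : P.IsFrobeniusAt γ q)
    (θ : Module.End ℤ ↥(parabolicHoms ℤ (Gamma0 N) ℤ)) (d : T) (rs : List ℤ)
    (hfin : ∃ c : ℕ, ∀ (k : ℕ) (ℓ : ℕ) (hℓ : ℓ.Prime) (hℓN : ¬ ℓ ∣ N)
      (hℓS : ℓ ∉ (↑S : Set ℕ)) (j : ℕ),
      (∀ ψ : ↥(parabolicHoms ℤ (Gamma0 N) ℤ), ∃ ψ' : ↥(parabolicHoms ℤ (Gamma0 N) ℤ),
        (s35_ft_R rs (s31_dk (s29_cp_Tpar N ℓ hℓ hℓN ℤ ℤ)
            ((ℓ : ℕ) : Module.End ℤ ↥(parabolicHoms ℤ (Gamma0 N) ℤ)) j)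
          ((q : ℕ) : Module.End ℤ ↥(parabolicHoms ℤ (Gamma0 N) ℤ)) * θ) ψ
          = (p ^ (k + c)) • ψ') →
      s35_ft_R rs (s31_dk (π (CuspForm.heckeAlgebra.T hℓ hℓN hℓS)) (ℓ : T) j) (q : T) * d
        ∈ IsLocalRing.maximalIdeal T ^ k)
    (hF : ∀ n : ℕ, ∃ ι : ↥(parabolicHoms ℤ (Gamma0 N) ℤ) →+ JZero N,
      (∀ ψ, (p ^ n) • ι ψ = 0) ∧ (∀ ψ, ι ψ = 0 → ∃ ψ', ψ = (p ^ n) • ψ') ∧
      (∀ (ℓ : ℕ) (hℓ : ℓ.Prime) (hℓN : ¬ ℓ ∣ N), ¬ ℓ ∣ N * p → ∀ ψ,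
        ι (s29_cp_Tpar N ℓ hℓ hℓN ℤ ℤ ψ) = heckeOperatorBar N ⟨ℓ, hℓ⟩ (ι ψ)) ∧
      ∀ ψ, s35_ft_app N γ rs (ι (θ ψ)) = 0) :
    s35_ft_R rs (LinearMap.trace T ρ.V (ρ.ρ γ)) (q : T) * d = 0 := by
  obtain ⟨c, hc⟩ := hfin
  refine IsHausdorff.haus' (I := IsLocalRing.maximalIdeal T) _ fun k => ?_
  rw [SModEq.zero, smul_eq_mul, Ideal.mul_top]
  obtain ⟨ι, hι1, hι2, hι3, hι4⟩ := hF (k + c)
  obtain ⟨L, hL, hLρ⟩ := ρ.isAdicContinuous k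
  have := hL
  obtain ⟨ℓ, hℓ, hℓN, A, σ, j, hℓS, hA, hσ, hg, -, hu⟩ :=
    s35_ft_level N p hp S hpS hNS hcheb (k + c) ι hι1 hι2 hι3 L q hq hqp P hP γ hγ θ rs hι4
  have hℓS' : ℓ ∉ (↑S : Set ℕ) := fun h => hℓS (Finset.mem_coe.mp h)
  have hmem := hc k ℓ hℓ hℓN hℓS' j hu
  -- the trace
  have t1 : LinearMap.trace T ρ.V (ρ.ρ (σ ^ j))
      = s31_dk (π (CuspForm.heckeAlgebra.T hℓ hℓN hℓS')) (ℓ : T) j := by
    rw [map_pow]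
    exact s31_dk_trace ρ.finrank_eq (ρ.ρ σ) _ _ (hfrob ℓ hℓ hℓN hℓS' A hA σ hσ) j
  have a1 := s31_ti_approx ρ k L hLρ γ (σ ^ j) hg
  rw [t1] at a1
  -- conclusion in the quotient
  rw [← Ideal.Quotient.eq_zero_iff_mem] at hmem ⊢
  have e1 : Ideal.Quotient.mk (IsLocalRing.maximalIdeal T ^ k)
      (s31_dk (π (CuspForm.heckeAlgebra.T hℓ hℓN hℓS')) (ℓ : T) j)
      = Ideal.Quotient.mk (IsLocalRing.maximalIdeal T ^ k) (LinearMap.trace T ρ.V (ρ.ρ γ)) :=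
    Ideal.Quotient.eq.mpr a1
  rw [map_mul, s35_ft_R_map, ← e1, ← s35_ft_R_map, ← map_mul]
  exact hmem

/-- The transfer hypothesis `hfin` of `s35_ft_core` for `θ = Θ(e)`, `d = π(e)`, `e` in the
Hecke algebra (saturation of the Hecke algebra in `End Λ`). -/
theorem s35_ft_hfin_sat (N : ℕ) [NeZero N] (p : ℕ) (S : Finset ℕ)
    (hNS : ∀ q : ℕ, q.Prime → q ∣ N → q ∈ (↑S : Set ℕ))
    {T : Type} [CommRing T] [IsLocalRing T] (hpT : (p : T) ∈ IsLocalRing.maximalIdeal T)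
    (π : CuspForm.heckeAlgebra N 2 (↑S : Set ℕ) →+* T) (q : ℕ)
    (e : CuspForm.heckeAlgebra N 2 (↑S : Set ℕ)) (rs : List ℤ) :
    ∃ c : ℕ, ∀ (k : ℕ) (ℓ : ℕ) (hℓ : ℓ.Prime) (hℓN : ¬ ℓ ∣ N)
      (hℓS : ℓ ∉ (↑S : Set ℕ)) (j : ℕ),
      (∀ ψ : ↥(parabolicHoms ℤ (Gamma0 N) ℤ), ∃ ψ' : ↥(parabolicHoms ℤ (Gamma0 N) ℤ),
        (s35_ft_R rs (s31_dk (s29_cp_Tpar N ℓ hℓ hℓN ℤ ℤ)
            ((ℓ : ℕ) : Module.End ℤ ↥(parabolicHoms ℤ (Gamma0 N) ℤ)) j)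
          ((q : ℕ) : Module.End ℤ ↥(parabolicHoms ℤ (Gamma0 N) ℤ))
            * s29_ht_Theta N (↑S : Set ℕ) hNS e) ψ
          = (p ^ (k + c)) • ψ') →
      s35_ft_R rs (s31_dk (π (CuspForm.heckeAlgebra.T hℓ hℓN hℓS)) (ℓ : T) j) (q : T) * π e
        ∈ IsLocalRing.maximalIdeal T ^ k := by
  obtain ⟨c, hc⟩ := s29_ht_saturation' N (↑S : Set ℕ) hNS p
  refine ⟨c, fun k ℓ hℓ hℓN hℓS' j hu => ?_⟩
  have hΘ : s29_ht_Theta N (↑S : Set ℕ) hNS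
      (s35_ft_R rs (s31_dk (CuspForm.heckeAlgebra.T hℓ hℓN hℓS')
          ((ℓ : ℕ) : CuspForm.heckeAlgebra N 2 (↑S : Set ℕ)) j)
        ((q : ℕ) : CuspForm.heckeAlgebra N 2 (↑S : Set ℕ)) * e)
      = s35_ft_R rs (s31_dk (s29_cp_Tpar N ℓ hℓ hℓN ℤ ℤ)
            ((ℓ : ℕ) : Module.End ℤ ↥(parabolicHoms ℤ (Gamma0 N) ℤ)) j)
          ((q : ℕ) : Module.End ℤ ↥(parabolicHoms ℤ (Gamma0 N) ℤ))
        * s29_ht_Theta N (↑S : Set ℕ) hNS e := by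
    rw [map_mul, s35_ft_R_map, s31_dk_map, s29_ht_Theta_T, map_natCast, map_natCast]
  obtain ⟨t', ht'⟩ := hc k _ (fun ψ => by
    obtain ⟨ψ', hψ'⟩ := hu ψ
    refine ⟨ψ', ?_⟩
    rw [hΘ, hψ', ← Nat.cast_pow, natCast_zsmul])
  have hπ : π (s35_ft_R rs (s31_dk (CuspForm.heckeAlgebra.T hℓ hℓN hℓS')
          ((ℓ : ℕ) : CuspForm.heckeAlgebra N 2 (↑S : Set ℕ)) j)
        ((q : ℕ) : CuspForm.heckeAlgebra N 2 (↑S : Set ℕ)) * e)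
      = s35_ft_R rs (s31_dk (π (CuspForm.heckeAlgebra.T hℓ hℓN hℓS')) (ℓ : T) j) (q : T)
        * π e := by
    rw [map_mul, s35_ft_R_map, s31_dk_map, map_natCast, map_natCast]
  rw [← hπ, ht', map_zsmul, zsmul_eq_mul]
  push_cast
  exact Ideal.mul_mem_right _ _ (Ideal.pow_mem_pow hpT k)

/-- **(T) Transfer**, Hecke-algebra form.  If `∏_{r ∈ rs} (γ - r)` kills `ι_n (Θ(e) Λ)` at
every level `n`, then `∏_{r ∈ rs} (r² + q - r · tr ρ(γ)) · π(e) = 0`. -/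
theorem s35_ft_main (N : ℕ) [NeZero N] (p : ℕ) [Fact p.Prime] (S : Finset ℕ) (hpS : p ∈ S)
    (hNS : ∀ q : ℕ, q.Prime → q ∣ N → q ∈ (↑S : Set ℕ)) (hcheb : s29_asm_Cheb)
    {T : Type} [CommRing T] [IsLocalRing T] [IsHausdorff (IsLocalRing.maximalIdeal T) T]
    (hpT : (p : T) ∈ IsLocalRing.maximalIdeal T)
    (π : CuspForm.heckeAlgebra N 2 (↑S : Set ℕ) →+* T) (ρ : GaloisRepAdic T)
    (hfrob : ∀ (ℓ : ℕ) (hℓ : ℓ.Prime) (hℓN : ¬ ℓ ∣ N) (hℓS : ℓ ∉ (↑S : Set ℕ))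
      (A : ValuationSubring Qb), A.LiesOverPrime ℓ → ∀ σ : Γ, A.IsFrobeniusAt σ ℓ →
        LinearMap.charpoly (ρ.ρ σ)
          = X ^ 2 - C (π (CuspForm.heckeAlgebra.T hℓ hℓN hℓS)) * X + C ((ℓ : T)))
    (q : ℕ) (hq : q.Prime) (hqp : q ≠ p) (P : ValuationSubring Qb) (hP : P.LiesOverPrime q)
    (γ : Γ) (hγ : P.IsFrobeniusAt γ q)
    (e : CuspForm.heckeAlgebra N 2 (↑S : Set ℕ)) (rs : List ℤ)
    (hF : ∀ n : ℕ, ∃ ι : ↥(parabolicHoms ℤ (Gamma0 N) ℤ) →+ JZero N,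
      (∀ ψ, (p ^ n) • ι ψ = 0) ∧ (∀ ψ, ι ψ = 0 → ∃ ψ', ψ = (p ^ n) • ψ') ∧
      (∀ (ℓ : ℕ) (hℓ : ℓ.Prime) (hℓN : ¬ ℓ ∣ N), ¬ ℓ ∣ N * p → ∀ ψ,
        ι (s29_cp_Tpar N ℓ hℓ hℓN ℤ ℤ ψ) = heckeOperatorBar N ⟨ℓ, hℓ⟩ (ι ψ)) ∧
      ∀ ψ, s35_ft_app N γ rs (ι (s29_ht_Theta N (↑S : Set ℕ) hNS e ψ)) = 0) :
    s35_ft_R rs (LinearMap.trace T ρ.V (ρ.ρ γ)) (q : T) * π e = 0 :=
  s35_ft_core N p Fact.out S hpS (fun q hq hqN => Finset.mem_coe.mp (hNS q hq hqN)) hcheb π ρ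
    hfrob q hq hqp P hP γ hγ (s29_ht_Theta N (↑S : Set ℕ) hNS e) (π e) rs
    (s35_ft_hfin_sat N p S hNS hpT π q e rs) hF

/-- **The determinant of a Frobenius lift at `q ≠ p`** is `q`. -/
theorem s35_ft_det (N : ℕ) [NeZero N] (p : ℕ) (hp : p.Prime) (S : Finset ℕ) (hpS : p ∈ S)
    (hNS : ∀ q : ℕ, q.Prime → q ∣ N → q ∈ S) (hcheb : s29_asm_Cheb)
    {T : Type} [CommRing T] [IsLocalRing T] [IsHausdorff (IsLocalRing.maximalIdeal T) T]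
    (hpT : (p : T) ∈ IsLocalRing.maximalIdeal T)
    (π : CuspForm.heckeAlgebra N 2 (↑S : Set ℕ) →+* T) (ρ : GaloisRepAdic T)
    (hfrob : ∀ (ℓ : ℕ) (hℓ : ℓ.Prime) (hℓN : ¬ ℓ ∣ N) (hℓS : ℓ ∉ (↑S : Set ℕ))
      (A : ValuationSubring Qb), A.LiesOverPrime ℓ → ∀ σ : Γ, A.IsFrobeniusAt σ ℓ →
        LinearMap.charpoly (ρ.ρ σ)
          = X ^ 2 - C (π (CuspForm.heckeAlgebra.T hℓ hℓN hℓS)) * X + C ((ℓ : T)))
    (q : ℕ) (hq : q.Prime) (hqp : q ≠ p) (P : ValuationSubring Qb) (hP : P.LiesOverPrime q)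
    (γ : Γ) (hγ : P.IsFrobeniusAt γ q) :
    LinearMap.det (ρ.ρ γ) = (q : T) := by
  rw [← sub_eq_zero]
  refine IsHausdorff.haus' (I := IsLocalRing.maximalIdeal T) _ fun k => ?_
  rw [SModEq.zero, smul_eq_mul, Ideal.mul_top]
  have hm0 : p ^ k ≠ 0 := pow_ne_zero k hp.ne_zero
  obtain ⟨L, hL, hLρ⟩ := ρ.isAdicContinuous k
  have := hL
  obtain ⟨ζ, hζ⟩ := s31_cy_exists_primitive (p ^ k) hm0
  obtain ⟨Kζ, hKζG, hζK⟩ := s18_d1_exists_galois ζ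
  obtain ⟨KL, hKLG, hLK⟩ := s31_ti_exists_galois_ge L
  have hKG : s18_d1_IsGaloisNF (Kζ ⊔ KL) := hKζG.sup hKLG
  have hKζK : Kζ ≤ Kζ ⊔ KL := le_sup_left
  have hKLK : KL ≤ Kζ ⊔ KL := le_sup_right
  have : FiniteDimensional ℚ ↥(Kζ ⊔ KL) := hKG.1
  obtain ⟨ℓ, A, σ, j, hℓ, hℓS, hA, hσ, hg⟩ := hcheb (Kζ ⊔ KL) S γ
  have hℓN : ¬ ℓ ∣ N := fun h => hℓS (hNS ℓ hℓ h)
  have hℓS' : ℓ ∉ (↑S : Set ℕ) := fun h => hℓS (Finset.mem_coe.mp h)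
  -- the determinant of the Frobenius power
  have d1 : LinearMap.det (ρ.ρ (σ ^ j)) = (ℓ : T) ^ j := by
    rw [map_pow, map_pow,
      s34_det_of_charpoly ρ.finrank_eq (ρ.ρ σ) _ _ (hfrob ℓ hℓ hℓN hℓS' A hA σ hσ)]
  have a1 := s34_det_approx ρ k L hLρ γ (σ ^ j) (fun x hx => hg x (hKLK (hLK hx)))
  rw [d1] at a1
  -- the cyclotomic congruence
  have hζm : ζ ^ (p ^ k) = 1 := hζ.pow_eq_one
  have hneℓ : Nat.Coprime (p ^ k) ℓ := by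
    refine Nat.Coprime.pow_left k ((Nat.coprime_primes hp hℓ).mpr ?_)
    rintro rfl
    exact hℓS hpS
  have hneq : Nat.Coprime (p ^ k) q :=
    Nat.Coprime.pow_left k ((Nat.coprime_primes hp hq).mpr (fun h => hqp h.symm))
  have hc1 : ζ ^ (ℓ ^ j) = ζ ^ q := by
    rw [← s31_cy_frob_pow_root (p ^ k) ℓ hm0 hneℓ A hA σ hσ ζ hζm j,
      ← hg ζ (hKζK hζK)]
    exact s31_cy_frob_root (p ^ k) q hm0 hneq P hP γ hγ ζ hζm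
  have hmod : ℓ ^ j ≡ q [MOD p ^ k] := s31_cy_pow_eq (p ^ k) ζ hζ hm0 _ _ hc1
  have hcast : ((ℓ : T) ^ j) - (q : T) ∈ IsLocalRing.maximalIdeal T ^ k := by
    have h1 : ((p ^ k : ℕ) : ℤ) ∣ ((ℓ ^ j : ℕ) : ℤ) - ((q : ℕ) : ℤ) :=
      (Nat.modEq_iff_dvd.mp hmod.symm)
    obtain ⟨c, hc⟩ := h1
    have h2 : ((ℓ : T) ^ j) - (q : T) = ((p : T) ^ k) * (c : T) := by
      have := congrArg (Int.cast : ℤ → T) hc
      push_cast at this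
      exact this
    rw [h2]
    exact Ideal.mul_mem_right _ _ (Ideal.pow_mem_pow hpT k)
  have e : LinearMap.det (ρ.ρ γ) - (q : T)
      = ((ℓ : T) ^ j - (q : T)) - ((ℓ : T) ^ j - LinearMap.det (ρ.ρ γ)) := by ring
  rw [e]
  exact sub_mem hcast a1

/-- The characteristic polynomial of an endomorphism of a free module of rank `2`. -/
theorem s35_ft_charpoly_two {A : Type*} [CommRing A] [Nontrivial A] {V : Type*} [AddCommGroup V]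
    [Module A V] [Module.Free A V] [Module.Finite A V] (hV : Module.finrank A V = 2)
    (f : Module.End A V) :
    f.charpoly = X ^ 2 - C (LinearMap.trace A V f) * X + C (LinearMap.det f) := by
  classical
  let b : Module.Basis (Fin 2) A V := Module.finBasisOfFinrankEq A V hV
  rw [← LinearMap.charpoly_toMatrix f b, Matrix.charpoly_fin_two,
    LinearMap.trace_eq_matrix_trace A b f, LinearMap.det_toMatrix]

/-- **Final algebra.**  In a domain, `∏_{r ∈ rs} (r² + q - r · tr f) · c = 0` with `c ≠ 0`,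
`rs ⊆ {1, -1, q, -q}`, `q ≠ 0` and `det f = q` force `charpoly f = X² ∓ (q + 1) X + q`. -/
theorem s35_ft_charpoly {A : Type*} [CommRing A] [IsDomain A] {V : Type*} [AddCommGroup V]
    [Module A V] [Module.Free A V] [Module.Finite A V] (hV : Module.finrank A V = 2)
    (f : Module.End A V) (q : A) (hq0 : q ≠ 0) (hdet : LinearMap.det f = q) (rs : List ℤ)
    (hrs : ∀ r ∈ rs, (r : A) = 1 ∨ (r : A) = -1 ∨ (r : A) = q ∨ (r : A) = -q)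
    (c : A) (hc : c ≠ 0) (h : s35_ft_R rs (LinearMap.trace A V f) q * c = 0) :
    f.charpoly = X ^ 2 - C (q + 1) * X + C q ∨ f.charpoly = X ^ 2 + C (q + 1) * X + C q := by
  have h1 : s35_ft_R rs (LinearMap.trace A V f) q = 0 :=
    (mul_eq_zero.mp h).resolve_right hc
  unfold s35_ft_R at h1
  rw [List.prod_eq_zero_iff] at h1
  obtain ⟨r, hr, hr0⟩ := List.mem_map.mp h1
  rw [s35_ft_charpoly_two hV f, hdet]
  have key : LinearMap.trace A V f = q + 1 ∨ LinearMap.trace A V f = -(q + 1) := by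
    rcases hrs r hr with h2 | h2 | h2 | h2
    · left
      rw [h2] at hr0
      linear_combination -hr0
    · right
      rw [h2] at hr0
      linear_combination hr0
    · left
      rw [h2] at hr0
      have h3 : q * (q + 1 - LinearMap.trace A V f) = 0 := by linear_combination hr0
      have h4 := (mul_eq_zero.mp h3).resolve_left hq0
      linear_combination -h4
    · right
      rw [h2] at hr0
      have h3 : q * (q + 1 + LinearMap.trace A V f) = 0 := by linear_combination hr0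
      have h4 := (mul_eq_zero.mp h3).resolve_left hq0
      linear_combination h4
  rcases key with h2 | h2
  · left
    rw [h2]
  · right
    rw [h2, map_neg, neg_mul, sub_neg_eq_add]

/-- **(T), core form packaged for S35 clause 2.**  If `d ≠ 0` and `∏_{r ∈ rs} (γ - r)`
(`rs ⊆ {1, -1, q, -q}`) kills `ι_n (θ Λ)` at every level `n`, and `hfin` transfers the
congruences, then the characteristic polynomial of `ρ(γ)` is `X² ∓ (q + 1) X + q`. -/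
theorem s35_ft_clause_core (N : ℕ) [NeZero N] (p : ℕ) [Fact p.Prime] (S : Finset ℕ)
    (hpS : p ∈ S) (hNS : ∀ q : ℕ, q.Prime → q ∣ N → q ∈ S) (hcheb : s29_asm_Cheb)
    {T : Type} [CommRing T] [IsDomain T] [IsLocalRing T]
    [IsHausdorff (IsLocalRing.maximalIdeal T) T] [CharZero T]
    (hpT : (p : T) ∈ IsLocalRing.maximalIdeal T)
    (π : CuspForm.heckeAlgebra N 2 (↑S : Set ℕ) →+* T) (ρ : GaloisRepAdic T)
    (hfrob : ∀ (ℓ : ℕ) (hℓ : ℓ.Prime) (hℓN : ¬ ℓ ∣ N) (hℓS : ℓ ∉ (↑S : Set ℕ))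
      (A : ValuationSubring Qb), A.LiesOverPrime ℓ → ∀ σ : Γ, A.IsFrobeniusAt σ ℓ →
        LinearMap.charpoly (ρ.ρ σ)
          = X ^ 2 - C (π (CuspForm.heckeAlgebra.T hℓ hℓN hℓS)) * X + C ((ℓ : T)))
    (q : ℕ) (hq : q.Prime) (hqp : q ≠ p) (P : ValuationSubring Qb) (hP : P.LiesOverPrime q)
    (γ : Γ) (hγ : P.IsFrobeniusAt γ q)
    (θ : Module.End ℤ ↥(parabolicHoms ℤ (Gamma0 N) ℤ)) (d : T) (hd : d ≠ 0) (rs : List ℤ)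
    (hrs : ∀ r ∈ rs, r = 1 ∨ r = -1 ∨ r = (q : ℤ) ∨ r = -(q : ℤ))
    (hfin : ∃ c : ℕ, ∀ (k : ℕ) (ℓ : ℕ) (hℓ : ℓ.Prime) (hℓN : ¬ ℓ ∣ N)
      (hℓS : ℓ ∉ (↑S : Set ℕ)) (j : ℕ),
      (∀ ψ : ↥(parabolicHoms ℤ (Gamma0 N) ℤ), ∃ ψ' : ↥(parabolicHoms ℤ (Gamma0 N) ℤ),
        (s35_ft_R rs (s31_dk (s29_cp_Tpar N ℓ hℓ hℓN ℤ ℤ)
            ((ℓ : ℕ) : Module.End ℤ ↥(parabolicHoms ℤ (Gamma0 N) ℤ)) j)
          ((q : ℕ) : Module.End ℤ ↥(parabolicHoms ℤ (Gamma0 N) ℤ)) * θ) ψ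
          = (p ^ (k + c)) • ψ') →
      s35_ft_R rs (s31_dk (π (CuspForm.heckeAlgebra.T hℓ hℓN hℓS)) (ℓ : T) j) (q : T) * d
        ∈ IsLocalRing.maximalIdeal T ^ k)
    (hF : ∀ n : ℕ, ∃ ι : ↥(parabolicHoms ℤ (Gamma0 N) ℤ) →+ JZero N,
      (∀ ψ, (p ^ n) • ι ψ = 0) ∧ (∀ ψ, ι ψ = 0 → ∃ ψ', ψ = (p ^ n) • ψ') ∧
      (∀ (ℓ : ℕ) (hℓ : ℓ.Prime) (hℓN : ¬ ℓ ∣ N), ¬ ℓ ∣ N * p → ∀ ψ,
        ι (s29_cp_Tpar N ℓ hℓ hℓN ℤ ℤ ψ) = heckeOperatorBar N ⟨ℓ, hℓ⟩ (ι ψ)) ∧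
      ∀ ψ, s35_ft_app N γ rs (ι (θ ψ)) = 0) :
    LinearMap.charpoly (ρ.ρ γ) = X ^ 2 - C ((q : T) + 1) * X + C ((q : T)) ∨
      LinearMap.charpoly (ρ.ρ γ) = X ^ 2 + C ((q : T) + 1) * X + C ((q : T)) := by
  have hp : p.Prime := Fact.out
  have h1 := s35_ft_core N p hp S hpS hNS hcheb π ρ hfrob q hq hqp P hP γ hγ θ d rs hfin hF
  have h2 := s35_ft_det N p hp S hpS hNS hcheb hpT π ρ hfrob q hq hqp P hP γ hγ
  refine s35_ft_charpoly ρ.finrank_eq (ρ.ρ γ) (q : T) (Nat.cast_ne_zero.mpr hq.ne_zero) h2 rs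
    (fun r hr => ?_) d hd h1
  rcases hrs r hr with h | h | h | h
  · left; rw [h, Int.cast_one]
  · right; left; rw [h, Int.cast_neg, Int.cast_one]
  · right; right; left; rw [h, Int.cast_natCast]
  · right; right; right; rw [h, Int.cast_neg, Int.cast_natCast]

/-- **(T), packaged for S35 clause 2.**  If `π(e) ≠ 0` and `∏_{r ∈ rs} (γ - r)`
(`rs ⊆ {1, -1, q, -q}`) kills `ι_n (Θ(e) Λ)` at every level `n`, then the characteristic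
polynomial of `ρ(γ)` is `X² ∓ (q + 1) X + q`. -/
theorem s35_ft_clause (N : ℕ) [NeZero N] (p : ℕ) [Fact p.Prime] (S : Finset ℕ) (hpS : p ∈ S)
    (hNS : ∀ q : ℕ, q.Prime → q ∣ N → q ∈ (↑S : Set ℕ)) (hcheb : s29_asm_Cheb)
    {T : Type} [CommRing T] [IsDomain T] [IsLocalRing T]
    [IsHausdorff (IsLocalRing.maximalIdeal T) T] [CharZero T]
    (hpT : (p : T) ∈ IsLocalRing.maximalIdeal T)
    (π : CuspForm.heckeAlgebra N 2 (↑S : Set ℕ) →+* T) (ρ : GaloisRepAdic T)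
    (hfrob : ∀ (ℓ : ℕ) (hℓ : ℓ.Prime) (hℓN : ¬ ℓ ∣ N) (hℓS : ℓ ∉ (↑S : Set ℕ))
      (A : ValuationSubring Qb), A.LiesOverPrime ℓ → ∀ σ : Γ, A.IsFrobeniusAt σ ℓ →
        LinearMap.charpoly (ρ.ρ σ)
          = X ^ 2 - C (π (CuspForm.heckeAlgebra.T hℓ hℓN hℓS)) * X + C ((ℓ : T)))
    (q : ℕ) (hq : q.Prime) (hqp : q ≠ p) (P : ValuationSubring Qb) (hP : P.LiesOverPrime q)
    (γ : Γ) (hγ : P.IsFrobeniusAt γ q)
    (e : CuspForm.heckeAlgebra N 2 (↑S : Set ℕ)) (he : π e ≠ 0) (rs : List ℤ)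
    (hrs : ∀ r ∈ rs, r = 1 ∨ r = -1 ∨ r = (q : ℤ) ∨ r = -(q : ℤ))
    (hF : ∀ n : ℕ, ∃ ι : ↥(parabolicHoms ℤ (Gamma0 N) ℤ) →+ JZero N,
      (∀ ψ, (p ^ n) • ι ψ = 0) ∧ (∀ ψ, ι ψ = 0 → ∃ ψ', ψ = (p ^ n) • ψ') ∧
      (∀ (ℓ : ℕ) (hℓ : ℓ.Prime) (hℓN : ¬ ℓ ∣ N), ¬ ℓ ∣ N * p → ∀ ψ,
        ι (s29_cp_Tpar N ℓ hℓ hℓN ℤ ℤ ψ) = heckeOperatorBar N ⟨ℓ, hℓ⟩ (ι ψ)) ∧
      ∀ ψ, s35_ft_app N γ rs (ι (s29_ht_Theta N (↑S : Set ℕ) hNS e ψ)) = 0) :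
    LinearMap.charpoly (ρ.ρ γ) = X ^ 2 - C ((q : T) + 1) * X + C ((q : T)) ∨
      LinearMap.charpoly (ρ.ρ γ) = X ^ 2 + C ((q : T) + 1) * X + C ((q : T)) :=
  s35_ft_clause_core N p S hpS (fun q hq hqN => Finset.mem_coe.mp (hNS q hq hqN)) hcheb hpT π ρ
    hfrob q hq hqp P hP γ hγ (s29_ht_Theta N (↑S : Set ℕ) hNS e) (π e) he rs hrs
    (s35_ft_hfin_sat N p S hNS hpT π q e rs) hF

/-- A ring homomorphism from a domain integral over `ℤ` to a domain of characteristic zero is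
injective. -/
theorem s35_ft_injective_of_integral {R : Type*} [CommRing R] [IsDomain R]
    [Algebra.IsIntegral ℤ R] {O : Type*} [CommRing O] [IsDomain O] [CharZero O] (f : R →+* O) :
    Function.Injective f := by
  rw [RingHom.injective_iff_ker_eq_bot]
  refine Ideal.eq_bot_of_comap_eq_bot (R := ℤ) ?_
  rw [eq_bot_iff]
  intro z hz
  rw [Ideal.mem_comap, RingHom.mem_ker] at hz
  have h1 : ((z : ℤ) : O) = 0 := by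
    rw [← hz, eq_intCast (algebraMap ℤ R) z, map_intCast]
  rw [Ideal.mem_bot]
  exact_mod_cast h1

end Fermat.Agent.S35
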