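import Fermat.Agent.S29.HeckeLatEig
import Fermat.Prelude.Def_CuspForm_Newforms

/-!
# S35 (NODE-2), leaf (L2b): the polynomial Hecke ring and the newness element `e`

`M` is the level of the newform `g`, `N ∣ M` a level, `Λ_N = parabolicHoms ℤ (Gamma0 N) ℤ`.

* `s35_Pol M = ℤ[X_ℓ : ℓ prime, ℓ ∤ M]`;
* `s35_ev N M hNM : s35_Pol M →+* End_ℤ Λ_N`, `X_ℓ ↦ s29_cp_Tpar N ℓ` (`s35_ev_X`);
* `s35_chi g : s35_Pol M →+* ℂ`, `X_ℓ ↦ a_ℓ(g)` (`s35_chi_X`);
* `s35_ev_eig` : the `g`-eigenvector `v ∈ ℂ ⊗ Λ_M` satisfies `ev(e) v = χ_g(e) v`;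
* `s35_chi_dvd` : if `ev_M(e) Λ ⊆ m Λ` then `χ_g(e) = m · (algebraic integer)`;
* `s35_exists_e` : (E4) if the eigensystem of `g` does not occur at level `N'`, there is
  `e` with `ev_{N'}(e) = 0` and `χ_g(e) = d ∈ ℤ ∖ {0}` (given (L2a): an eigencharacter of the
  level-`N'` Hecke algebra with the eigenvalues of `g` comes from a normalized eigenform).
-/

set_option autoImplicit false
set_option linter.style.haveILetI false

open CongruenceSubgroup ModularCurve ModularCurve.Period ModularForm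
open scoped MatrixGroups TensorProduct

noncomputable section

namespace Fermat.Agent.S35

open Fermat.Agent.S29

/-- the set of primes dividing `M`. -/
def s35_primes (M : ℕ) : Set ℕ := {q | q.Prime ∧ q ∣ M}

theorem s35_primes_of_dvd (N M : ℕ) (hNM : N ∣ M) :
    ∀ q : ℕ, q.Prime → q ∣ N → q ∈ s35_primes M :=
  fun _ hq hqN => ⟨hq, hqN.trans hNM⟩

/-- primes not dividing `M`. -/
abbrev s35_Idx (M : ℕ) : Type := {l : ℕ // l.Prime ∧ ¬ l ∣ M}

/-- the polynomial Hecke ring `ℤ[X_ℓ : ℓ ∤ M]`. -/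
abbrev s35_Pol (M : ℕ) : Type := MvPolynomial (s35_Idx M) ℤ

/-- `T_ℓ` (`ℓ ∤ M`) in the level-`N` cusp-form Hecke algebra away from the primes of `M`. -/
def s35_Tgen (N M : ℕ) [NeZero N] (hNM : N ∣ M) (i : s35_Idx M) :
    CuspForm.heckeAlgebra N 2 (s35_primes M) :=
  CuspForm.heckeAlgebra.T i.2.1 (fun h => i.2.2 (h.trans hNM)) (fun h => i.2.2 h.2)

/-- evaluation in the level-`N` cusp-form Hecke algebra. -/
def s35_evH (N M : ℕ) [NeZero N] (hNM : N ∣ M) :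
    s35_Pol M →+* CuspForm.heckeAlgebra N 2 (s35_primes M) :=
  (MvPolynomial.aeval (s35_Tgen N M hNM)).toRingHom

theorem s35_evH_X (N M : ℕ) [NeZero N] (hNM : N ∣ M) (i : s35_Idx M) :
    s35_evH N M hNM (MvPolynomial.X i) = s35_Tgen N M hNM i :=
  MvPolynomial.aeval_X _ i

/-- evaluation on the lattice `Λ_N`. -/
def s35_ev (N M : ℕ) [NeZero N] (hNM : N ∣ M) :
    s35_Pol M →+* Module.End ℤ ↥(parabolicHoms ℤ (Gamma0 N) ℤ) :=
  (s29_ht_Theta N (s35_primes M) (s35_primes_of_dvd N M hNM)).comp (s35_evH N M hNM)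

theorem s35_ev_X (N M : ℕ) [NeZero N] (hNM : N ∣ M) (i : s35_Idx M) :
    s35_ev N M hNM (MvPolynomial.X i) =
      s29_cp_Tpar N i.1 i.2.1 (fun h => i.2.2 (h.trans hNM)) ℤ ℤ := by
  show s29_ht_Theta N (s35_primes M) (s35_primes_of_dvd N M hNM)
    (s35_evH N M hNM (MvPolynomial.X i)) = _
  rw [s35_evH_X]
  exact s29_ht_Theta_T N (s35_primes M) (s35_primes_of_dvd N M hNM) i.2.1 _ _

/-- `ev(e) = 0` on the lattice iff `e` vanishes in the cusp-form Hecke algebra. -/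
theorem s35_ev_eq_zero_iff (N M : ℕ) [NeZero N] (hNM : N ∣ M) (e : s35_Pol M) :
    s35_ev N M hNM e = 0 ↔ s35_evH N M hNM e = 0 := by
  constructor
  · intro h
    apply s29_ht_Theta_injective N (s35_primes M) (s35_primes_of_dvd N M hNM)
    rw [map_zero]
    exact h
  · intro h
    show s29_ht_Theta N (s35_primes M) (s35_primes_of_dvd N M hNM) (s35_evH N M hNM e) = 0
    rw [h, map_zero]

/-- the eigencharacter of `g` on the polynomial Hecke ring. -/
def s35_chi {M : ℕ} (g : CuspForm (Gamma0 M) 2) : s35_Pol M →+* ℂ :=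
  (MvPolynomial.aeval (fun i : s35_Idx M => ModularFormClass.qCoeff g i.1)).toRingHom

theorem s35_chi_X {M : ℕ} (g : CuspForm (Gamma0 M) 2) (i : s35_Idx M) :
    s35_chi g (MvPolynomial.X i) = ModularFormClass.qCoeff g i.1 :=
  MvPolynomial.aeval_X _ i

/-- one-variable polynomials in a single `X_ℓ`: evaluation on the lattice. -/
theorem s35_ev_aeval (N M : ℕ) [NeZero N] (hNM : N ∣ M) (i : s35_Idx M) (r : Polynomial ℤ) :
    s35_ev N M hNM (Polynomial.aeval (MvPolynomial.X i : s35_Pol M) r) =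
      Polynomial.aeval (s29_cp_Tpar N i.1 i.2.1 (fun h => i.2.2 (h.trans hNM)) ℤ ℤ) r := by
  rw [Polynomial.aeval_def, Polynomial.hom_eval₂, s35_ev_X, Polynomial.aeval_def]
  congr 1
  exact RingHom.ext_int _ _

/-- one-variable polynomials in a single `X_ℓ`: the eigencharacter. -/
theorem s35_chi_aeval {M : ℕ} (g : CuspForm (Gamma0 M) 2) (i : s35_Idx M) (r : Polynomial ℤ) :
    s35_chi g (Polynomial.aeval (MvPolynomial.X i : s35_Pol M) r) =
      Polynomial.aeval (ModularFormClass.qCoeff g i.1) r := by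
  rw [Polynomial.aeval_def, Polynomial.hom_eval₂, s35_chi_X, Polynomial.aeval_def]
  congr 1
  exact RingHom.ext_int _ _

/-- general one-variable polynomials evaluated at an element of `Pol`. -/
theorem s35_chi_aeval' {M : ℕ} (g : CuspForm (Gamma0 M) 2) (e : s35_Pol M) (r : Polynomial ℤ) :
    s35_chi g (Polynomial.aeval e r) = Polynomial.aeval (s35_chi g e) r := by
  rw [Polynomial.aeval_def, Polynomial.hom_eval₂, Polynomial.aeval_def]
  congr 1
  exact RingHom.ext_int _ _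

theorem s35_ev_eig_of {M : ℕ} [NeZero M] (g : CuspForm (Gamma0 M) 2)
    (v : ℂ ⊗[ℤ] ↥(parabolicHoms ℤ (Gamma0 M) ℤ))
    (hv : ∀ (l : ℕ) (hl : l.Prime) (hlN : ¬ l ∣ M),
      (s29_cp_Tpar M l hl hlN ℤ ℤ).baseChange ℂ v = ModularFormClass.qCoeff g l • v)
    (e : s35_Pol M) :
    (s35_ev M M dvd_rfl e).baseChange ℂ v = s35_chi g e • v := by
  induction e using MvPolynomial.induction_on with
  | C a =>
    have h1 : (MvPolynomial.C a : s35_Pol M) = (a : s35_Pol M) := eq_intCast MvPolynomial.C a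
    rw [h1, map_intCast, map_intCast]
    have h2 : ((a : ℤ) : Module.End ℤ ↥(parabolicHoms ℤ (Gamma0 M) ℤ)) =
        a • (1 : Module.End ℤ ↥(parabolicHoms ℤ (Gamma0 M) ℤ)) := by
      rw [zsmul_eq_mul, mul_one]
    rw [h2, LinearMap.baseChange_smul, LinearMap.baseChange_one, LinearMap.smul_apply,
      Module.End.one_apply, Int.cast_smul_eq_zsmul]
  | add p q hp hq =>
    rw [map_add, map_add, LinearMap.baseChange_add, LinearMap.add_apply, hp, hq, add_smul]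
  | mul_X p i hp =>
    rw [map_mul, map_mul, LinearMap.baseChange_mul, Module.End.mul_apply, s35_ev_X, s35_chi_X,
      hv i.1 i.2.1 _, map_smul, hp, smul_smul, mul_comm]

/-- the `g`-eigenvector of `ℂ ⊗ Λ_M` is an eigenvector of every Hecke polynomial, with eigenvalue
`χ_g(e)`. -/
theorem s35_ev_eig {M : ℕ} [NeZero M] {g : CuspForm (Gamma0 M) 2}
    (hg : g.IsNormalizedEigenform) :
    ∃ v : ℂ ⊗[ℤ] ↥(parabolicHoms ℤ (Gamma0 M) ℤ), v ≠ 0 ∧
      ∀ e : s35_Pol M, (s35_ev M M dvd_rfl e).baseChange ℂ v = s35_chi g e • v := by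
  obtain ⟨v, hv0, hv⟩ := s29_heig_complex hg
  exact ⟨v, hv0, s35_ev_eig_of g v hv⟩

theorem s35_chi_isIntegral {M : ℕ} [NeZero M] {g : CuspForm (Gamma0 M) 2}
    (hg : g.IsNormalizedEigenform) (e : s35_Pol M) : IsIntegral ℤ (s35_chi g e) := by
  haveI := s29_pl_fg M
  haveI := s29_pl_finite (Gamma0 M)
  haveI := s29_pl_free (Gamma0 M)
  obtain ⟨v, hv0, hv⟩ := s35_ev_eig hg
  exact s29_h2_isIntegral_tensor (s35_ev M M dvd_rfl e) _ v hv0 (hv e)

/-- **(T)-input.** A Hecke polynomial mapping the lattice into `m Λ` has `g`-eigenvalue in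
`m · ℤ̄`. -/
theorem s35_chi_dvd {M : ℕ} [NeZero M] {g : CuspForm (Gamma0 M) 2}
    (hg : g.IsNormalizedEigenform) (e : s35_Pol M) (m : ℕ)
    (h : ∀ ψ : ↥(parabolicHoms ℤ (Gamma0 M) ℤ), ∃ ψ' : ↥(parabolicHoms ℤ (Gamma0 M) ℤ),
      s35_ev M M dvd_rfl e ψ = m • ψ') :
    ∃ a : ℂ, IsIntegral ℤ a ∧ s35_chi g e = (m : ℂ) * a := by
  haveI := s29_pl_fg M
  haveI := s29_pl_finite (Gamma0 M)
  haveI := s29_pl_free (Gamma0 M)
  obtain ⟨v, hv0, hv⟩ := s35_ev_eig hg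
  rcases Nat.eq_zero_or_pos m with rfl | hm
  · refine ⟨0, isIntegral_zero, ?_⟩
    have h0 : s35_ev M M dvd_rfl e = 0 := by
      refine LinearMap.ext fun ψ => ?_
      obtain ⟨ψ', hψ'⟩ := h ψ
      rw [hψ', zero_smul, LinearMap.zero_apply]
    have h1 := hv e
    rw [h0, LinearMap.baseChange_zero, LinearMap.zero_apply] at h1
    rcases smul_eq_zero.mp h1.symm with h2 | h2
    · rw [h2, Nat.cast_zero, zero_mul]
    · exact absurd h2 hv0
  · -- `ev e = m • θ`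
    let μ : Module.End ℤ ↥(parabolicHoms ℤ (Gamma0 M) ℤ) := (m : ℤ) • LinearMap.id
    have hμ : Function.Injective μ := by
      intro x y hxy
      have hxy' : (m : ℤ) • x = (m : ℤ) • y := hxy
      exact smul_right_injective _ (Int.natCast_ne_zero.mpr hm.ne') hxy'
    have hrange : ∀ ψ, s35_ev M M dvd_rfl e ψ ∈ LinearMap.range μ := by
      intro ψ
      obtain ⟨ψ', hψ'⟩ := h ψ
      refine ⟨ψ', ?_⟩
      rw [hψ']
      show (m : ℤ) • ψ' = m • ψ'
      rw [natCast_zsmul]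
    let θ : Module.End ℤ ↥(parabolicHoms ℤ (Gamma0 M) ℤ) :=
      (LinearEquiv.ofInjective μ hμ).symm.toLinearMap ∘ₗ
        (s35_ev M M dvd_rfl e).codRestrict (LinearMap.range μ) hrange
    have hθ : s35_ev M M dvd_rfl e = (m : ℤ) • θ := by
      refine LinearMap.ext fun ψ => ?_
      have h1 : μ (θ ψ) = s35_ev M M dvd_rfl e ψ := by
        have h2 := LinearEquiv.apply_symm_apply (LinearEquiv.ofInjective μ hμ)
          ((s35_ev M M dvd_rfl e).codRestrict (LinearMap.range μ) hrange ψ)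
        exact congrArg Subtype.val h2
      rw [← h1]
      rfl
    have h1 := hv e
    rw [hθ, LinearMap.baseChange_smul, LinearMap.smul_apply] at h1
    have hm0 : (m : ℂ) ≠ 0 := Nat.cast_ne_zero.mpr hm.ne'
    have h2 : θ.baseChange ℂ v = (s35_chi g e / (m : ℂ)) • v := by
      have h3 : (m : ℂ) • θ.baseChange ℂ v = s35_chi g e • v := by
        rw [← h1, ← Int.cast_smul_eq_zsmul ℂ, Int.cast_natCast]
      rw [div_eq_inv_mul, ← smul_smul, ← h3, smul_smul, inv_mul_cancel₀ hm0, one_smul]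
    refine ⟨s35_chi g e / (m : ℂ), s29_h2_isIntegral_tensor θ _ v hv0 h2, ?_⟩
    rw [mul_div_cancel₀ _ hm0]

/-- the cusp-form Hecke algebra of level `N ∣ M` away from the primes of `M` is generated by the
`T_ℓ`, `ℓ ∤ M`. -/
theorem s35_evH_surjective (N M : ℕ) [NeZero N] (hNM : N ∣ M) :
    Function.Surjective (s35_evH N M hNM) := by
  rintro ⟨t, ht⟩
  suffices h : ∃ e : s35_Pol M,
      ((s35_evH N M hNM e : CuspForm.heckeAlgebra N 2 (s35_primes M)) :
        Module.End ℂ (CuspForm (Gamma0 N) 2)) = t by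
    obtain ⟨e, he⟩ := h
    exact ⟨e, Subtype.ext he⟩
  unfold CuspForm.heckeAlgebra at ht
  induction ht using Algebra.adjoin_induction with
  | mem x hx =>
    rcases hx with ⟨ℓ, hℓ, hℓN, hℓS, rfl⟩ | ⟨q, hqN, hq, hqS, rfl⟩
    · refine ⟨MvPolynomial.X ⟨ℓ, hℓ, fun h => hℓS ⟨hℓ, h⟩⟩, ?_⟩
      rw [s35_evH_X]
      rfl
    · exact absurd ⟨hq, hqN.trans hNM⟩ hqS
  | algebraMap r =>
    refine ⟨MvPolynomial.C r, ?_⟩
    have h1 : (MvPolynomial.C r : s35_Pol M) = (r : s35_Pol M) := eq_intCast MvPolynomial.C r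
    rw [h1, map_intCast]
    rfl
  | add x y _ _ hx hy =>
    obtain ⟨e, he⟩ := hx
    obtain ⟨e', he'⟩ := hy
    exact ⟨e + e', by rw [map_add, ← he, ← he']; rfl⟩
  | mul x y _ _ hx hy =>
    obtain ⟨e, he⟩ := hx
    obtain ⟨e', he'⟩ := hy
    exact ⟨e * e', by rw [map_mul, ← he, ← he']; rfl⟩

/-- **(E4), first half.** If the eigensystem of `g` does not occur at level `N'`, some Hecke
polynomial kills the level-`N'` lattice but not the `g`-eigenvector. -/
theorem s35_exists_e0 {M N' : ℕ} [NeZero M] [NeZero N'] (hN'M : N' ∣ M)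
    {g : CuspForm (Gamma0 M) 2}
    (hnot : ¬ CuspForm.GoodEigensystemOccursAt g N')
    (hL2a : ∀ χ' : CuspForm.heckeAlgebra N' 2 (s35_primes M) →+* ℂ,
      (∀ (ℓ : ℕ) (hℓ : ℓ.Prime) (hℓN' : ¬ ℓ ∣ N') (hℓS : ℓ ∉ s35_primes M),
        χ' (CuspForm.heckeAlgebra.T hℓ hℓN' hℓS) = ModularFormClass.qCoeff g ℓ) →
      CuspForm.GoodEigensystemOccursAt g N') :
    ∃ e : s35_Pol M, s35_ev N' M hN'M e = 0 ∧ s35_chi g e ≠ 0 := by
  by_contra hcon0
  have hcon : ∀ e : s35_Pol M, s35_ev N' M hN'M e = 0 → s35_chi g e = 0 :=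
    fun e he => by_contra fun h => hcon0 ⟨e, he, h⟩
  apply hnot
  have hker : RingHom.ker (s35_evH N' M hN'M) ≤ RingHom.ker (s35_chi g) := by
    intro e he
    rw [RingHom.mem_ker] at he ⊢
    exact hcon e ((s35_ev_eq_zero_iff N' M hN'M e).mpr he)
  let χ' : CuspForm.heckeAlgebra N' 2 (s35_primes M) →+* ℂ :=
    (s35_evH N' M hN'M).liftOfRightInverse (Function.surjInv (s35_evH_surjective N' M hN'M))
      (Function.rightInverse_surjInv (s35_evH_surjective N' M hN'M)) ⟨s35_chi g, hker⟩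
  refine hL2a χ' ?_
  intro ℓ hℓ hℓN' hℓS
  have hℓM : ¬ ℓ ∣ M := fun h => hℓS ⟨hℓ, h⟩
  have h1 : CuspForm.heckeAlgebra.T hℓ hℓN' hℓS =
      s35_evH N' M hN'M (MvPolynomial.X ⟨ℓ, hℓ, hℓM⟩) := by
    rw [s35_evH_X]
    rfl
  rw [h1]
  have h2 := RingHom.liftOfRightInverse_comp_apply (s35_evH N' M hN'M)
    (Function.surjInv (s35_evH_surjective N' M hN'M))
    (Function.rightInverse_surjInv (s35_evH_surjective N' M hN'M)) ⟨s35_chi g, hker⟩
    (MvPolynomial.X ⟨ℓ, hℓ, hℓM⟩)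
  exact h2.trans (s35_chi_X g _)

/-- **(E4).** If the eigensystem of `g` does not occur at level `N'`, there is a Hecke polynomial
`e` killing the level-`N'` lattice with `χ_g(e)` a non-zero rational integer. -/
theorem s35_exists_e {M N' : ℕ} [NeZero M] [NeZero N'] (hN'M : N' ∣ M)
    {g : CuspForm (Gamma0 M) 2} (hg : g.IsNormalizedEigenform)
    (hnot : ¬ CuspForm.GoodEigensystemOccursAt g N')
    (hL2a : ∀ χ' : CuspForm.heckeAlgebra N' 2 (s35_primes M) →+* ℂ,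
      (∀ (ℓ : ℕ) (hℓ : ℓ.Prime) (hℓN' : ¬ ℓ ∣ N') (hℓS : ℓ ∉ s35_primes M),
        χ' (CuspForm.heckeAlgebra.T hℓ hℓN' hℓS) = ModularFormClass.qCoeff g ℓ) →
      CuspForm.GoodEigensystemOccursAt g N') :
    ∃ (e : s35_Pol M) (d : ℤ), d ≠ 0 ∧ s35_ev N' M hN'M e = 0 ∧ s35_chi g e = (d : ℂ) := by
  obtain ⟨e₀, he₀, hc⟩ := s35_exists_e0 hN'M hnot hL2a
  have hint : IsIntegral ℤ (s35_chi g e₀) := s35_chi_isIntegral hg e₀
  set c : ℂ := s35_chi g e₀ with hcdef
  -- a polynomial `p` with `p(c) = 0`, `p(0) ≠ 0`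
  obtain ⟨p, hp0, hpc⟩ : ∃ p : Polynomial ℤ, p.coeff 0 ≠ 0 ∧ Polynomial.aeval c p = 0 := by
    obtain ⟨p₁, hp₁m, hp₁⟩ := hint
    have hp₁0 : p₁ ≠ 0 := hp₁m.ne_zero
    obtain ⟨r, hr, hrX⟩ := Polynomial.exists_eq_pow_rootMultiplicity_mul_and_not_dvd p₁ hp₁0 0
    refine ⟨r, fun h => hrX ?_, ?_⟩
    · rw [map_zero, sub_zero]
      exact Polynomial.X_dvd_iff.mpr h
    · have h1 : Polynomial.aeval c p₁ = 0 := by
        rw [Polynomial.aeval_def]
        exact hp₁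
      rw [hr, map_zero, sub_zero, map_mul, map_pow, Polynomial.aeval_X] at h1
      rcases mul_eq_zero.mp h1 with h2 | h2
      · exact absurd h2 (pow_ne_zero _ hc)
      · exact h2
  refine ⟨e₀ * Polynomial.aeval e₀ p.divX, - p.coeff 0, neg_ne_zero.mpr hp0, ?_, ?_⟩
  · rw [map_mul, he₀, zero_mul]
  · rw [map_mul, s35_chi_aeval', ← hcdef]
    have h1 : Polynomial.aeval c (p.divX * Polynomial.X + Polynomial.C (p.coeff 0)) = 0 := by
      rw [Polynomial.divX_mul_X_add]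
      exact hpc
    rw [map_add, map_mul, Polynomial.aeval_X, Polynomial.aeval_C] at h1
    have h2 : (algebraMap ℤ ℂ) (p.coeff 0) = ((p.coeff 0 : ℤ) : ℂ) := rfl
    rw [h2] at h1
    rw [Int.cast_neg]
    linear_combination h1

/-- **(E4) for a newform** at a proper divisor `N'` of its level. -/
theorem s35_exists_e_newform {M N' : ℕ} [NeZero M] [NeZero N'] (hN'M : N' ∣ M) (hne : N' ≠ M)
    {g : CuspForm (Gamma0 M) 2} (hg : g.IsNewform)
    (hL2a : ∀ χ' : CuspForm.heckeAlgebra N' 2 (s35_primes M) →+* ℂ,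
      (∀ (ℓ : ℕ) (hℓ : ℓ.Prime) (hℓN' : ¬ ℓ ∣ N') (hℓS : ℓ ∉ s35_primes M),
        χ' (CuspForm.heckeAlgebra.T hℓ hℓN' hℓS) = ModularFormClass.qCoeff g ℓ) →
      CuspForm.GoodEigensystemOccursAt g N') :
    ∃ (e : s35_Pol M) (d : ℤ), d ≠ 0 ∧ s35_ev N' M hN'M e = 0 ∧ s35_chi g e = (d : ℂ) :=
  s35_exists_e hN'M hg.1 (hg.2 N' hN'M hne) hL2a

end Fermat.Agent.S35
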