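import Mathlib
import Fermat.Agent.S29.ChebAsm
import Fermat.Agent.S35.HeckePol
import Fermat.Agent.S35.FrobTransfer

/-!
# S35, block (T): the transfer for Hecke polynomials

The transfer `s35_ft_clause_core` for `θ = ev_M(e)`, `e` a Hecke polynomial in the `T_ℓ`,
`ℓ ∤ M`, whose `g`-eigenvalue is a nonzero integer `d`:

* `s35_ft_ic` : an element `x` of the Hecke algebra with `χ_g(x) · d = n · (algebraic integer)`
  has `ι(χ_g(x)) · d ∈ n T` for every ring homomorphism `ι` from the range of `χ_g` to an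
  integrally closed domain `T` of characteristic zero;
* `s35_ft_hfin_pol` : the transfer hypothesis `hfin` of `s35_ft_core` (with `c = 0`), from
  `s35_chi_dvd`;
* `s35_ft_clause_pol` : the packaged statement consumed by the assembly of S35 clause 2.
-/

set_option autoImplicit false

open Polynomial AlgebraicCurve ModularCurve CongruenceSubgroup ModularCurve.Period
open Fermat.Agent.S18 Fermat.Agent.S29 Fermat.Agent.S31 Fermat.Agent.S34

noncomputable section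

namespace Fermat.Agent.S35

local notation "Qb" => AlgebraicClosure ℚ
local notation "Γ" => (AlgebraicClosure ℚ ≃ₐ[ℚ] AlgebraicClosure ℚ)

/-- A root of `f.scaleRoots n` (`f` monic over `ℤ`, `n ≠ 0`) in an integrally closed domain of
characteristic zero is divisible by `n`. -/
theorem s35_ft_scale_dvd {T : Type*} [CommRing T] [IsDomain T] [IsIntegrallyClosed T]
    [CharZero T] (f : ℤ[X]) (hf : f.Monic) (n : ℕ) (hn : n ≠ 0) (y : T)
    (hy : aeval y (f.scaleRoots (n : ℤ)) = 0) : ∃ z : T, y = (n : T) * z := by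
  let K := FractionRing T
  have hnK : ((n : ℤ) : K) ≠ 0 := by
    rw [Int.cast_natCast]
    exact Nat.cast_ne_zero.mpr hn
  have h1 : eval₂ (algebraMap ℤ K) (algebraMap ℤ K (n : ℤ) * (algebraMap T K y / ((n : ℤ) : K)))
      (f.scaleRoots (n : ℤ)) = 0 := by
    have e1 : algebraMap ℤ K (n : ℤ) * (algebraMap T K y / ((n : ℤ) : K)) = algebraMap T K y := by
      rw [eq_intCast, mul_div_cancel₀ _ hnK]
    rw [e1]
    have h2 := congrArg (algebraMap T K) hy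
    rw [map_zero, aeval_def, hom_eval₂] at h2
    rw [← h2]
    congr 1
  rw [scaleRoots_eval₂_mul] at h1
  have h3 : eval₂ (algebraMap ℤ K) (algebraMap T K y / ((n : ℤ) : K)) f = 0 := by
    rcases mul_eq_zero.mp h1 with h | h
    · rw [eq_intCast] at h
      exact absurd h (pow_ne_zero _ hnK)
    · exact h
  have h4 : IsIntegral ℤ (algebraMap T K y / ((n : ℤ) : K)) := ⟨f, hf, h3⟩
  have h5 : IsIntegral T (algebraMap T K y / ((n : ℤ) : K)) := h4.tower_top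
  obtain ⟨z, hz⟩ := IsIntegrallyClosed.isIntegral_iff.mp h5
  refine ⟨z, IsFractionRing.injective T K ?_⟩
  rw [map_mul, hz, map_natCast, ← Int.cast_natCast (R := K), mul_div_cancel₀ _ hnK]

/-- **(IC)** If `χ(x) · d = n · a` with `a` an algebraic integer, then `ι(χ(x)) · d ∈ n T` for
every ring homomorphism `ι` from the range of `χ` to an integrally closed domain `T` of
characteristic zero. -/
theorem s35_ft_ic {H : Type*} [CommRing H] (chig : H →+* ℂ) {T : Type*} [CommRing T]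
    [IsDomain T] [IsIntegrallyClosed T] [CharZero T] (iota : chig.range →+* T) (x : H) (d : ℤ)
    (n : ℕ) (hn : n ≠ 0) (a : ℂ) (ha : IsIntegral ℤ a)
    (h : chig x * (d : ℂ) = (n : ℂ) * a) :
    ∃ z : T, iota (chig.rangeRestrict x) * (d : T) = (n : T) * z := by
  have hf : (minpoly ℤ a).Monic := minpoly.monic ha
  have h1 : aeval ((n : ℂ) * a) ((minpoly ℤ a).scaleRoots (n : ℤ)) = 0 := by
    have h0 := scaleRoots_aeval_eq_zero (r := (n : ℤ)) (minpoly.aeval ℤ a)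
    rwa [eq_intCast, Int.cast_natCast] at h0
  have h2 : aeval (chig.rangeRestrict x * ((d : ℤ) : chig.range))
      ((minpoly ℤ a).scaleRoots (n : ℤ)) = 0 := by
    apply Subtype.ext
    have h3 := aeval_algHom_apply (chig.range.subtype.toIntAlgHom)
      (chig.rangeRestrict x * ((d : ℤ) : chig.range)) ((minpoly ℤ a).scaleRoots (n : ℤ))
    have h4 : chig.range.subtype.toIntAlgHom (chig.rangeRestrict x * ((d : ℤ) : chig.range))
        = (n : ℂ) * a := by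
      rw [← h]
      simp
    rw [h4, h1] at h3
    exact h3.symm
  have h5 : aeval (iota (chig.rangeRestrict x) * (d : T))
      ((minpoly ℤ a).scaleRoots (n : ℤ)) = 0 := by
    have h3 := aeval_algHom_apply (iota.toIntAlgHom)
      (chig.rangeRestrict x * ((d : ℤ) : chig.range)) ((minpoly ℤ a).scaleRoots (n : ℤ))
    rw [h2, map_zero] at h3
    have h4 : iota.toIntAlgHom (chig.rangeRestrict x * ((d : ℤ) : chig.range))
        = iota (chig.rangeRestrict x) * (d : T) := by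
      simp
    rw [h4] at h3
    exact h3
  exact s35_ft_scale_dvd _ hf n hn _ h5

/-- The transfer hypothesis `hfin` of `s35_ft_core` for `θ = ev_M(e)`, `e` a Hecke polynomial
with `χ_g(e) = d ∈ ℤ`, and `π = ι ∘ χ` (with constant `c = 0`). -/
theorem s35_ft_hfin_pol {M : ℕ} [NeZero M] {g : CuspForm (Gamma0 M) 2}
    (hg : g.IsNormalizedEigenform) (p : ℕ) (hp : p.Prime) (S : Finset ℕ)
    {T : Type} [CommRing T] [IsDomain T] [IsLocalRing T] [IsIntegrallyClosed T] [CharZero T]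
    (hpT : (p : T) ∈ IsLocalRing.maximalIdeal T)
    (chig : CuspForm.heckeAlgebra M 2 (↑S : Set ℕ) →+* ℂ)
    (hchig : ∀ (ℓ : ℕ) (hℓ : ℓ.Prime) (hℓM : ¬ ℓ ∣ M) (hℓS : ℓ ∉ (↑S : Set ℕ)),
      chig (CuspForm.heckeAlgebra.T hℓ hℓM hℓS) = ModularFormClass.qCoeff g ℓ)
    (iota : chig.range →+* T) (q : ℕ) (e : s35_Pol M) (d : ℤ) (hd : s35_chi g e = (d : ℂ))
    (rs : List ℤ) :
    ∃ c : ℕ, ∀ (k : ℕ) (ℓ : ℕ) (hℓ : ℓ.Prime) (hℓN : ¬ ℓ ∣ M)
      (hℓS : ℓ ∉ (↑S : Set ℕ)) (j : ℕ),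
      (∀ ψ : ↥(parabolicHoms ℤ (Gamma0 M) ℤ), ∃ ψ' : ↥(parabolicHoms ℤ (Gamma0 M) ℤ),
        (s35_ft_R rs (s31_dk (s29_cp_Tpar M ℓ hℓ hℓN ℤ ℤ)
            ((ℓ : ℕ) : Module.End ℤ ↥(parabolicHoms ℤ (Gamma0 M) ℤ)) j)
          ((q : ℕ) : Module.End ℤ ↥(parabolicHoms ℤ (Gamma0 M) ℤ))
            * s35_ev M M dvd_rfl e) ψ
          = (p ^ (k + c)) • ψ') →
      s35_ft_R rs (s31_dk ((iota.comp chig.rangeRestrict)
          (CuspForm.heckeAlgebra.T hℓ hℓN hℓS)) (ℓ : T) j) (q : T) * (d : T)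
        ∈ IsLocalRing.maximalIdeal T ^ k := by
  refine ⟨0, fun k ℓ hℓ hℓN hℓS j hu => ?_⟩
  let i : s35_Idx M := ⟨ℓ, hℓ, hℓN⟩
  have hE : s35_ev M M dvd_rfl
      (s35_ft_R rs (s31_dk (MvPolynomial.X i) ((ℓ : ℕ) : s35_Pol M) j) ((q : ℕ) : s35_Pol M) * e)
      = s35_ft_R rs (s31_dk (s29_cp_Tpar M ℓ hℓ hℓN ℤ ℤ)
            ((ℓ : ℕ) : Module.End ℤ ↥(parabolicHoms ℤ (Gamma0 M) ℤ)) j)
          ((q : ℕ) : Module.End ℤ ↥(parabolicHoms ℤ (Gamma0 M) ℤ))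
        * s35_ev M M dvd_rfl e := by
    rw [map_mul, s35_ft_R_map, s31_dk_map, map_natCast, map_natCast, s35_ev_X]
  have hchiE : s35_chi g
      (s35_ft_R rs (s31_dk (MvPolynomial.X i) ((ℓ : ℕ) : s35_Pol M) j) ((q : ℕ) : s35_Pol M) * e)
      = s35_ft_R rs (s31_dk (ModularFormClass.qCoeff g ℓ) (ℓ : ℂ) j) (q : ℂ) * (d : ℂ) := by
    rw [map_mul, s35_ft_R_map, s31_dk_map, map_natCast, map_natCast, s35_chi_X, hd]
  obtain ⟨a, ha, hEa⟩ := s35_chi_dvd hg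
    (s35_ft_R rs (s31_dk (MvPolynomial.X i) ((ℓ : ℕ) : s35_Pol M) j) ((q : ℕ) : s35_Pol M) * e)
    (p ^ k) (fun ψ => by
      obtain ⟨ψ', h⟩ := hu ψ
      exact ⟨ψ', by rw [hE, h, add_zero]⟩)
  have hx : chig (s35_ft_R rs (s31_dk (CuspForm.heckeAlgebra.T hℓ hℓN hℓS)
        ((ℓ : ℕ) : CuspForm.heckeAlgebra M 2 (↑S : Set ℕ)) j)
        ((q : ℕ) : CuspForm.heckeAlgebra M 2 (↑S : Set ℕ)))
      = s35_ft_R rs (s31_dk (ModularFormClass.qCoeff g ℓ) (ℓ : ℂ) j) (q : ℂ) := by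
    rw [s35_ft_R_map, s31_dk_map, map_natCast, map_natCast, hchig]
  have hπx : (iota.comp chig.rangeRestrict) (s35_ft_R rs (s31_dk
        (CuspForm.heckeAlgebra.T hℓ hℓN hℓS)
        ((ℓ : ℕ) : CuspForm.heckeAlgebra M 2 (↑S : Set ℕ)) j)
        ((q : ℕ) : CuspForm.heckeAlgebra M 2 (↑S : Set ℕ)))
      = s35_ft_R rs (s31_dk ((iota.comp chig.rangeRestrict)
          (CuspForm.heckeAlgebra.T hℓ hℓN hℓS)) (ℓ : T) j) (q : T) := by
    rw [s35_ft_R_map, s31_dk_map, map_natCast, map_natCast]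
  obtain ⟨z, hz⟩ := s35_ft_ic chig iota _ d (p ^ k) (pow_ne_zero k hp.ne_zero) a ha (by
    rw [hx, ← hchiE, hEa])
  rw [← hπx, RingHom.comp_apply, hz]
  push_cast
  exact Ideal.mul_mem_right _ _ (Ideal.pow_mem_pow hpT k)

/-- **(T), packaged for S35 clause 2, Hecke-polynomial form.**  `g` a normalized eigenform of
level `M`, `χ_g` its eigencharacter on the Hecke algebra away from `S`, `ι` a ring homomorphism
from the range of `χ_g` to `T`, `ρ` with `charpoly ρ(Frob_ℓ) = X² - ι(χ_g(T_ℓ)) X + ℓ`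
(`ℓ ∉ S`), `γ` a Frobenius lift at `q ≠ p`.  If `e` is a Hecke polynomial with
`χ_g(e) = d ∈ ℤ ∖ {0}` and `∏_{r ∈ rs} (γ - r)` (`rs ⊆ {1, -1, q, -q}`) kills
`ι_n (ev_M(e) Λ)` at every level `n`, then `charpoly ρ(γ) = X² ∓ (q + 1) X + q`. -/
theorem s35_ft_clause_pol {M : ℕ} [NeZero M] {g : CuspForm (Gamma0 M) 2}
    (hg : g.IsNormalizedEigenform) (p : ℕ) [Fact p.Prime] (S : Finset ℕ) (hpS : p ∈ S)
    (hMS : ∀ q : ℕ, q.Prime → q ∣ M → q ∈ S)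
    {T : Type} [CommRing T] [IsDomain T] [IsLocalRing T]
    [IsHausdorff (IsLocalRing.maximalIdeal T) T] [CharZero T] [IsIntegrallyClosed T]
    (hpT : (p : T) ∈ IsLocalRing.maximalIdeal T)
    (chig : CuspForm.heckeAlgebra M 2 (↑S : Set ℕ) →+* ℂ)
    (hchig : ∀ (ℓ : ℕ) (hℓ : ℓ.Prime) (hℓM : ¬ ℓ ∣ M) (hℓS : ℓ ∉ (↑S : Set ℕ)),
      chig (CuspForm.heckeAlgebra.T hℓ hℓM hℓS) = ModularFormClass.qCoeff g ℓ)
    (iota : chig.range →+* T) (ρ : GaloisRepAdic T)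
    (hfrob : ∀ (ℓ : ℕ) (hℓ : ℓ.Prime) (hℓN : ¬ ℓ ∣ M) (hℓS : ℓ ∉ (↑S : Set ℕ))
      (A : ValuationSubring Qb), A.LiesOverPrime ℓ → ∀ σ : Γ, A.IsFrobeniusAt σ ℓ →
        LinearMap.charpoly (ρ.ρ σ)
          = X ^ 2 - C ((iota.comp chig.rangeRestrict) (CuspForm.heckeAlgebra.T hℓ hℓN hℓS)) * X
            + C ((ℓ : T)))
    (q : ℕ) (hq : q.Prime) (hqp : q ≠ p) (P : ValuationSubring Qb) (hP : P.LiesOverPrime q)
    (γ : Γ) (hγ : P.IsFrobeniusAt γ q)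
    (e : s35_Pol M) (d : ℤ) (hd0 : d ≠ 0) (hd : s35_chi g e = (d : ℂ)) (rs : List ℤ)
    (hrs : ∀ r ∈ rs, r = 1 ∨ r = -1 ∨ r = (q : ℤ) ∨ r = -(q : ℤ))
    (hF : ∀ n : ℕ, ∃ ι : ↥(parabolicHoms ℤ (Gamma0 M) ℤ) →+ JZero M,
      (∀ ψ, (p ^ n) • ι ψ = 0) ∧ (∀ ψ, ι ψ = 0 → ∃ ψ', ψ = (p ^ n) • ψ') ∧
      (∀ (ℓ : ℕ) (hℓ : ℓ.Prime) (hℓN : ¬ ℓ ∣ M), ¬ ℓ ∣ M * p → ∀ ψ,
        ι (s29_cp_Tpar M ℓ hℓ hℓN ℤ ℤ ψ) = heckeOperatorBar M ⟨ℓ, hℓ⟩ (ι ψ)) ∧
      ∀ ψ, s35_ft_app M γ rs (ι (s35_ev M M dvd_rfl e ψ)) = 0) :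
    LinearMap.charpoly (ρ.ρ γ) = X ^ 2 - C ((q : T) + 1) * X + C ((q : T)) ∨
      LinearMap.charpoly (ρ.ρ γ) = X ^ 2 + C ((q : T) + 1) * X + C ((q : T)) :=
  s35_ft_clause_core M p S hpS hMS s29_cheb_asm hpT (iota.comp chig.rangeRestrict) ρ hfrob q hq
    hqp P hP γ hγ (s35_ev M M dvd_rfl e) (d : T) (Int.cast_ne_zero.mpr hd0) rs hrs
    (s35_ft_hfin_pol hg p Fact.out S hpT chig hchig iota q e d hd rs) hF

end Fermat.Agent.S35
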