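import Fermat.Prelude.Def_CuspForm_Newforms
import Fermat.Agent.S30
import Fermat.Agent.S35.FrobTransferPol

set_option autoImplicit false
open Polynomial
open CuspForm
open AlgebraicCurve ModularCurve CongruenceSubgroup ModularCurve.Period
open Fermat.Agent.S29 Fermat.Agent.S31 Fermat.Agent.S35

/-!
# S35: top-level wiring from the (E)+(F) input

`s35_ft_top` : the conclusion of S35 (landed S30 for clause 1, `s35_ft_clause_pol` for clause 2)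
from the input `hEF`: for every prime `q ∥ M`, `q ≠ lam`, a Hecke polynomial `e` with
`χ_g(e) = d ∈ ℤ ∖ {0}` and a list `rs ⊆ {1, -1, q, -q}` such that for every Frobenius lift `σ`
at `q` and every `n` there is a bridge map `ι_n : Λ → J₀(M)[lam ^ n]` with
`∏_{r ∈ rs} (σ - r)` killing `ι_n (ev_M(e) Λ)`.
-/

namespace Fermat.Agent.S35

theorem s35_ft_top
    {M : ℕ} [NeZero M] {g : CuspForm (CongruenceSubgroup.Gamma0 M) 2} (hg : g.IsNewform)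
    (lam : ℕ) [Fact lam.Prime]
    (S : Finset ℕ)
    (O' : Type) [CommRing O'] [IsDomain O'] [IsDiscreteValuationRing O']
    [IsAdicComplete (IsLocalRing.maximalIdeal O') O'] [Finite (IsLocalRing.ResidueField O')]
    [CharZero O'] (hlamO' : (lam : O') ∈ IsLocalRing.maximalIdeal O')
    (chig : CuspForm.heckeAlgebra M 2 (↑S : Set ℕ) →+* ℂ)
    (hchig : ∀ (ℓ : ℕ) (hℓ : ℓ.Prime) (hℓM : ¬ ℓ ∣ M) (hℓS : ℓ ∉ (↑S : Set ℕ)),
      chig (CuspForm.heckeAlgebra.T hℓ hℓM hℓS) = ModularFormClass.qCoeff g ℓ)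
    (iota : chig.range →+* O')
    (hlamS : lam ∈ S) (hMS : ∀ q : ℕ, q.Prime → q ∣ M → q ∈ S)
    -- the (E)+(F) input
    (hEF : ∀ q : ℕ, q.Prime → q ≠ lam → q ∣ M → ¬ q ^ 2 ∣ M →
      ∃ (e : s35_Pol M) (d : ℤ) (rs : List ℤ), d ≠ 0 ∧ s35_chi g e = (d : ℂ) ∧
        (∀ r ∈ rs, r = 1 ∨ r = -1 ∨ r = (q : ℤ) ∨ r = -(q : ℤ)) ∧
        ∀ A : ValuationSubring (AlgebraicClosure ℚ), A.LiesOverPrime q →
          ∀ σ : AlgebraicClosure ℚ ≃ₐ[ℚ] AlgebraicClosure ℚ, A.IsFrobeniusAt σ q →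
          ∀ n : ℕ, ∃ ι : ↥(parabolicHoms ℤ (Gamma0 M) ℤ) →+ JZero M,
            (∀ ψ, (lam ^ n) • ι ψ = 0) ∧ (∀ ψ, ι ψ = 0 → ∃ ψ', ψ = (lam ^ n) • ψ') ∧
            (∀ (ℓ : ℕ) (hℓ : ℓ.Prime) (hℓN : ¬ ℓ ∣ M), ¬ ℓ ∣ M * lam → ∀ ψ,
              ι (s29_cp_Tpar M ℓ hℓ hℓN ℤ ℤ ψ) = heckeOperatorBar M ⟨ℓ, hℓ⟩ (ι ψ)) ∧
            ∀ ψ, s35_ft_app M σ rs (ι (s35_ev M M dvd_rfl e ψ)) = 0)
    :
    ∃ (O'' : Type) (_ : CommRing O'') (_ : IsDomain O'') (_ : IsDiscreteValuationRing O'')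
      (_ : IsAdicComplete (IsLocalRing.maximalIdeal O'') O'') (_ : Finite (IsLocalRing.ResidueField O''))
      (_ : CharZero O'') (_ : Algebra O' O'') (_ : Module.Finite O' O'') (_ : IsLocalHom (algebraMap O' O'')),
      Function.Injective (algebraMap O' O'') ∧
      ∃ ρ : GaloisRepAdic O'',
        (∀ (ℓ : ℕ) (hℓ : ℓ.Prime) (hℓM : ¬ ℓ ∣ M) (hℓS : ℓ ∉ (↑S : Set ℕ)),
          ∀ A : ValuationSubring (AlgebraicClosure ℚ), A.LiesOverPrime ℓ →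
            ∀ σ : AlgebraicClosure ℚ ≃ₐ[ℚ] AlgebraicClosure ℚ, A.IsFrobeniusAt σ ℓ →
              LinearMap.charpoly (ρ.ρ σ) =
                X ^ 2 - C (algebraMap O' O'' ((iota.comp chig.rangeRestrict) (CuspForm.heckeAlgebra.T hℓ hℓM hℓS))) * X
                  + C ((ℓ : O''))) ∧
        (∀ q : ℕ, q.Prime → q ≠ lam → q ∣ M → ¬ q ^ 2 ∣ M →
          ∀ A : ValuationSubring (AlgebraicClosure ℚ), A.LiesOverPrime q →
            ∀ σ : AlgebraicClosure ℚ ≃ₐ[ℚ] AlgebraicClosure ℚ, A.IsFrobeniusAt σ q →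
              LinearMap.charpoly (ρ.ρ σ) = X ^ 2 - C ((q : O'') + 1) * X + C ((q : O'')) ∨
              LinearMap.charpoly (ρ.ρ σ) = X ^ 2 + C ((q : O'') + 1) * X + C ((q : O''))) := by
  obtain ⟨O'', i1, i2, i3, i4, i5, i6, i7, i8, i9, hinj, ρ, h1, -⟩ :=
    Fermat.Agent.S30.result lam M S hlamS hMS O' hlamO' (iota.comp chig.rangeRestrict)
  refine ⟨O'', i1, i2, i3, i4, i5, i6, i7, i8, i9, hinj, ρ, h1, ?_⟩
  intro q hq hqlam hqM hq2 A hA σ hσ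
  obtain ⟨e, d, rs, hd0, hd, hrs, hF⟩ := hEF q hq hqlam hqM hq2
  have hlamO'' : (lam : O'') ∈ IsLocalRing.maximalIdeal O'' := by
    have h := hlamO'
    rw [IsLocalRing.mem_maximalIdeal, mem_nonunits_iff] at h ⊢
    intro hu
    apply h
    have : IsUnit (algebraMap O' O'' (lam : O')) := by rwa [map_natCast]
    exact (isUnit_map_iff (algebraMap O' O'') _).mp this
  exact s35_ft_clause_pol hg.1 lam S hlamS hMS hlamO'' chig hchig
    ((algebraMap O' O'').comp iota) ρ h1 q hq hqlam A hA σ hσ e d hd0 hd rs hrs (hF A hA σ hσ)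

end Fermat.Agent.S35
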