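import Mathlib
import Fermat.Prelude.Def_CuspForm_HeckeLocal
import Fermat.Prelude.Def_CuspForm_Newforms
import Fermat.Agent.S49.Eigen
import Fermat.Agent.S49.Lift
import Fermat.Agent.S49.LinAlg
import Fermat.Agent.S23.Main

/-!
# S35 (project NODE-2), leaf L2a: eigencharacters of Hecke algebras are realised by eigenforms

* `s35_ne_indep` : `ℤ`-linearly independent vectors with integer coordinates are `ℂ`-linearly
  independent (abstract form).
* `s35_ne_eigenvector` : every ring homomorphism `χ : 𝕋^S(N) → ℂ` has an eigenvector in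
  `S₂(Γ₀(N))`.
* `s35_ne_eigenform` : every ring homomorphism `χ : 𝕋^S(N) → ℂ` is the system of eigenvalues (at the
  primes `ℓ ∉ S`, `ℓ ∤ N`) of a normalised eigenform of level `N`.
* `s35_ne_newform` : the eigenvalues of a newform of level `M` are not given by a character of a
  Hecke algebra of a proper divisor `N` of `M`.
-/

set_option autoImplicit false

namespace Fermat.Agent.S35

open CuspForm ModularFormClass
open scoped TensorProduct

local notation "Γ₀(" N ")" => CongruenceSubgroup.Gamma0 N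

/-- `ℤ`-linearly independent vectors with integer coordinates (with respect to an injective
coordinate map `Φ`) are `ℂ`-linearly independent. -/
theorem s35_ne_indep {W I : Type*} [AddCommGroup W] [Module ℂ W] (Φ : W →ₗ[ℂ] (I → ℂ))
    (hΦ : Function.Injective Φ) {κ : Type*} [Fintype κ] (b : κ → W)
    (hint : ∀ k i, ∃ m : ℤ, Φ (b k) i = (m : ℂ))
    (hb : LinearIndependent ℤ b) : LinearIndependent ℂ b := by
  classical
  rw [Fintype.linearIndependent_iff]
  intro c hc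
  let C : Submodule ℤ ℂ := Submodule.span ℤ (Set.range c)
  have : Module.Finite ℤ C := Module.Finite.span_of_finite ℤ (Set.finite_range c)
  have : Module.Free ℤ C := Module.free_of_finite_type_torsion_free'
  let γ := Module.Free.chooseBasis ℤ C
  have hcmem : ∀ k, c k ∈ C := fun k => Submodule.subset_span ⟨k, rfl⟩
  have hck : ∀ k, c k = ∑ j, ((γ.repr ⟨c k, hcmem k⟩ j : ℤ) : ℂ) * ((γ j : C) : ℂ) := by
    intro k
    have h1 := γ.sum_repr ⟨c k, hcmem k⟩
    have h2 : ((∑ i, γ.repr ⟨c k, hcmem k⟩ i • γ i : C) : ℂ) = c k := congrArg (Subtype.val) h1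
    conv_lhs => rw [← h2]
    simp only [Submodule.coe_sum, Submodule.coe_smul, zsmul_eq_mul]
  choose m hm using hint
  have key : ∀ j, ∑ k, (γ.repr ⟨c k, hcmem k⟩ j) • b k = 0 := by
    intro j
    apply hΦ
    rw [map_zero]
    funext i
    have h0 : ∑ j', (∑ k, γ.repr ⟨c k, hcmem k⟩ j' * m k i) • γ j' = 0 := by
      apply Subtype.ext
      have h3 := congrFun (congrArg Φ hc) i
      rw [map_zero, map_sum] at h3
      simp only [map_smul, Finset.sum_apply, Pi.smul_apply, smul_eq_mul, Pi.zero_apply, hm] at h3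
      have h4 : ∀ k, c k * (m k i : ℂ) =
          ∑ j', ((γ.repr ⟨c k, hcmem k⟩ j' : ℤ) : ℂ) * ((γ j' : C) : ℂ) * (m k i : ℂ) := by
        intro k
        rw [← Finset.sum_mul, ← hck k]
      simp only [h4] at h3
      rw [Finset.sum_comm] at h3
      simp only [Submodule.coe_sum, Submodule.coe_smul, zsmul_eq_mul, Int.cast_sum, Int.cast_mul,
        Finset.sum_mul, Submodule.coe_zero]
      rw [← h3]
      refine Finset.sum_congr rfl fun j' _ => Finset.sum_congr rfl fun k _ => ?_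
      ring
    have h1 := Fintype.linearIndependent_iff.mp γ.linearIndependent _ h0 j
    rw [map_sum]
    simp only [map_zsmul, Finset.sum_apply, Pi.smul_apply, hm, Pi.zero_apply]
    simp only [zsmul_eq_mul]
    have h5 := congrArg (Int.cast : ℤ → ℂ) h1
    push_cast at h5
    exact h5
  intro k
  rw [hck k]
  have h6 : ∀ j, γ.repr ⟨c k, hcmem k⟩ j = 0 := fun j =>
    Fintype.linearIndependent_iff.mp hb _ (key j) k
  simp [h6]

variable {N : ℕ} [NeZero N]

/-- The Hecke algebra `𝕋^S(N)` is a finite `ℤ`-module. -/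
theorem s35_ne_hecke_finite (N : ℕ) [NeZero N] (S : Set ℕ) :
    Module.Finite ℤ (heckeAlgebra N 2 S) := by
  have hint := Fermat.Agent.S23.hasIntegralStructure_all N 2
  exact Module.Finite.equiv (AlgEquiv.ofBijective (latticeRestrictHom N S)
    (latticeRestrictHom_bijective N S hint)).symm.toLinearEquiv

/-- A `ℤ`-basis of the Hecke algebra is `ℂ`-linearly independent in `End_ℂ(S₂(Γ₀(N)))`. -/
theorem s35_ne_hecke_indep (N : ℕ) [NeZero N] (S : Set ℕ) {κ : Type*} [Fintype κ]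
    (b : κ → heckeAlgebra N 2 S) (hb : LinearIndependent ℤ b) :
    LinearIndependent ℂ (fun k => ((b k : heckeAlgebra N 2 S) :
      Module.End ℂ (CuspForm Γ₀(N) 2))) := by
  have hint := Fermat.Agent.S23.hasIntegralStructure_all N 2
  let Φ : Module.End ℂ (CuspForm Γ₀(N) 2) →ₗ[ℂ] ((intLattice N 2 × ℕ) → ℂ) :=
    { toFun := fun T p => qCoeff (T (p.1 : CuspForm Γ₀(N) 2)) p.2
      map_add' := by
        intro T T'
        funext p
        show qCoeff ((T + T') (p.1 : CuspForm Γ₀(N) 2)) p.2 = _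
        rw [LinearMap.add_apply]
        exact map_add (Fermat.Agent.S49.qLin N 2 p.2) _ _
      map_smul' := by
        intro c T
        funext p
        show qCoeff ((c • T) (p.1 : CuspForm Γ₀(N) 2)) p.2 = c • qCoeff (T _) p.2
        rw [LinearMap.smul_apply]
        exact map_smul (Fermat.Agent.S49.qLin N 2 p.2) c _ }
  have hΦ : Function.Injective Φ := by
    rw [injective_iff_map_eq_zero]
    intro T hT
    refine LinearMap.ext_on hint fun f hf => ?_
    rw [LinearMap.zero_apply]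
    apply Fermat.Agent.S49.eq_zero_of_qCoeff_eq_zero
    intro n
    exact congrFun hT (⟨f, hf⟩, n)
  refine s35_ne_indep Φ hΦ _ ?_ ?_
  · intro k p
    have hmem : ((b k : heckeAlgebra N 2 S) : Module.End ℂ (CuspForm Γ₀(N) 2))
        (p.1 : CuspForm Γ₀(N) 2) ∈ intLattice N 2 :=
      mem_intLattice_of_mem_heckeAlgebra one_le_two (b k).2 p.1.2
    exact (Fermat.Agent.S49.mem_intLattice_iff _).mp hmem p.2
  · exact hb.map' ((heckeAlgebra N 2 S).val.toLinearMap)
      (LinearMap.ker_eq_bot.mpr Subtype.val_injective)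

/-- Every ring homomorphism from the Hecke algebra `𝕋^S(N)` to `ℂ` has an eigenvector in
`S₂(Γ₀(N))`. -/
theorem s35_ne_eigenvector (S : Set ℕ) (χ : heckeAlgebra N 2 S →+* ℂ) :
    ∃ v : CuspForm Γ₀(N) 2, v ≠ 0 ∧ ∀ T : heckeAlgebra N 2 S,
      (T : Module.End ℂ (CuspForm Γ₀(N) 2)) v = χ T • v := by
  classical
  have : FiniteDimensional ℂ (CuspForm Γ₀(N) 2) := Fermat.Agent.S23.final_finiteDimensional N 2
  have := s35_ne_hecke_finite N S
  have : Module.Free ℤ (heckeAlgebra N 2 S) := Module.free_of_finite_type_torsion_free'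
  let b := Module.Free.chooseBasis ℤ (heckeAlgebra N 2 S)
  let ι : (ℂ ⊗[ℤ] heckeAlgebra N 2 S) →ₐ[ℂ] Module.End ℂ (CuspForm Γ₀(N) 2) :=
    Algebra.TensorProduct.lift (Algebra.ofId ℂ _) (heckeAlgebra N 2 S).val
      (fun c T => Algebra.commutes c _)
  let χC : (ℂ ⊗[ℤ] heckeAlgebra N 2 S) →ₐ[ℂ] ℂ :=
    Algebra.TensorProduct.lift (AlgHom.id ℂ ℂ) χ.toIntAlgHom (fun _ _ => Commute.all _ _)
  have hι1 : ∀ (c : ℂ) (T : heckeAlgebra N 2 S),
      ι (c ⊗ₜ T) = c • (T : Module.End ℂ (CuspForm Γ₀(N) 2)) := by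
    intro c T
    show Algebra.TensorProduct.lift _ _ _ (c ⊗ₜ T) = _
    rw [Algebra.TensorProduct.lift_tmul, Algebra.ofId_apply, Algebra.algebraMap_eq_smul_one,
      smul_mul_assoc, one_mul]
    rfl
  have hχ1 : ∀ (c : ℂ) (T : heckeAlgebra N 2 S), χC (c ⊗ₜ T) = c * χ T := by
    intro c T
    show Algebra.TensorProduct.lift _ _ _ (c ⊗ₜ T) = _
    rw [Algebra.TensorProduct.lift_tmul]
    rfl
  have hι : Function.Injective ι.toRingHom := by
    have hli := s35_ne_hecke_indep N S b b.linearIndependent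
    let B := Algebra.TensorProduct.basis ℂ b
    rw [injective_iff_map_eq_zero]
    intro x hx
    have h1 : x = ∑ i, B.repr x i • B i := (B.sum_repr x).symm
    have hx' : ι x = 0 := hx
    rw [h1, map_sum] at hx'
    have h2 : ∀ i, ι (B.repr x i • B i) = B.repr x i •
        ((b i : heckeAlgebra N 2 S) : Module.End ℂ (CuspForm Γ₀(N) 2)) := by
      intro i
      rw [map_smul, Algebra.TensorProduct.basis_apply, hι1, one_smul]
    simp only [h2] at hx'
    have h3 := Fintype.linearIndependent_iff.mp hli _ hx'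
    rw [h1]
    simp [h3]
  have hprime : (RingHom.ker (χC : (ℂ ⊗[ℤ] heckeAlgebra N 2 S) →+* ℂ)).IsPrime :=
    RingHom.ker_isPrime _
  obtain ⟨v, ψ, hv, hψ, hker⟩ := Fermat.Agent.S49.exists_eigenvector_ker_le
    ι.toRingHom hι (RingHom.ker (χC : (ℂ ⊗[ℤ] heckeAlgebra N 2 S) →+* ℂ))
  have hψ' : ∀ x : ℂ ⊗[ℤ] heckeAlgebra N 2 S, ι x v = ψ x • v := hψ
  refine ⟨v, hv, fun T => ?_⟩
  have hT := hψ' ((1 : ℂ) ⊗ₜ T)
  rw [hι1, one_smul] at hT
  set x : ℂ ⊗[ℤ] heckeAlgebra N 2 S :=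
    (1 : ℂ) ⊗ₜ T - (ψ ((1 : ℂ) ⊗ₜ T)) ⊗ₜ (1 : heckeAlgebra N 2 S) with hx
  have h1 : ι x v = 0 := by
    rw [hx, map_sub, hι1, hι1, one_smul, LinearMap.sub_apply, LinearMap.smul_apply, hT]
    simp
  have h2 : ψ x = 0 := by
    have h := hψ' x
    rw [h1] at h
    exact (smul_eq_zero.mp h.symm).resolve_right hv
  have h3 : χC x = 0 := hker h2
  rw [hx, map_sub, hχ1, hχ1, one_mul, map_one, mul_one] at h3
  rw [hT, sub_eq_zero.mp h3]

/-- Every ring homomorphism from the Hecke algebra `𝕋^S(N)` to `ℂ` is the system of eigenvalues of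
a normalised eigenform of level `N`. -/
theorem s35_ne_eigenform (S : Set ℕ) (χ : heckeAlgebra N 2 S →+* ℂ) :
    ∃ f : CuspForm Γ₀(N) 2, f.IsNormalizedEigenform ∧
      ∀ (ℓ : ℕ) (hℓ : ℓ.Prime) (hℓN : ¬ ℓ ∣ N) (hℓS : ℓ ∉ S),
        qCoeff f ℓ = χ (heckeAlgebra.T hℓ hℓN hℓS) := by
  classical
  have : FiniteDimensional ℂ (CuspForm Γ₀(N) 2) := Fermat.Agent.S23.final_finiteDimensional N 2
  obtain ⟨v₀, hv₀, hv₀χ⟩ := s35_ne_eigenvector S χ
  let W : Submodule ℂ (CuspForm Γ₀(N) 2) :=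
    { carrier := {v | ∀ T : heckeAlgebra N 2 S,
        (T : Module.End ℂ (CuspForm Γ₀(N) 2)) v = χ T • v}
      add_mem' := by
        intro a b ha hb T
        rw [map_add, ha T, hb T, smul_add]
      zero_mem' := by
        intro T
        simp
      smul_mem' := by
        intro c a ha T
        rw [map_smul, ha T, smul_comm] }
  have hW : W ≠ ⊥ := by
    intro h
    have h0 : v₀ ∈ W := hv₀χ
    rw [h, Submodule.mem_bot] at h0
    exact hv₀ h0
  have hle : heckeAlgebra N 2 S ≤ heckeAlgebra N 2 (∅ : Set ℕ) :=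
    heckeAlgebra_mono (Set.empty_subset S)
  have hcomm : ∀ T T' : heckeAlgebra N 2 (∅ : Set ℕ),
      Commute (T : Module.End ℂ (CuspForm Γ₀(N) 2)) (T' : Module.End ℂ (CuspForm Γ₀(N) 2)) := by
    intro T T'
    exact congrArg Subtype.val (mul_comm T T')
  have hstab : ∀ T : heckeAlgebra N 2 (∅ : Set ℕ), ∀ x ∈ W,
      (T : Module.End ℂ (CuspForm Γ₀(N) 2)) x ∈ W := by
    intro T x hx T'
    have h1 := hcomm ⟨T'.1, hle T'.2⟩ T
    have h2 : (T' : Module.End ℂ (CuspForm Γ₀(N) 2)) ((T : Module.End ℂ (CuspForm Γ₀(N) 2)) x) =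
        (T : Module.End ℂ (CuspForm Γ₀(N) 2)) ((T' : Module.End ℂ (CuspForm Γ₀(N) 2)) x) :=
      congrArg (fun F : Module.End ℂ (CuspForm Γ₀(N) 2) => F x) h1.eq
    rw [h2, hx T', map_smul]
  obtain ⟨v, hvW, hv, hveig⟩ := Fermat.Agent.S49.exists_common_eigenvector
    (fun T : heckeAlgebra N 2 (∅ : Set ℕ) => (T : Module.End ℂ (CuspForm Γ₀(N) 2)))
    hcomm W hW hstab
  choose c hc using hveig
  have huniq : ∀ a b : ℂ, a • v = b • v → a = b := by
    intro a b h
    have h0 : (a - b) • v = 0 := by rw [sub_smul, h, sub_self]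
    exact sub_eq_zero.mp ((smul_eq_zero.mp h0).resolve_right hv)
  let ψ : heckeAlgebra N 2 (∅ : Set ℕ) →+* ℂ :=
    { toFun := c
      map_one' := huniq _ _ (by
        rw [← hc 1, one_smul]
        rfl)
      map_mul' := fun T T' => huniq _ _ (by
        rw [← hc (T * T'), mul_comm (c T) (c T'), mul_smul, ← hc T, ← map_smul, ← hc T']
        rfl)
      map_zero' := huniq _ _ (by
        rw [← hc 0, zero_smul]
        rfl)
      map_add' := fun T T' => huniq _ _ (by
        rw [← hc (T + T'), add_smul, ← hc T, ← hc T']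
        rfl) }
  obtain ⟨f, hf, hfψ⟩ := Fermat.Agent.S49.exists_normalized_eigenform v hv ψ hc
  refine ⟨f, hf, fun ℓ hℓ hℓN hℓS => ?_⟩
  rw [hfψ ℓ hℓ hℓN]
  apply huniq
  have h1 := hc (heckeAlgebra.T hℓ hℓN (Set.notMem_empty ℓ))
  have h2 := hvW (heckeAlgebra.T hℓ hℓN hℓS)
  rw [heckeAlgebra.coe_T] at h1 h2
  exact h1.symm.trans h2

/-- A character of a Hecke algebra of level `N ∣ M` carrying the eigenvalues of `g` (of level `M`)
at the primes not dividing `M` shows that the eigensystem of `g` occurs at level `N`. -/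
theorem s35_ne_occurs {M : ℕ} {g : CuspForm Γ₀(M) 2} (hNM : N ∣ M) (S : Set ℕ)
    (hS : ∀ ℓ : ℕ, ℓ.Prime → ¬ ℓ ∣ M → ℓ ∉ S) (χ : heckeAlgebra N 2 S →+* ℂ)
    (hχ : ∀ (ℓ : ℕ) (hℓ : ℓ.Prime) (hℓN : ¬ ℓ ∣ N) (hℓS : ℓ ∉ S),
      χ (heckeAlgebra.T hℓ hℓN hℓS) = qCoeff g ℓ) : GoodEigensystemOccursAt g N := by
  obtain ⟨f, hf, hfχ⟩ := s35_ne_eigenform S χ
  refine ⟨f, hf, fun ℓ hℓ hℓM => ?_⟩
  have hℓN : ¬ ℓ ∣ N := fun h => hℓM (h.trans hNM)
  rw [hfχ ℓ hℓ hℓN (hS ℓ hℓ hℓM), hχ]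

/-- The eigenvalues of a newform of level `M` are not given by a character of a Hecke algebra of a
proper divisor `N` of `M`. -/
theorem s35_ne_newform {M : ℕ} {g : CuspForm Γ₀(M) 2} (hg : g.IsNewform)
    (hNM : N ∣ M) (hne : N ≠ M) (S : Set ℕ) (hS : ∀ ℓ : ℕ, ℓ.Prime → ¬ ℓ ∣ M → ℓ ∉ S)
    (χ : heckeAlgebra N 2 S →+* ℂ)
    (hχ : ∀ (ℓ : ℕ) (hℓ : ℓ.Prime) (hℓN : ¬ ℓ ∣ N) (hℓS : ℓ ∉ S),
      χ (heckeAlgebra.T hℓ hℓN hℓS) = qCoeff g ℓ) : False := by
  exact hg.2 N hNM hne (s35_ne_occurs hNM S hS χ hχ)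

end Fermat.Agent.S35
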