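import Fermat.Agent.S35.HeckePol
import Fermat.Agent.S35.NewEigen

/-!
# S35 (NODE-2), (E4) hypothesis-free: the newness element `e`

For a newform `g` of level `M` and a proper divisor `N'` of `M` there is a Hecke polynomial
`e ∈ ℤ[X_ℓ : ℓ ∤ M]` acting as `0` on the level-`N'` lattice with `χ_g(e) ∈ ℤ ∖ {0}`
(`s35_exists_e_newform` of `HeckePol.lean` + `s35_ne_eigenform` of `NewEigen.lean`).
-/

set_option autoImplicit false

open CongruenceSubgroup ModularCurve ModularCurve.Period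

namespace Fermat.Agent.S35

/-- **(E4).** The newness element: `ev_{N'}(e) = 0` on the level-`N'` lattice and `χ_g(e) = d`
a non-zero rational integer. -/
theorem s35_e_main {M N' : ℕ} [NeZero M] [NeZero N'] (hN'M : N' ∣ M) (hne : N' ≠ M)
    {g : CuspForm (Gamma0 M) 2} (hg : g.IsNewform) :
    ∃ (e : s35_Pol M) (d : ℤ), d ≠ 0 ∧ s35_ev N' M hN'M e = 0 ∧ s35_chi g e = (d : ℂ) := by
  refine s35_exists_e_newform hN'M hne hg fun χ' hχ' => ?_
  obtain ⟨f, hf, hfχ⟩ := s35_ne_eigenform (s35_primes M) χ'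
  refine ⟨f, hf, fun ℓ hℓ hℓM => ?_⟩
  have hℓN : ¬ ℓ ∣ N' := fun h => hℓM (h.trans hN'M)
  have hℓS : ℓ ∉ s35_primes M := fun h => hℓM h.2
  rw [hfχ ℓ hℓ hℓN hℓS, hχ' ℓ hℓ hℓN hℓS]

end Fermat.Agent.S35
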