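import Fermat.Agent.S35.HFofFPow
import Fermat.Agent.S35.NewE
import Fermat.Agent.S35.FrobTransferTop

/-!
# S35: the statement from the power statement `s35_FPow`

`s35_hf_top` : the exact conclusion of S35 from `s35_FPow N q` for every factorisation
`M = N * q` with `q` prime, `q ∤ N`, `q ≠ lam`.

Chain: landed S30 (clause 1) + `s35_ft_clause_pol` (transfer, clause 2) via `s35_ft_top`, with
the newness element `e` of `s35_e_main` (level `N = M / q`), `rs = [q, -q, 1, -1, 1, -1]` and the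
kill property `s35_hf_main`.
-/

set_option autoImplicit false
open Polynomial
open CuspForm
open AlgebraicCurve ModularCurve CongruenceSubgroup ModularCurve.Period
open Fermat.Agent.S29 Fermat.Agent.S31 Fermat.Agent.S35

namespace Fermat.Agent.S35

theorem s35_hf_top
    {M : ℕ} [NeZero M] {g : CuspForm (CongruenceSubgroup.Gamma0 M) 2} (hg : g.IsNewform)
    (lam : ℕ) [Fact lam.Prime]
    (S : Finset ℕ)
    (O' : Type) [CommRing O'] [IsDomain O'] [IsDiscreteValuationRing O']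
    [IsAdicComplete (IsLocalRing.maximalIdeal O') O'] [Finite (IsLocalRing.ResidueField O')]
    [CharZero O'] (hlamO' : (lam : O') ∈ IsLocalRing.maximalIdeal O')
    (chig : CuspForm.heckeAlgebra M 2 (↑S : Set ℕ) →+* ℂ)
    (hchig : ∀ (ℓ : ℕ) (hℓ : ℓ.Prime) (hℓM : ¬ ℓ ∣ M) (hℓS : ℓ ∉ (↑S : Set ℕ)),
      chig (CuspForm.heckeAlgebra.T hℓ hℓM hℓS) = ModularFormClass.qCoeff g ℓ)
    (iota : chig.range →+* O')
    (hlamS : lam ∈ S) (hMS : ∀ q : ℕ, q.Prime → q ∣ M → q ∈ S)
    -- the geometric input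
    (hFP : ∀ (N q : ℕ) [NeZero N] [NeZero q], q.Prime → ¬ q ∣ N → N * q = M → q ≠ lam →
      s35_FPow N q)
    :
    ∃ (O'' : Type) (_ : CommRing O'') (_ : IsDomain O'') (_ : IsDiscreteValuationRing O'')
      (_ : IsAdicComplete (IsLocalRing.maximalIdeal O'') O'') (_ : Finite (IsLocalRing.ResidueField O''))
      (_ : CharZero O'') (_ : Algebra O' O'') (_ : Module.Finite O' O'') (_ : IsLocalHom (algebraMap O' O'')),
      Function.Injective (algebraMap O' O'') ∧
      ∃ ρ : GaloisRepAdic O'',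
        (∀ (ℓ : ℕ) (hℓ : ℓ.Prime) (hℓM : ¬ ℓ ∣ M) (hℓS : ℓ ∉ (↑S : Set ℕ)),
          ∀ A : ValuationSubring (AlgebraicClosure ℚ), A.LiesOverPrime ℓ →
            ∀ σ : AlgebraicClosure ℚ ≃ₐ[ℚ] AlgebraicClosure ℚ, A.IsFrobeniusAt σ ℓ →
              LinearMap.charpoly (ρ.ρ σ) =
                X ^ 2 - C (algebraMap O' O'' ((iota.comp chig.rangeRestrict) (CuspForm.heckeAlgebra.T hℓ hℓM hℓS))) * X
                  + C ((ℓ : O''))) ∧
        (∀ q : ℕ, q.Prime → q ≠ lam → q ∣ M → ¬ q ^ 2 ∣ M →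
          ∀ A : ValuationSubring (AlgebraicClosure ℚ), A.LiesOverPrime q →
            ∀ σ : AlgebraicClosure ℚ ≃ₐ[ℚ] AlgebraicClosure ℚ, A.IsFrobeniusAt σ q →
              LinearMap.charpoly (ρ.ρ σ) = X ^ 2 - C ((q : O'') + 1) * X + C ((q : O'')) ∨
              LinearMap.charpoly (ρ.ρ σ) = X ^ 2 + C ((q : O'') + 1) * X + C ((q : O''))) := by
  refine s35_ft_top hg lam S O' hlamO' chig hchig iota hlamS hMS ?_
  intro q hq hqlam hqM hq2
  obtain ⟨N, hN⟩ := hqM
  have hM : N * q = M := by rw [hN, mul_comm]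
  have hqN : ¬ q ∣ N := fun h => hq2 (by rw [hN, pow_two]; exact mul_dvd_mul_left q h)
  have hN0 : N ≠ 0 := by
    rintro rfl
    rw [mul_zero] at hN
    exact NeZero.ne M hN
  have : NeZero N := ⟨hN0⟩
  have : NeZero q := ⟨hq.ne_zero⟩
  have hFPq := hFP N q hq hqN hM hqlam
  subst hM
  have hne : N ≠ N * q := by
    intro h
    have h2 : N * 1 = N * q := by rw [mul_one]; exact h
    exact hq.one_lt.ne (Nat.eq_of_mul_eq_mul_left (Nat.pos_of_ne_zero hN0) h2)
  obtain ⟨e, d, hd0, he, hd⟩ := s35_e_main (M := N * q) (N' := N) (Dvd.intro q rfl) hne hg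
  refine ⟨e, d, [(q : ℤ), -(q : ℤ), 1, -1, 1, -1], hd0, hd, ?_, fun A hA σ hσ n =>
    s35_hf_main N q hq hqN hFPq lam Fact.out hqlam e _ he A hA σ hσ n⟩
  intro r hr
  simp only [List.mem_cons, List.not_mem_nil, or_false] at hr
  rcases hr with rfl | rfl | rfl | rfl | rfl | rfl
  · right; right; left; rfl
  · right; right; right; rfl
  · left; rfl
  · right; left; rfl
  · left; rfl
  · right; left; rfl

end Fermat.Agent.S35
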