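import Mathlib

/-!
# S35: norm and degree under extension of constants, norm and automorphisms

Mathlib only.

* `s35_norm_descent` : for a commutative square of finite field extensions `F / F'`, `E / E'`
  (vertical maps `j' : F' → E'`, `j : F → E`) with `E` spanned over `E'` by `j F` and
  `[F : F'] ≤ [E : E']`: the degrees agree and `Nm_{E/E'} (j x) = j' (Nm_{F/F'} x)`.
* `s35_span_of_adjoin` : the spanning hypothesis from "`E` is generated over `E'` by `j F`".
* `s35_norm_map_equiv` : the norm commutes with a pair of compatible automorphisms.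
-/

set_option autoImplicit false

namespace Fermat.Agent.S35

open Module

section Descent

variable {F' F E' E : Type*} [Field F'] [Field F] [Field E'] [Field E]
  [Algebra F' F] [Algebra E' E]

/-- Norm and degree under extension of constants: for a commutative square of field extensions
`F / F'`, `E / E'` (vertical maps `j' : F' → E'`, `j : F → E`) such that `E` is spanned over `E'` by
`j F` and `[F : F'] ≤ [E : E']`, the degrees agree and the norm of `E / E'` restricts to the norm
of `F / F'`. -/
theorem s35_norm_descent [FiniteDimensional F' F] (j' : F' →+* E') (j : F →+* E)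
    (hcomm : ∀ x : F', j (algebraMap F' F x) = algebraMap E' E (j' x))
    (hspan : Submodule.span E' (Set.range j) = ⊤)
    (hdeg : Module.finrank F' F ≤ Module.finrank E' E) :
    Module.finrank E' E = Module.finrank F' F ∧
      ∀ x : F, Algebra.norm E' (j x) = j' (Algebra.norm F' x) := by
  classical
  let ι := Module.Free.ChooseBasisIndex F' F
  let b : Module.Basis ι F' F := Module.Free.chooseBasis F' F
  have hsmul : ∀ (c : F') (x : F), j (c • x) = j' c • j x := by
    intro c x
    rw [Algebra.smul_def, map_mul, hcomm, Algebra.smul_def]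
  have hle : Set.range j ⊆ Submodule.span E' (Set.range (j ∘ b)) := by
    rintro _ ⟨x, rfl⟩
    rw [← b.sum_repr x, map_sum]
    refine Submodule.sum_mem _ fun i _ => ?_
    rw [hsmul]
    exact Submodule.smul_mem _ _ (Submodule.subset_span ⟨i, rfl⟩)
  have hspan' : ⊤ ≤ Submodule.span E' (Set.range (j ∘ b)) := by
    rw [← hspan]; exact Submodule.span_le.mpr hle
  have hcard : Fintype.card ι = Module.finrank E' E := by
    apply le_antisymm
    · rw [← Module.finrank_eq_card_basis b]; exact hdeg
    · have h1 : Module.finrank E' (Submodule.span E' (Set.range (j ∘ b))) ≤ Fintype.card ι :=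
        finrank_range_le_card (R := E') (j ∘ b)
      rw [top_le_iff.mp hspan', finrank_top] at h1
      exact h1
  let b' : Module.Basis ι E' E := basisOfTopLeSpanOfCardEqFinrank (j ∘ b) hspan' hcard
  have hb' : ∀ i, b' i = j (b i) := fun i => by
    simp only [b', coe_basisOfTopLeSpanOfCardEqFinrank, Function.comp_apply]
  refine ⟨by rw [← hcard, Module.finrank_eq_card_basis b], ?_⟩
  intro x
  rw [Algebra.norm_eq_matrix_det b', Algebra.norm_eq_matrix_det b, RingHom.map_det]
  congr 1
  ext i k
  rw [Algebra.leftMulMatrix_eq_repr_mul, RingHom.mapMatrix_apply, Matrix.map_apply,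
    Algebra.leftMulMatrix_eq_repr_mul]
  have hsum : j x * b' k = ∑ i, j' (b.repr (x * b k) i) • b' i := by
    rw [hb', ← map_mul]
    conv_lhs => rw [← b.sum_repr (x * b k)]
    rw [map_sum]
    refine Finset.sum_congr rfl fun i _ => ?_
    rw [hsmul, hb']
  rw [hsum, b'.repr_sum_self]

/-- The spanning hypothesis of `s35_norm_descent` from field generation. -/
theorem s35_span_of_adjoin [FiniteDimensional F' F] (j' : F' →+* E') (j : F →+* E)
    (hcomm : ∀ x : F', j (algebraMap F' F x) = algebraMap E' E (j' x))
    (hgen : IntermediateField.adjoin E' (Set.range j) = ⊤) :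
    Submodule.span E' (Set.range j) = ⊤ := by
  classical
  -- every `j x` is integral over `E'`
  have hint : ∀ y ∈ Set.range j, IsIntegral E' y := by
    rintro _ ⟨x, rfl⟩
    have hx : IsIntegral F' x := Algebra.IsIntegral.isIntegral x
    obtain ⟨p, hp, hpx⟩ := hx
    refine ⟨p.map j', hp.map j', ?_⟩
    rw [Polynomial.eval₂_map]
    have : (algebraMap E' E).comp j' = j.comp (algebraMap F' F) := by
      ext y; exact (hcomm y).symm
    rw [this, ← Polynomial.hom_eval₂, hpx, map_zero]
  have h1 : (IntermediateField.adjoin E' (Set.range j)).toSubalgebra =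
      Algebra.adjoin E' (Set.range j) :=
    IntermediateField.adjoin_toSubalgebra_of_isAlgebraic (fun y hy => (hint y hy).isAlgebraic)
  have h2 : Algebra.adjoin E' (Set.range j) = ⊤ := by
    rw [← h1, hgen]; rfl
  have h3 : Submodule.span E' (Set.range j) =
      Subalgebra.toSubmodule (Algebra.adjoin E' (Set.range j)) := by
    rw [Algebra.adjoin_eq_span]
    congr 1
    have : (Submonoid.closure (Set.range j) : Set E) = Set.range j := by
      have : (Set.range j : Set E) = ((MonoidHom.mrange (j : F →* E) : Submonoid E) : Set E) := rfl
      rw [this, Submonoid.closure_eq]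
    exact this.symm
  rw [h3, h2]
  rfl

/-- The norm commutes with compatible automorphisms of the two fields. -/
theorem s35_norm_map_equiv (σ' : F' ≃+* F') (σ : F ≃+* F)
    (hσ : ∀ y : F', σ (algebraMap F' F y) = algebraMap F' F (σ' y)) (x : F) :
    Algebra.norm F' (σ x) = σ' (Algebra.norm F' x) := by
  have he : RingHom.comp (algebraMap F' F) (σ' : F' →+* F') =
      RingHom.comp (σ : F →+* F) (algebraMap F' F) := by
    ext y
    exact (hσ y).symm
  have h := Algebra.norm_eq_of_equiv_equiv σ' σ he x
  rw [h, RingEquiv.apply_symm_apply]

end Descent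

end Fermat.Agent.S35
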