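import Mathlib

/-!
# S35, leaf (NR): the norm–residue lemma

Abstract setting (Mathlib only).  `F / F'` is a finite separable extension of degree `q + 1`
(`q` a prime), `V'` a discrete valuation ring of `F'` with uniformizer `ϖ` and residue
characteristic `q`, and `V∞`, `V0` are two discrete valuation rings of `F` with the same
uniformizer, such that `V∞ ∩ V0` is integral over `V'` and `V∞` has the same residue field as `V'`.

* `s35_nr_core` : pure commutative algebra.  `S` a finite free algebra of rank `q + 1` over a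
  local ring `R` of residue characteristic `q`, `P∞`, `P0` ideals of `S` with `P∞ · P0 ⊆ 𝔪 S`,
  `𝔪 S ⊆ P∞ ≠ S`, `S = R + P∞`.  If `h ≡ a` mod `P∞` and `h ^ q ≡ b` mod `P0` (`a b : R`), then
  `Nm h ≡ a * b` mod `𝔪`.
* `s35_norm_res` : the same for valuation subrings: `Nm_{F/F'} h ≡ a * b` mod `ϖ V'` whenever
  `h ∈ V∞ ∩ V0`, `a ≡ h` mod `ϖ V∞` and `b ≡ h ^ q` mod `ϖ V0` (`a b ∈ V'`).
* `s35_nr_frob` : the Frobenius form `Nm h ≡ h * φ (W h)` mod `ϖ V∞`, for a ring endomorphism `W`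
  with `V0 = W⁻¹ V∞` and a Frobenius lift `φ` satisfying `W (φ y) ≡ y ^ q` mod `ϖ V∞` on `V'`.

`s35_Unif ϖ V` is the elementary form of "`V` is a discrete valuation ring of `F` with
uniformizer `ϖ`" (same fields as `s34_Unif`).
-/

set_option autoImplicit false

namespace Fermat.Agent.S35

open IsLocalRing Module

section Core

variable {R S : Type*} [CommRing R] [CommRing S] [Algebra R S] [IsLocalRing R]
  [Module.Free R S] [Module.Finite R S]

attribute [local instance] Ideal.Quotient.field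

/-- The norm commutes with reduction modulo the maximal ideal (norm analogue of
`Algebra.trace_quotient_mk`). -/
theorem s35_norm_quotient_mk (x : S) :
    Algebra.norm (R ⧸ maximalIdeal R)
        (Ideal.Quotient.mk ((maximalIdeal R).map (algebraMap R S)) x) =
      Ideal.Quotient.mk (maximalIdeal R) (Algebra.norm R x) := by
  classical
  let ι := Module.Free.ChooseBasisIndex R S
  let b : Module.Basis ι R S := Module.Free.chooseBasis R S
  rw [Algebra.norm_eq_matrix_det b, Algebra.norm_eq_matrix_det (basisQuotient b),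
    RingHom.map_det]
  congr 1
  ext i j
  simp only [Algebra.leftMulMatrix_apply, Algebra.coe_lmul_eq_mul, LinearMap.toMatrix_apply,
    basisQuotient_apply, LinearMap.mul_apply', RingHom.mapMatrix_apply, Matrix.map_apply,
    ← map_mul, basisQuotient_repr]

theorem s35_nr_core (q : ℕ) (hq : q.Prime)
    (hchar : (q : R) ∈ maximalIdeal R) (hrank : Module.finrank R S = q + 1)
    (Pinf P0 : Ideal S)
    (hP : ∀ x ∈ Pinf, ∀ y ∈ P0, x * y ∈ (maximalIdeal R).map (algebraMap R S))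
    (hle : (maximalIdeal R).map (algebraMap R S) ≤ Pinf)
    (hone : (1 : S) ∉ Pinf)
    (hres : ∀ s : S, ∃ r : R, s - algebraMap R S r ∈ Pinf)
    (h : S) (a b : R) (ha : h - algebraMap R S a ∈ Pinf)
    (hb : h ^ q - algebraMap R S b ∈ P0) :
    Algebra.norm R h - a * b ∈ maximalIdeal R := by
  classical
  set p := maximalIdeal R with hp
  set pS := p.map (algebraMap R S) with hpS
  -- the residue field and the special fibre
  let k := R ⧸ p
  let M := S ⧸ pS
  let mkS : S →+* M := Ideal.Quotient.mk pS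
  let mkR : R →+* k := Ideal.Quotient.mk p
  have hmkalg : ∀ r : R, mkS (algebraMap R S r) = algebraMap k M (mkR r) := fun r => rfl
  -- the `k`-subspace `W = P∞ / 𝔪S`
  let W : Submodule k M := (Pinf.map mkS).restrictScalars k
  have hmemW : ∀ x : S, mkS x ∈ W ↔ x ∈ Pinf := by
    intro x
    show mkS x ∈ Pinf.map mkS ↔ x ∈ Pinf
    exact Ideal.mem_quotient_iff_mem hle
  -- multiplication by `h`
  let f : M →ₗ[k] M := Algebra.lmul k M (mkS h)
  have hfW : W ≤ W.comap f := by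
    intro m hm
    show mkS h * m ∈ Pinf.map mkS
    exact Ideal.mul_mem_left _ _ hm
  have hfin : Module.Finite k M := Module.Finite.of_restrictScalars_finite R _ _
  have hrankM : Module.finrank k M = q + 1 := by
    rw [← hrank]; exact finrank_quotient_map
  -- the quotient `M / W` is a line on which `h` acts as `a`
  have hquot1 : Module.finrank k (M ⧸ W) = 1 := by
    rw [finrank_eq_one_iff']
    refine ⟨W.mkQ (mkS 1), ?_, ?_⟩
    · intro h0
      rw [Submodule.mkQ_apply, Submodule.Quotient.mk_eq_zero] at h0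
      exact hone ((hmemW 1).mp h0)
    · intro w
      obtain ⟨m, rfl⟩ := W.mkQ_surjective w
      obtain ⟨s, rfl⟩ := Ideal.Quotient.mk_surjective m
      obtain ⟨r, hr⟩ := hres s
      refine ⟨mkR r, ?_⟩
      rw [← map_smul, ← sub_eq_zero, ← map_sub, Submodule.mkQ_apply,
        Submodule.Quotient.mk_eq_zero]
      have : mkR r • mkS 1 - mkS s = mkS (algebraMap R S r - s) := by
        rw [Algebra.smul_def, ← hmkalg, map_one, mul_one, map_sub]
      rw [this, hmemW]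
      have := Pinf.neg_mem hr
      rwa [neg_sub] at this
  have hmapQ : W.mapQ W f hfW = mkR a • LinearMap.id := by
    apply LinearMap.ext
    intro w
    obtain ⟨m, rfl⟩ := W.mkQ_surjective w
    obtain ⟨s, rfl⟩ := Ideal.Quotient.mk_surjective m
    rw [Submodule.mkQ_apply, Submodule.mapQ_apply, LinearMap.smul_apply, LinearMap.id_apply,
      ← Submodule.Quotient.mk_smul, ← sub_eq_zero, ← Submodule.Quotient.mk_sub,
      Submodule.Quotient.mk_eq_zero]
    have : f (mkS s) - mkR a • mkS s = mkS ((h - algebraMap R S a) * s) := by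
      show mkS h * mkS s - mkR a • mkS s = _
      rw [Algebra.smul_def, ← hmkalg, sub_mul, map_sub, map_mul, map_mul]
    rw [this, hmemW]
    exact Ideal.mul_mem_right _ _ ha
  have hdetQ : LinearMap.det (W.mapQ W f hfW) = mkR a := by
    rw [hmapQ, LinearMap.det_smul, hquot1, pow_one, LinearMap.det_id, mul_one]
  -- `W` has dimension `q`, and `h ^ q` acts on it as `b`
  have hrankW : Module.finrank k W = q := by
    have := Submodule.finrank_quotient_add_finrank W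
    omega
  have hfW' : ∀ x ∈ W, f x ∈ W := hfW
  have hpowW : (f.restrict hfW') ^ q = mkR b • LinearMap.id := by
    apply LinearMap.ext
    intro w
    apply Subtype.ext
    rw [Module.End.pow_restrict q, LinearMap.restrict_apply]
    obtain ⟨m, hm⟩ := w
    obtain ⟨x, rfl⟩ := Ideal.Quotient.mk_surjective m
    have hx : x ∈ Pinf := (hmemW x).mp hm
    show (f ^ q) (mkS x) = mkR b • mkS x
    have hfq : f ^ q = Algebra.lmul k M (mkS (h ^ q)) := by
      rw [map_pow, map_pow]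
    rw [hfq]
    show mkS (h ^ q) * mkS x = mkR b • mkS x
    rw [Algebra.smul_def, ← hmkalg, ← map_mul, ← map_mul, ← sub_eq_zero, ← map_sub]
    have : h ^ q * x - algebraMap R S b * x = x * (h ^ q - algebraMap R S b) := by ring
    rw [this]
    exact Ideal.Quotient.eq_zero_iff_mem.mpr (hP x hx _ hb)
  have hcharP : CharP k q := by
    rw [CharP.charP_iff_prime_eq_zero hq]
    have : ((q : R) : k) = 0 := Ideal.Quotient.eq_zero_iff_mem.mpr hchar
    simpa using this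
  have : Fact q.Prime := ⟨hq⟩
  have hdetW : LinearMap.det (f.restrict hfW') = mkR b := by
    apply frobenius_inj k q
    show LinearMap.det (f.restrict hfW') ^ q = mkR b ^ q
    rw [← map_pow, hpowW, LinearMap.det_smul, hrankW, LinearMap.det_id, mul_one]
  have hdet : LinearMap.det f = mkR b * mkR a := by
    rw [LinearMap.det_eq_det_mul_det W f hfW, hdetW, hdetQ]
  have hnorm : Algebra.norm k (mkS h) = mkR (Algebra.norm R h) := s35_norm_quotient_mk h
  rw [Algebra.norm_apply] at hnorm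
  have : mkR (Algebra.norm R h) = mkR (a * b) := by
    rw [← hnorm, map_mul, mul_comm]
    exact hdet
  exact Ideal.Quotient.eq.mp this

end Core

/-- Elementary form of "the subring `V` of the field `F` is a discrete valuation ring with
uniformizer `ϖ`" (the same three fields as `s34_Unif`). -/
structure s35_Unif {F : Type*} [Field F] (ϖ : F) (V : Subring F) : Prop where
  mem : ϖ ∈ V
  inv_not_mem : ϖ⁻¹ ∉ V
  decomp : ∀ x : F, x ≠ 0 → ∃ (j : ℤ) (u : F), u ∈ V ∧ u⁻¹ ∈ V ∧ x = ϖ ^ j * u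

namespace s35_Unif

variable {F : Type*} [Field F] {ϖ : F} {V : Subring F}

theorem ne_zero (hV : s35_Unif ϖ V) : ϖ ≠ 0 := by
  rintro rfl
  apply hV.inv_not_mem
  rw [inv_zero]; exact V.zero_mem

theorem zpow_mem (hV : s35_Unif ϖ V) {j : ℤ} (hj : 0 ≤ j) : ϖ ^ j ∈ V := by
  obtain ⟨k, rfl⟩ := Int.eq_ofNat_of_zero_le hj
  rw [zpow_natCast]; exact V.pow_mem hV.mem k

theorem zpow_not_mem (hV : s35_Unif ϖ V) {j : ℤ} (hj : j < 0) : ϖ ^ j ∉ V := by
  intro h
  apply hV.inv_not_mem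
  have h1 : ϖ ^ (-j - 1) ∈ V := hV.zpow_mem (by omega)
  have h2 := V.mul_mem h h1
  rw [← zpow_add₀ hV.ne_zero] at h2
  have e : j + (-j - 1) = -1 := by ring
  rwa [e, zpow_neg_one] at h2

theorem mem_iff (hV : s35_Unif ϖ V) {j : ℤ} {u : F} (hu0 : u ≠ 0) (hu : u ∈ V)
    (hu' : u⁻¹ ∈ V) : ϖ ^ j * u ∈ V ↔ 0 ≤ j := by
  constructor
  · intro h
    by_contra hj
    apply hV.zpow_not_mem (not_le.mp hj)
    have e : ϖ ^ j = ϖ ^ j * u * u⁻¹ := by field_simp
    rw [e]; exact V.mul_mem h hu'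
  · intro hj
    exact V.mul_mem (hV.zpow_mem hj) hu

/-- `V` is a valuation ring of `F`. -/
theorem mem_or_inv_mem (hV : s35_Unif ϖ V) (x : F) : x ∈ V ∨ x⁻¹ ∈ V := by
  by_cases hx : x = 0
  · left; rw [hx]; exact V.zero_mem
  obtain ⟨j, u, hu, hu', rfl⟩ := hV.decomp x hx
  have hu0 : u ≠ 0 := by rintro rfl; simp at hx
  rcases le_or_gt 0 j with hj | hj
  · left; exact (hV.mem_iff hu0 hu hu').mpr hj
  · right
    have e : (ϖ ^ j * u)⁻¹ = ϖ ^ (-j) * u⁻¹ := by
      rw [mul_inv, zpow_neg]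
    rw [e]
    exact V.mul_mem (hV.zpow_mem (by omega)) hu'

/-- A nonzero element of `V` is divisible by `ϖ` or a unit. -/
theorem dvd_or_inv_mem (hV : s35_Unif ϖ V) {x : F} (hx : x ∈ V) (hx0 : x ≠ 0) :
    ϖ⁻¹ * x ∈ V ∨ x⁻¹ ∈ V := by
  obtain ⟨j, u, hu, hu', rfl⟩ := hV.decomp x hx0
  have hu0 : u ≠ 0 := by rintro rfl; simp at hx0
  have hj := (hV.mem_iff hu0 hu hu').mp hx
  rcases eq_or_lt_of_le hj with hj0 | hj1
  · right
    rw [← hj0, zpow_zero, one_mul]; exact hu'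
  · left
    have e : ϖ⁻¹ * (ϖ ^ j * u) = ϖ ^ (j - 1) * u := by
      rw [zpow_sub₀ hV.ne_zero, zpow_one]; field_simp [hV.ne_zero]
    rw [e]
    exact (hV.mem_iff hu0 hu hu').mpr (by omega)

theorem isUnit_of_inv_mem {x : V} (hx0 : (x : F) ≠ 0) (hx : (x : F)⁻¹ ∈ V) : IsUnit x :=
  IsUnit.of_mul_eq_one (⟨(x : F)⁻¹, hx⟩ : V) (Subtype.ext (mul_inv_cancel₀ hx0))

theorem inv_mem_of_isUnit {x : V} (hx : IsUnit x) : (x : F)⁻¹ ∈ V := by
  obtain ⟨y, hy⟩ := hx.exists_right_inv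
  have h1 : (x : F) * (y : F) = 1 := congrArg Subtype.val hy
  have h2 : (x : F)⁻¹ = (y : F) := inv_eq_of_mul_eq_one_right h1
  rw [h2]; exact y.2

theorem irreducible (hV : s35_Unif ϖ V) : Irreducible (⟨ϖ, hV.mem⟩ : V) := by
  rw [irreducible_iff]
  constructor
  · intro hu
    exact hV.inv_not_mem (inv_mem_of_isUnit hu)
  · intro a b hab
    have hab' : ϖ = (a : F) * (b : F) := congrArg Subtype.val hab
    have ha0 : (a : F) ≠ 0 := by
      intro h0; rw [h0, zero_mul] at hab'; exact hV.ne_zero hab'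
    have hb0 : (b : F) ≠ 0 := by
      intro h0; rw [h0, mul_zero] at hab'; exact hV.ne_zero hab'
    rcases hV.dvd_or_inv_mem a.2 ha0 with ha | ha
    · rcases hV.dvd_or_inv_mem b.2 hb0 with hb | hb
      · exfalso
        apply hV.inv_not_mem
        have e : ϖ⁻¹ = ϖ⁻¹ * (a : F) * (ϖ⁻¹ * (b : F)) := by
          have : ϖ⁻¹ * (a : F) * (ϖ⁻¹ * (b : F)) = ϖ⁻¹ * ϖ⁻¹ * ((a : F) * (b : F)) := by ring
          rw [this, ← hab']
          field_simp [hV.ne_zero]
        rw [e]; exact V.mul_mem ha hb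
      · right; exact isUnit_of_inv_mem hb0 hb
    · left; exact isUnit_of_inv_mem ha0 ha

theorem isDVR (hV : s35_Unif ϖ V) : IsDiscreteValuationRing V := by
  apply IsDiscreteValuationRing.ofHasUnitMulPowIrreducibleFactorization
  refine ⟨⟨ϖ, hV.mem⟩, hV.irreducible, ?_⟩
  intro x hx
  have hx0 : (x : F) ≠ 0 := fun h => hx (Subtype.ext h)
  obtain ⟨j, u, hu, hu', hxu⟩ := hV.decomp x hx0
  have hu0 : u ≠ 0 := by rintro rfl; rw [mul_zero] at hxu; exact hx0 hxu
  have hj : 0 ≤ j := (hV.mem_iff hu0 hu hu').mp (hxu ▸ x.2)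
  obtain ⟨n, rfl⟩ := Int.eq_ofNat_of_zero_le hj
  refine ⟨n, ?_⟩
  have hunit : IsUnit (⟨u, hu⟩ : V) := isUnit_of_inv_mem (x := ⟨u, hu⟩) hu0 hu'
  refine ⟨hunit.unit, Subtype.ext ?_⟩
  rw [hxu, zpow_natCast]
  rfl

/-- Membership in the maximal ideal. -/
theorem mem_maximalIdeal (hV : s35_Unif ϖ V) [IsLocalRing V] (x : V) :
    x ∈ maximalIdeal V ↔ ϖ⁻¹ * (x : F) ∈ V := by
  have := hV.isDVR
  rw [hV.irreducible.maximalIdeal_eq, Ideal.mem_span_singleton']
  constructor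
  · rintro ⟨c, rfl⟩
    have e : ϖ⁻¹ * ((c * ⟨ϖ, hV.mem⟩ : V) : F) = (c : F) := by
      show ϖ⁻¹ * ((c : F) * ϖ) = (c : F)
      field_simp [hV.ne_zero]
    rw [e]; exact c.2
  · intro h
    refine ⟨⟨ϖ⁻¹ * (x : F), h⟩, Subtype.ext ?_⟩
    show ϖ⁻¹ * (x : F) * ϖ = (x : F)
    field_simp [hV.ne_zero]

theorem isFractionRing (hV : s35_Unif ϖ V) : IsFractionRing V F where
  map_units := by
    rintro ⟨y, hy⟩
    have hy0 : y ≠ 0 := nonZeroDivisors.ne_zero hy
    exact IsUnit.mk0 _ (fun h => hy0 (Subtype.ext h))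
  surj := by
    intro z
    by_cases hz : z = 0
    · exact ⟨(0, 1), by simp [hz]⟩
    obtain ⟨j, u, hu, hu', rfl⟩ := hV.decomp z hz
    have hu0 : u ≠ 0 := by rintro rfl; simp at hz
    rcases le_or_gt 0 j with hj | hj
    · refine ⟨(⟨ϖ ^ j * u, (hV.mem_iff hu0 hu hu').mpr hj⟩, 1), ?_⟩
      show ϖ ^ j * u * (1 : F) = ϖ ^ j * u
      rw [mul_one]
    · have hmem : ϖ ^ (-j) ∈ V := hV.zpow_mem (by omega)
      have hne : (⟨ϖ ^ (-j), hmem⟩ : V) ≠ 0 := by
        intro h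
        exact zpow_ne_zero _ hV.ne_zero (congrArg Subtype.val h)
      refine ⟨(⟨u, hu⟩, ⟨⟨ϖ ^ (-j), hmem⟩, mem_nonZeroDivisors_of_ne_zero hne⟩), ?_⟩
      show ϖ ^ j * u * ϖ ^ (-j) = u
      rw [zpow_neg]
      field_simp [hV.ne_zero]
  exists_of_eq := by
    intro x y hxy
    exact ⟨1, by rw [Subtype.ext hxy]⟩

/-- `V` is integrally closed in `F`. -/
theorem mem_of_isIntegralElem {R : Type*} [CommRing R] (hV : s35_Unif ϖ V) (g : R →+* F)
    (hg : ∀ r, g r ∈ V) {x : F} (hx : g.IsIntegralElem x) : x ∈ V := by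
  let Vv : ValuationSubring F := ⟨V, hV.mem_or_inv_mem⟩
  obtain ⟨p, hp, hpx⟩ := hx
  let g' : R →+* Vv := g.codRestrict Vv.toSubring hg
  have hint : IsIntegral Vv x := by
    refine ⟨p.map g', hp.map g', ?_⟩
    rw [Polynomial.eval₂_map]
    exact hpx
  obtain ⟨y, rfl⟩ := IsIntegrallyClosed.isIntegral_iff.mp hint
  exact y.2

end s35_Unif

section Main

variable {F' F : Type*} [Field F'] [Field F] [Algebra F' F]

theorem s35_norm_res [FiniteDimensional F' F] [Algebra.IsSeparable F' F]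
    (q : ℕ) (hq : q.Prime) (hdeg : Module.finrank F' F = q + 1)
    (ϖ : F') (V' : Subring F') (Vinf V0 : Subring F)
    (hV' : s35_Unif ϖ V')
    (hVinf : s35_Unif (algebraMap F' F ϖ) Vinf) (hV0 : s35_Unif (algebraMap F' F ϖ) V0)
    (hqϖ : ϖ⁻¹ * (q : F') ∈ V')
    (hle_inf : ∀ x ∈ V', algebraMap F' F x ∈ Vinf)
    (hle_0 : ∀ x ∈ V', algebraMap F' F x ∈ V0)
    (hint : ∀ x : F, x ∈ Vinf → x ∈ V0 →
      ((algebraMap F' F).comp V'.subtype).IsIntegralElem x)
    (hres : ∀ y ∈ Vinf, ∃ y' ∈ V', (algebraMap F' F ϖ)⁻¹ * (y - algebraMap F' F y') ∈ Vinf)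
    {h : F} (hhinf : h ∈ Vinf) (hh0 : h ∈ V0) {a b : F'} (ha : a ∈ V') (hb : b ∈ V')
    (hainf : (algebraMap F' F ϖ)⁻¹ * (h - algebraMap F' F a) ∈ Vinf)
    (hb0 : (algebraMap F' F ϖ)⁻¹ * (h ^ q - algebraMap F' F b) ∈ V0) :
    ϖ⁻¹ * (Algebra.norm F' h - a * b) ∈ V' := by
  classical
  have hϖ0 : ϖ ≠ 0 := hV'.ne_zero
  have hϖF0 : algebraMap F' F ϖ ≠ 0 := hVinf.ne_zero
  have hdvr : IsDiscreteValuationRing V' := hV'.isDVR
  have hfrac : IsFractionRing V' F' := hV'.isFractionRing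
  have halg : algebraMap V' F = (algebraMap F' F).comp V'.subtype := rfl
  have : IsScalarTower V' F' F := IsScalarTower.of_algebraMap_eq (fun x => rfl)
  let S : Subalgebra V' F := integralClosure V' F
  have hmemS : ∀ x : F, x ∈ S ↔ x ∈ Vinf ∧ x ∈ V0 := by
    intro x
    constructor
    · intro hx
      exact ⟨hVinf.mem_of_isIntegralElem (algebraMap V' F) (fun r => hle_inf _ r.2) hx,
        hV0.mem_of_isIntegralElem (algebraMap V' F) (fun r => hle_0 _ r.2) hx⟩
    · rintro ⟨h1, h2⟩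
      exact hint x h1 h2
  have hfin : Module.Finite V' S := IsIntegralClosure.finite V' F' F S
  have hfree : Module.Free V' S := IsIntegralClosure.module_free V' F' F S
  have hrank : Module.finrank V' S = q + 1 := by
    rw [IsIntegralClosure.rank V' F' F S, hdeg]
  have hloc : IsLocalization (Algebra.algebraMapSubmonoid S (nonZeroDivisors V')) F :=
    IsIntegralClosure.isLocalization V' F' F S
  -- the two ideals of `S`
  let Pinf : Ideal S :=
    { carrier := {s | (algebraMap F' F ϖ)⁻¹ * (s : F) ∈ Vinf}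
      add_mem' := fun {x y} hx hy => by
        show (algebraMap F' F ϖ)⁻¹ * ((x : F) + (y : F)) ∈ Vinf
        rw [mul_add]; exact Vinf.add_mem hx hy
      zero_mem' := by
        show (algebraMap F' F ϖ)⁻¹ * (0 : F) ∈ Vinf
        rw [mul_zero]; exact Vinf.zero_mem
      smul_mem' := fun c x hx => by
        show (algebraMap F' F ϖ)⁻¹ * ((c : F) * (x : F)) ∈ Vinf
        rw [mul_left_comm]; exact Vinf.mul_mem ((hmemS c).mp c.2).1 hx }
  let P0 : Ideal S :=
    { carrier := {s | (algebraMap F' F ϖ)⁻¹ * (s : F) ∈ V0}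
      add_mem' := fun {x y} hx hy => by
        show (algebraMap F' F ϖ)⁻¹ * ((x : F) + (y : F)) ∈ V0
        rw [mul_add]; exact V0.add_mem hx hy
      zero_mem' := by
        show (algebraMap F' F ϖ)⁻¹ * (0 : F) ∈ V0
        rw [mul_zero]; exact V0.zero_mem
      smul_mem' := fun c x hx => by
        show (algebraMap F' F ϖ)⁻¹ * ((c : F) * (x : F)) ∈ V0
        rw [mul_left_comm]; exact V0.mul_mem ((hmemS c).mp c.2).2 hx }
  have hmemPinf : ∀ s : S, s ∈ Pinf ↔ (algebraMap F' F ϖ)⁻¹ * (s : F) ∈ Vinf := fun s => Iff.rfl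
  have hmemP0 : ∀ s : S, s ∈ P0 ↔ (algebraMap F' F ϖ)⁻¹ * (s : F) ∈ V0 := fun s => Iff.rfl
  -- the uniformizer as an element of `V'`
  let π : V' := ⟨ϖ, hV'.mem⟩
  have hπ : π ∈ maximalIdeal V' := by
    rw [hV'.mem_maximalIdeal]
    show ϖ⁻¹ * ϖ ∈ V'
    rw [inv_mul_cancel₀ hϖ0]; exact V'.one_mem
  have hchar : ((q : ℕ) : V') ∈ maximalIdeal V' := by
    rw [hV'.mem_maximalIdeal]
    exact hqϖ
  have hP : ∀ x ∈ Pinf, ∀ y ∈ P0, x * y ∈ (maximalIdeal V').map (algebraMap V' S) := by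
    intro x hx y hy
    have h1 : (algebraMap F' F ϖ)⁻¹ * ((x : F) * (y : F)) ∈ Vinf := by
      rw [← mul_assoc]; exact Vinf.mul_mem hx ((hmemS y).mp y.2).1
    have h2 : (algebraMap F' F ϖ)⁻¹ * ((x : F) * (y : F)) ∈ V0 := by
      rw [mul_left_comm]; exact V0.mul_mem ((hmemS x).mp x.2).2 hy
    let z : S := ⟨(algebraMap F' F ϖ)⁻¹ * ((x : F) * (y : F)), (hmemS _).mpr ⟨h1, h2⟩⟩
    have hxy : x * y = algebraMap V' S π * z := by
      apply Subtype.ext
      show (x : F) * (y : F) = algebraMap F' F ϖ * ((algebraMap F' F ϖ)⁻¹ * ((x : F) * (y : F)))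
      rw [mul_inv_cancel_left₀ hϖF0]
    rw [hxy]
    exact Ideal.mul_mem_right _ _ (Ideal.mem_map_of_mem _ hπ)
  have hle : (maximalIdeal V').map (algebraMap V' S) ≤ Pinf := by
    rw [Ideal.map_le_iff_le_comap]
    intro r hr
    rw [hV'.mem_maximalIdeal] at hr
    show (algebraMap F' F ϖ)⁻¹ * algebraMap F' F (r : F') ∈ Vinf
    have e : (algebraMap F' F ϖ)⁻¹ * algebraMap F' F (r : F') =
        algebraMap F' F (ϖ⁻¹ * (r : F')) := by
      rw [map_mul, map_inv₀]
    rw [e]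
    exact hle_inf _ hr
  have hone : (1 : S) ∉ Pinf := by
    intro h1
    apply hVinf.inv_not_mem
    have : (algebraMap F' F ϖ)⁻¹ * (1 : F) ∈ Vinf := h1
    rwa [mul_one] at this
  have hres' : ∀ s : S, ∃ r : V', s - algebraMap V' S r ∈ Pinf := by
    intro s
    obtain ⟨y', hy', hy⟩ := hres (s : F) ((hmemS s).mp s.2).1
    exact ⟨⟨y', hy'⟩, hy⟩
  let hS : S := ⟨h, (hmemS h).mpr ⟨hhinf, hh0⟩⟩
  have hcore := s35_nr_core (R := V') (S := S) q hq hchar hrank Pinf P0 hP hle hone hres'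
    hS ⟨a, ha⟩ ⟨b, hb⟩ hainf hb0
  rw [hV'.mem_maximalIdeal] at hcore
  have hnorm : Algebra.norm F' h = ((Algebra.norm V' hS : V') : F') :=
    Algebra.norm_localization V' (nonZeroDivisors V') hS
  rw [hnorm]
  exact hcore

/-- Congruences modulo `c⁻¹ V` are stable under powers. -/
theorem s35_pow_congr (V : Subring F) (c : F) {x y : F} (hx : x ∈ V) (hy : y ∈ V)
    (hxy : c * (x - y) ∈ V) (n : ℕ) : c * (x ^ n - y ^ n) ∈ V := by
  rw [← geom_sum₂_mul x y n, mul_left_comm]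
  exact V.mul_mem (V.sum_mem fun i _ => V.mul_mem (V.pow_mem hx _) (V.pow_mem hy _)) hxy

/-- Frobenius form of the norm–residue lemma: `Nm h ≡ h · φ (W h)` modulo `ϖ V∞`, for `W` swapping
the two valuation rings and `φ` a Frobenius lift satisfying the Frobenius congruence
`W (φ y) ≡ y ^ q` on `V'`. -/
theorem s35_nr_frob [FiniteDimensional F' F] [Algebra.IsSeparable F' F]
    (q : ℕ) (hq : q.Prime) (hdeg : Module.finrank F' F = q + 1)
    (ϖ : F') (V' : Subring F') (Vinf V0 : Subring F)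
    (hV' : s35_Unif ϖ V')
    (hVinf : s35_Unif (algebraMap F' F ϖ) Vinf) (hV0 : s35_Unif (algebraMap F' F ϖ) V0)
    (hqϖ : ϖ⁻¹ * (q : F') ∈ V')
    (hle_inf : ∀ x ∈ V', algebraMap F' F x ∈ Vinf)
    (hle_0 : ∀ x ∈ V', algebraMap F' F x ∈ V0)
    (hint : ∀ x : F, x ∈ Vinf → x ∈ V0 →
      ((algebraMap F' F).comp V'.subtype).IsIntegralElem x)
    (hres : ∀ y ∈ Vinf, ∃ y' ∈ V', (algebraMap F' F ϖ)⁻¹ * (y - algebraMap F' F y') ∈ Vinf)
    (W φ : F →+* F)
    (hW0 : ∀ x : F, x ∈ V0 ↔ W x ∈ Vinf) (hWϖ : W (algebraMap F' F ϖ) = algebraMap F' F ϖ)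
    (hφinf : ∀ x ∈ Vinf, φ x ∈ Vinf)
    (hφϖ : (algebraMap F' F ϖ)⁻¹ * φ (algebraMap F' F ϖ) ∈ Vinf)
    (φ' : F' →+* F') (hφ' : ∀ y : F', φ (algebraMap F' F y) = algebraMap F' F (φ' y))
    (hφ'V : ∀ y ∈ V', φ' y ∈ V')
    (hFC : ∀ y ∈ V', (algebraMap F' F ϖ)⁻¹ *
      (W (φ (algebraMap F' F y)) - algebraMap F' F y ^ q) ∈ Vinf)
    {h : F} (hhinf : h ∈ Vinf) (hh0 : h ∈ V0) :
    (algebraMap F' F ϖ)⁻¹ * (algebraMap F' F (Algebra.norm F' h) - h * φ (W h)) ∈ Vinf := by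
  have hϖF0 : algebraMap F' F ϖ ≠ 0 := hVinf.ne_zero
  -- `a ≡ h` at infinity
  obtain ⟨a, ha, hainf⟩ := hres h hhinf
  -- `y' ≡ W h` at infinity
  have hWh : W h ∈ Vinf := (hW0 h).mp hh0
  obtain ⟨y', hy', hy'inf⟩ := hres (W h) hWh
  have hy'mem : algebraMap F' F y' ∈ Vinf := hle_inf _ hy'
  -- `b := φ' y'`
  have hb : φ' y' ∈ V' := hφ'V y' hy'
  have hpow : (algebraMap F' F ϖ)⁻¹ * (W h ^ q - algebraMap F' F y' ^ q) ∈ Vinf :=
    s35_pow_congr Vinf _ hWh hy'mem hy'inf q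
  have hb0 : (algebraMap F' F ϖ)⁻¹ * (h ^ q - algebraMap F' F (φ' y')) ∈ V0 := by
    rw [hW0, map_mul, map_inv₀, hWϖ, map_sub, map_pow, ← hφ']
    have e : (algebraMap F' F ϖ)⁻¹ * (W h ^ q - W (φ (algebraMap F' F y'))) =
        (algebraMap F' F ϖ)⁻¹ * (W h ^ q - algebraMap F' F y' ^ q) -
          (algebraMap F' F ϖ)⁻¹ * (W (φ (algebraMap F' F y')) - algebraMap F' F y' ^ q) := by
      ring
    rw [e]
    exact Vinf.sub_mem hpow (hFC y' hy')
  have hNR := s35_norm_res q hq hdeg ϖ V' Vinf V0 hV' hVinf hV0 hqϖ hle_inf hle_0 hint hres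
    hhinf hh0 ha hb hainf hb0
  have hNR' : (algebraMap F' F ϖ)⁻¹ * (algebraMap F' F (Algebra.norm F' h) -
      algebraMap F' F a * φ (algebraMap F' F y')) ∈ Vinf := by
    have := hle_inf _ hNR
    rwa [map_mul, map_inv₀, map_sub, map_mul, ← hφ'] at this
  -- `φ (W h) ≡ φ y'`
  have hφdiff : (algebraMap F' F ϖ)⁻¹ * (φ (W h) - φ (algebraMap F' F y')) ∈ Vinf := by
    have e : φ (W h) - φ (algebraMap F' F y') =
        φ (algebraMap F' F ϖ) * φ ((algebraMap F' F ϖ)⁻¹ * (W h - algebraMap F' F y')) := by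
      rw [← map_sub, ← map_mul, mul_inv_cancel_left₀ hϖF0]
    rw [e, ← mul_assoc]
    exact Vinf.mul_mem hφϖ (hφinf _ hy'inf)
  have e : (algebraMap F' F ϖ)⁻¹ * (algebraMap F' F (Algebra.norm F' h) - h * φ (W h)) =
      (algebraMap F' F ϖ)⁻¹ * (algebraMap F' F (Algebra.norm F' h) -
        algebraMap F' F a * φ (algebraMap F' F y')) -
      ((algebraMap F' F ϖ)⁻¹ * (h - algebraMap F' F a)) * φ (W h) -
      algebraMap F' F a * ((algebraMap F' F ϖ)⁻¹ * (φ (W h) - φ (algebraMap F' F y'))) := by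
    ring
  rw [e]
  exact Vinf.sub_mem (Vinf.sub_mem hNR' (Vinf.mul_mem hainf (hφinf _ hWh)))
    (Vinf.mul_mem (hle_inf _ ha) hφdiff)

end Main

end Fermat.Agent.S35
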