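import Mathlib
import Fermat.Agent.S35.NormRes
import Fermat.Agent.S35.NormDescent

/-!
# S35: the norm along a field embedding, and the two-field form of the norm–residue lemma

`ι : F'' →+* F` a field embedding (the degeneracy map `α` in the application).

* `s35_nmAlong ι : F → F` : `h ↦ ι (Nm_{F / ι F''} h)`, with `s35_nmAlong_mul`,
  `s35_nmAlong_equiv` (compatibility with automorphisms), `s35_nmAlong_eq`.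
* `s35_nr_two` : two-field form of `s35_nr_frob`:
  `(ι ϖ'')⁻¹ * (s35_nmAlong ι h - h * φ (W h)) ∈ V₁` for `h ∈ V₁ ⊓ V₂`.
* `s35_nr_two_equiv` : the same for ring automorphisms `W`, `σ`, literally in the shape of the
  hypothesis `hNR` of `s35_fa_of_norm`.
-/

set_option autoImplicit false

namespace Fermat.Agent.S35

section Along

variable {F'' F : Type*} [Field F''] [Field F]

/-- The norm along a field embedding `ι : F'' →+* F`, as a map `F → F`. -/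
noncomputable def s35_nmAlong (ι : F'' →+* F) (h : F) : F :=
  letI := ι.toAlgebra
  ι (Algebra.norm F'' h)

theorem s35_nmAlong_eq (ι : F'' →+* F) (h : F) :
    s35_nmAlong ι h = ι (@Algebra.norm F'' F _ _ ι.toAlgebra h) := rfl

theorem s35_nmAlong_mul (ι : F'' →+* F) (x y : F) :
    s35_nmAlong ι (x * y) = s35_nmAlong ι x * s35_nmAlong ι y := by
  let _ : Algebra F'' F := ι.toAlgebra
  show ι (Algebra.norm F'' (x * y)) = ι (Algebra.norm F'' x) * ι (Algebra.norm F'' y)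
  rw [map_mul, map_mul]

theorem s35_nmAlong_one (ι : F'' →+* F) : s35_nmAlong ι 1 = 1 := by
  let _ : Algebra F'' F := ι.toAlgebra
  show ι (Algebra.norm F'' (1 : F)) = 1
  rw [map_one, map_one]

/-- The norm along `ι` commutes with a pair of compatible automorphisms. -/
theorem s35_nmAlong_equiv (ι : F'' →+* F) (σ'' : F'' ≃+* F'') (σ : F ≃+* F)
    (hσ : ∀ y : F'', σ (ι y) = ι (σ'' y)) (x : F) :
    s35_nmAlong ι (σ x) = σ (s35_nmAlong ι x) := by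
  let _ : Algebra F'' F := ι.toAlgebra
  show ι (Algebra.norm F'' (σ x)) = σ (ι (Algebra.norm F'' x))
  rw [s35_norm_map_equiv σ'' σ hσ x, hσ]

/-- Two-field form of the Frobenius form of the norm–residue lemma. -/
theorem s35_nr_two [CharZero F''] (ι : F'' →+* F) (q : ℕ) (hq : q.Prime)
    (hfin : letI := ι.toAlgebra; Module.Finite F'' F ∧ Module.finrank F'' F = q + 1)
    {ϖ'' : F''} {V' : Subring F''} (hV' : s35_Unif ϖ'' V')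
    {V₁ V₂ : Subring F} (hV₁ : s35_Unif (ι ϖ'') V₁) (hV₂ : s35_Unif (ι ϖ'') V₂)
    (hqϖ : ϖ''⁻¹ * (q : F'') ∈ V')
    (hι₁ : ∀ x ∈ V', ι x ∈ V₁) (hι₂ : ∀ x ∈ V', ι x ∈ V₂)
    (hint : ∀ y ∈ V₁, y ∈ V₂ →
      ∃ P : Polynomial V', P.Monic ∧ P.eval₂ (ι.comp V'.subtype) y = 0)
    (hres : ∀ y ∈ V₁, ∃ y' ∈ V', (ι ϖ'')⁻¹ * (y - ι y') ∈ V₁)
    (W φ : F →+* F)
    (hW0 : ∀ x : F, x ∈ V₂ ↔ W x ∈ V₁) (hWϖ : W (ι ϖ'') = ι ϖ'')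
    (hφ₁ : ∀ x ∈ V₁, φ x ∈ V₁) (hφϖ : (ι ϖ'')⁻¹ * φ (ι ϖ'') ∈ V₁)
    (φ'' : F'' →+* F'') (hφ'' : ∀ y : F'', φ (ι y) = ι (φ'' y))
    (hφ''V : ∀ y ∈ V', φ'' y ∈ V')
    (hFC : ∀ y ∈ V', (ι ϖ'')⁻¹ * (W (φ (ι y)) - ι y ^ q) ∈ V₁)
    {h : F} (hh₁ : h ∈ V₁) (hh₂ : h ∈ V₂) :
    (ι ϖ'')⁻¹ * (s35_nmAlong ι h - h * φ (W h)) ∈ V₁ := by
  let _ : Algebra F'' F := ι.toAlgebra
  obtain ⟨hfd, hdeg⟩ := hfin
  have : FiniteDimensional F'' F := hfd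
  exact s35_nr_frob (F' := F'') (F := F) q hq hdeg ϖ'' V' V₁ V₂ hV' hV₁ hV₂ hqϖ hι₁ hι₂
    (fun y h1 h2 => hint y h1 h2) hres W φ hW0 hWϖ hφ₁ hφϖ φ'' hφ'' hφ''V hFC hh₁ hh₂

/-- `s35_nr_two` for ring automorphisms, in the shape of the hypothesis `hNR` of
`s35_fa_of_norm`. -/
theorem s35_nr_two_equiv [CharZero F''] (ι : F'' →+* F) (q : ℕ) (hq : q.Prime)
    (hfin : letI := ι.toAlgebra; Module.Finite F'' F ∧ Module.finrank F'' F = q + 1)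
    {ϖ'' : F''} {V' : Subring F''} (hV' : s35_Unif ϖ'' V')
    {V₁ V₂ : Subring F} (hV₁ : s35_Unif (ι ϖ'') V₁) (hV₂ : s35_Unif (ι ϖ'') V₂)
    (hqϖ : ϖ''⁻¹ * (q : F'') ∈ V')
    (hι₁ : ∀ x ∈ V', ι x ∈ V₁) (hι₂ : ∀ x ∈ V', ι x ∈ V₂)
    (hint : ∀ y ∈ V₁, y ∈ V₂ →
      ∃ P : Polynomial V', P.Monic ∧ P.eval₂ (ι.comp V'.subtype) y = 0)
    (hres : ∀ y ∈ V₁, ∃ y' ∈ V', (ι ϖ'')⁻¹ * (y - ι y') ∈ V₁)
    (W σ : F ≃+* F)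
    (hW0 : ∀ x : F, x ∈ V₂ ↔ W x ∈ V₁) (hWϖ : W (ι ϖ'') = ι ϖ'')
    (hσ₁ : ∀ x ∈ V₁, σ x ∈ V₁) (hσϖ : (ι ϖ'')⁻¹ * σ (ι ϖ'') ∈ V₁)
    (σ'' : F'' ≃+* F'') (hσ'' : ∀ y : F'', σ (ι y) = ι (σ'' y))
    (hσ''V : ∀ y ∈ V', σ'' y ∈ V')
    (hFC : ∀ y ∈ V', (ι ϖ'')⁻¹ * (W (σ (ι y)) - ι y ^ q) ∈ V₁) :
    ∀ h : F, h ≠ 0 → h ∈ V₁ → h⁻¹ ∈ V₁ → h ∈ V₂ → h⁻¹ ∈ V₂ →
      (ι ϖ'')⁻¹ * (s35_nmAlong ι h - h * σ (W h)) ∈ V₁ :=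
  fun _ _ hh₁ _ hh₂ _ =>
    s35_nr_two ι q hq hfin hV' hV₁ hV₂ hqϖ hι₁ hι₂ hint hres (W : F →+* F) (σ : F →+* F)
      hW0 hWϖ hσ₁ hσϖ (σ'' : F'' →+* F'') hσ'' hσ''V hFC hh₁ hh₂

end Along

end Fermat.Agent.S35
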