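import Mathlib
import Fermat.Agent.S18.UnramMod
import Fermat.Agent.S34.DegK
import Fermat.Agent.S37.EsDeg
import Fermat.Agent.S29.KapHeckeAlg
import Fermat.Agent.S35.NormAlong

/-!
# S35, leaf (ND): the norm along `α` over a field of constants `K ⊆ Q̄`

`K` any field with `[Algebra ℚ K] [Algebra K Q̄]`, `N`, `ℓ` a prime not dividing `N`,
`α_K = heckeAlphaBar K N ℓ : K · F(N) → K · F(N ℓ)`.

* `s35_nm_comm` : extension of constants commutes with `α`.
* `s35_nm_gen`, `s35_nm_span` : `Q̄ · F(N ℓ)` is generated (spanned) over `Q̄ · F(N)` by the image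
  of `K · F(N ℓ)`.
* `s35_nm_finrank` : `K · F(N ℓ)` is finite of degree EXACTLY `ℓ + 1` over `K · F(N)`.
* `s35_nm_descent` : the norm along `α` over `Q̄` of an element defined over `K` is the extension
  of constants of its norm over `K`.
* `s35_nm_nmAlong` : the same for `s35_nmAlong` (norms viewed in the upper field).
-/

set_option autoImplicit false
set_option linter.style.haveILetI false

open ModularCurve AlgebraicCurve

noncomputable section

namespace Fermat.Agent.S35

open Fermat.Agent.S18 Fermat.Agent.S34 Fermat.Agent.S37 Fermat.Agent.S29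

local notation "Qb" => AlgebraicClosure ℚ

section Model

variable (K : Type*) [Field K] [Algebra ℚ K] [Algebra K Qb]
variable (N ℓ : ℕ) [NeZero N] [NeZero ℓ]

/-- Extension of constants commutes with the degeneracy map `α`. -/
theorem s35_nm_comm (x : laurentBaseChange K (modularFunctionFieldFull N)) :
    s18_baseIncl K (N * ℓ) (heckeAlphaBar K N ℓ x) =
      heckeAlphaBar Qb N ℓ (s18_baseIncl K N x) := by
  apply Subtype.ext
  rw [s18_baseIncl_coe, coe_heckeAlphaBar, coe_heckeAlphaBar, s18_baseIncl_coe]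

/-- `Q̄ · F(N ℓ)` is generated over `α (Q̄ · F(N))` by the image of `K · F(N ℓ)`. -/
theorem s35_nm_gen :
    letI := algebraAlong (heckeAlphaBar Qb N ℓ)
    IntermediateField.adjoin (modularFunctionFieldBar N)
      (Set.range (s18_baseIncl K (N * ℓ))) = ⊤ := by
  letI := algebraAlong (heckeAlphaBar Qb N ℓ)
  rw [eq_top_iff]
  rintro ⟨y, hy⟩ -
  set T := IntermediateField.adjoin (modularFunctionFieldBar N)
    (Set.range (s18_baseIncl K (N * ℓ))) with hT
  let S : Subfield (LaurentSeries Qb) :=
    T.toSubfield.map (modularFunctionFieldBar (N * ℓ)).val.toRingHom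
  have hle : Subfield.closure (Set.range (algebraMap Qb (LaurentSeries Qb)) ∪
      (⇑(coeffEmb Qb) '' (modularFunctionFieldFull (N * ℓ) : Set (LaurentSeries ℚ)))) ≤ S := by
    rw [Subfield.closure_le]
    rintro x (⟨c, rfl⟩ | ⟨z, hz, rfl⟩)
    · exact ⟨algebraMap (modularFunctionFieldBar N) (modularFunctionFieldBar (N * ℓ))
        (algebraMap Qb (modularFunctionFieldBar N) c), T.algebraMap_mem _, rfl⟩
    · refine ⟨s18_baseIncl K (N * ℓ) ⟨coeffEmb K z, coeffEmb_mem_laurentBaseChange K hz⟩,
        IntermediateField.subset_adjoin _ _ ⟨_, rfl⟩, ?_⟩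
      exact s18_coeffMap_coeffEmb_bar K z
  obtain ⟨t, ht, hty⟩ := hle (mem_laurentBaseChange_iff.mp hy)
  have htt : t = ⟨y, hy⟩ := Subtype.ext hty
  rw [← htt]
  exact ht

section Exact

variable (hℓ : ℓ.Prime) (hℓN : ¬ ℓ ∣ N)
include hℓ hℓN

/-- `K · F(N ℓ)` is finite over `α (K · F(N))`, of degree at most `ℓ + 1` (helper lemma: (DEG) for
the algebra structure given by `heckeAlphaBar`). -/
theorem s35_nm_finite_le :
    letI := (heckeAlphaBar K N ℓ).toRingHom.toAlgebra
    Module.Finite (laurentBaseChange K (modularFunctionFieldFull N))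
        (laurentBaseChange K (modularFunctionFieldFull (N * ℓ))) ∧
      Module.finrank (laurentBaseChange K (modularFunctionFieldFull N))
        (laurentBaseChange K (modularFunctionFieldFull (N * ℓ))) ≤ ℓ + 1 :=
  s34_dg_incl K N ℓ hℓ hℓN

/-- The degree of `α` over `Q̄`, in `finrank` form. -/
theorem s35_nm_finrank_bar :
    letI := algebraAlong (heckeAlphaBar Qb N ℓ)
    Module.finrank (modularFunctionFieldBar N) (modularFunctionFieldBar (N * ℓ)) = ℓ + 1 :=
  (s37_es_finrank_alpha N ℓ hℓ hℓN).2

/-- `Q̄ · F(N ℓ)` is spanned over `α (Q̄ · F(N))` by the image of `K · F(N ℓ)`. -/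
theorem s35_nm_span :
    letI := algebraAlong (heckeAlphaBar Qb N ℓ)
    Submodule.span (modularFunctionFieldBar N) (Set.range (s18_baseIncl K (N * ℓ))) = ⊤ := by
  letI := algebraAlong (heckeAlphaBar Qb N ℓ)
  letI := (heckeAlphaBar K N ℓ).toRingHom.toAlgebra
  haveI : FiniteDimensional (laurentBaseChange K (modularFunctionFieldFull N))
      (laurentBaseChange K (modularFunctionFieldFull (N * ℓ))) :=
    (s35_nm_finite_le K N ℓ hℓ hℓN).1
  exact s35_span_of_adjoin (s18_baseIncl K N) (s18_baseIncl K (N * ℓ))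
    (fun x => s35_nm_comm K N ℓ x) (s35_nm_gen K N ℓ)

/-- **Exact degree**: `K · F(N ℓ)` is finite of degree `ℓ + 1` over `α (K · F(N))`. -/
theorem s35_nm_finrank :
    letI := (heckeAlphaBar K N ℓ).toRingHom.toAlgebra
    Module.Finite (laurentBaseChange K (modularFunctionFieldFull N))
        (laurentBaseChange K (modularFunctionFieldFull (N * ℓ))) ∧
      Module.finrank (laurentBaseChange K (modularFunctionFieldFull N))
        (laurentBaseChange K (modularFunctionFieldFull (N * ℓ))) = ℓ + 1 := by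
  letI := algebraAlong (heckeAlphaBar Qb N ℓ)
  letI := (heckeAlphaBar K N ℓ).toRingHom.toAlgebra
  obtain ⟨hfd, hle⟩ := s35_nm_finite_le K N ℓ hℓ hℓN
  haveI : FiniteDimensional (laurentBaseChange K (modularFunctionFieldFull N))
      (laurentBaseChange K (modularFunctionFieldFull (N * ℓ))) := hfd
  have hbar := s35_nm_finrank_bar N ℓ hℓ hℓN
  have h := (s35_norm_descent (s18_baseIncl K N) (s18_baseIncl K (N * ℓ))
    (fun x => s35_nm_comm K N ℓ x) (s35_nm_span K N ℓ hℓ hℓN) (by rw [hbar]; exact hle)).1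
  exact ⟨hfd, by rw [← h, hbar]⟩

/-- **Norm descent**: the norm along `α` over `Q̄` of an element defined over `K` is the extension
of constants of its norm over `K`. -/
theorem s35_nm_descent (x : laurentBaseChange K (modularFunctionFieldFull (N * ℓ))) :
    s29_kh_normAlong (heckeAlphaBar Qb N ℓ) (s18_baseIncl K (N * ℓ) x) =
      s18_baseIncl K N
        (@Algebra.norm (laurentBaseChange K (modularFunctionFieldFull N))
          (laurentBaseChange K (modularFunctionFieldFull (N * ℓ))) _ _
          (heckeAlphaBar K N ℓ).toRingHom.toAlgebra x) := by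
  letI := algebraAlong (heckeAlphaBar Qb N ℓ)
  letI := (heckeAlphaBar K N ℓ).toRingHom.toAlgebra
  obtain ⟨hfd, hle⟩ := s35_nm_finite_le K N ℓ hℓ hℓN
  haveI : FiniteDimensional (laurentBaseChange K (modularFunctionFieldFull N))
      (laurentBaseChange K (modularFunctionFieldFull (N * ℓ))) := hfd
  have hbar := s35_nm_finrank_bar N ℓ hℓ hℓN
  exact (s35_norm_descent (s18_baseIncl K N) (s18_baseIncl K (N * ℓ))
    (fun x => s35_nm_comm K N ℓ x) (s35_nm_span K N ℓ hℓ hℓN) (by rw [hbar]; exact hle)).2 x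

/-- Norm descent for `s35_nmAlong` (norms viewed in the upper field). -/
theorem s35_nm_nmAlong (x : laurentBaseChange K (modularFunctionFieldFull (N * ℓ))) :
    heckeAlphaBar Qb N ℓ
        (s29_kh_normAlong (heckeAlphaBar Qb N ℓ) (s18_baseIncl K (N * ℓ) x)) =
      s18_baseIncl K (N * ℓ) (s35_nmAlong (heckeAlphaBar K N ℓ).toRingHom x) := by
  rw [s35_nm_descent K N ℓ hℓ hℓN x, ← s35_nm_comm]
  rfl

end Exact

end Model

end Fermat.Agent.S35
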