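import Fermat.Agent.S34.RatPt
import Fermat.Agent.S34.SwapBar
import Fermat.Agent.S37.EsDeg
import Fermat.Agent.S29.KapHeckeAlg
import Fermat.Agent.S35.NormModel

/-!
# S35 (NODE-2), leaf (K1): choice of the number field and descent of the norm relations

Input of the hub `s35_FPow N l`: a function `g ≠ 0` of `Q̄ · F(N l)`, a swap `W` of `Q̄ · F(N l)`
(exchanging `α` and `β`) and the two norm relations
`Nm_α g = c · f ^ m`, `Nm_α (W g) = c' · f' ^ m` (`c, c' ∈ Q̄`, `f, f' ∈ Q̄ · F(N)`).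

* `s35_ck_consts` : finitely many constants lie in a common finite Galois extension of `ℚ`.
* `s35_ck_def` : an element of `Q̄ · F(N)` is defined over every sufficiently large `K₁`.
* `s35_ck_rel` : descent of ONE norm relation along the extension of constants
  `K₁ · F(N l) → Q̄ · F(N l)` (injectivity of `s18_baseIncl` + `s35_nm_descent`).
* `s35_ck_push` : a norm relation over `K₁ · F(N)` pushed into `K₁ · F(N l)` along `α`, in terms
  of `s35_nmAlong` (the shape `Nm g = c₁ * f₁ ^ m` of `s35_fa_of_norm`).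
* `s35_ck_main` : there is a finite Galois `K₀ / ℚ` containing a prescribed finite set of
  constants such that for every `K₁ ⊇ K₀`: every place in the support of `div g` is fixed by
  `Gal(Q̄ / K₁)` (NODE-1's requirement, `s34_rp_exists`), `g = s18_baseIncl g₁`, and for every
  swap `W₁` of `K₁ · F(N l)` both norm relations hold over `K₁`:
  `Nm g₁ = c₁ · f₁ ^ m`, `Nm (W₁ g₁) = c₂ · f₂ ^ m` with `c_i ∈ K₁ˣ`, `f_i ∈ (K₁ · F(N))ˣ`,
  and `s18_baseIncl (W₁ g₁) = W g`.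
* `s35_ck_main_nmAlong` : the same with the relations inside `F = K₁ · F(N l)`
  (`s35_nmAlong α g₁ = c₁ * (α f₁) ^ m`, ...).
-/

set_option autoImplicit false
set_option synthInstance.maxHeartbeats 400000

open AlgebraicCurve ModularCurve
open Fermat.Agent.S18 Fermat.Agent.S29 Fermat.Agent.S34 Fermat.Agent.S37

noncomputable section

namespace Fermat.Agent.S35

local notation "Qb" => AlgebraicClosure ℚ

/-- Finitely many constants lie in a common finite Galois extension of `ℚ`. -/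
theorem s35_ck_consts (S : Finset Qb) :
    ∃ K₀ : IntermediateField ℚ Qb, s18_d1_IsGaloisNF K₀ ∧ ∀ a ∈ S, a ∈ K₀ := by
  classical
  induction S using Finset.induction_on with
  | empty =>
      obtain ⟨K₁, hK₁, -⟩ := s18_d1_exists_galois 0
      exact ⟨K₁, hK₁, fun x hx => absurd hx (Finset.notMem_empty x)⟩
  | insert a S _ ih =>
      obtain ⟨K₁, hK₁, h₁⟩ := ih
      obtain ⟨K₂, hK₂, h₂⟩ := s18_d1_exists_galois a
      refine ⟨K₁ ⊔ K₂, hK₁.sup hK₂, fun x hx => ?_⟩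
      rcases Finset.mem_insert.mp hx with rfl | hx
      · exact (le_sup_right : K₂ ≤ K₁ ⊔ K₂) h₂
      · exact (le_sup_left : K₁ ≤ K₁ ⊔ K₂) (h₁ x hx)

/-- An element of `Q̄ · F(N)` is defined over every sufficiently large number field. -/
theorem s35_ck_def (N : ℕ) [NeZero N] (f : modularFunctionFieldBar N) :
    ∃ K₀ : IntermediateField ℚ Qb, s18_d1_IsGaloisNF K₀ ∧
      ∀ K₁ : IntermediateField ℚ Qb, K₀ ≤ K₁ → ∃ f₁ : s18_F1 K₁ N, s18_baseIncl K₁ N f₁ = f := by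
  obtain ⟨K₀, hK₀, hdef⟩ := s18_d1_exists (F₀ := modularFunctionFieldFull N)
    (f : LaurentSeries Qb) f.2
  refine ⟨K₀, hK₀, fun K₁ hK₁ => ?_⟩
  obtain ⟨y, hy, hyf⟩ := hdef.mono hK₁
  exact ⟨⟨y, hy⟩, Subtype.ext hyf⟩

/-- The extension of constants is injective. -/
theorem s35_ck_baseIncl_injective (K₁ : IntermediateField ℚ Qb) (N : ℕ) [NeZero N] :
    Function.Injective (s18_baseIncl K₁ N) :=
  (s18_baseIncl K₁ N).injective

set_option maxHeartbeats 1000000 in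
/-- Descent of one norm relation: if `Nm_α (baseIncl x) = c · f ^ m` over `Q̄` with `c` and `f`
defined over `K₁`, then `Nm x = c₁ · f₁ ^ m` over `K₁`. -/
theorem s35_ck_rel (N l : ℕ) [NeZero N] [NeZero l] (hl : l.Prime) (hlN : ¬ l ∣ N)
    (K₁ : IntermediateField ℚ Qb) (m : ℕ) (x : s18_F1 K₁ (N * l)) (c₁ : K₁) (f₁ : s18_F1 K₁ N)
    (h : s29_kh_normAlong (heckeAlphaBar Qb N l) (s18_baseIncl K₁ (N * l) x) =
      algebraMap Qb (modularFunctionFieldBar N) (algebraMap K₁ Qb c₁) *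
        s18_baseIncl K₁ N f₁ ^ m) :
    s29_kh_normAlong (heckeAlphaBar K₁ N l) x = algebraMap K₁ (s18_F1 K₁ N) c₁ * f₁ ^ m := by
  apply s35_ck_baseIncl_injective K₁ N
  have e2 : s18_baseIncl K₁ N (algebraMap K₁ (s18_F1 K₁ N) c₁ * f₁ ^ m) =
      algebraMap Qb (modularFunctionFieldBar N) (algebraMap K₁ Qb c₁) *
        s18_baseIncl K₁ N f₁ ^ m := by
    rw [map_mul, map_pow, s18_baseIncl_algebraMap]
  have hND : s29_kh_normAlong (heckeAlphaBar Qb N l) (s18_baseIncl K₁ (N * l) x) =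
      s18_baseIncl K₁ N (s29_kh_normAlong (heckeAlphaBar K₁ N l) x) :=
    s35_nm_descent K₁ N l hl hlN x
  exact (hND.symm.trans h).trans e2.symm

set_option maxHeartbeats 1000000 in
/-- A norm relation over `K₁ · F(N)` pushed into `K₁ · F(N l)` along `α` (`s35_nmAlong` form). -/
theorem s35_ck_push (N l : ℕ) [NeZero N] [NeZero l] (K₁ : IntermediateField ℚ Qb) (m : ℕ)
    (x : s18_F1 K₁ (N * l)) (c₁ : K₁) (f₁ : s18_F1 K₁ N)
    (h : s29_kh_normAlong (heckeAlphaBar K₁ N l) x = algebraMap K₁ (s18_F1 K₁ N) c₁ * f₁ ^ m) :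
    s35_nmAlong (heckeAlphaBar K₁ N l).toRingHom x =
      algebraMap K₁ (s18_F1 K₁ (N * l)) c₁ * (heckeAlphaBar K₁ N l f₁) ^ m := by
  have e : s35_nmAlong (heckeAlphaBar K₁ N l).toRingHom x =
      heckeAlphaBar K₁ N l (s29_kh_normAlong (heckeAlphaBar K₁ N l) x) := rfl
  rw [e, h, map_mul, map_pow, AlgHom.commutes]

set_option maxHeartbeats 2000000 in
/-- **(K1) Choice of the number field and descent of both norm relations.** -/
theorem s35_ck_main (N l : ℕ) [NeZero N] [NeZero l] (hl : l.Prime) (hlN : ¬ l ∣ N)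
    (W : modularFunctionFieldBar (N * l) ≃ₐ[Qb] modularFunctionFieldBar (N * l))
    (hWα : ∀ x, W (heckeAlphaBar Qb N l x) = heckeBetaBar Qb N l x)
    (hWβ : ∀ x, W (heckeBetaBar Qb N l x) = heckeAlphaBar Qb N l x)
    (m : ℕ) (hm : 0 < m) (g : modularFunctionFieldBar (N * l)) (hg : g ≠ 0)
    (h₁ : ∃ (c : Qb) (f : modularFunctionFieldBar N),
      s29_kh_normAlong (heckeAlphaBar Qb N l) g =
        algebraMap Qb (modularFunctionFieldBar N) c * f ^ m)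
    (h₂ : ∃ (c : Qb) (f : modularFunctionFieldBar N),
      s29_kh_normAlong (heckeAlphaBar Qb N l) (W g) =
        algebraMap Qb (modularFunctionFieldBar N) c * f ^ m)
    (S : Finset Qb) :
    ∃ K₀ : IntermediateField ℚ Qb, s18_d1_IsGaloisNF K₀ ∧ (∀ a ∈ S, a ∈ K₀) ∧
      ∀ K₁ : IntermediateField ℚ Qb, K₀ ≤ K₁ →
        (∀ P : Place Qb (modularFunctionFieldBar (N * l)), P.ord g ≠ 0 →
          ∀ σ : Qb ≃ₐ[ℚ] Qb, (∀ c ∈ K₁, σ c = c) →
            arithmeticGalois (modularFunctionFieldFull (N * l)) σ • P = P) ∧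
        ∃ g₁ : s18_F1 K₁ (N * l), s18_baseIncl K₁ (N * l) g₁ = g ∧ g₁ ≠ 0 ∧
          ∀ W₁ : s18_F1 K₁ (N * l) ≃ₐ[K₁] s18_F1 K₁ (N * l),
            (∀ x, W₁ (heckeAlphaBar K₁ N l x) = heckeBetaBar K₁ N l x) →
            (∀ x, W₁ (heckeBetaBar K₁ N l x) = heckeAlphaBar K₁ N l x) →
            s18_baseIncl K₁ (N * l) (W₁ g₁) = W g ∧
            ∃ (c₁ c₂ : K₁) (f₁ f₂ : s18_F1 K₁ N), c₁ ≠ 0 ∧ c₂ ≠ 0 ∧ f₁ ≠ 0 ∧ f₂ ≠ 0 ∧
              s29_kh_normAlong (heckeAlphaBar K₁ N l) g₁ =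
                algebraMap K₁ (s18_F1 K₁ N) c₁ * f₁ ^ m ∧
              s29_kh_normAlong (heckeAlphaBar K₁ N l) (W₁ g₁) =
                algebraMap K₁ (s18_F1 K₁ N) c₂ * f₂ ^ m := by
  classical
  obtain ⟨c, f, hcf⟩ := h₁
  obtain ⟨c', f', hcf'⟩ := h₂
  have hfin := (s37_es_finrank_alpha N l hl hlN).1
  have hWg : W g ≠ 0 := (map_ne_zero W).mpr hg
  -- nonvanishing of the data
  have hN1 : s29_kh_normAlong (heckeAlphaBar Qb N l) g ≠ 0 := s29_kh_normAlong_ne_zero _ hfin hg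
  have hN2 : s29_kh_normAlong (heckeAlphaBar Qb N l) (W g) ≠ 0 :=
    s29_kh_normAlong_ne_zero _ hfin hWg
  have hc0 : c ≠ 0 := by
    rintro rfl
    apply hN1
    rw [hcf, map_zero, zero_mul]
  have hf0 : f ≠ 0 := by
    rintro rfl
    apply hN1
    rw [hcf, zero_pow hm.ne', mul_zero]
  have hc'0 : c' ≠ 0 := by
    rintro rfl
    apply hN2
    rw [hcf', map_zero, zero_mul]
  have hf'0 : f' ≠ 0 := by
    rintro rfl
    apply hN2
    rw [hcf', zero_pow hm.ne', mul_zero]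
  -- the fields
  obtain ⟨Kg, hKg, hg1⟩ := s34_rp_exists (N * l) g hg
  obtain ⟨Kf, hKf, hf1⟩ := s35_ck_def N f
  obtain ⟨Kf', hKf', hf'1⟩ := s35_ck_def N f'
  obtain ⟨Kc, hKc, hc1⟩ := s35_ck_consts (insert c (insert c' S))
  refine ⟨Kg ⊔ Kf ⊔ Kf' ⊔ Kc, ((hKg.sup hKf).sup hKf').sup hKc, fun a ha => ?_,
    fun K₁ hK₁ => ?_⟩
  · exact (le_sup_right : Kc ≤ Kg ⊔ Kf ⊔ Kf' ⊔ Kc)
      (hc1 a (Finset.mem_insert_of_mem (Finset.mem_insert_of_mem ha)))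
  have hKg' : Kg ≤ K₁ := le_trans (le_trans (le_trans le_sup_left le_sup_left) le_sup_left) hK₁
  have hKf1 : Kf ≤ K₁ := le_trans (le_trans (le_trans le_sup_right le_sup_left) le_sup_left) hK₁
  have hKf'1 : Kf' ≤ K₁ := le_trans (le_trans le_sup_right le_sup_left) hK₁
  have hKc1 : Kc ≤ K₁ := le_trans le_sup_right hK₁
  obtain ⟨⟨g₁, hg₁⟩, hfix⟩ := hg1 K₁ hKg'
  obtain ⟨f₁, hf₁⟩ := hf1 K₁ hKf1
  obtain ⟨f₂, hf₂⟩ := hf'1 K₁ hKf'1
  have hcK : c ∈ K₁ := hKc1 (hc1 c (Finset.mem_insert_self _ _))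
  have hc'K : c' ∈ K₁ :=
    hKc1 (hc1 c' (Finset.mem_insert_of_mem (Finset.mem_insert_self _ _)))
  have hg₁0 : g₁ ≠ 0 := by
    rintro rfl
    apply hg
    rw [← hg₁, map_zero]
  refine ⟨hfix, g₁, hg₁, hg₁0, fun W₁ hW₁α hW₁β => ?_⟩
  have hWg₁ : s18_baseIncl K₁ (N * l) (W₁ g₁) = W g := by
    rw [s34_sw_baseIncl_swap N l hl W₁ hW₁α hW₁β W hWα hWβ g₁, hg₁]
  refine ⟨hWg₁, ⟨c, hcK⟩, ⟨c', hc'K⟩, f₁, f₂, ?_, ?_, ?_, ?_, ?_, ?_⟩
  · intro h0
    exact hc0 (congrArg Subtype.val h0)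
  · intro h0
    exact hc'0 (congrArg Subtype.val h0)
  · rintro rfl
    apply hf0
    rw [← hf₁, map_zero]
  · rintro rfl
    apply hf'0
    rw [← hf₂, map_zero]
  · apply s35_ck_rel N l hl hlN K₁ m g₁ ⟨c, hcK⟩ f₁
    rw [hg₁, hf₁, hcf]
    rfl
  · apply s35_ck_rel N l hl hlN K₁ m (W₁ g₁) ⟨c', hc'K⟩ f₂
    rw [hWg₁, hf₂, hcf']
    rfl

set_option maxHeartbeats 2000000 in
/-- **(K1), `s35_nmAlong` form**: the two norm relations inside `F = K₁ · F(N l)`, in the shape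
consumed by `s35_fa_of_norm` (`Nm := s35_nmAlong α`). -/
theorem s35_ck_main_nmAlong (N l : ℕ) [NeZero N] [NeZero l] (hl : l.Prime) (hlN : ¬ l ∣ N)
    (W : modularFunctionFieldBar (N * l) ≃ₐ[Qb] modularFunctionFieldBar (N * l))
    (hWα : ∀ x, W (heckeAlphaBar Qb N l x) = heckeBetaBar Qb N l x)
    (hWβ : ∀ x, W (heckeBetaBar Qb N l x) = heckeAlphaBar Qb N l x)
    (m : ℕ) (hm : 0 < m) (g : modularFunctionFieldBar (N * l)) (hg : g ≠ 0)
    (h₁ : ∃ (c : Qb) (f : modularFunctionFieldBar N),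
      s29_kh_normAlong (heckeAlphaBar Qb N l) g =
        algebraMap Qb (modularFunctionFieldBar N) c * f ^ m)
    (h₂ : ∃ (c : Qb) (f : modularFunctionFieldBar N),
      s29_kh_normAlong (heckeAlphaBar Qb N l) (W g) =
        algebraMap Qb (modularFunctionFieldBar N) c * f ^ m)
    (S : Finset Qb) :
    ∃ K₀ : IntermediateField ℚ Qb, s18_d1_IsGaloisNF K₀ ∧ (∀ a ∈ S, a ∈ K₀) ∧
      ∀ K₁ : IntermediateField ℚ Qb, K₀ ≤ K₁ →
        (∀ P : Place Qb (modularFunctionFieldBar (N * l)), P.ord g ≠ 0 →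
          ∀ σ : Qb ≃ₐ[ℚ] Qb, (∀ c ∈ K₁, σ c = c) →
            arithmeticGalois (modularFunctionFieldFull (N * l)) σ • P = P) ∧
        ∃ g₁ : s18_F1 K₁ (N * l), s18_baseIncl K₁ (N * l) g₁ = g ∧ g₁ ≠ 0 ∧
          ∀ W₁ : s18_F1 K₁ (N * l) ≃ₐ[K₁] s18_F1 K₁ (N * l),
            (∀ x, W₁ (heckeAlphaBar K₁ N l x) = heckeBetaBar K₁ N l x) →
            (∀ x, W₁ (heckeBetaBar K₁ N l x) = heckeAlphaBar K₁ N l x) →
            s18_baseIncl K₁ (N * l) (W₁ g₁) = W g ∧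
            ∃ (c₁ c₂ : K₁) (f₁ f₂ : s18_F1 K₁ N), c₁ ≠ 0 ∧ c₂ ≠ 0 ∧ f₁ ≠ 0 ∧ f₂ ≠ 0 ∧
              s35_nmAlong (heckeAlphaBar K₁ N l).toRingHom g₁ =
                algebraMap K₁ (s18_F1 K₁ (N * l)) c₁ * (heckeAlphaBar K₁ N l f₁) ^ m ∧
              s35_nmAlong (heckeAlphaBar K₁ N l).toRingHom (W₁ g₁) =
                algebraMap K₁ (s18_F1 K₁ (N * l)) c₂ * (heckeAlphaBar K₁ N l f₂) ^ m := by
  obtain ⟨K₀, hK₀, hS, h⟩ := s35_ck_main N l hl hlN W hWα hWβ m hm g hg h₁ h₂ S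
  refine ⟨K₀, hK₀, hS, fun K₁ hK₁ => ?_⟩
  obtain ⟨hfix, g₁, hg₁, hg₁0, hrel⟩ := h K₁ hK₁
  refine ⟨hfix, g₁, hg₁, hg₁0, fun W₁ hW₁α hW₁β => ?_⟩
  obtain ⟨hWg, c₁, c₂, f₁, f₂, hc₁, hc₂, hf₁, hf₂, e₁, e₂⟩ := hrel W₁ hW₁α hW₁β
  exact ⟨hWg, c₁, c₂, f₁, f₂, hc₁, hc₂, hf₁, hf₂, s35_ck_push N l K₁ m g₁ c₁ f₁ e₁,
    s35_ck_push N l K₁ m (W₁ g₁) c₂ f₂ e₂⟩

end Fermat.Agent.S35
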