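import Fermat.Agent.S29.KapHeckeAlg
import Fermat.Prelude.Def_ModularCurve_ArithmeticGalois
import Fermat.Prelude.Def_ModularCurve_HeckeOperator
import Fermat.Prelude.Def_FLTPrelim_Ramification

/-!
# S35: the interface statement (F'-pow)

* `s35_fp_mul σ rs g` : the multiplicative analogue of `∏_{r ∈ rs} (σ - r)` applied to a function
  `g`: the fold of `y ↦ σ y / y ^ r`.  (It is a Kummer function of `∏ (σ - r) x` when `g` is a
  Kummer function of `x`.)
* `s35_FPow N l` : **(F'-pow)** at level `N * l`.  Let `γ` be a Frobenius lift at the prime `l`,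
  `m` prime to `l`, `W` the Atkin–Lehner swap of `Q̄ · F(N l)`.  If all orders of `g ≠ 0` are
  divisible by `m` and the norms of `g` and of `W g` to level `N` (along the inclusion) are
  constants times `m`-th powers, then `(γ - l)(γ + l)(γ - 1)(γ + 1)(γ - 1)(γ + 1) g`
  (multiplicatively) is an `m`-th power in `Q̄ · F(N l)`.
-/

set_option autoImplicit false

open ModularCurve AlgebraicCurve

noncomputable section

namespace Fermat.Agent.S35

open Fermat.Agent.S29

local notation "Qb" => AlgebraicClosure ℚ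
local notation "Γ" => (AlgebraicClosure ℚ ≃ₐ[ℚ] AlgebraicClosure ℚ)

/-- The multiplicative analogue of `∏_{r ∈ rs} (σ - r)`: the fold of `y ↦ σ y / y ^ r`. -/
def s35_fp_mul {K F : Type*} [Field K] [Field F] [Algebra K F] (σ : SemilinearAut K F)
    (rs : List ℤ) (g : F) : F :=
  rs.foldr (fun (r : ℤ) (y : F) => (σ • y) / y ^ r) g

theorem s35_fp_mul_nil {K F : Type*} [Field K] [Field F] [Algebra K F] (σ : SemilinearAut K F)
    (g : F) : s35_fp_mul σ [] g = g := rfl

theorem s35_fp_mul_cons {K F : Type*} [Field K] [Field F] [Algebra K F] (σ : SemilinearAut K F)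
    (r : ℤ) (rs : List ℤ) (g : F) :
    s35_fp_mul σ (r :: rs) g = (σ • s35_fp_mul σ rs g) / s35_fp_mul σ rs g ^ r := rfl

/-- **(F'-pow)** at level `N * l`. -/
def s35_FPow (N l : ℕ) [NeZero N] [NeZero l] : Prop :=
  ∀ P : ValuationSubring Qb, P.LiesOverPrime l → ∀ γ : Γ, P.IsFrobeniusAt γ l →
  ∀ m : ℕ, 0 < m → ¬ l ∣ m →
  ∀ W : modularFunctionFieldBar (N * l) ≃ₐ[Qb] modularFunctionFieldBar (N * l),
    (∀ x, W (heckeAlphaBar Qb N l x) = heckeBetaBar Qb N l x) →
    (∀ x, W (heckeBetaBar Qb N l x) = heckeAlphaBar Qb N l x) →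
  ∀ g : modularFunctionFieldBar (N * l), g ≠ 0 →
    (∀ v : Place Qb (modularFunctionFieldBar (N * l)), (m : ℤ) ∣ v.ord g) →
    (∃ (c : Qb) (f : modularFunctionFieldBar N),
      s29_kh_normAlong (heckeAlphaBar Qb N l) g
        = algebraMap Qb (modularFunctionFieldBar N) c * f ^ m) →
    (∃ (c : Qb) (f : modularFunctionFieldBar N),
      s29_kh_normAlong (heckeAlphaBar Qb N l) (W g)
        = algebraMap Qb (modularFunctionFieldBar N) c * f ^ m) →
    ∃ h : modularFunctionFieldBar (N * l),
      h ^ m = s35_fp_mul (arithmeticGalois (modularFunctionFieldFull (N * l)) γ)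
        [(l : ℤ), -(l : ℤ), 1, -1, 1, -1] g

end Fermat.Agent.S35
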