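import Mathlib
import Fermat.Agent.S34.GaussTau
import Fermat.Agent.S34.GaussLevel
import Fermat.Agent.S34.FrobChart
import Fermat.Agent.S34.TauModel
import Fermat.Agent.S34.NodeTauW
import Fermat.Agent.S18.ChConc

/-!
# S35 (NODE-2), leaf (SIG): the coefficientwise action of a Frobenius lift on the model

Generic part.  `K` a field of characteristic zero, `A₁` a discrete valuation ring of `K` with
uniformizer `π` and residue characteristic `ℓ`, `σ : K ≃ₐ[ℚ] K` with `σ A₁ ⊆ A₁` which is a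
**Frobenius lift**: `σ a - a ^ ℓ ∈ A₁.nonunits` for `a ∈ A₁`; `σ₁` its coefficientwise action on
`K · F_M` (`arithmeticRingAut`).

* series level (`s18_W`, the coefficientwise Gauss ring of `K((q))`):
  `s35_sg_red_sigma` (`red (σ x) = Frob_coeff (red x)`), `s35_sg_frob_W`
  (`x(q^ℓ)^σ - x^ℓ ∈ π W`, the `σ`-twisted Frobenius congruence);
* model level (`F' = K · F_N`, `F = K · F_(N ℓ)`, `α`, `β` the degeneracy maps,
  `V' = s34_gi_V A₁ N`, `V∞ = s34_gi_V A₁ (N ℓ)`):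
  `s35_sg_alpha_sigma`, `s35_sg_beta_sigma` (`σ₁` commutes with `α`, `β`),
  `s35_sg_frob_beta` (`π⁻¹ (β (σ₁ y) - (α y)^ℓ) ∈ V∞` for `y ∈ V'`),
  `s35_sg_hFC` (the hypothesis `hFC` of `s35_nr_frob`), `s35_sg_hφϖ`;
* constants: `s35_sg_C A₁ M` (the image of `A₁` in `K · F_M`), `s35_sg_C_le_V`,
  `s35_sg_C_sigma`, `s35_sg_C_frob2` (`π⁻¹ (σ₁ (σ₁ c) - c ^ (ℓ^2)) ∈ C`), `s35_sg_C_swap`,
  `s35_sg_C_T1` (`σ₁ c / c ∈ C` for every non-zero constant `c ∈ K`);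
* the second Gauss ring `V0 = V∞.comap W`: `s35_sg_sigma_V0`, `s35_sg_C_le_V0`, `s35_sg_hφϖ_V0`.

Abstract part: `s35_sg_S3` — **Frobenius at a crossing point**: in the setting of the
transversality lemma (`s34_fc_hres`, `s34_n3_transversal`), a ring endomorphism `s` fixing the
rational chart, preserving `B`, mapping `Pinf` into `𝔪` and congruent to `x ↦ x^(q²)` on the
constants satisfies `s b - b ^ (q²) ∈ 𝔪` for all `b ∈ B`.

Concrete part: `K = K₁ ⊆ Q̄` normal over `ℚ`, `A₁ = A ∩ K₁`, `γ` a Frobenius element at `A`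
(`A.IsFrobeniusAt γ ℓ`), `σ = γ|K₁`: `s35_sg_frob_smul`, `s35_sg_restrict_mem`,
`s35_sg_restrict_frob` (the hypotheses `hσ`, `hfr` of the generic part), `s35_sg_charP`.
-/

set_option autoImplicit false
set_option linter.unusedSectionVars false
set_option linter.style.haveILetI false
set_option synthInstance.maxHeartbeats 400000

open ModularCurve

open scoped Pointwise

noncomputable section

namespace Fermat.Agent.S35

open Fermat.Agent.S18 Fermat.Agent.S34 Fermat.Agent.S37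

section Series

variable {K : Type*} [Field K] [Algebra ℚ K] {A₁ : ValuationSubring K}
variable (ℓ : ℕ) [Fact ℓ.Prime] [CharP (IsLocalRing.ResidueField A₁) ℓ]

/-- The Frobenius-lift condition on the residue field. -/
theorem s35_sg_res_comp (σ : K ≃ₐ[ℚ] K) (hσ : ∀ a : K, a ∈ A₁ → σ a ∈ A₁)
    (hfr : ∀ a : K, a ∈ A₁ → σ a - a ^ ℓ ∈ A₁.nonunits) :
    (frobenius (IsLocalRing.ResidueField A₁) ℓ).comp (IsLocalRing.residue A₁) =
      (IsLocalRing.residue A₁).comp (s34_gi_resAut σ hσ) := by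
  ext a
  rw [RingHom.comp_apply, RingHom.comp_apply, frobenius_def, ← map_pow, eq_comm, ← sub_eq_zero,
    ← map_sub, IsLocalRing.residue_eq_zero_iff, ← ValuationSubring.coe_mem_nonunits_iff]
  exact hfr a a.2

/-- The coefficientwise action of a Frobenius lift preserves the coefficientwise Gauss ring. -/
theorem s35_sg_W_sigma (σ : K ≃ₐ[ℚ] K) (hσ : ∀ a : K, a ∈ A₁ → σ a ∈ A₁)
    (hfr : ∀ a : K, a ∈ A₁ → σ a - a ^ ℓ ∈ A₁.nonunits) {x : LaurentSeries K}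
    (hx : x ∈ s18_W A₁.subtype (IsLocalRing.residue A₁)) :
    coeffMap (σ : K →+* K) x ∈ s18_W A₁.subtype (IsLocalRing.residue A₁) :=
  s18_W_map (s34_gi_resAut σ hσ) (σ : K →+* K) (frobenius (IsLocalRing.ResidueField A₁) ℓ)
    (s34_gi_resAut_comp σ hσ).symm (s35_sg_res_comp ℓ σ hσ hfr) hx

/-- **Reduction of the coefficientwise action of a Frobenius lift** is the coefficientwise
Frobenius. -/
theorem s35_sg_red_sigma (σ : K ≃ₐ[ℚ] K) (hσ : ∀ a : K, a ∈ A₁ → σ a ∈ A₁)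
    (hfr : ∀ a : K, a ∈ A₁ → σ a - a ^ ℓ ∈ A₁.nonunits) (x : LaurentSeries K)
    (hx : x ∈ s18_W A₁.subtype (IsLocalRing.residue A₁)) :
    s18_red (ι := A₁.subtype) (ρ := IsLocalRing.residue A₁) Subtype.val_injective
        ⟨coeffMap (σ : K →+* K) x, s35_sg_W_sigma ℓ σ hσ hfr hx⟩ =
      coeffMap (frobenius (IsLocalRing.ResidueField A₁) ℓ)
        (s18_red (ι := A₁.subtype) (ρ := IsLocalRing.residue A₁) Subtype.val_injective ⟨x, hx⟩) :=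
  s18_red_map Subtype.val_injective Subtype.val_injective (s34_gi_resAut σ hσ) (σ : K →+* K)
    (frobenius (IsLocalRing.ResidueField A₁) ℓ) (s34_gi_resAut_comp σ hσ).symm
    (s35_sg_res_comp ℓ σ hσ hfr) ⟨x, hx⟩ _

/-- **The `σ`-twisted Frobenius congruence** in the coefficientwise Gauss ring:
`(σ x)(q^ℓ) - x ^ ℓ ∈ π · W` for every `x ∈ W`, `σ` a Frobenius lift. -/
theorem s35_sg_frob_W [IsDiscreteValuationRing A₁] {π : A₁} (hπ : Irreducible π)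
    (σ : K ≃ₐ[ℚ] K) (hσ : ∀ a : K, a ∈ A₁ → σ a ∈ A₁)
    (hfr : ∀ a : K, a ∈ A₁ → σ a - a ^ ℓ ∈ A₁.nonunits) (x : LaurentSeries K)
    (hx : x ∈ s18_W A₁.subtype (IsLocalRing.residue A₁)) :
    haveI : NeZero ℓ := ⟨(Fact.out : ℓ.Prime).ne_zero⟩
    ∃ z ∈ s18_W A₁.subtype (IsLocalRing.residue A₁),
      qExpand K ℓ (coeffMap (σ : K →+* K) x) - x ^ ℓ = HahnSeries.C (π : K) * z := by
  haveI : NeZero ℓ := ⟨(Fact.out : ℓ.Prime).ne_zero⟩
  have hσx := s35_sg_W_sigma ℓ σ hσ hfr hx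
  have hmem : qExpand K ℓ (coeffMap (σ : K →+* K) x) - x ^ ℓ ∈
      s18_W A₁.subtype (IsLocalRing.residue A₁) :=
    Subring.sub_mem _ (s34_fc_qExpand_mem_W ℓ hσx) (Subring.pow_mem _ hx ℓ)
  refine s34_fc_red_ker (ι := A₁.subtype) (ρ := IsLocalRing.residue A₁) Subtype.val_injective
    hπ.ne_zero (s34_gi_res_dvd hπ) _ hmem ?_
  have e : (⟨qExpand K ℓ (coeffMap (σ : K →+* K) x) - x ^ ℓ, hmem⟩ :
      s18_W A₁.subtype (IsLocalRing.residue A₁)) =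
      ⟨qExpand K ℓ (coeffMap (σ : K →+* K) x), s34_fc_qExpand_mem_W ℓ hσx⟩ - ⟨x, hx⟩ ^ ℓ := rfl
  rw [e, map_sub, map_pow, s34_fc_red_qExpand Subtype.val_injective ℓ _ hσx,
    s35_sg_red_sigma ℓ σ hσ hfr x hx, ← s37_ec_pow_char ℓ, sub_self]

end Series

section Model

variable {K : Type*} [Field K] [Algebra ℚ K] {A₁ : ValuationSubring K}
variable {N ℓ : ℕ} [NeZero N] [NeZero ℓ]

local notation "F'" => laurentBaseChange K (modularFunctionFieldFull N)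
local notation "FF" => laurentBaseChange K (modularFunctionFieldFull (N * ℓ))

/-- The coefficientwise action commutes with the degeneracy map `α` (`hφ'` of `s35_nr_frob`). -/
theorem s35_sg_alpha_sigma (σ : K ≃ₐ[ℚ] K) (y : F') :
    arithmeticRingAut (modularFunctionFieldFull (N * ℓ)) σ (heckeAlphaBar K N ℓ y) =
      heckeAlphaBar K N ℓ (arithmeticRingAut (modularFunctionFieldFull N) σ y) := by
  apply Subtype.ext
  rw [coe_arithmeticRingAut_apply, coe_heckeAlphaBar, coe_heckeAlphaBar,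
    coe_arithmeticRingAut_apply]

/-- The coefficientwise action commutes with the degeneracy map `β`. -/
theorem s35_sg_beta_sigma (σ : K ≃ₐ[ℚ] K) (y : F') :
    arithmeticRingAut (modularFunctionFieldFull (N * ℓ)) σ (heckeBetaBar K N ℓ y) =
      heckeBetaBar K N ℓ (arithmeticRingAut (modularFunctionFieldFull N) σ y) := by
  apply Subtype.ext
  rw [coe_arithmeticRingAut_apply, coe_heckeBetaBar, coe_heckeBetaBar,
    coe_arithmeticRingAut_apply, coeffMap_qExpand]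

variable [Fact ℓ.Prime] [CharP (IsLocalRing.ResidueField A₁) ℓ]
variable [IsDiscreteValuationRing A₁] {π : A₁}

/-- **The `σ`-twisted Frobenius congruence in the model**: `β (σ₁ y) ≡ (α y) ^ ℓ mod π V∞` for
`y` in the Gauss ring of the lower level. -/
theorem s35_sg_frob_beta (hπ : Irreducible π) (σ : K ≃ₐ[ℚ] K)
    (hσ : ∀ a : K, a ∈ A₁ → σ a ∈ A₁) (hfr : ∀ a : K, a ∈ A₁ → σ a - a ^ ℓ ∈ A₁.nonunits)
    (y : F') (hy : y ∈ s34_gi_V A₁ N) :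
    (algebraMap K FF (π : K))⁻¹ *
      (heckeBetaBar K N ℓ (arithmeticRingAut (modularFunctionFieldFull N) σ y) -
        heckeAlphaBar K N ℓ y ^ ℓ) ∈ s34_gi_V A₁ (N * ℓ) := by
  obtain ⟨z, hz, hzeq⟩ := s35_sg_frob_W ℓ hπ σ hσ hfr (y : LaurentSeries K) hy
  have hC0 : (HahnSeries.C (π : K) : LaurentSeries K) ≠ 0 := by
    rw [Ne, map_eq_zero]
    exact fun h => hπ.ne_zero (Subtype.ext h)
  have h1 : ((heckeBetaBar K N ℓ (arithmeticRingAut (modularFunctionFieldFull N) σ y) : FF) :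
      LaurentSeries K) = qExpand K ℓ (coeffMap (σ : K →+* K) (y : LaurentSeries K)) := by
    rw [coe_heckeBetaBar, coe_arithmeticRingAut_apply]
  have h2 : ((heckeAlphaBar K N ℓ y : FF) : LaurentSeries K) = (y : LaurentSeries K) :=
    coe_heckeAlphaBar N ℓ y
  show (((algebraMap K FF (π : K) : FF) : LaurentSeries K))⁻¹ *
    (((heckeBetaBar K N ℓ (arithmeticRingAut (modularFunctionFieldFull N) σ y) : FF) :
      LaurentSeries K) - ((heckeAlphaBar K N ℓ y : FF) : LaurentSeries K) ^ ℓ) ∈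
    s18_W A₁.subtype (IsLocalRing.residue A₁)
  rw [h1, h2, s34_gi_coe_algebraMap, hzeq, ← mul_assoc, inv_mul_cancel₀ hC0, one_mul]
  exact hz

/-- **The hypothesis `hFC` of `s35_nr_frob`**: for a swap `W` with `W ∘ α = β` commuting with the
coefficientwise action `σ₁` of a Frobenius lift, `W (σ₁ (α y)) ≡ (α y) ^ ℓ mod π V∞` for
`y ∈ V'`. -/
theorem s35_sg_hFC (hπ : Irreducible π) (σ : K ≃ₐ[ℚ] K)
    (hσ : ∀ a : K, a ∈ A₁ → σ a ∈ A₁) (hfr : ∀ a : K, a ∈ A₁ → σ a - a ^ ℓ ∈ A₁.nonunits)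
    (W : FF →+* FF) (hWα : ∀ x : F', W (heckeAlphaBar K N ℓ x) = heckeBetaBar K N ℓ x)
    (hWσ : ∀ x : FF, W (arithmeticRingAut (modularFunctionFieldFull (N * ℓ)) σ x) =
      arithmeticRingAut (modularFunctionFieldFull (N * ℓ)) σ (W x))
    (y : F') (hy : y ∈ s34_gi_V A₁ N) :
    (algebraMap K FF (π : K))⁻¹ *
      (W (arithmeticRingAut (modularFunctionFieldFull (N * ℓ)) σ (heckeAlphaBar K N ℓ y)) -
        heckeAlphaBar K N ℓ y ^ ℓ) ∈ s34_gi_V A₁ (N * ℓ) := by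
  rw [hWσ, hWα, s35_sg_beta_sigma]
  exact s35_sg_frob_beta hπ σ hσ hfr y hy

end Model

section Constants

variable {K : Type*} [Field K] [Algebra ℚ K]

/-- The constants: the image of `A₁` in `K · F_M`. -/
def s35_sg_C (A₁ : ValuationSubring K) (M : ℕ) :
    Subring (laurentBaseChange K (modularFunctionFieldFull M)) :=
  A₁.toSubring.map (algebraMap K (laurentBaseChange K (modularFunctionFieldFull M)))

variable {A₁ : ValuationSubring K} {M : ℕ}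

local notation "FM" => laurentBaseChange K (modularFunctionFieldFull M)

theorem s35_sg_mem_C {c : FM} : c ∈ s35_sg_C A₁ M ↔ ∃ a : K, a ∈ A₁ ∧ algebraMap K FM a = c :=
  Iff.rfl

theorem s35_sg_algebraMap_mem_C (a : A₁) : algebraMap K FM (a : K) ∈ s35_sg_C A₁ M :=
  ⟨(a : K), a.2, rfl⟩

/-- The constants lie in the Gauss ring at infinity. -/
theorem s35_sg_C_le_V : s35_sg_C A₁ M ≤ s34_gi_V A₁ M := by
  rintro c ⟨a, ha, rfl⟩
  exact s34_gi_algebraMap_mem (⟨a, ha⟩ : A₁)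

/-- The constants are stable under the coefficientwise action. -/
theorem s35_sg_C_sigma (σ : K ≃ₐ[ℚ] K) (hσ : ∀ a : K, a ∈ A₁ → σ a ∈ A₁) (c : FM)
    (hc : c ∈ s35_sg_C A₁ M) :
    arithmeticRingAut (modularFunctionFieldFull M) σ c ∈ s35_sg_C A₁ M := by
  obtain ⟨a, ha, rfl⟩ := hc
  rw [arithmeticRingAut_algebraMap]
  exact ⟨σ a, hσ a ha, rfl⟩

/-- A `K`-algebra endomorphism fixes the constants (`hWC` of `s35_fa_main`). -/
theorem s35_sg_C_swap (W : FM →ₐ[K] FM) (c : FM) (hc : c ∈ s35_sg_C A₁ M) : W c = c := by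
  obtain ⟨a, -, rfl⟩ := hc
  exact W.commutes a

variable [IsDiscreteValuationRing A₁] {π : A₁}

/-- Elements of `A₁.nonunits` are multiples of the uniformizer. -/
theorem s35_sg_nonunits_dvd (hπ : Irreducible π) (x : K) (hx : x ∈ A₁.nonunits) :
    ∃ b : A₁, x = (π : K) * (b : K) := by
  obtain ⟨hxA, hxm⟩ := ValuationSubring.mem_nonunits_iff_exists_mem_maximalIdeal.mp hx
  rw [hπ.maximalIdeal_eq, Ideal.mem_span_singleton] at hxm
  obtain ⟨b, hb⟩ := hxm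
  exact ⟨b, congrArg Subtype.val hb⟩

/-- The square of a Frobenius lift is congruent to `a ↦ a ^ (ℓ²)` on `A₁`. -/
theorem s35_sg_frob2 (hπ : Irreducible π) (ℓ : ℕ) (σ : K ≃ₐ[ℚ] K)
    (hσ : ∀ a : K, a ∈ A₁ → σ a ∈ A₁) (hfr : ∀ a : K, a ∈ A₁ → σ a - a ^ ℓ ∈ A₁.nonunits)
    (a : K) (ha : a ∈ A₁) : ∃ b : A₁, σ (σ a) - a ^ (ℓ ^ 2) = (π : K) * (b : K) := by
  obtain ⟨b₁, hb₁⟩ := s35_sg_nonunits_dvd hπ _ (hfr a ha)
  obtain ⟨b₂, hb₂⟩ := s35_sg_nonunits_dvd hπ _ (hfr (σ a) (hσ a ha))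
  -- `(σ a)^ℓ - (a^ℓ)^ℓ` is a multiple of `σ a - a^ℓ` in `A₁`
  obtain ⟨r, hr⟩ := sub_dvd_pow_sub_pow (⟨σ a, hσ a ha⟩ : A₁) ((⟨a, ha⟩ : A₁) ^ ℓ) ℓ
  have hr' : σ a ^ ℓ - (a ^ ℓ) ^ ℓ = (σ a - a ^ ℓ) * (r : K) := congrArg Subtype.val hr
  refine ⟨b₂ + b₁ * r, ?_⟩
  have e : a ^ (ℓ ^ 2) = (a ^ ℓ) ^ ℓ := by rw [← pow_mul, sq]
  have h1 : σ (σ a) - a ^ (ℓ ^ 2) = (σ (σ a) - σ a ^ ℓ) + (σ a ^ ℓ - (a ^ ℓ) ^ ℓ) := by
    rw [e]; ring
  rw [h1, hb₂, hr', hb₁]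
  push_cast
  ring

/-- **Frobenius on the constants** (`hfrob` of `s35_fa_main` with `Q = ℓ²`). -/
theorem s35_sg_C_frob2 (hπ : Irreducible π) (ℓ : ℕ) (σ : K ≃ₐ[ℚ] K)
    (hσ : ∀ a : K, a ∈ A₁ → σ a ∈ A₁) (hfr : ∀ a : K, a ∈ A₁ → σ a - a ^ ℓ ∈ A₁.nonunits)
    (c : FM) (hc : c ∈ s35_sg_C A₁ M) :
    (algebraMap K FM (π : K))⁻¹ *
      (arithmeticRingAut (modularFunctionFieldFull M) σ
        (arithmeticRingAut (modularFunctionFieldFull M) σ c) - c ^ (ℓ ^ 2)) ∈ s35_sg_C A₁ M := by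
  obtain ⟨a, ha, rfl⟩ := hc
  obtain ⟨b, hb⟩ := s35_sg_frob2 hπ ℓ σ hσ hfr a ha
  have hπ0 : algebraMap K FM (π : K) ≠ 0 := s34_gi_pi_ne hπ
  rw [arithmeticRingAut_algebraMap, arithmeticRingAut_algebraMap, ← map_pow, ← map_sub, hb,
    map_mul, ← mul_assoc, inv_mul_cancel₀ hπ0, one_mul]
  exact s35_sg_algebraMap_mem_C b

/-- `hφϖ` of `s35_nr_frob` / `hσϖi` of `s35_fa_main`: `π⁻¹ σ₁ π` is a constant. -/
theorem s35_sg_hφϖ (hπ : Irreducible π) (σ : K ≃ₐ[ℚ] K) (hσ : ∀ a : K, a ∈ A₁ → σ a ∈ A₁)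
    (hσ' : ∀ a : K, a ∈ A₁ → σ.symm a ∈ A₁) :
    (algebraMap K FM (π : K))⁻¹ *
      arithmeticRingAut (modularFunctionFieldFull M) σ (algebraMap K FM (π : K)) ∈
        s35_sg_C A₁ M := by
  obtain ⟨w, hw⟩ := s34_gi_tau_pi hπ σ hσ hσ'
  have hπ0 : algebraMap K FM (π : K) ≠ 0 := s34_gi_pi_ne hπ
  rw [arithmeticRingAut_algebraMap, hw, map_mul, ← mul_assoc, inv_mul_cancel₀ hπ0, one_mul]
  exact s35_sg_algebraMap_mem_C (w : A₁)

/-- `A₁` is a uniformized discrete valuation ring of `K`. -/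
theorem s35_sg_unif_K (hπ : Irreducible π) : s34_Unif (π : K) A₁.toSubring where
  mem := π.2
  inv_not_mem := by
    intro h
    apply hπ.not_isUnit
    refine IsUnit.of_mul_eq_one ⟨(π : K)⁻¹, h⟩ (Subtype.ext ?_)
    show (π : K) * (π : K)⁻¹ = 1
    exact mul_inv_cancel₀ (fun h0 => hπ.ne_zero (Subtype.ext h0))
  decomp := by
    have key : ∀ x : A₁, x ≠ 0 → ∃ (j : ℕ) (u : K), u ∈ A₁.toSubring ∧ u⁻¹ ∈ A₁.toSubring ∧
        (x : K) = (π : K) ^ j * u := by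
      intro x hx
      obtain ⟨n, u, hu⟩ := IsDiscreteValuationRing.eq_unit_mul_pow_irreducible hx hπ
      refine ⟨n, ((u : A₁) : K), (u : A₁).2, ?_, ?_⟩
      · have h1 : ((u : A₁) : K) * (((u⁻¹ : A₁ˣ) : A₁) : K) = 1 :=
          congrArg Subtype.val (Units.mul_inv u)
        rw [inv_eq_of_mul_eq_one_right h1]
        exact ((u⁻¹ : A₁ˣ) : A₁).2
      · have h2 := congrArg Subtype.val hu
        rw [h2]
        push_cast
        ring
    intro x hx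
    rcases A₁.mem_or_inv_mem x with hxA | hxA
    · obtain ⟨j, u, hu, hu', h⟩ := key ⟨x, hxA⟩ (fun h0 => hx (congrArg Subtype.val h0))
      exact ⟨j, u, hu, hu', by rw [zpow_natCast]; exact h⟩
    · obtain ⟨j, u, hu, hu', h⟩ := key ⟨x⁻¹, hxA⟩
        (fun h0 => inv_ne_zero hx (congrArg Subtype.val h0))
      refine ⟨-(j : ℤ), u⁻¹, hu', by rwa [inv_inv], ?_⟩
      have h' : x⁻¹ = (π : K) ^ j * u := h
      rw [zpow_neg, zpow_natCast, ← mul_inv, ← h', inv_inv]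

/-- **(T1) on the constants** (`hc₁T`, `hc₂T` of `s35_fc_data`): for `c ∈ Kˣ`, `σ c / c` and
`c / σ c` are constants of `A₁`. -/
theorem s35_sg_C_T1 (hπ : Irreducible π) (σ : K ≃ₐ[ℚ] K) (hσ : ∀ a : K, a ∈ A₁ → σ a ∈ A₁)
    (hσ' : ∀ a : K, a ∈ A₁ → σ.symm a ∈ A₁) (c : K) (hc : c ≠ 0) :
    arithmeticRingAut (modularFunctionFieldFull M) σ (algebraMap K FM c) / algebraMap K FM c ∈
        s35_sg_C A₁ M ∧
      algebraMap K FM c / arithmeticRingAut (modularFunctionFieldFull M) σ (algebraMap K FM c) ∈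
        s35_sg_C A₁ M := by
  obtain ⟨w, hw⟩ := s34_gi_tau_pi hπ σ hσ hσ'
  have hT := s34_tau_T1_of_unif (s35_sg_unif_K hπ) (σ.toRingEquiv) (fun x hx => hσ x hx)
    ⟨((w : A₁) : K), (w : A₁).2, by
      have h1 : ((w : A₁) : K) * (((w⁻¹ : A₁ˣ) : A₁) : K) = 1 :=
        congrArg Subtype.val (Units.mul_inv w)
      rw [inv_eq_of_mul_eq_one_right h1]
      exact ((w⁻¹ : A₁ˣ) : A₁).2, by
      show σ (π : K) = ((w : A₁) : K) * (π : K)
      rw [hw, mul_comm]⟩ c hc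
  rw [arithmeticRingAut_algebraMap, ← map_div₀, ← map_div₀]
  exact ⟨⟨_, hT.1, rfl⟩, ⟨_, hT.2, rfl⟩⟩

end Constants

section VZero

variable {K : Type*} [Field K] [Algebra ℚ K] {A₁ : ValuationSubring K} {M : ℕ}

local notation "FM" => laurentBaseChange K (modularFunctionFieldFull M)

/-- The coefficientwise action preserves the second Gauss ring `V0 = V∞.comap W`, for `W`
commuting with it. -/
theorem s35_sg_sigma_V0 (σ : K ≃ₐ[ℚ] K) (hσ : ∀ a : K, a ∈ A₁ → σ a ∈ A₁) (W : FM →+* FM)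
    (hWσ : ∀ x : FM, W (arithmeticRingAut (modularFunctionFieldFull M) σ x) =
      arithmeticRingAut (modularFunctionFieldFull M) σ (W x))
    (x : FM) (hx : x ∈ (s34_gi_V A₁ M).comap W) :
    arithmeticRingAut (modularFunctionFieldFull M) σ x ∈ (s34_gi_V A₁ M).comap W := by
  show W (arithmeticRingAut (modularFunctionFieldFull M) σ x) ∈ s34_gi_V A₁ M
  rw [hWσ]
  exact s34_gi_tau_mem σ hσ hx

/-- The constants lie in the second Gauss ring. -/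
theorem s35_sg_C_le_V0 (W : FM →ₐ[K] FM) :
    s35_sg_C A₁ M ≤ (s34_gi_V A₁ M).comap (W : FM →+* FM) := by
  intro c hc
  show W c ∈ s34_gi_V A₁ M
  rw [s35_sg_C_swap W c hc]
  exact s35_sg_C_le_V hc

end VZero

section Node

/-- **Frobenius at a crossing point.**  In the setting of the transversality lemma
(`B = B₁ + Pinf`, `B₁` spanned over `A₀` by the rational chart `C`, Frobenius pairs
`g - f ^ q ∈ Pinf`, `g ^ q - f ∈ P0` for `f ∈ C`), let `s` be a ring endomorphism of `F` which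
preserves `B`, maps `Pinf` into `𝔪`, fixes the rational chart and is congruent to
`a ↦ a ^ (q²)` modulo `𝔪` on the constants.  Then `s b ≡ b ^ (q²) mod 𝔪` for all `b ∈ B`. -/
theorem s35_sg_S3 {A₀ F : Type*} [CommRing A₀] [Field F] [Algebra A₀ F]
    (B : Subring F) (hAB : ∀ a : A₀, algebraMap A₀ F a ∈ B)
    (𝔪 Pinf P0 : Ideal B) [h𝔪 : 𝔪.IsPrime] (hPinf : Pinf ≤ 𝔪) (hP0 : P0 ≤ 𝔪)
    (q : ℕ) (hq : q.Prime) (hq𝔪 : (q : B) ∈ 𝔪)
    (B₁ : Subring F) (C : Set F) (hCB : ∀ f ∈ C, f ∈ B)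
    (hspan : ∀ x ∈ B₁, x ∈ AddSubgroup.closure
      {z : F | ∃ (a : A₀) (f : F), f ∈ C ∧ z = algebraMap A₀ F a * f})
    (hfrob : ∀ f : B, (f : F) ∈ C → ∃ g : B, g - f ^ q ∈ Pinf ∧ g ^ q - f ∈ P0)
    (hsum : ∀ x : B, ∃ x' : B, (x' : F) ∈ B₁ ∧ x - x' ∈ Pinf)
    (s : F →+* F) (hsB : ∀ x ∈ B, s x ∈ B)
    (hsP : ∀ x : B, x ∈ Pinf → (⟨s x, hsB x x.2⟩ : B) ∈ 𝔪)
    (hsC : ∀ f ∈ C, s f = f)
    (hsA : ∀ a : A₀, (⟨s (algebraMap A₀ F a), hsB _ (hAB a)⟩ : B) -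
      ⟨algebraMap A₀ F a, hAB a⟩ ^ (q ^ 2) ∈ 𝔪) :
    ∀ b : B, (⟨s b, hsB b b.2⟩ : B) - b ^ (q ^ 2) ∈ 𝔪 := by
  classical
  haveI : Fact q.Prime := ⟨hq⟩
  haveI : CharP (B ⧸ 𝔪) q := by
    rw [CharP.charP_iff_prime_eq_zero hq]
    have h1 : Ideal.Quotient.mk 𝔪 (q : B) = 0 := Ideal.Quotient.eq_zero_iff_mem.mpr hq𝔪
    rwa [map_natCast] at h1
  -- the two ring homomorphisms `B → B ⧸ 𝔪`
  let sB : B →+* B := (s.comp B.subtype).codRestrict B (fun x => hsB x x.2)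
  have hsBval : ∀ x : B, sB x = ⟨s x, hsB x x.2⟩ := fun x => rfl
  let φ₁ : B →+* B ⧸ 𝔪 := (Ideal.Quotient.mk 𝔪).comp sB
  let φ₂ : B →+* B ⧸ 𝔪 :=
    (frobenius (B ⧸ 𝔪) q).comp ((frobenius (B ⧸ 𝔪) q).comp (Ideal.Quotient.mk 𝔪))
  have hφ₁ : ∀ x : B, φ₁ x = Ideal.Quotient.mk 𝔪 (⟨s x, hsB x x.2⟩ : B) := fun x => rfl
  have hφ₂ : ∀ x : B, φ₂ x = Ideal.Quotient.mk 𝔪 (x ^ (q ^ 2)) := by
    intro x
    show frobenius (B ⧸ 𝔪) q (frobenius (B ⧸ 𝔪) q (Ideal.Quotient.mk 𝔪 x)) = _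
    rw [frobenius_def, frobenius_def, ← pow_mul, ← sq, map_pow]
  let E : Subring B := RingHom.eqLocus φ₁ φ₂
  have hE : ∀ x : B, x ∈ E ↔ φ₁ x = φ₂ x := fun x => Iff.rfl
  -- `Pinf ⊆ E`
  have hEP : ∀ x : B, x ∈ Pinf → x ∈ E := by
    intro x hx
    rw [hE, hφ₁, hφ₂, Ideal.Quotient.eq_zero_iff_mem.mpr (hsP x hx), eq_comm,
      Ideal.Quotient.eq_zero_iff_mem]
    exact Ideal.pow_mem_of_mem 𝔪 (hPinf hx) _ (pow_pos hq.pos 2)
  -- the constants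
  have hEA : ∀ a : A₀, (⟨algebraMap A₀ F a, hAB a⟩ : B) ∈ E := by
    intro a
    rw [hE, hφ₁, hφ₂]
    exact Ideal.Quotient.eq.mpr (hsA a)
  -- the rational chart
  have hEC : ∀ f : B, (f : F) ∈ C → f ∈ E := by
    intro f hf
    obtain ⟨g, hg1, hg2⟩ := hfrob f hf
    have e1 : Ideal.Quotient.mk 𝔪 g = Ideal.Quotient.mk 𝔪 f ^ q := by
      rw [← map_pow]
      exact Ideal.Quotient.eq.mpr (hPinf hg1)
    have e2 : Ideal.Quotient.mk 𝔪 g ^ q = Ideal.Quotient.mk 𝔪 f := by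
      rw [← map_pow]
      exact Ideal.Quotient.eq.mpr (hP0 hg2)
    have e3 : (⟨s f, hsB f f.2⟩ : B) = f := Subtype.ext (hsC _ hf)
    rw [hE, hφ₁, hφ₂, e3, map_pow, sq, pow_mul, ← e1, e2]
  -- the chart `B₁`
  have hE1 : ∀ x : B, (x : F) ∈ B₁ → x ∈ E := by
    intro x hx
    have hle : AddSubgroup.closure
        {z : F | ∃ (a : A₀) (f : F), f ∈ C ∧ z = algebraMap A₀ F a * f} ≤
        E.toAddSubgroup.map B.subtype.toAddMonoidHom := by
      rw [AddSubgroup.closure_le]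
      rintro z ⟨a, f, hf, rfl⟩
      exact ⟨⟨algebraMap A₀ F a, hAB a⟩ * ⟨f, hCB f hf⟩,
        E.mul_mem (hEA a) (hEC ⟨f, hCB f hf⟩ hf), rfl⟩
    obtain ⟨y, hy, hyx⟩ := hle (hspan (x : F) hx)
    have : y = x := Subtype.ext hyx
    rw [← this]
    exact hy
  intro b
  obtain ⟨b', hb', hbb'⟩ := hsum b
  have hbE : b ∈ E := by
    have e : b = b' + (b - b') := by ring
    rw [e]
    exact E.add_mem (hE1 b' hb') (hEP _ hbb')
  rw [hE, hφ₁, hφ₂] at hbE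
  exact Ideal.Quotient.eq.mp hbE

end Node

section Concrete

local notation "Qb" => AlgebraicClosure ℚ

variable (A : ValuationSubring Qb) (K₁ : IntermediateField ℚ Qb) [Normal ℚ K₁]

/-- A Frobenius element lies in the decomposition group. -/
theorem s35_sg_frob_smul {γ : Qb ≃ₐ[ℚ] Qb} {ℓ : ℕ} (h : A.IsFrobeniusAt γ ℓ) : γ • A = A :=
  MulAction.mem_stabilizer_iff.mp h.mem_decompositionSubgroup

/-- A Frobenius element raises elements of `A` to the `ℓ`-th power modulo the maximal ideal. -/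
theorem s35_sg_frob_mem {γ : Qb ≃ₐ[ℚ] Qb} {ℓ : ℕ} (h : A.IsFrobeniusAt γ ℓ) (a : Qb)
    (ha : a ∈ A) : γ a - a ^ ℓ ∈ A.nonunits := by
  obtain ⟨hσ, hF⟩ := h
  have h1 := hF (IsLocalRing.residue A ⟨a, ha⟩)
  rw [← IsLocalRing.ResidueField.residue_smul, ← map_pow, ← sub_eq_zero, ← map_sub,
    IsLocalRing.residue_eq_zero_iff, ← ValuationSubring.coe_mem_nonunits_iff] at h1
  exact h1

/-- The restriction to `K₁` of a Frobenius element preserves `A₁ = A ∩ K₁`. -/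
theorem s35_sg_restrict_mem {γ : Qb ≃ₐ[ℚ] Qb} {ℓ : ℕ} (h : A.IsFrobeniusAt γ ℓ) (a : K₁)
    (ha : a ∈ s18_A1 A K₁) : γ.restrictNormal K₁ a ∈ s18_A1 A K₁ :=
  s34_gi_restrict_mem A K₁ γ (s35_sg_frob_smul A h) a ha

theorem s35_sg_restrict_symm_mem {γ : Qb ≃ₐ[ℚ] Qb} {ℓ : ℕ} (h : A.IsFrobeniusAt γ ℓ) (a : K₁)
    (ha : a ∈ s18_A1 A K₁) : (γ.restrictNormal K₁).symm a ∈ s18_A1 A K₁ :=
  s34_gi_restrict_symm_mem A K₁ γ (s35_sg_frob_smul A h) a ha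

/-- **The restriction to `K₁` of a Frobenius element is a Frobenius lift on `A₁`.** -/
theorem s35_sg_restrict_frob {γ : Qb ≃ₐ[ℚ] Qb} {ℓ : ℕ} (h : A.IsFrobeniusAt γ ℓ) (a : K₁)
    (ha : a ∈ s18_A1 A K₁) : γ.restrictNormal K₁ a - a ^ ℓ ∈ (s18_A1 A K₁).nonunits := by
  have hmem : γ.restrictNormal K₁ a - a ^ ℓ ∈ s18_A1 A K₁ :=
    (s18_A1 A K₁).sub_mem (s35_sg_restrict_mem A K₁ h a ha) ((s18_A1 A K₁).pow_mem ha ℓ)
  rw [ValuationSubring.mem_nonunits_iff_exists_mem_maximalIdeal]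
  refine ⟨hmem, ?_⟩
  rw [IsLocalRing.mem_maximalIdeal, mem_nonunits_iff]
  intro hu
  obtain ⟨v, hv⟩ := hu.exists_right_inv
  have h3 := s35_sg_frob_mem A h (algebraMap K₁ Qb a) ha
  have h4 : algebraMap K₁ Qb (γ.restrictNormal K₁ a - a ^ ℓ) =
      γ (algebraMap K₁ Qb a) - algebraMap K₁ Qb a ^ ℓ := by
    rw [map_sub, map_pow, AlgEquiv.restrictNormal_commutes]
  have h5 : algebraMap K₁ Qb (γ.restrictNormal K₁ a - a ^ ℓ) *
      algebraMap K₁ Qb ((v : s18_A1 A K₁) : K₁) = 1 := by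
    rw [← map_mul]
    have := congrArg (fun z : s18_A1 A K₁ => algebraMap K₁ Qb (z : K₁)) hv
    simpa using this
  rw [h4] at h5
  have hvP : algebraMap K₁ Qb ((v : s18_A1 A K₁) : K₁) ∈ A := v.2
  have h6 : (γ (algebraMap K₁ Qb a) - algebraMap K₁ Qb a ^ ℓ)⁻¹ ∈ A := by
    rw [inv_eq_of_mul_eq_one_right h5]
    exact hvP
  rw [ValuationSubring.mem_nonunits_iff_exists_mem_maximalIdeal] at h3
  obtain ⟨hmem', hmax⟩ := h3
  apply (IsLocalRing.mem_maximalIdeal _).mp hmax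
  refine IsUnit.of_mul_eq_one ⟨_, h6⟩ (Subtype.ext ?_)
  show (γ (algebraMap K₁ Qb a) - algebraMap K₁ Qb a ^ ℓ) *
    (γ (algebraMap K₁ Qb a) - algebraMap K₁ Qb a ^ ℓ)⁻¹ = 1
  apply mul_inv_cancel₀
  intro h0
  rw [h0, zero_mul] at h5
  exact zero_ne_one h5

/-- `ℓ` is not a unit of `A₁ = A ∩ K₁` when `A` lies over `ℓ`. -/
theorem s35_sg_ell_inv_not_mem {ℓ : ℕ} (hℓ : ℓ ≠ 0) (hA : A.LiesOverPrime ℓ) :
    ((ℓ : K₁))⁻¹ ∉ s18_A1 A K₁ := by
  intro h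
  have h1 : algebraMap K₁ Qb ((ℓ : K₁))⁻¹ ∈ A := h
  rw [map_inv₀, map_natCast] at h1
  have h2 : (ℓ : Qb) ∈ A.nonunits := hA
  rcases (A.mem_nonunits_iff_or).mp h2 with h0 | h3
  · exact hℓ (Nat.cast_eq_zero.mp h0)
  · exact h3 h1

/-- The residue field of `A₁ = A ∩ K₁` has characteristic `ℓ` when `A` lies over `ℓ`. -/
theorem s35_sg_charP {ℓ : ℕ} [Fact ℓ.Prime] (hA : A.LiesOverPrime ℓ) :
    CharP (IsLocalRing.ResidueField (s18_A1 A K₁)) ℓ :=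
  s18_charP_res ℓ (s18_A1 A K₁)
    (s35_sg_ell_inv_not_mem A K₁ (Fact.out : ℓ.Prime).ne_zero hA)

end Concrete

end Fermat.Agent.S35
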