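import Mathlib
import Fermat.Agent.S34.InstDefs
import Fermat.Agent.S34.GaussTau
import Fermat.Agent.S35.FDefs
import Fermat.Agent.S35.NormAlong
import Fermat.Agent.S35.SigmaModel

/-!
# S35, block (INST2): the contract of the concrete nodal model, Frobenius side

Same objects as `S34/InstDefs.lean` (level `N₁ * q`, `q ∤ N₁`, the charts `s34_md_B0`,
`s34_md_Binf`, the components `s34_md_V1`, `s34_md_V2`, a swap `W` with `s34_md_IsSwap`), and in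
addition a Frobenius element `γ` at the place `P` (`P.IsFrobeniusAt γ q`) with its coefficientwise
action `σ₁ = s34_gi_tau K₁ (N₁ * q) γ` on `K₁ · F(N₁ q)`.

The propositions `s35_ct_*` are the facts which the assembly `s35_inst_pow` (file `Inst.lean`)
consumes in addition to `s34_ct_fin`, `s34_ct_unif`, `s34_ct_le`, `s34_ct_cap`, `s34_ct_sm`,
`s34_ct_xy`; each is proved in its own file.
-/

set_option autoImplicit false
set_option synthInstance.maxHeartbeats 400000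

open ModularCurve AlgebraicCurve

noncomputable section

namespace Fermat.Agent.S35

open Fermat.Agent.S18 Fermat.Agent.S34

/-- (sig) the coefficientwise action `σ₁` of a Frobenius element `γ` : compatibility with the
extension of constants, stability of the charts, of `π`, (T1) at both components, the constants
`C = s35_sg_C` (image of `A₁`), and compatibility with the inclusion `α` of level `N₁`. -/
def s35_ct_sig : Prop :=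
  ∀ (N₁ q : ℕ) [NeZero N₁] [NeZero (N₁ * q)] [Fact q.Prime], ¬ q ∣ N₁ →
    ∀ (P : ValuationSubring (AlgebraicClosure ℚ)), P.LiesOverPrime q →
    ∀ (K₁ : IntermediateField ℚ (AlgebraicClosure ℚ)) [FiniteDimensional ℚ K₁] [IsGalois ℚ K₁]
      [IsDiscreteValuationRing (s18_A1 P K₁)] (π : s18_A1 P K₁), Irreducible π →
    ∀ (tL : modularFunctionFieldFull (N₁ * q)), s34_md_IsT N₁ q tL →
    ∀ (W : s18_F1 K₁ (N₁ * q) ≃ₐ[K₁] s18_F1 K₁ (N₁ * q)),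
      haveI : NeZero q := ⟨(Fact.out : q.Prime).ne_zero⟩
      s34_md_IsSwap K₁ N₁ q W →
    ∀ γ : AlgebraicClosure ℚ ≃ₐ[ℚ] AlgebraicClosure ℚ, P.IsFrobeniusAt γ q →
    haveI : NeZero q := ⟨(Fact.out : q.Prime).ne_zero⟩
    -- (1) hσ₁
    (∀ x : s18_F1 K₁ (N₁ * q),
      s18_baseIncl K₁ (N₁ * q) (s34_gi_tau K₁ (N₁ * q) γ x) =
        arithmeticGalois (modularFunctionFieldFull (N₁ * q)) γ • s18_baseIncl K₁ (N₁ * q) x) ∧
    -- (2), (3) the charts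
    (∀ x ∈ (s34_md_B0 P K₁ (N₁ * q) tL).toSubring,
      s34_gi_tau K₁ (N₁ * q) γ x ∈ (s34_md_B0 P K₁ (N₁ * q) tL).toSubring) ∧
    (∀ x ∈ (s34_md_Binf P K₁ (N₁ * q) tL).toSubring,
      s34_gi_tau K₁ (N₁ * q) γ x ∈ (s34_md_Binf P K₁ (N₁ * q) tL).toSubring) ∧
    -- (4) the uniformizer
    (∃ c : s18_A1 P K₁, IsUnit c ∧
      s34_gi_tau K₁ (N₁ * q) γ (algebraMap (s18_A1 P K₁) (s18_F1 K₁ (N₁ * q)) π) =
        algebraMap (s18_A1 P K₁) (s18_F1 K₁ (N₁ * q)) c *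
          algebraMap (s18_A1 P K₁) (s18_F1 K₁ (N₁ * q)) π) ∧
    -- (5), (6) (T1) at both components
    (∀ x : s18_F1 K₁ (N₁ * q), x ≠ 0 →
      s34_gi_tau K₁ (N₁ * q) γ x / x ∈ s34_md_V1 P K₁ (N₁ * q) ∧
      x / s34_gi_tau K₁ (N₁ * q) γ x ∈ s34_md_V1 P K₁ (N₁ * q)) ∧
    (∀ x : s18_F1 K₁ (N₁ * q), x ≠ 0 →
      s34_gi_tau K₁ (N₁ * q) γ x / x ∈ s34_md_V2 P K₁ (N₁ * q) W ∧
      x / s34_gi_tau K₁ (N₁ * q) γ x ∈ s34_md_V2 P K₁ (N₁ * q) W) ∧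
    -- (7), (8), (9) the constants
    (∀ c ∈ s35_sg_C (s18_A1 P K₁) (N₁ * q),
      s34_gi_tau K₁ (N₁ * q) γ c ∈ s35_sg_C (s18_A1 P K₁) (N₁ * q)) ∧
    (∀ c ∈ s35_sg_C (s18_A1 P K₁) (N₁ * q),
      (algebraMap (s18_A1 P K₁) (s18_F1 K₁ (N₁ * q)) π)⁻¹ *
        (s34_gi_tau K₁ (N₁ * q) γ (s34_gi_tau K₁ (N₁ * q) γ c) - c ^ (q ^ 2)) ∈
        s35_sg_C (s18_A1 P K₁) (N₁ * q)) ∧
    (∀ c : K₁, c ≠ 0 →
      s34_gi_tau K₁ (N₁ * q) γ (algebraMap K₁ (s18_F1 K₁ (N₁ * q)) c) /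
          algebraMap K₁ (s18_F1 K₁ (N₁ * q)) c ∈ s35_sg_C (s18_A1 P K₁) (N₁ * q) ∧
      algebraMap K₁ (s18_F1 K₁ (N₁ * q)) c /
          s34_gi_tau K₁ (N₁ * q) γ (algebraMap K₁ (s18_F1 K₁ (N₁ * q)) c) ∈
        s35_sg_C (s18_A1 P K₁) (N₁ * q)) ∧
    -- (10) compatibility with `α`
    (∀ y : s18_F1 K₁ N₁,
      s34_gi_tau K₁ (N₁ * q) γ (heckeAlphaBar K₁ N₁ q y) =
        heckeAlphaBar K₁ N₁ q (s34_gi_tau K₁ N₁ γ y))

/-- (ne) the two components are distinct. -/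
def s35_ct_ne : Prop :=
  ∀ (N₁ q : ℕ) [NeZero N₁] [NeZero (N₁ * q)] [Fact q.Prime], ¬ q ∣ N₁ →
    ∀ (P : ValuationSubring (AlgebraicClosure ℚ)), P.LiesOverPrime q →
    ∀ (K₁ : IntermediateField ℚ (AlgebraicClosure ℚ)) [FiniteDimensional ℚ K₁] [IsGalois ℚ K₁]
      [IsDiscreteValuationRing (s18_A1 P K₁)] (π : s18_A1 P K₁), Irreducible π →
    ∀ (tL : modularFunctionFieldFull (N₁ * q)), s34_md_IsT N₁ q tL →
    ∀ (W : s18_F1 K₁ (N₁ * q) ≃ₐ[K₁] s18_F1 K₁ (N₁ * q)),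
      haveI : NeZero q := ⟨(Fact.out : q.Prime).ne_zero⟩
      s34_md_IsSwap K₁ N₁ q W →
    s34_md_V1 P K₁ (N₁ * q) ≠ s34_md_V2 P K₁ (N₁ * q) W

/-- (nr) the norm–residue formula `Nm h ≡ h · σ₁ (W h) mod ϖ V∞` on `V∞ ⊓ V0`, for the norm `Nm`
along the inclusion `α` of level `N₁`. -/
def s35_ct_nr : Prop :=
  ∀ (N₁ q : ℕ) [NeZero N₁] [NeZero (N₁ * q)] [Fact q.Prime], ¬ q ∣ N₁ →
    ∀ (P : ValuationSubring (AlgebraicClosure ℚ)), P.LiesOverPrime q →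
    ∀ (K₁ : IntermediateField ℚ (AlgebraicClosure ℚ)) [FiniteDimensional ℚ K₁] [IsGalois ℚ K₁]
      [IsDiscreteValuationRing (s18_A1 P K₁)] (π : s18_A1 P K₁), Irreducible π →
    ∀ (tL : modularFunctionFieldFull (N₁ * q)), s34_md_IsT N₁ q tL →
    ∀ (W : s18_F1 K₁ (N₁ * q) ≃ₐ[K₁] s18_F1 K₁ (N₁ * q)),
      haveI : NeZero q := ⟨(Fact.out : q.Prime).ne_zero⟩
      s34_md_IsSwap K₁ N₁ q W →
    ∀ γ : AlgebraicClosure ℚ ≃ₐ[ℚ] AlgebraicClosure ℚ, P.IsFrobeniusAt γ q →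
    haveI : NeZero q := ⟨(Fact.out : q.Prime).ne_zero⟩
    ∀ h : s18_F1 K₁ (N₁ * q), h ∈ s34_md_V1 P K₁ (N₁ * q) → h ∈ s34_md_V2 P K₁ (N₁ * q) W →
      (algebraMap (s18_A1 P K₁) (s18_F1 K₁ (N₁ * q)) π)⁻¹ *
        (s35_nmAlong (heckeAlphaBar K₁ N₁ q).toRingHom h -
          h * s34_gi_tau K₁ (N₁ * q) γ (W h)) ∈ s34_md_V1 P K₁ (N₁ * q)

/-- The crossing points of a chart `B` : the maximal ideals over `π` containing both branches. -/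
def s35_md_IsNode {A₀ F : Type*} [CommRing A₀] [Field F] [Algebra A₀ F] (π : A₀)
    (B : Subalgebra A₀ F) (V₁ V₂ : Subring F) (𝔪 : Ideal B.toSubring) : Prop :=
  𝔪.IsMaximal ∧ (⟨algebraMap A₀ F π, B.algebraMap_mem π⟩ : B.toSubring) ∈ 𝔪 ∧
    ∀ s : B.toSubring, s ∉ 𝔪 →
      (algebraMap A₀ F π)⁻¹ * (s : F) ∉ V₁ ∧ (algebraMap A₀ F π)⁻¹ * (s : F) ∉ V₂

/-- (rat) shape : every crossing point of the chart `B` has the residue field of `A₀`. -/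
def s35_md_Rat {A₀ F : Type*} [CommRing A₀] [Field F] [Algebra A₀ F] (π : A₀)
    (B : Subalgebra A₀ F) (V₁ V₂ : Subring F) : Prop :=
  ∀ 𝔪 : Ideal B.toSubring, s35_md_IsNode π B V₁ V₂ 𝔪 →
    ∀ b : B.toSubring, ∃ a : A₀, b - ⟨algebraMap A₀ F a, B.algebraMap_mem a⟩ ∈ 𝔪

/-- (sq) shape : `s` is the `Q`-power Frobenius at every crossing point of the chart `B`. -/
def s35_md_Sq {A₀ F : Type*} [CommRing A₀] [Field F] [Algebra A₀ F] (π : A₀)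
    (B : Subalgebra A₀ F) (V₁ V₂ : Subring F) (s : F ≃+* F) (Q : ℕ) : Prop :=
  ∀ 𝔪 : Ideal B.toSubring, s35_md_IsNode π B V₁ V₂ 𝔪 →
    ∀ (hsB : ∀ x ∈ B.toSubring, s x ∈ B.toSubring) (b : B.toSubring),
      (⟨s b, hsB b b.2⟩ - b ^ Q : B.toSubring) ∈ 𝔪

/-- (rat) if `K₁` contains a primitive `(q² - 1)`-th root of unity, every crossing point of both
charts is rational. -/
def s35_ct_rat : Prop :=
  ∀ (N₁ q : ℕ) [NeZero N₁] [NeZero (N₁ * q)] [Fact q.Prime], ¬ q ∣ N₁ →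
    ∀ (P : ValuationSubring (AlgebraicClosure ℚ)), P.LiesOverPrime q →
    ∀ (K₁ : IntermediateField ℚ (AlgebraicClosure ℚ)) [FiniteDimensional ℚ K₁] [IsGalois ℚ K₁]
      [IsDiscreteValuationRing (s18_A1 P K₁)] (π : s18_A1 P K₁), Irreducible π →
    ∀ ζ : K₁, IsPrimitiveRoot ζ (q ^ 2 - 1) →
    ∀ (tL : modularFunctionFieldFull (N₁ * q)), s34_md_IsT N₁ q tL →
    ∀ (W : s18_F1 K₁ (N₁ * q) ≃ₐ[K₁] s18_F1 K₁ (N₁ * q)),
      haveI : NeZero q := ⟨(Fact.out : q.Prime).ne_zero⟩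
      s34_md_IsSwap K₁ N₁ q W →
    s35_md_Rat π (s34_md_B0 P K₁ (N₁ * q) tL) (s34_md_V1 P K₁ (N₁ * q))
      (s34_md_V2 P K₁ (N₁ * q) W) ∧
    s35_md_Rat π (s34_md_Binf P K₁ (N₁ * q) tL) (s34_md_V1 P K₁ (N₁ * q))
      (s34_md_V2 P K₁ (N₁ * q) W)

/-- (sq) if `K₁` contains a primitive `(q² - 1)`-th root of unity, then `s = σ₁ ∘ σ₁` is the
`q²`-power Frobenius at every crossing point of both charts. -/
def s35_ct_sq : Prop :=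
  ∀ (N₁ q : ℕ) [NeZero N₁] [NeZero (N₁ * q)] [Fact q.Prime], ¬ q ∣ N₁ →
    ∀ (P : ValuationSubring (AlgebraicClosure ℚ)), P.LiesOverPrime q →
    ∀ (K₁ : IntermediateField ℚ (AlgebraicClosure ℚ)) [FiniteDimensional ℚ K₁] [IsGalois ℚ K₁]
      [IsDiscreteValuationRing (s18_A1 P K₁)] (π : s18_A1 P K₁), Irreducible π →
    ∀ ζ : K₁, IsPrimitiveRoot ζ (q ^ 2 - 1) →
    ∀ (tL : modularFunctionFieldFull (N₁ * q)), s34_md_IsT N₁ q tL →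
    ∀ (W : s18_F1 K₁ (N₁ * q) ≃ₐ[K₁] s18_F1 K₁ (N₁ * q)),
      haveI : NeZero q := ⟨(Fact.out : q.Prime).ne_zero⟩
      s34_md_IsSwap K₁ N₁ q W →
    ∀ γ : AlgebraicClosure ℚ ≃ₐ[ℚ] AlgebraicClosure ℚ, P.IsFrobeniusAt γ q →
    ∀ s : s18_F1 K₁ (N₁ * q) ≃+* s18_F1 K₁ (N₁ * q),
      (∀ x, s x = s34_gi_tau K₁ (N₁ * q) γ (s34_gi_tau K₁ (N₁ * q) γ x)) →
    s35_md_Sq π (s34_md_B0 P K₁ (N₁ * q) tL) (s34_md_V1 P K₁ (N₁ * q))
      (s34_md_V2 P K₁ (N₁ * q) W) s (q ^ 2) ∧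
    s35_md_Sq π (s34_md_Binf P K₁ (N₁ * q) tL) (s34_md_V1 P K₁ (N₁ * q))
      (s34_md_V2 P K₁ (N₁ * q) W) s (q ^ 2)

end Fermat.Agent.S35
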