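import Mathlib
import Fermat.Agent.S34.Inst

/-!
# S35 (NODE-2), block (INST2), front half: the function-independent model package

The concrete nodal model of NODE-1 (`S34/InstDefs.lean`: level `N₁ * q`, `K₁ ⊆ Q̄` a Galois number
field, `A₁ = P ∩ K₁` a DVR with uniformizer `π`, `t = s18_coord K₁ tL`, the integral-closure charts
`s34_md_B0`, `s34_md_Binf`, the two Gauss rings `s34_md_V1`, `s34_md_V2 W`) packaged for a second
consumer: from the function-independent contract facts `s34_ct_fin`, `s34_ct_unif`, `s34_ct_le`,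
`s34_ct_cap`, `s34_ct_sm`, `s34_ct_xy` we produce

* `s35_pkg_chart` : the chart block of `s34_pow_of_model` (structure `s35_pkg_Chart`, field names
  = hypothesis names of `s34_pow_of_model`), including `hroot` for every exponent and `hsm`;
* `s35_pkg_hdvr` : the horizontal primes of both charts are discrete valuation rings;
* `s35_pkg_hG` : for a function `g₁` (orders divisible by `m`, support fixed by `Gal(Q̄/K₁)`) the
  crossing-point hypotheses `hG0`, `hGi` of `s34_pow_of_model`.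
-/

set_option autoImplicit false
set_option synthInstance.maxHeartbeats 400000
set_option linter.style.haveILetI false
set_option linter.unusedSectionVars false

open ModularCurve AlgebraicCurve

noncomputable section

namespace Fermat.Agent.S35

open Fermat.Agent.S18 Fermat.Agent.S34

/-! ### Shapes -/

section Shapes

variable {A₀ F : Type*} [CommRing A₀] [Field F] [Algebra A₀ F]

/-- The chart block of `s34_pow_of_model` (all hypotheses not mentioning `τ` or the function),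
for two charts `B0`, `Binf` glued along `t` and two components `V₁`, `V₂`. -/
structure s35_pkg_Chart (π : A₀) (t : F) (B0 Binf : Subalgebra A₀ F) (V₁ V₂ : Subring F) :
    Prop where
  hV₁ : s34_Unif (algebraMap A₀ F π) V₁
  hV₂ : s34_Unif (algebraMap A₀ F π) V₂
  hB0₁ : B0.toSubring ≤ V₁
  hB0₂ : B0.toSubring ≤ V₂
  hBi₁ : Binf.toSubring ≤ V₁
  hBi₂ : Binf.toSubring ≤ V₂
  hcap0 : s34_md_Cap π B0 V₁ V₂
  hcapi : s34_md_Cap π Binf V₁ V₂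
  noeth0 : IsNoetherianRing B0.toSubring
  noethi : IsNoetherianRing Binf.toSubring
  frac0 : ∀ x : F, ∃ a ∈ B0.toSubring, ∃ b ∈ B0.toSubring, b ≠ 0 ∧ x = a / b
  fraci : ∀ x : F, ∃ a ∈ Binf.toSubring, ∃ b ∈ Binf.toSubring, b ≠ 0 ∧ x = a / b
  t_ne : t ≠ 0
  t_mem : t ∈ B0
  tinv_mem : t⁻¹ ∈ Binf
  glue0 : ∀ x ∈ B0, ∃ k : ℕ, t⁻¹ ^ k * x ∈ Binf
  glueInf : ∀ x ∈ Binf, ∃ k : ℕ, t ^ k * x ∈ B0
  h1 : ∃ c₁ : ℕ, ∀ c, c₁ ≤ c → ∀ x ∈ B0, ∀ k : ℕ,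
    ∃ a ∈ B0, ∃ b ∈ Binf, t⁻¹ ^ k * x = a + t ^ c * b
  fin : ∀ c : ℕ, ∃ s : Finset F, ∀ x ∈ B0, t⁻¹ ^ c * x ∈ Binf →
    x ∈ Submodule.span A₀ (s : Set F)
  hroot0 : ∀ m : ℕ, 0 < m → ∀ z : F, z ^ m ∈ B0.toSubring → z ∈ B0.toSubring
  hrooti : ∀ m : ℕ, 0 < m → ∀ z : F, z ^ m ∈ Binf.toSubring → z ∈ Binf.toSubring
  hsm0 : s34_md_Sm π B0 V₁ V₂
  hsmi : s34_md_Sm π Binf V₁ V₂

/-- The localizations of `B` at the nonzero primes not containing `ϖ` are discrete valuation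
rings (hypothesis `hdvrB` of `s34_ni_hG_model`). -/
def s35_pkg_Hdvr (π : A₀) (B : Subalgebra A₀ F) : Prop :=
  ∀ 𝔮 : Ideal B.toSubring, 𝔮.IsPrime →
    (⟨algebraMap A₀ F π, B.algebraMap_mem π⟩ : B.toSubring) ∉ 𝔮 → 𝔮 ≠ ⊥ →
    ∃ W : ValuationSubring F, IsDiscreteValuationRing W ∧
      ∀ z : F, z ∈ W ↔ ∃ a s : B.toSubring, s ∉ 𝔮 ∧ z = (a : F) / (s : F)

/-- The crossing-point hypothesis `hG0` / `hGi` of `s34_pow_of_model` for the chart `B`, the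
exponent `m` and the function `g₁`. -/
def s35_pkg_HG (π : A₀) (B : Subalgebra A₀ F) (V₁ V₂ : Subring F) (m : ℕ) (g₁ : F) : Prop :=
  ∀ 𝔪 : Ideal B.toSubring, 𝔪.IsMaximal →
    (⟨algebraMap A₀ F π, B.algebraMap_mem π⟩ : B.toSubring) ∈ 𝔪 →
    (∀ s : B.toSubring, s ∉ 𝔪 →
      (algebraMap A₀ F π)⁻¹ * (s : F) ∉ V₁ ∧ (algebraMap A₀ F π)⁻¹ * (s : F) ∉ V₂) →
    ∃ G : F, G ≠ 0 ∧
      ∀ 𝔮 : Ideal B.toSubring, 𝔮.IsPrime → 𝔮 ≤ 𝔪 →
        (⟨algebraMap A₀ F π, B.algebraMap_mem π⟩ : B.toSubring) ∉ 𝔮 →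
        g₁ * (G⁻¹) ^ m ∈ s18_loc B.toSubring 𝔮 ∧ G ^ m * g₁⁻¹ ∈ s18_loc B.toSubring 𝔮

end Shapes

/-! ### The package -/

section Pkg

variable (N₁ q : ℕ) [NeZero N₁] [NeZero (N₁ * q)] [Fact q.Prime]
  (P : ValuationSubring (AlgebraicClosure ℚ))
  (K₁ : IntermediateField ℚ (AlgebraicClosure ℚ)) [FiniteDimensional ℚ K₁] [IsGalois ℚ K₁]
  [IsDiscreteValuationRing (s18_A1 P K₁)]

set_option maxHeartbeats 4000000 in
/-- **The chart block of the model.** -/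
theorem s35_pkg_chart (hfin : s34_ct_fin) (hunif : s34_ct_unif) (hle : s34_ct_le)
    (hcap : s34_ct_cap) (hsm : s34_ct_sm) (hqN : ¬ q ∣ N₁) (hP : P.LiesOverPrime q)
    (π : s18_A1 P K₁) (hπ : Irreducible π)
    (tL : modularFunctionFieldFull (N₁ * q)) (htL : s34_md_IsT N₁ q tL)
    (W : s18_F1 K₁ (N₁ * q) ≃ₐ[K₁] s18_F1 K₁ (N₁ * q))
    (hW : haveI : NeZero q := ⟨(Fact.out : q.Prime).ne_zero⟩; s34_md_IsSwap K₁ N₁ q W) :
    s35_pkg_Chart π (s18_coord K₁ tL) (s34_md_B0 P K₁ (N₁ * q) tL)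
      (s34_md_Binf P K₁ (N₁ * q) tL) (s34_md_V1 P K₁ (N₁ * q)) (s34_md_V2 P K₁ (N₁ * q) W) := by
  obtain ⟨htr, hfd⟩ := hfin N₁ q K₁ tL htL
  haveI := hfd
  obtain ⟨hV₁, hV₂⟩ := hunif N₁ q hqN P hP K₁ π hπ W hW
  obtain ⟨h01, h02, hi1, hi2⟩ := hle N₁ q hqN P hP K₁ π hπ tL htL W hW
  obtain ⟨hcap0, hcapi⟩ := hcap N₁ q hqN P hP K₁ π hπ tL htL W hW
  obtain ⟨hsm0, hsmi⟩ := hsm N₁ q hqN P hP K₁ π hπ tL htL W hW
  haveI tower : IsScalarTower (s18_A1 P K₁) K₁ (s18_F1 K₁ (N₁ * q)) :=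
    IsScalarTower.of_algebraMap_eq (fun _ => rfl)
  have t_ne : s18_coord K₁ tL ≠ 0 := s34_ic_ne_zero htr
  exact
    { hV₁ := hV₁
      hV₂ := hV₂
      hB0₁ := h01
      hB0₂ := h02
      hBi₁ := hi1
      hBi₂ := hi2
      hcap0 := hcap0
      hcapi := hcapi
      noeth0 := s34_ic_noeth (K := K₁) (s18_coord K₁ tL) htr
      noethi := s34_ic_noeth_inv (K := K₁) (s18_coord K₁ tL) htr
      frac0 := s34_ic_frac (K := K₁) (s18_coord K₁ tL)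
      fraci := s34_ic_frac_inv (K := K₁) (s18_coord K₁ tL)
      t_ne := t_ne
      t_mem := s34_ic_t_mem _
      tinv_mem := s34_ic_t_mem _
      glue0 := fun x hx => s34_ic_glue t_ne hx
      glueInf := fun x hx => s34_ic_glue' t_ne hx
      h1 := s34_ic_h1 (K := K₁) (s18_coord K₁ tL) htr
      fin := s34_ic_fin (K := K₁) (s18_coord K₁ tL) htr
      hroot0 := fun m hm0 => s34_ic_root (s18_coord K₁ tL) m hm0
      hrooti := fun m hm0 => s34_ic_root (s18_coord K₁ tL)⁻¹ m hm0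
      hsm0 := hsm0
      hsmi := hsmi }

/-- **The horizontal primes of both charts are discrete valuation rings.** -/
theorem s35_pkg_hdvr (hfin : s34_ct_fin)
    (π : s18_A1 P K₁) (hπ : Irreducible π)
    (tL : modularFunctionFieldFull (N₁ * q)) (htL : s34_md_IsT N₁ q tL) :
    s35_pkg_Hdvr π (s34_md_B0 P K₁ (N₁ * q) tL) ∧
      s35_pkg_Hdvr π (s34_md_Binf P K₁ (N₁ * q) tL) := by
  obtain ⟨htr, hfd⟩ := hfin N₁ q K₁ tL htL
  haveI := hfd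
  haveI tower : IsScalarTower (s18_A1 P K₁) K₁ (s18_F1 K₁ (N₁ * q)) :=
    IsScalarTower.of_algebraMap_eq (fun _ => rfl)
  exact ⟨fun 𝔮 h𝔮 hϖ h0 => s34_ic_hdvr (K := K₁) π hπ (s18_coord K₁ tL) htr 𝔮 h𝔮 _ hϖ h0,
    fun 𝔮 h𝔮 hϖ h0 => s34_ic_hdvr_inv (K := K₁) π hπ (s18_coord K₁ tL) htr 𝔮 h𝔮 _ hϖ h0⟩

set_option maxHeartbeats 4000000 in
/-- **The crossing-point hypotheses `hG0`, `hGi`** of `s34_pow_of_model` for a function `g₁` whose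
orders are divisible by `m` and whose support is fixed by `Gal(Q̄/K₁)`. -/
theorem s35_pkg_hG (hfin : s34_ct_fin) (hunif : s34_ct_unif) (hle : s34_ct_le)
    (hcap : s34_ct_cap) (hxy : s34_ct_xy) (hqN : ¬ q ∣ N₁) (hP : P.LiesOverPrime q)
    (π : s18_A1 P K₁) (hπ : Irreducible π)
    (tL : modularFunctionFieldFull (N₁ * q)) (htL : s34_md_IsT N₁ q tL)
    (W : s18_F1 K₁ (N₁ * q) ≃ₐ[K₁] s18_F1 K₁ (N₁ * q))
    (hW : haveI : NeZero q := ⟨(Fact.out : q.Prime).ne_zero⟩; s34_md_IsSwap K₁ N₁ q W)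
    (m : ℕ) (g₁ : s18_F1 K₁ (N₁ * q)) (hg₁ : g₁ ≠ 0)
    (hdivg : ∀ P' : Place (AlgebraicClosure ℚ) (modularFunctionFieldBar (N₁ * q)),
      (m : ℤ) ∣ P'.ord (s18_baseIncl K₁ (N₁ * q) g₁))
    (hfix : ∀ P' : Place (AlgebraicClosure ℚ) (modularFunctionFieldBar (N₁ * q)),
      P'.ord (s18_baseIncl K₁ (N₁ * q) g₁) ≠ 0 →
      ∀ σ : AlgebraicClosure ℚ ≃ₐ[ℚ] AlgebraicClosure ℚ, (∀ c ∈ K₁, σ c = c) →
        arithmeticGalois (modularFunctionFieldFull (N₁ * q)) σ • P' = P') :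
    s35_pkg_HG π (s34_md_B0 P K₁ (N₁ * q) tL) (s34_md_V1 P K₁ (N₁ * q))
        (s34_md_V2 P K₁ (N₁ * q) W) m g₁ ∧
      s35_pkg_HG π (s34_md_Binf P K₁ (N₁ * q) tL) (s34_md_V1 P K₁ (N₁ * q))
        (s34_md_V2 P K₁ (N₁ * q) W) m g₁ := by
  obtain ⟨htr, hfd⟩ := hfin N₁ q K₁ tL htL
  haveI := hfd
  obtain ⟨hV₁, hV₂⟩ := hunif N₁ q hqN P hP K₁ π hπ W hW
  obtain ⟨h01, h02, hi1, hi2⟩ := hle N₁ q hqN P hP K₁ π hπ tL htL W hW
  obtain ⟨hcap0, hcapi⟩ := hcap N₁ q hqN P hP K₁ π hπ tL htL W hW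
  obtain ⟨hxy0, hxyi⟩ := hxy N₁ q hqN P hP K₁ π hπ tL htL W hW h01 h02 hi1 hi2
  obtain ⟨hdvr0, hdvri⟩ := s35_pkg_hdvr N₁ q P K₁ hfin π hπ tL htL
  haveI tower : IsScalarTower (s18_A1 P K₁) K₁ (s18_F1 K₁ (N₁ * q)) :=
    IsScalarTower.of_algebraMap_eq (fun _ => rfl)
  refine ⟨fun 𝔪 h𝔪 hϖ𝔪 hnode => ?_, fun 𝔪 h𝔪 hϖ𝔪 hnode => ?_⟩
  · exact s34_ni_hG_model (N₁ * q) P K₁ hπ (s34_md_B0 P K₁ (N₁ * q) tL).toSubring
      (fun a => (s34_md_B0 P K₁ (N₁ * q) tL).algebraMap_mem a)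
      (s34_ic_noeth (K := K₁) (s18_coord K₁ tL) htr) (s34_ic_frac (K := K₁) (s18_coord K₁ tL))
      (s34_md_V1 P K₁ (N₁ * q)) (s34_md_V2 P K₁ (N₁ * q) W) hV₁ hV₂ h01 h02 hcap0 m g₁ hg₁
      hdivg hfix hdvr0 𝔪 h𝔪 hϖ𝔪 hnode
      (fun hres hker => (hxy0 𝔪 h𝔪 hϖ𝔪 hnode hres hker).1)
      (fun hres hker => (hxy0 𝔪 h𝔪 hϖ𝔪 hnode hres hker).2)
  · exact s34_ni_hG_model (N₁ * q) P K₁ hπ (s34_md_Binf P K₁ (N₁ * q) tL).toSubring
      (fun a => (s34_md_Binf P K₁ (N₁ * q) tL).algebraMap_mem a)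
      (s34_ic_noeth_inv (K := K₁) (s18_coord K₁ tL) htr)
      (s34_ic_frac_inv (K := K₁) (s18_coord K₁ tL))
      (s34_md_V1 P K₁ (N₁ * q)) (s34_md_V2 P K₁ (N₁ * q) W) hV₁ hV₂ hi1 hi2 hcapi m g₁ hg₁
      hdivg hfix hdvri 𝔪 h𝔪 hϖ𝔪 hnode
      (fun hres hker => (hxyi 𝔪 h𝔪 hϖ𝔪 hnode hres hker).1)
      (fun hres hker => (hxyi 𝔪 h𝔪 hϖ𝔪 hnode hres hker).2)

end Pkg

end Fermat.Agent.S35
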