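import Mathlib
import Fermat.Agent.S34.SmoothPoint

/-!
# S35, leaf L7: the Frobenius chain (STEP 1–2 of (F')) and the CRT lift `Ψ`

Abstract algebra over a field `F` with two uniformized discrete valuation rings `V∞`, `V0`
(`s34_Unif ϖ V∞`, `s34_Unif ϖ V0`), a ring automorphism `σ` (a Frobenius lift acting on
coefficients), an involution `W` swapping `V∞` and `V0`, and a subring `C` of constants on which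
`σ² ≡ (·)^Q mod ϖ`.

Congruences `x ≡ y mod ϖ V` are written `ϖ⁻¹ * (x - y) ∈ V`.

* `s35_fa_one ϖ V z` : `z ∈ 1 + ϖ V` (a subgroup of `Fˣ`: `mul`, `inv`, `div`, `pow`, `map`);
* `s35_fa_crt` : CRT for two distinct uniformized DVRs of `F`;
* `s35_fa_chain` : from the two norm–residue relations (H2), (H3) to
  `σ²u/u ≡ κa Φa^m mod ϖ V∞` and `σ²u/u ≡ κb Φb^m mod ϖ V0` (explicit `κ`, `Φ`);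
* `s35_fa_H` : one-ring step: `u₂ ≡ κ Φ^m`, `Ψ ≡ σ²Φ/Φ^Q` ⟹ `σ²u₂/u₂^Q/Ψ^m ≡ 1`;
* `s35_fa_main` : the combination, with `Ψ` from CRT;
* `s35_fa_of_norm` : (H2), (H3) for `u = σ²g/g` from the norm relations and (NR);
* `s35_fa_H1_eq` : the explicit shape of `H·Ψ^m` in terms of `g`.
-/

set_option autoImplicit false

namespace Fermat.Agent.S35

open Fermat.Agent.S34

variable {F : Type*} [Field F]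

/-- `z ∈ 1 + ϖ V`. -/
def s35_fa_one (ϖ : F) (V : Subring F) (z : F) : Prop := ϖ⁻¹ * (z - 1) ∈ V

/-- `1 + ϖ w ≠ 0` for `w ∈ V`. -/
theorem s35_fa_one_add_ne {ϖ : F} {V : Subring F} (hV : s34_Unif ϖ V) {w : F} (hw : w ∈ V) :
    1 + ϖ * w ≠ 0 := by
  intro h0
  apply hV.inv_not_mem
  have hϖ := hV.ne_zero
  have e : ϖ⁻¹ = ϖ⁻¹ * (1 + ϖ * w) - w := by
    field_simp; ring
  rw [h0, mul_zero, zero_sub] at e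
  rw [e]; exact V.neg_mem hw

namespace s35_fa_one

variable {ϖ : F} {V : Subring F}

theorem one : s35_fa_one ϖ V 1 := by
  unfold s35_fa_one; rw [sub_self, mul_zero]; exact V.zero_mem

theorem eq_one_add (hϖ : ϖ ≠ 0) (z : F) : z = 1 + ϖ * (ϖ⁻¹ * (z - 1)) := by
  field_simp; ring

theorem mem (hV : s34_Unif ϖ V) {z : F} (h : s35_fa_one ϖ V z) : z ∈ V := by
  rw [eq_one_add hV.ne_zero z]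
  exact V.add_mem V.one_mem (V.mul_mem hV.mem h)

theorem inv_mem (hV : s34_Unif ϖ V) {z : F} (h : s35_fa_one ϖ V z) : z⁻¹ ∈ V := by
  rw [eq_one_add hV.ne_zero z]
  exact hV.one_add_inv_mem h

theorem ne_zero (hV : s34_Unif ϖ V) {z : F} (h : s35_fa_one ϖ V z) : z ≠ 0 := by
  rw [eq_one_add hV.ne_zero z]
  exact s35_fa_one_add_ne hV h

theorem mul (hV : s34_Unif ϖ V) {z w : F} (hz : s35_fa_one ϖ V z) (hw : s35_fa_one ϖ V w) :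
    s35_fa_one ϖ V (z * w) := by
  have hwV := hw.mem hV
  unfold s35_fa_one at *
  have e : ϖ⁻¹ * (z * w - 1) = ϖ⁻¹ * (z - 1) * w + ϖ⁻¹ * (w - 1) := by ring
  rw [e]; exact V.add_mem (V.mul_mem hz hwV) hw

theorem inv (hV : s34_Unif ϖ V) {z : F} (hz : s35_fa_one ϖ V z) : s35_fa_one ϖ V z⁻¹ := by
  have hz0 := hz.ne_zero hV
  have hzi := hz.inv_mem hV
  unfold s35_fa_one at *
  have e : ϖ⁻¹ * (z⁻¹ - 1) = -(ϖ⁻¹ * (z - 1) * z⁻¹) := by field_simp; ring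
  rw [e]; exact V.neg_mem (V.mul_mem hz hzi)

theorem div (hV : s34_Unif ϖ V) {z w : F} (hz : s35_fa_one ϖ V z) (hw : s35_fa_one ϖ V w) :
    s35_fa_one ϖ V (z / w) := by
  rw [div_eq_mul_inv]; exact hz.mul hV (hw.inv hV)

theorem pow (hV : s34_Unif ϖ V) {z : F} (hz : s35_fa_one ϖ V z) (n : ℕ) :
    s35_fa_one ϖ V (z ^ n) := by
  induction n with
  | zero => rw [pow_zero]; exact one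
  | succ n ih => rw [pow_succ]; exact ih.mul hV hz

/-- Transport along a ring automorphism `σ` with `σ V ⊆ V'` and `σ ϖ ∈ ϖ V'`. -/
theorem map {V' : Subring F} (σ : F ≃+* F) (hσV : ∀ x ∈ V, σ x ∈ V') (hσϖ : ϖ⁻¹ * σ ϖ ∈ V')
    (hϖ : ϖ ≠ 0) {z : F} (hz : s35_fa_one ϖ V z) : s35_fa_one ϖ V' (σ z) := by
  unfold s35_fa_one at *
  have hσϖ0 : σ ϖ ≠ 0 := (map_ne_zero σ).mpr hϖ
  have e : ϖ⁻¹ * (σ z - 1) = ϖ⁻¹ * σ ϖ * σ (ϖ⁻¹ * (z - 1)) := by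
    rw [map_mul, map_inv₀, map_sub, map_one]
    field_simp
  rw [e]; exact V'.mul_mem hσϖ (hσV _ hz)

theorem of_le {V' : Subring F} (h : V ≤ V') {z : F} (hz : s35_fa_one ϖ V z) :
    s35_fa_one ϖ V' z := h hz

/-- From an additive congruence to the multiplicative form. -/
theorem of_cg {x y : F} (h : ϖ⁻¹ * (x - y) ∈ V) (hy : y ≠ 0) (hy' : y⁻¹ ∈ V) :
    s35_fa_one ϖ V (x / y) := by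
  unfold s35_fa_one
  have e : ϖ⁻¹ * (x / y - 1) = ϖ⁻¹ * (x - y) * y⁻¹ := by field_simp
  rw [e]; exact V.mul_mem h hy'

/-- From the multiplicative form to an additive congruence. -/
theorem to_cg {x y : F} (h : s35_fa_one ϖ V (x / y)) (hy : y ≠ 0) (hyV : y ∈ V) :
    ϖ⁻¹ * (x - y) ∈ V := by
  unfold s35_fa_one at h
  have e : ϖ⁻¹ * (x - y) = ϖ⁻¹ * (x / y - 1) * y := by field_simp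
  rw [e]; exact V.mul_mem h hyV

end s35_fa_one

/-! ### CRT -/

/-- A unit of `V₁` lying in `ϖ V₂`, from an element of `V₁ \ V₂`. -/
theorem s35_fa_witness {ϖ : F} {V₁ V₂ : Subring F} (hV₁ : s34_Unif ϖ V₁) (hV₂ : s34_Unif ϖ V₂)
    (x : F) (hx : x ∈ V₁) (hx' : x ∉ V₂) :
    ∃ y : F, y ≠ 0 ∧ y ∈ V₁ ∧ y⁻¹ ∈ V₁ ∧ ϖ⁻¹ * y ∈ V₂ := by
  have hϖ := hV₁.ne_zero
  have hx0 : x ≠ 0 := by rintro rfl; exact hx' V₂.zero_mem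
  obtain ⟨i, w', hw', hw'i, hxw'⟩ := hV₁.decomp x hx0
  obtain ⟨j, w, hw, hwi, hxw⟩ := hV₂.decomp x hx0
  have hw'0 : w' ≠ 0 := by rintro rfl; rw [mul_zero] at hxw'; exact hx0 hxw'
  have hw0 : w ≠ 0 := by rintro rfl; rw [mul_zero] at hxw; exact hx0 hxw
  have hi : 0 ≤ i := (hV₁.mem_iff hw'0 hw' hw'i).mp (hxw' ▸ hx)
  have hj : ¬ 0 ≤ j := fun h => hx' (by rw [hxw]; exact (hV₂.mem_iff hw0 hw hwi).mpr h)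
  refine ⟨w'⁻¹, inv_ne_zero hw'0, hw'i, by rwa [inv_inv], ?_⟩
  have e : ϖ⁻¹ * w'⁻¹ = ϖ ^ (i - j - 1) * w⁻¹ := by
    have h1 : ϖ ^ i * w' = ϖ ^ j * w := hxw'.symm.trans hxw
    have h2 : w'⁻¹ = ϖ ^ i * (ϖ ^ j)⁻¹ * w⁻¹ := by
      have hj0 : ϖ ^ j ≠ 0 := zpow_ne_zero _ hϖ
      field_simp
      linear_combination -h1
    rw [h2, zpow_sub₀ hϖ, zpow_sub₀ hϖ, zpow_one]
    field_simp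
  rw [e]
  exact (hV₂.mem_iff (inv_ne_zero hw0) hwi (by rwa [inv_inv])).mpr (by omega)

/-- Two uniformized DVRs of `F` with the same uniformizer: an inclusion is an equality. -/
theorem s35_fa_le_of_le {ϖ : F} {V₁ V₂ : Subring F} (hV₁ : s34_Unif ϖ V₁) (hV₂ : s34_Unif ϖ V₂)
    (h : V₁ ≤ V₂) : V₂ ≤ V₁ := by
  intro x hx
  by_cases hx0 : x = 0
  · rw [hx0]; exact V₁.zero_mem
  obtain ⟨j, w, hw, hwi, hxw⟩ := hV₁.decomp x hx0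
  have hw0 : w ≠ 0 := by rintro rfl; rw [mul_zero] at hxw; exact hx0 hxw
  have hj : 0 ≤ j := (hV₂.mem_iff hw0 (h hw) (h hwi)).mp (hxw ▸ hx)
  rw [hxw]
  exact (hV₁.mem_iff hw0 hw hwi).mpr hj

/-- Two distinct uniformized DVRs of `F` are incomparable. -/
theorem s35_fa_not_le {ϖ : F} {V₁ V₂ : Subring F} (hV₁ : s34_Unif ϖ V₁) (hV₂ : s34_Unif ϖ V₂)
    (hne : V₁ ≠ V₂) : ∃ x : F, x ∈ V₁ ∧ x ∉ V₂ := by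
  by_contra hcon
  push Not at hcon
  have h12 : V₁ ≤ V₂ := fun x hx => hcon x hx
  exact hne (le_antisymm h12 (s35_fa_le_of_le hV₁ hV₂ h12))

/-- CRT with explicit witnesses. -/
theorem s35_fa_crt_aux {ϖ : F} {V₁ V₂ : Subring F} (hV₁ : s34_Unif ϖ V₁) (hV₂ : s34_Unif ϖ V₂)
    (p r : F) (hp0 : p ≠ 0) (hp' : p⁻¹ ∈ V₁) (hp2 : ϖ⁻¹ * p ∈ V₂)
    (hr0 : r ≠ 0) (hr' : r⁻¹ ∈ V₂) (hr1 : ϖ⁻¹ * r ∈ V₁)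
    (x y : F) (hx : x ∈ V₁) (hy : y ∈ V₂) :
    ∃ z : F, z ∈ V₁ ⊓ V₂ ∧ ϖ⁻¹ * (z - x) ∈ V₁ ∧ ϖ⁻¹ * (z - y) ∈ V₂ := by
  have hϖ := hV₁.ne_zero
  obtain ⟨kx, hkx⟩ := hV₂.exists_pow_mul_mem x
  obtain ⟨ky, hky⟩ := hV₁.exists_pow_mul_mem y
  have hw1 : ϖ ^ (kx + ky) * (ϖ⁻¹ * r) ^ (kx + ky + 1) * (p⁻¹) ^ (kx + ky + 1) ∈ V₁ :=
    V₁.mul_mem (V₁.mul_mem (V₁.pow_mem hV₁.mem _) (V₁.pow_mem hr1 _)) (V₁.pow_mem hp' _)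
  have hw2 : ϖ ^ (kx + ky) * (ϖ⁻¹ * p) ^ (kx + ky + 1) * (r⁻¹) ^ (kx + ky + 1) ∈ V₂ :=
    V₂.mul_mem (V₂.mul_mem (V₂.pow_mem hV₂.mem _) (V₂.pow_mem hp2 _)) (V₂.pow_mem hr' _)
  have hD1 : p ^ (kx + ky + 1) + r ^ (kx + ky + 1) = p ^ (kx + ky + 1) *
      (1 + ϖ * (ϖ ^ (kx + ky) * (ϖ⁻¹ * r) ^ (kx + ky + 1) * (p⁻¹) ^ (kx + ky + 1))) := by
    simp only [mul_pow, inv_pow]
    field_simp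
    ring
  have hD2 : p ^ (kx + ky + 1) + r ^ (kx + ky + 1) = r ^ (kx + ky + 1) *
      (1 + ϖ * (ϖ ^ (kx + ky) * (ϖ⁻¹ * p) ^ (kx + ky + 1) * (r⁻¹) ^ (kx + ky + 1))) := by
    simp only [mul_pow, inv_pow]
    field_simp
    ring
  have hD0 : p ^ (kx + ky + 1) + r ^ (kx + ky + 1) ≠ 0 := by
    rw [hD1]
    exact mul_ne_zero (pow_ne_zero _ hp0) (s35_fa_one_add_ne hV₁ hw1)
  have hDi1 : (p ^ (kx + ky + 1) + r ^ (kx + ky + 1))⁻¹ ∈ V₁ := by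
    rw [hD1, mul_inv, ← inv_pow]
    exact V₁.mul_mem (V₁.pow_mem hp' _) (hV₁.one_add_inv_mem hw1)
  have hDi2 : (p ^ (kx + ky + 1) + r ^ (kx + ky + 1))⁻¹ ∈ V₂ := by
    rw [hD2, mul_inv, ← inv_pow]
    exact V₂.mul_mem (V₂.pow_mem hr' _) (hV₂.one_add_inv_mem hw2)
  have h1 : ϖ⁻¹ * ((p ^ (kx + ky + 1) * x + r ^ (kx + ky + 1) * y) /
      (p ^ (kx + ky + 1) + r ^ (kx + ky + 1)) - x) ∈ V₁ := by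
    have e : ϖ⁻¹ * ((p ^ (kx + ky + 1) * x + r ^ (kx + ky + 1) * y) /
        (p ^ (kx + ky + 1) + r ^ (kx + ky + 1)) - x) =
        (ϖ⁻¹ * r) ^ (kx + ky + 1) * (ϖ ^ kx * (ϖ ^ ky * y) - ϖ ^ (kx + ky) * x) *
          (p ^ (kx + ky + 1) + r ^ (kx + ky + 1))⁻¹ := by
      simp only [mul_pow, inv_pow]
      field_simp
      ring
    rw [e]
    exact V₁.mul_mem (V₁.mul_mem (V₁.pow_mem hr1 _) (V₁.sub_mem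
      (V₁.mul_mem (V₁.pow_mem hV₁.mem _) hky) (V₁.mul_mem (V₁.pow_mem hV₁.mem _) hx))) hDi1
  have h2 : ϖ⁻¹ * ((p ^ (kx + ky + 1) * x + r ^ (kx + ky + 1) * y) /
      (p ^ (kx + ky + 1) + r ^ (kx + ky + 1)) - y) ∈ V₂ := by
    have e : ϖ⁻¹ * ((p ^ (kx + ky + 1) * x + r ^ (kx + ky + 1) * y) /
        (p ^ (kx + ky + 1) + r ^ (kx + ky + 1)) - y) =
        (ϖ⁻¹ * p) ^ (kx + ky + 1) * (ϖ ^ ky * (ϖ ^ kx * x) - ϖ ^ (kx + ky) * y) *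
          (p ^ (kx + ky + 1) + r ^ (kx + ky + 1))⁻¹ := by
      simp only [mul_pow, inv_pow]
      field_simp
      ring
    rw [e]
    exact V₂.mul_mem (V₂.mul_mem (V₂.pow_mem hp2 _) (V₂.sub_mem
      (V₂.mul_mem (V₂.pow_mem hV₂.mem _) hkx) (V₂.mul_mem (V₂.pow_mem hV₂.mem _) hy))) hDi2
  refine ⟨(p ^ (kx + ky + 1) * x + r ^ (kx + ky + 1) * y) /
      (p ^ (kx + ky + 1) + r ^ (kx + ky + 1)), ⟨?_, ?_⟩, h1, h2⟩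
  · have e : (p ^ (kx + ky + 1) * x + r ^ (kx + ky + 1) * y) /
        (p ^ (kx + ky + 1) + r ^ (kx + ky + 1)) = x + ϖ * (ϖ⁻¹ *
          ((p ^ (kx + ky + 1) * x + r ^ (kx + ky + 1) * y) /
            (p ^ (kx + ky + 1) + r ^ (kx + ky + 1)) - x)) := by
      field_simp; ring
    rw [e]; exact V₁.add_mem hx (V₁.mul_mem hV₁.mem h1)
  · have e : (p ^ (kx + ky + 1) * x + r ^ (kx + ky + 1) * y) /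
        (p ^ (kx + ky + 1) + r ^ (kx + ky + 1)) = y + ϖ * (ϖ⁻¹ *
          ((p ^ (kx + ky + 1) * x + r ^ (kx + ky + 1) * y) /
            (p ^ (kx + ky + 1) + r ^ (kx + ky + 1)) - y)) := by
      field_simp; ring
    rw [e]; exact V₂.add_mem hy (V₂.mul_mem hV₂.mem h2)

/-- CRT for two distinct uniformized discrete valuation rings of `F`. -/
theorem s35_fa_crt {ϖ : F} {V₁ V₂ : Subring F} (hV₁ : s34_Unif ϖ V₁) (hV₂ : s34_Unif ϖ V₂)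
    (hne : V₁ ≠ V₂) (x y : F) (hx : x ∈ V₁) (hy : y ∈ V₂) :
    ∃ z : F, z ∈ V₁ ⊓ V₂ ∧ ϖ⁻¹ * (z - x) ∈ V₁ ∧ ϖ⁻¹ * (z - y) ∈ V₂ := by
  obtain ⟨a, ha1, ha2⟩ := s35_fa_not_le hV₁ hV₂ hne
  obtain ⟨b, hb2, hb1⟩ := s35_fa_not_le hV₂ hV₁ (Ne.symm hne)
  obtain ⟨p, hp0, -, hp', hp2⟩ := s35_fa_witness hV₁ hV₂ a ha1 ha2
  obtain ⟨r, hr0, -, hr', hr1⟩ := s35_fa_witness hV₂ hV₁ b hb2 hb1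
  exact s35_fa_crt_aux hV₁ hV₂ p r hp0 hp' hp2 hr0 hr' hr1 x y hx hy

/-! ### The Frobenius chain -/

/-- **The Frobenius chain, part 1.**  From the two norm–residue relations to the shape of
`σ²u/u` on both components. -/
theorem s35_fa_chain {ϖ : F} {Vi V0 : Subring F} (hVi : s34_Unif ϖ Vi)
    (σ W : F ≃+* F)
    (hσi : ∀ x ∈ Vi, σ x ∈ Vi) (hσϖi : ϖ⁻¹ * σ ϖ ∈ Vi)
    (hWi : ∀ x ∈ Vi, W x ∈ V0) (hWϖ : ϖ⁻¹ * W ϖ ∈ V0)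
    (hWW : ∀ x, W (W x) = x) (hWσ : ∀ x, W (σ x) = σ (W x))
    (C : Subring F) (hCi : C ≤ Vi)
    (hσC : ∀ c ∈ C, σ c ∈ C) (hWC : ∀ c ∈ C, W c = c)
    (m : ℕ) (u c₁ c₂ Φ₁ Φ₂ : F)
    (hu : u ≠ 0)
    (hc₁ : c₁ ≠ 0) (hc₁C : c₁ ∈ C) (hc₁C' : c₁⁻¹ ∈ C)
    (hc₂ : c₂ ≠ 0) (hc₂C : c₂ ∈ C) (hc₂C' : c₂⁻¹ ∈ C)
    (hΦ₁ : Φ₁ ≠ 0) (hΦ₁V : Φ₁ ∈ Vi) (hΦ₁V' : Φ₁⁻¹ ∈ Vi)
    (hΦ₂ : Φ₂ ≠ 0) (hΦ₂V : Φ₂ ∈ Vi) (hΦ₂V' : Φ₂⁻¹ ∈ Vi)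
    (H2 : ϖ⁻¹ * (u * σ (W u) - c₁ * Φ₁ ^ m) ∈ Vi)
    (H3 : ϖ⁻¹ * (W u * σ u - c₂ * Φ₂ ^ m) ∈ Vi) :
    ϖ⁻¹ * (σ (σ u) / u - (σ c₂ / c₁) * (σ Φ₂ / Φ₁) ^ m) ∈ Vi ∧
    ϖ⁻¹ * (σ (σ u) / u - (σ c₁ / c₂) * (W (σ Φ₁ / Φ₂)) ^ m) ∈ V0 := by
  have hϖ := hVi.ne_zero
  have hCV0 : C ≤ V0 := fun c hc => by
    have := hWi c (hCi hc)
    rwa [hWC c hc] at this
  -- nonvanishing
  have hσu : σ u ≠ 0 := (map_ne_zero σ).mpr hu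
  have hσσu : σ (σ u) ≠ 0 := (map_ne_zero σ).mpr hσu
  have hWu : W u ≠ 0 := (map_ne_zero W).mpr hu
  have hσWu : σ (W u) ≠ 0 := (map_ne_zero σ).mpr hWu
  have hσc₁ : σ c₁ ≠ 0 := (map_ne_zero σ).mpr hc₁
  have hσc₂ : σ c₂ ≠ 0 := (map_ne_zero σ).mpr hc₂
  have hσΦ₁ : σ Φ₁ ≠ 0 := (map_ne_zero σ).mpr hΦ₁
  have hσΦ₂ : σ Φ₂ ≠ 0 := (map_ne_zero σ).mpr hΦ₂
  have hWσΦ₁ : W (σ Φ₁) ≠ 0 := (map_ne_zero W).mpr hσΦ₁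
  have hWΦ₂ : W Φ₂ ≠ 0 := (map_ne_zero W).mpr hΦ₂
  -- the multiplicative forms of (H2), (H3)
  have A2 : s35_fa_one ϖ Vi (u * σ (W u) / (c₁ * Φ₁ ^ m)) := by
    refine s35_fa_one.of_cg H2 (mul_ne_zero hc₁ (pow_ne_zero _ hΦ₁)) ?_
    rw [mul_inv, ← inv_pow]
    exact Vi.mul_mem (hCi hc₁C') (Vi.pow_mem hΦ₁V' _)
  have A3 : s35_fa_one ϖ Vi (W u * σ u / (c₂ * Φ₂ ^ m)) := by
    refine s35_fa_one.of_cg H3 (mul_ne_zero hc₂ (pow_ne_zero _ hΦ₂)) ?_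
    rw [mul_inv, ← inv_pow]
    exact Vi.mul_mem (hCi hc₂C') (Vi.pow_mem hΦ₂V' _)
  have B1 : s35_fa_one ϖ Vi (σ (W u * σ u / (c₂ * Φ₂ ^ m)) / (u * σ (W u) / (c₁ * Φ₁ ^ m))) :=
    (A3.map σ hσi hσϖi hϖ).div hVi A2
  have e1 : σ (W u * σ u / (c₂ * Φ₂ ^ m)) / (u * σ (W u) / (c₁ * Φ₁ ^ m)) =
      (σ (σ u) / u) / ((σ c₂ / c₁) * (σ Φ₂ / Φ₁) ^ m) := by
    simp only [map_div₀, map_mul, map_pow, div_pow]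
    field_simp
  rw [e1] at B1
  have B2 : s35_fa_one ϖ V0
      (W (σ (u * σ (W u) / (c₁ * Φ₁ ^ m)) / (W u * σ u / (c₂ * Φ₂ ^ m)))) :=
    ((A2.map σ hσi hσϖi hϖ).div hVi A3).map W hWi hWϖ hϖ
  have e2 : W (σ (u * σ (W u) / (c₁ * Φ₁ ^ m)) / (W u * σ u / (c₂ * Φ₂ ^ m))) =
      (σ (σ u) / u) / ((σ c₁ / c₂) * (W (σ Φ₁ / Φ₂)) ^ m) := by
    simp only [map_div₀, map_mul, map_pow, hWσ, hWW, hWC c₂ hc₂C, hWC c₁ hc₁C, div_pow]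
    have hσWΦ₁ : σ (W Φ₁) ≠ 0 := by rw [← hWσ]; exact hWσΦ₁
    field_simp
  rw [e2] at B2
  refine ⟨B1.to_cg ?_ ?_, B2.to_cg ?_ ?_⟩
  · exact mul_ne_zero (div_ne_zero hσc₂ hc₁) (pow_ne_zero _ (div_ne_zero hσΦ₂ hΦ₁))
  · rw [div_eq_mul_inv, div_eq_mul_inv]
    exact Vi.mul_mem (Vi.mul_mem (hCi (hσC _ hc₂C)) (hCi hc₁C'))
      (Vi.pow_mem (Vi.mul_mem (hσi _ hΦ₂V) hΦ₁V') _)
  · exact mul_ne_zero (div_ne_zero hσc₁ hc₂)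
      (pow_ne_zero _ ((map_ne_zero W).mpr (div_ne_zero hσΦ₁ hΦ₂)))
  · rw [div_eq_mul_inv]
    refine V0.mul_mem (V0.mul_mem (hCV0 (hσC _ hc₁C)) (hCV0 hc₂C')) (V0.pow_mem (hWi _ ?_) _)
    rw [div_eq_mul_inv]
    exact Vi.mul_mem (hσi _ hΦ₁V) hΦ₂V'

/-- **The Frobenius chain, part 2 (one ring).**  If `u₂ ≡ κ Φ^m` and `Ψ ≡ σ²Φ/Φ^Q` modulo `ϖ V`
(`κ` a unit constant, `Φ` a unit of `V`, `σ² ≡ (·)^Q` on constants), then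
`σ²u₂ / u₂^Q / Ψ^m ≡ 1 mod ϖ V`. -/
theorem s35_fa_H {ϖ : F} {V : Subring F} (hV : s34_Unif ϖ V) (σ : F ≃+* F)
    (hσV : ∀ x ∈ V, σ x ∈ V) (hσϖ : ϖ⁻¹ * σ ϖ ∈ V)
    (C : Subring F) (hCV : C ≤ V)
    (Q : ℕ) (hfrob : ∀ c ∈ C, ϖ⁻¹ * (σ (σ c) - c ^ Q) ∈ C)
    (m : ℕ) (u₂ κ Φ Ψ : F)
    (hκ : κ ≠ 0) (hκC : κ ∈ C) (hκC' : κ⁻¹ ∈ C)
    (hΦ : Φ ≠ 0) (hΦV : Φ ∈ V) (hΦV' : Φ⁻¹ ∈ V)
    (hu₂ : ϖ⁻¹ * (u₂ - κ * Φ ^ m) ∈ V)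
    (hΨ : ϖ⁻¹ * (Ψ - σ (σ Φ) / Φ ^ Q) ∈ V) :
    ϖ⁻¹ * (σ (σ u₂) / u₂ ^ Q / Ψ ^ m - 1) ∈ V := by
  have hϖ := hV.ne_zero
  have hσΦ : σ Φ ≠ 0 := (map_ne_zero σ).mpr hΦ
  have hσσΦ : σ (σ Φ) ≠ 0 := (map_ne_zero σ).mpr hσΦ
  have hσκ : σ κ ≠ 0 := (map_ne_zero σ).mpr hκ
  have hσσκ : σ (σ κ) ≠ 0 := (map_ne_zero σ).mpr hσκ
  have A : s35_fa_one ϖ V (u₂ / (κ * Φ ^ m)) := by
    refine s35_fa_one.of_cg hu₂ (mul_ne_zero hκ (pow_ne_zero _ hΦ)) ?_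
    rw [mul_inv, ← inv_pow]
    exact V.mul_mem (hCV hκC') (V.pow_mem hΦV' _)
  have hu₂0 : u₂ ≠ 0 := by
    intro h0
    apply A.ne_zero hV
    rw [h0, zero_div]
  have hσu₂ : σ u₂ ≠ 0 := (map_ne_zero σ).mpr hu₂0
  have hσσu₂ : σ (σ u₂) ≠ 0 := (map_ne_zero σ).mpr hσu₂
  have As : s35_fa_one ϖ V (σ (σ (u₂ / (κ * Φ ^ m)))) :=
    (A.map σ hσV hσϖ hϖ).map σ hσV hσϖ hϖ
  have AQ : s35_fa_one ϖ V ((u₂ / (κ * Φ ^ m)) ^ Q) := A.pow hV Q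
  have K : s35_fa_one ϖ V (σ (σ κ) / κ ^ Q) := by
    refine s35_fa_one.of_cg (hCV (hfrob κ hκC)) (pow_ne_zero _ hκ) ?_
    rw [← inv_pow]
    exact V.pow_mem (hCV hκC') _
  have P : s35_fa_one ϖ V (Ψ / (σ (σ Φ) / Φ ^ Q)) := by
    refine s35_fa_one.of_cg hΨ (div_ne_zero hσσΦ (pow_ne_zero _ hΦ)) ?_
    rw [inv_div, div_eq_mul_inv, ← map_inv₀, ← map_inv₀]
    exact V.mul_mem (V.pow_mem hΦV _) (hσV _ (hσV _ hΦV'))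
  have hΨ0 : Ψ ≠ 0 := by
    intro h0
    apply P.ne_zero hV
    rw [h0, zero_div]
  have R := ((As.div hV AQ).mul hV K).div hV (P.pow hV m)
  have e : σ (σ (u₂ / (κ * Φ ^ m))) / (u₂ / (κ * Φ ^ m)) ^ Q * (σ (σ κ) / κ ^ Q) /
      (Ψ / (σ (σ Φ) / Φ ^ Q)) ^ m = σ (σ u₂) / u₂ ^ Q / Ψ ^ m := by
    simp only [map_div₀, map_mul, map_pow, div_pow, mul_pow]
    field_simp
    ring
  rw [e] at R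
  exact R

/-- **L7 main.**  From the two norm–residue relations (H2), (H3) for a unit `u` of `V∞ ⊓ V0` to
the data of STEP 2 of (F'): constants `κa, κb`, units `Φa` of `V∞` and `Φb` of `V0`, a unit `Ψ`
of `V∞ ⊓ V0`, with `σ²u/u ≡ κa Φa^m [V∞]`, `≡ κb Φb^m [V0]`, `Ψ ≡ σ²Φa/Φa^Q [V∞]`,
`Ψ ≡ σ²Φb/Φb^Q [V0]`, and `H := σ²u₂/u₂^Q/Ψ^m ≡ 1 mod ϖ (V∞ ⊓ V0)` for `u₂ = σ²u/u`. -/
theorem s35_fa_main {ϖ : F} {Vi V0 : Subring F} (hVi : s34_Unif ϖ Vi) (hV0 : s34_Unif ϖ V0)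
    (hne : Vi ≠ V0) (σ W : F ≃+* F)
    (hσi : ∀ x ∈ Vi, σ x ∈ Vi) (hσ0 : ∀ x ∈ V0, σ x ∈ V0)
    (hσϖi : ϖ⁻¹ * σ ϖ ∈ Vi) (hσϖ0 : ϖ⁻¹ * σ ϖ ∈ V0)
    (hWi : ∀ x ∈ Vi, W x ∈ V0) (hW0 : ∀ x ∈ V0, W x ∈ Vi) (hWϖ : ϖ⁻¹ * W ϖ ∈ V0)
    (hWW : ∀ x, W (W x) = x) (hWσ : ∀ x, W (σ x) = σ (W x))
    (C : Subring F) (hCi : C ≤ Vi) (hC0 : C ≤ V0)
    (hσC : ∀ c ∈ C, σ c ∈ C) (hWC : ∀ c ∈ C, W c = c)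
    (Q : ℕ) (hfrob : ∀ c ∈ C, ϖ⁻¹ * (σ (σ c) - c ^ Q) ∈ C)
    (m : ℕ) (u c₁ c₂ Φ₁ Φ₂ : F)
    (hu : u ≠ 0) (hui : u ∈ Vi) (hui' : u⁻¹ ∈ Vi) (hu0 : u ∈ V0) (hu0' : u⁻¹ ∈ V0)
    (hc₁ : c₁ ≠ 0) (hc₁C : c₁ ∈ C) (hc₁C' : c₁⁻¹ ∈ C)
    (hc₂ : c₂ ≠ 0) (hc₂C : c₂ ∈ C) (hc₂C' : c₂⁻¹ ∈ C)
    (hΦ₁ : Φ₁ ≠ 0) (hΦ₁V : Φ₁ ∈ Vi) (hΦ₁V' : Φ₁⁻¹ ∈ Vi)
    (hΦ₂ : Φ₂ ≠ 0) (hΦ₂V : Φ₂ ∈ Vi) (hΦ₂V' : Φ₂⁻¹ ∈ Vi)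
    (H2 : ϖ⁻¹ * (u * σ (W u) - c₁ * Φ₁ ^ m) ∈ Vi)
    (H3 : ϖ⁻¹ * (W u * σ u - c₂ * Φ₂ ^ m) ∈ Vi) :
    ∃ κa κb Φa Φb Ψ : F,
      (κa ≠ 0 ∧ κa ∈ C ∧ κa⁻¹ ∈ C) ∧ (κb ≠ 0 ∧ κb ∈ C ∧ κb⁻¹ ∈ C) ∧
      (Φa ≠ 0 ∧ Φa ∈ Vi ∧ Φa⁻¹ ∈ Vi) ∧ (Φb ≠ 0 ∧ Φb ∈ V0 ∧ Φb⁻¹ ∈ V0) ∧
      (Ψ ≠ 0 ∧ Ψ ∈ Vi ⊓ V0 ∧ Ψ⁻¹ ∈ Vi ⊓ V0) ∧
      ϖ⁻¹ * (σ (σ u) / u - κa * Φa ^ m) ∈ Vi ∧
      ϖ⁻¹ * (σ (σ u) / u - κb * Φb ^ m) ∈ V0 ∧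
      ϖ⁻¹ * (Ψ - σ (σ Φa) / Φa ^ Q) ∈ Vi ∧
      ϖ⁻¹ * (Ψ - σ (σ Φb) / Φb ^ Q) ∈ V0 ∧
      ϖ⁻¹ * (σ (σ (σ (σ u) / u)) / (σ (σ u) / u) ^ Q / Ψ ^ m - 1) ∈ Vi ⊓ V0 := by
  have _hunused := And.intro hW0 (And.intro hui (And.intro hui' (And.intro hu0 hu0')))
  obtain ⟨ha, hb⟩ := s35_fa_chain hVi σ W hσi hσϖi hWi hWϖ hWW hWσ C hCi hσC hWC m
    u c₁ c₂ Φ₁ Φ₂ hu hc₁ hc₁C hc₁C' hc₂ hc₂C hc₂C' hΦ₁ hΦ₁V hΦ₁V' hΦ₂ hΦ₂V hΦ₂V' H2 H3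
  have hσc₁ : σ c₁ ≠ 0 := (map_ne_zero σ).mpr hc₁
  have hσc₂ : σ c₂ ≠ 0 := (map_ne_zero σ).mpr hc₂
  have hσΦ₁ : σ Φ₁ ≠ 0 := (map_ne_zero σ).mpr hΦ₁
  have hσΦ₂ : σ Φ₂ ≠ 0 := (map_ne_zero σ).mpr hΦ₂
  -- the units
  have hκa : σ c₂ / c₁ ≠ 0 ∧ σ c₂ / c₁ ∈ C ∧ (σ c₂ / c₁)⁻¹ ∈ C := by
    refine ⟨div_ne_zero hσc₂ hc₁, ?_, ?_⟩
    · rw [div_eq_mul_inv]; exact C.mul_mem (hσC _ hc₂C) hc₁C'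
    · rw [inv_div, div_eq_mul_inv, ← map_inv₀]; exact C.mul_mem hc₁C (hσC _ hc₂C')
  have hκb : σ c₁ / c₂ ≠ 0 ∧ σ c₁ / c₂ ∈ C ∧ (σ c₁ / c₂)⁻¹ ∈ C := by
    refine ⟨div_ne_zero hσc₁ hc₂, ?_, ?_⟩
    · rw [div_eq_mul_inv]; exact C.mul_mem (hσC _ hc₁C) hc₂C'
    · rw [inv_div, div_eq_mul_inv, ← map_inv₀]; exact C.mul_mem hc₂C (hσC _ hc₁C')
  have hΦa : σ Φ₂ / Φ₁ ≠ 0 ∧ σ Φ₂ / Φ₁ ∈ Vi ∧ (σ Φ₂ / Φ₁)⁻¹ ∈ Vi := by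
    refine ⟨div_ne_zero hσΦ₂ hΦ₁, ?_, ?_⟩
    · rw [div_eq_mul_inv]; exact Vi.mul_mem (hσi _ hΦ₂V) hΦ₁V'
    · rw [inv_div, div_eq_mul_inv, ← map_inv₀]; exact Vi.mul_mem hΦ₁V (hσi _ hΦ₂V')
  have hΦb : W (σ Φ₁ / Φ₂) ≠ 0 ∧ W (σ Φ₁ / Φ₂) ∈ V0 ∧ (W (σ Φ₁ / Φ₂))⁻¹ ∈ V0 := by
    refine ⟨(map_ne_zero W).mpr (div_ne_zero hσΦ₁ hΦ₂), hWi _ ?_, ?_⟩
    · rw [div_eq_mul_inv]; exact Vi.mul_mem (hσi _ hΦ₁V) hΦ₂V'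
    · rw [← map_inv₀]
      refine hWi _ ?_
      rw [inv_div, div_eq_mul_inv, ← map_inv₀]; exact Vi.mul_mem hΦ₂V (hσi _ hΦ₁V')
  -- the two targets of the CRT
  have hxa : σ (σ (σ Φ₂ / Φ₁)) / (σ Φ₂ / Φ₁) ^ Q ∈ Vi := by
    rw [div_eq_mul_inv, ← inv_pow]
    exact Vi.mul_mem (hσi _ (hσi _ hΦa.2.1)) (Vi.pow_mem hΦa.2.2 _)
  have hxb : σ (σ (W (σ Φ₁ / Φ₂))) / (W (σ Φ₁ / Φ₂)) ^ Q ∈ V0 := by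
    rw [div_eq_mul_inv, ← inv_pow]
    exact V0.mul_mem (hσ0 _ (hσ0 _ hΦb.2.1)) (V0.pow_mem hΦb.2.2 _)
  obtain ⟨Ψ, hΨV, hΨi, hΨ0⟩ := s35_fa_crt hVi hV0 hne _ _ hxa hxb
  -- `Ψ` is a unit
  have hxa0 : σ (σ (σ Φ₂ / Φ₁)) / (σ Φ₂ / Φ₁) ^ Q ≠ 0 :=
    div_ne_zero ((map_ne_zero σ).mpr ((map_ne_zero σ).mpr hΦa.1)) (pow_ne_zero _ hΦa.1)
  have hxb0 : σ (σ (W (σ Φ₁ / Φ₂))) / (W (σ Φ₁ / Φ₂)) ^ Q ≠ 0 :=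
    div_ne_zero ((map_ne_zero σ).mpr ((map_ne_zero σ).mpr hΦb.1)) (pow_ne_zero _ hΦb.1)
  have hxai : (σ (σ (σ Φ₂ / Φ₁)) / (σ Φ₂ / Φ₁) ^ Q)⁻¹ ∈ Vi := by
    rw [inv_div, div_eq_mul_inv, ← map_inv₀, ← map_inv₀]
    exact Vi.mul_mem (Vi.pow_mem hΦa.2.1 _) (hσi _ (hσi _ hΦa.2.2))
  have hxbi : (σ (σ (W (σ Φ₁ / Φ₂))) / (W (σ Φ₁ / Φ₂)) ^ Q)⁻¹ ∈ V0 := by
    rw [inv_div, div_eq_mul_inv, ← map_inv₀ σ, ← map_inv₀ σ]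
    exact V0.mul_mem (V0.pow_mem hΦb.2.1 _) (hσ0 _ (hσ0 _ hΦb.2.2))
  have Pa : s35_fa_one ϖ Vi (Ψ / (σ (σ (σ Φ₂ / Φ₁)) / (σ Φ₂ / Φ₁) ^ Q)) :=
    s35_fa_one.of_cg hΨi hxa0 hxai
  have Pb : s35_fa_one ϖ V0 (Ψ / (σ (σ (W (σ Φ₁ / Φ₂))) / (W (σ Φ₁ / Φ₂)) ^ Q)) :=
    s35_fa_one.of_cg hΨ0 hxb0 hxbi
  have hΨne : Ψ ≠ 0 := by
    intro h0
    apply Pa.ne_zero hVi
    rw [h0, zero_div]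
  have hΨinv_i : Ψ⁻¹ ∈ Vi := by
    have e : Ψ⁻¹ = (Ψ / (σ (σ (σ Φ₂ / Φ₁)) / (σ Φ₂ / Φ₁) ^ Q))⁻¹ *
        (σ (σ (σ Φ₂ / Φ₁)) / (σ Φ₂ / Φ₁) ^ Q)⁻¹ := by
      rw [← mul_inv, div_mul_cancel₀ _ hxa0]
    rw [e]; exact Vi.mul_mem (Pa.inv_mem hVi) hxai
  have hΨinv_0 : Ψ⁻¹ ∈ V0 := by
    have e : Ψ⁻¹ = (Ψ / (σ (σ (W (σ Φ₁ / Φ₂))) / (W (σ Φ₁ / Φ₂)) ^ Q))⁻¹ *
        (σ (σ (W (σ Φ₁ / Φ₂))) / (W (σ Φ₁ / Φ₂)) ^ Q)⁻¹ := by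
      rw [← mul_inv, div_mul_cancel₀ _ hxb0]
    rw [e]; exact V0.mul_mem (Pb.inv_mem hV0) hxbi
  refine ⟨σ c₂ / c₁, σ c₁ / c₂, σ Φ₂ / Φ₁, W (σ Φ₁ / Φ₂), Ψ, hκa, hκb, hΦa, hΦb,
    ⟨hΨne, hΨV, hΨinv_i, hΨinv_0⟩, ha, hb, hΨi, hΨ0, ?_, ?_⟩
  · exact s35_fa_H hVi σ hσi hσϖi C hCi Q hfrob m _ _ _ Ψ hκa.1 hκa.2.1 hκa.2.2
      hΦa.1 hΦa.2.1 hΦa.2.2 ha hΨi
  · exact s35_fa_H hV0 σ hσ0 hσϖ0 C hC0 Q hfrob m _ _ _ Ψ hκb.1 hκb.2.1 hκb.2.2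
      hΦb.1 hΦb.2.1 hΦb.2.2 hb hΨ0

/-- (H2), (H3) for `u = σ²g/g` from the two norm relations and the norm–residue formula (NR). -/
theorem s35_fa_of_norm {ϖ : F} {Vi V0 : Subring F} (σ W : F ≃+* F)
    (hWW : ∀ x, W (W x) = x) (hWσ : ∀ x, W (σ x) = σ (W x))
    (Nm : F → F) (hNm : ∀ x y, Nm (x * y) = Nm x * Nm y) (hNmσ : ∀ x, Nm (σ x) = σ (Nm x))
    (hNR : ∀ h : F, h ≠ 0 → h ∈ Vi → h⁻¹ ∈ Vi → h ∈ V0 → h⁻¹ ∈ V0 →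
      ϖ⁻¹ * (Nm h - h * σ (W h)) ∈ Vi)
    (hWi : ∀ x ∈ Vi, W x ∈ V0) (hW0 : ∀ x ∈ V0, W x ∈ Vi)
    (m : ℕ) (g c₁ c₂ f₁ f₂ : F) (hg : g ≠ 0)
    (hc₁ : c₁ ≠ 0) (hc₂ : c₂ ≠ 0) (hf₁ : f₁ ≠ 0) (hf₂ : f₂ ≠ 0)
    (hN₁ : Nm g = c₁ * f₁ ^ m) (hN₂ : Nm (W g) = c₂ * f₂ ^ m)
    (hui : σ (σ g) / g ∈ Vi) (hui' : g / σ (σ g) ∈ Vi)
    (hu0 : σ (σ g) / g ∈ V0) (hu0' : g / σ (σ g) ∈ V0) :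
    ϖ⁻¹ * (σ (σ g) / g * σ (W (σ (σ g) / g)) -
      σ (σ c₁) / c₁ * (σ (σ f₁) / f₁) ^ m) ∈ Vi ∧
    ϖ⁻¹ * (W (σ (σ g) / g) * σ (σ (σ g) / g) -
      σ (σ c₂) / c₂ * (σ (σ f₂) / f₂) ^ m) ∈ Vi := by
  have hσg : σ g ≠ 0 := (map_ne_zero σ).mpr hg
  have hσσg : σ (σ g) ≠ 0 := (map_ne_zero σ).mpr hσg
  have hu : σ (σ g) / g ≠ 0 := div_ne_zero hσσg hg
  have hWg : W g ≠ 0 := (map_ne_zero W).mpr hg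
  have hWu : W (σ (σ g) / g) ≠ 0 := (map_ne_zero W).mpr hu
  have hinv : (σ (σ g) / g)⁻¹ = g / σ (σ g) := inv_div _ _
  -- the norm of `u`
  have hNu : Nm (σ (σ g) / g) = σ (σ c₁) / c₁ * (σ (σ f₁) / f₁) ^ m := by
    have h1 : Nm (σ (σ g) / g) * Nm g = σ (σ (Nm g)) := by
      rw [← hNm, div_mul_cancel₀ _ hg, hNmσ, hNmσ]
    have h2 : Nm g ≠ 0 := by rw [hN₁]; exact mul_ne_zero hc₁ (pow_ne_zero _ hf₁)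
    rw [eq_div_iff h2 |>.mpr h1, hN₁]
    simp only [map_mul, map_pow, div_pow]
    field_simp
  have hNWu : Nm (W (σ (σ g) / g)) = σ (σ c₂) / c₂ * (σ (σ f₂) / f₂) ^ m := by
    have h0 : W (σ (σ g) / g) = σ (σ (W g)) / W g := by
      rw [map_div₀, hWσ, hWσ]
    have h1 : Nm (W (σ (σ g) / g)) * Nm (W g) = σ (σ (Nm (W g))) := by
      rw [h0, ← hNm, div_mul_cancel₀ _ hWg, hNmσ, hNmσ]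
    have h2 : Nm (W g) ≠ 0 := by rw [hN₂]; exact mul_ne_zero hc₂ (pow_ne_zero _ hf₂)
    rw [eq_div_iff h2 |>.mpr h1, hN₂]
    simp only [map_mul, map_pow, div_pow]
    field_simp
  constructor
  · have h := hNR (σ (σ g) / g) hu hui (hinv ▸ hui') hu0 (hinv ▸ hu0')
    rw [hNu] at h
    have e : ϖ⁻¹ * (σ (σ g) / g * σ (W (σ (σ g) / g)) -
        σ (σ c₁) / c₁ * (σ (σ f₁) / f₁) ^ m) =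
        -(ϖ⁻¹ * (σ (σ c₁) / c₁ * (σ (σ f₁) / f₁) ^ m -
          σ (σ g) / g * σ (W (σ (σ g) / g)))) := by ring
    rw [e]; exact Vi.neg_mem h
  · have hWinv : (W (σ (σ g) / g))⁻¹ = W (g / σ (σ g)) := by rw [← map_inv₀, hinv]
    have h := hNR (W (σ (σ g) / g)) hWu (hW0 _ hu0) (hWinv ▸ hW0 _ hu0') (hWi _ hui)
      (hWinv ▸ hWi _ hui')
    rw [hNWu, hWW] at h
    have e : ϖ⁻¹ * (W (σ (σ g) / g) * σ (σ (σ g) / g) -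
        σ (σ c₂) / c₂ * (σ (σ f₂) / f₂) ^ m) =
        -(ϖ⁻¹ * (σ (σ c₂) / c₂ * (σ (σ f₂) / f₂) ^ m -
          W (σ (σ g) / g) * σ (σ (σ g) / g))) := by ring
    rw [e]; exact Vi.neg_mem h

/-- The explicit shape of `H₁ = s u₂ / u₂^Q`, `u₂ = s u / u`, `u = s g / g`:
`H₁ = s³g · (s g)^(1+2Q) / ((s²g)^(2+Q) · g^Q)`, i.e. `(s - Q)(s - 1)²` applied to `g`. -/
theorem s35_fa_H1_eq (s : F ≃+* F) (Q : ℕ) (g : F) (hg : g ≠ 0) :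
    s (s (s g / g) / (s g / g)) / (s (s g / g) / (s g / g)) ^ Q =
      s (s (s g)) * (s g) ^ (1 + 2 * Q) / ((s (s g)) ^ (2 + Q) * g ^ Q) := by
  have h1 : s g ≠ 0 := (map_ne_zero s).mpr hg
  have h2 : s (s g) ≠ 0 := (map_ne_zero s).mpr h1
  have h3 : s (s (s g)) ≠ 0 := (map_ne_zero s).mpr h2
  simp only [map_div₀, div_pow]
  field_simp
  ring

end Fermat.Agent.S35
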