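import Mathlib
import Fermat.Agent.S35.FrobAlg

/-!
# S35, leaf (FC): the Frobenius chain in the `h'' = u₂ / A^m` form

Same abstract setting as `FrobAlg.lean`: a field `F`, two uniformized discrete valuation rings
`V∞`, `V0` (`Vi`, `V0` below), a ring automorphism `σ` (coefficientwise Frobenius lift), the swap
`W`, a subring `C` of constants with `σ² ≡ (·)^Q mod ϖ`, and `s = σ²`.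

For a function `g` whose norms `Nm g`, `Nm (W g)` are constants times `m`-th powers, and the
norm–residue formula `Nm h ≡ h · σ (W h) mod ϖ V∞` on `V∞ ⊓ V0` (helper9's `s35_nr_frob`), we
produce a unit `A` of `V∞ ⊓ V0` and unit constants `c∞`, `c0` such that
`h'' := (s²g · g / (s g)²) / A^m` satisfies

* `h'' ≡ c∞ mod ϖ V∞`, `h'' ≡ c0 mod ϖ V0`,
* `s h'' / h''^Q ≡ 1 mod ϖ (V∞ ⊓ V0)`.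

* `s35_fc_stable` : (T1) for `σ` gives `σ V ⊆ V` and `σ ϖ ∈ ϖ V`;
* `s35_fc_H` : one-ring step `h ≡ κ ⟹ σ²h / h^Q ≡ 1`;
* `s35_fc_of_rel` : from the relations (H2), (H3) of `FrobAlg` to `A`;
* `s35_fc_main` : from the norm relations (abstract multiplicative `Nm : F → F`);
* `s35_fc_main_norm` : the same for `Nm = Algebra.norm F'`;
* `s35_fc_H_eq` : `s h'' / h''^Q = (s − Q)(s − 1)² g / (s A / A^Q)^m`;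
* `s35_fc_data` : same hypotheses as `s35_fc_main`, output = the data consumed by the node lemma
  `s35_nf_main` (`Φa`, `Φb`, `κa`, `κb`, `Ψ`, and `H := s u / (u^Q Ψ^m) ≡ 1`);
* `s35_fc_fold`, `s35_fc_fold_s` : the multiplicative fold of the hub `s35_FPow` is `s u / u^(l²)`.
-/

set_option autoImplicit false

namespace Fermat.Agent.S35

open Fermat.Agent.S34

variable {F : Type*} [Field F]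

/-- (T1) for `σ` at `V` gives `σ V ⊆ V` and `σ ϖ ∈ ϖ V`. -/
theorem s35_fc_stable {ϖ : F} {V : Subring F} (hV : s34_Unif ϖ V) (σ : F ≃+* F)
    (hT1 : ∀ x : F, x ≠ 0 → σ x / x ∈ V ∧ x / σ x ∈ V) :
    (∀ x ∈ V, σ x ∈ V) ∧ ϖ⁻¹ * σ ϖ ∈ V := by
  have hϖ := hV.ne_zero
  refine ⟨fun x hx => ?_, ?_⟩
  · by_cases hx0 : x = 0
    · rw [hx0, map_zero]; exact V.zero_mem
    · have e : σ x = σ x / x * x := by field_simp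
      rw [e]; exact V.mul_mem (hT1 x hx0).1 hx
  · have e : ϖ⁻¹ * σ ϖ = σ ϖ / ϖ := by field_simp
    rw [e]; exact (hT1 ϖ hϖ).1

/-- (T1) for `σ` gives (T1) for `σ²`. -/
theorem s35_fc_T1_sq {V : Subring F} (σ : F ≃+* F)
    (hT1 : ∀ x : F, x ≠ 0 → σ x / x ∈ V ∧ x / σ x ∈ V) (x : F) (hx : x ≠ 0) :
    σ (σ x) / x ∈ V ∧ x / σ (σ x) ∈ V := by
  have hσx : σ x ≠ 0 := (map_ne_zero σ).mpr hx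
  have hσσx : σ (σ x) ≠ 0 := (map_ne_zero σ).mpr hσx
  constructor
  · have e : σ (σ x) / x = σ (σ x) / σ x * (σ x / x) := by field_simp
    rw [e]; exact V.mul_mem (hT1 (σ x) hσx).1 (hT1 x hx).1
  · have e : x / σ (σ x) = x / σ x * (σ x / σ (σ x)) := by field_simp
    rw [e]; exact V.mul_mem (hT1 x hx).2 (hT1 (σ x) hσx).2

/-- One-ring step: if `h ≡ κ mod ϖ V` with `κ` a unit constant, then `σ²h / h^Q ≡ 1 mod ϖ V`. -/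
theorem s35_fc_H {ϖ : F} {V : Subring F} (hV : s34_Unif ϖ V) (σ : F ≃+* F)
    (hσV : ∀ x ∈ V, σ x ∈ V) (hσϖ : ϖ⁻¹ * σ ϖ ∈ V)
    (C : Subring F) (hCV : C ≤ V)
    (Q : ℕ) (hfrob : ∀ c ∈ C, ϖ⁻¹ * (σ (σ c) - c ^ Q) ∈ C)
    (h κ : F) (hκ : κ ≠ 0) (hκC : κ ∈ C) (hκC' : κ⁻¹ ∈ C)
    (hh : ϖ⁻¹ * (h - κ) ∈ V) :
    ϖ⁻¹ * (σ (σ h) / h ^ Q - 1) ∈ V := by
  have hϖ := hV.ne_zero
  have hσκ : σ κ ≠ 0 := (map_ne_zero σ).mpr hκ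
  have hσσκ : σ (σ κ) ≠ 0 := (map_ne_zero σ).mpr hσκ
  have A : s35_fa_one ϖ V (h / κ) := s35_fa_one.of_cg hh hκ (hCV hκC')
  have hh0 : h ≠ 0 := by
    intro h0
    apply A.ne_zero hV
    rw [h0, zero_div]
  have hσh : σ h ≠ 0 := (map_ne_zero σ).mpr hh0
  have hσσh : σ (σ h) ≠ 0 := (map_ne_zero σ).mpr hσh
  have As : s35_fa_one ϖ V (σ (σ (h / κ))) := (A.map σ hσV hσϖ hϖ).map σ hσV hσϖ hϖ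
  have AQ : s35_fa_one ϖ V ((h / κ) ^ Q) := A.pow hV Q
  have K : s35_fa_one ϖ V (σ (σ κ) / κ ^ Q) := by
    refine s35_fa_one.of_cg (hCV (hfrob κ hκC)) (pow_ne_zero _ hκ) ?_
    rw [← inv_pow]
    exact V.pow_mem (hCV hκC') _
  have R := (As.div hV AQ).mul hV K
  have e : σ (σ (h / κ)) / (h / κ) ^ Q * (σ (σ κ) / κ ^ Q) = σ (σ h) / h ^ Q := by
    simp only [map_div₀, div_pow]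
    field_simp
  rw [e] at R
  exact R

/-- **(FC), relation form.**  From the relations (H2), (H3) for `u` to a unit `A` of `V∞ ⊓ V0`
with `h'' := (σ²u/u) / A^m ≡ σ c₂ / c₁ [V∞]`, `≡ σ c₁ / c₂ [V0]` and
`σ²h'' / h''^Q ≡ 1 mod ϖ (V∞ ⊓ V0)`. -/
theorem s35_fc_of_rel {ϖ : F} {Vi V0 : Subring F} (hVi : s34_Unif ϖ Vi) (hV0 : s34_Unif ϖ V0)
    (hne : Vi ≠ V0) (σ W : F ≃+* F)
    (hσi : ∀ x ∈ Vi, σ x ∈ Vi) (hσ0 : ∀ x ∈ V0, σ x ∈ V0)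
    (hσϖi : ϖ⁻¹ * σ ϖ ∈ Vi) (hσϖ0 : ϖ⁻¹ * σ ϖ ∈ V0)
    (hWi : ∀ x ∈ Vi, W x ∈ V0) (hWϖ : ϖ⁻¹ * W ϖ ∈ V0)
    (hWW : ∀ x, W (W x) = x) (hWσ : ∀ x, W (σ x) = σ (W x))
    (C : Subring F) (hCi : C ≤ Vi)
    (hσC : ∀ c ∈ C, σ c ∈ C) (hWC : ∀ c ∈ C, W c = c)
    (Q : ℕ) (hfrob : ∀ c ∈ C, ϖ⁻¹ * (σ (σ c) - c ^ Q) ∈ C)
    (m : ℕ) (u c₁ c₂ Φ₁ Φ₂ : F) (hu : u ≠ 0)
    (hc₁ : c₁ ≠ 0) (hc₁C : c₁ ∈ C) (hc₁C' : c₁⁻¹ ∈ C)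
    (hc₂ : c₂ ≠ 0) (hc₂C : c₂ ∈ C) (hc₂C' : c₂⁻¹ ∈ C)
    (hΦ₁ : Φ₁ ≠ 0) (hΦ₁V : Φ₁ ∈ Vi) (hΦ₁V' : Φ₁⁻¹ ∈ Vi)
    (hΦ₂ : Φ₂ ≠ 0) (hΦ₂V : Φ₂ ∈ Vi) (hΦ₂V' : Φ₂⁻¹ ∈ Vi)
    (H2 : ϖ⁻¹ * (u * σ (W u) - c₁ * Φ₁ ^ m) ∈ Vi)
    (H3 : ϖ⁻¹ * (W u * σ u - c₂ * Φ₂ ^ m) ∈ Vi) :
    ∃ A : F, (A ≠ 0 ∧ A ∈ Vi ⊓ V0 ∧ A⁻¹ ∈ Vi ⊓ V0) ∧
      ϖ⁻¹ * (σ (σ u) / u / A ^ m - σ c₂ / c₁) ∈ Vi ∧
      ϖ⁻¹ * (σ (σ u) / u / A ^ m - σ c₁ / c₂) ∈ V0 ∧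
      ϖ⁻¹ * (σ (σ (σ (σ u) / u / A ^ m)) / (σ (σ u) / u / A ^ m) ^ Q - 1) ∈ Vi ⊓ V0 := by
  have hC0 : C ≤ V0 := fun c hc => by
    have := hWi c (hCi hc)
    rwa [hWC c hc] at this
  obtain ⟨ha, hb⟩ := s35_fa_chain hVi σ W hσi hσϖi hWi hWϖ hWW hWσ C hCi hσC hWC m
    u c₁ c₂ Φ₁ Φ₂ hu hc₁ hc₁C hc₁C' hc₂ hc₂C hc₂C' hΦ₁ hΦ₁V hΦ₁V' hΦ₂ hΦ₂V hΦ₂V' H2 H3
  have hσc₁ : σ c₁ ≠ 0 := (map_ne_zero σ).mpr hc₁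
  have hσc₂ : σ c₂ ≠ 0 := (map_ne_zero σ).mpr hc₂
  have hσΦ₁ : σ Φ₁ ≠ 0 := (map_ne_zero σ).mpr hΦ₁
  have hσΦ₂ : σ Φ₂ ≠ 0 := (map_ne_zero σ).mpr hΦ₂
  -- the units
  have hκa : σ c₂ / c₁ ≠ 0 ∧ σ c₂ / c₁ ∈ C ∧ (σ c₂ / c₁)⁻¹ ∈ C := by
    refine ⟨div_ne_zero hσc₂ hc₁, ?_, ?_⟩
    · rw [div_eq_mul_inv]; exact C.mul_mem (hσC _ hc₂C) hc₁C'
    · rw [inv_div, div_eq_mul_inv, ← map_inv₀]; exact C.mul_mem hc₁C (hσC _ hc₂C')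
  have hκb : σ c₁ / c₂ ≠ 0 ∧ σ c₁ / c₂ ∈ C ∧ (σ c₁ / c₂)⁻¹ ∈ C := by
    refine ⟨div_ne_zero hσc₁ hc₂, ?_, ?_⟩
    · rw [div_eq_mul_inv]; exact C.mul_mem (hσC _ hc₁C) hc₂C'
    · rw [inv_div, div_eq_mul_inv, ← map_inv₀]; exact C.mul_mem hc₂C (hσC _ hc₁C')
  have hΦa : σ Φ₂ / Φ₁ ≠ 0 ∧ σ Φ₂ / Φ₁ ∈ Vi ∧ (σ Φ₂ / Φ₁)⁻¹ ∈ Vi := by
    refine ⟨div_ne_zero hσΦ₂ hΦ₁, ?_, ?_⟩
    · rw [div_eq_mul_inv]; exact Vi.mul_mem (hσi _ hΦ₂V) hΦ₁V'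
    · rw [inv_div, div_eq_mul_inv, ← map_inv₀]; exact Vi.mul_mem hΦ₁V (hσi _ hΦ₂V')
  have hΦb : W (σ Φ₁ / Φ₂) ≠ 0 ∧ W (σ Φ₁ / Φ₂) ∈ V0 ∧ (W (σ Φ₁ / Φ₂))⁻¹ ∈ V0 := by
    refine ⟨(map_ne_zero W).mpr (div_ne_zero hσΦ₁ hΦ₂), hWi _ ?_, ?_⟩
    · rw [div_eq_mul_inv]; exact Vi.mul_mem (hσi _ hΦ₁V) hΦ₂V'
    · rw [← map_inv₀]
      refine hWi _ ?_
      rw [inv_div, div_eq_mul_inv, ← map_inv₀]; exact Vi.mul_mem hΦ₂V (hσi _ hΦ₁V')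
  -- the CRT lift `A` of `(Φa, Φb)`
  obtain ⟨A, hAV, hAi, hA0⟩ := s35_fa_crt hVi hV0 hne _ _ hΦa.2.1 hΦb.2.1
  have Pa : s35_fa_one ϖ Vi (A / (σ Φ₂ / Φ₁)) := s35_fa_one.of_cg hAi hΦa.1 hΦa.2.2
  have Pb : s35_fa_one ϖ V0 (A / W (σ Φ₁ / Φ₂)) := s35_fa_one.of_cg hA0 hΦb.1 hΦb.2.2
  have hAne : A ≠ 0 := by
    intro h0
    apply Pa.ne_zero hVi
    rw [h0, zero_div]
  have hAinv_i : A⁻¹ ∈ Vi := by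
    have e : A⁻¹ = (A / (σ Φ₂ / Φ₁))⁻¹ * (σ Φ₂ / Φ₁)⁻¹ := by
      rw [← mul_inv, div_mul_cancel₀ _ hΦa.1]
    rw [e]; exact Vi.mul_mem (Pa.inv_mem hVi) hΦa.2.2
  have hAinv_0 : A⁻¹ ∈ V0 := by
    have e : A⁻¹ = (A / W (σ Φ₁ / Φ₂))⁻¹ * (W (σ Φ₁ / Φ₂))⁻¹ := by
      rw [← mul_inv, div_mul_cancel₀ _ hΦb.1]
    rw [e]; exact V0.mul_mem (Pb.inv_mem hV0) hΦb.2.2
  -- `h'' ≡ κa`, `h'' ≡ κb`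
  have Ua : s35_fa_one ϖ Vi (σ (σ u) / u / ((σ c₂ / c₁) * (σ Φ₂ / Φ₁) ^ m)) := by
    refine s35_fa_one.of_cg ha (mul_ne_zero hκa.1 (pow_ne_zero _ hΦa.1)) ?_
    rw [mul_inv, ← inv_pow]
    exact Vi.mul_mem (hCi hκa.2.2) (Vi.pow_mem hΦa.2.2 _)
  have Ub : s35_fa_one ϖ V0 (σ (σ u) / u / ((σ c₁ / c₂) * (W (σ Φ₁ / Φ₂)) ^ m)) := by
    refine s35_fa_one.of_cg hb (mul_ne_zero hκb.1 (pow_ne_zero _ hΦb.1)) ?_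
    rw [mul_inv, ← inv_pow]
    exact V0.mul_mem (hC0 hκb.2.2) (V0.pow_mem hΦb.2.2 _)
  have Ra := Ua.div hVi (Pa.pow hVi m)
  have Rb := Ub.div hV0 (Pb.pow hV0 m)
  have ea : σ (σ u) / u / ((σ c₂ / c₁) * (σ Φ₂ / Φ₁) ^ m) / (A / (σ Φ₂ / Φ₁)) ^ m =
      σ (σ u) / u / A ^ m / (σ c₂ / c₁) := by
    have h1 := hΦa.1
    have h2 := hκa.1
    simp only [div_pow]
    field_simp
  have eb : σ (σ u) / u / ((σ c₁ / c₂) * (W (σ Φ₁ / Φ₂)) ^ m) / (A / W (σ Φ₁ / Φ₂)) ^ m =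
      σ (σ u) / u / A ^ m / (σ c₁ / c₂) := by
    have h1 := hΦb.1
    have h2 := hκb.1
    simp only [div_pow]
    field_simp
  rw [ea] at Ra
  rw [eb] at Rb
  have hhi : ϖ⁻¹ * (σ (σ u) / u / A ^ m - σ c₂ / c₁) ∈ Vi := Ra.to_cg hκa.1 (hCi hκa.2.1)
  have hh0 : ϖ⁻¹ * (σ (σ u) / u / A ^ m - σ c₁ / c₂) ∈ V0 := Rb.to_cg hκb.1 (hC0 hκb.2.1)
  refine ⟨A, ⟨hAne, hAV, hAinv_i, hAinv_0⟩, hhi, hh0, ?_, ?_⟩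
  · exact s35_fc_H hVi σ hσi hσϖi C hCi Q hfrob _ _ hκa.1 hκa.2.1 hκa.2.2 hhi
  · exact s35_fc_H hV0 σ hσ0 hσϖ0 C hC0 Q hfrob _ _ hκb.1 hκb.2.1 hκb.2.2 hh0

/-- **(FC) main.**  `σ` the coefficientwise Frobenius lift, `s = σ²`, `W` the swap, `Nm` a
multiplicative map commuting with `σ` and satisfying the norm–residue formula
`Nm h ≡ h · σ (W h) mod ϖ V∞` on `V∞ ⊓ V0`.  If `Nm g = c₁ f₁^m` and `Nm (W g) = c₂ f₂^m` (with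
`σ c_i / c_i` unit constants), there are a unit `A` of `V∞ ⊓ V0` and unit constants `c∞`, `c0`
with `h'' := (s²g · g / (s g)²) / A^m ≡ c∞ [V∞]`, `≡ c0 [V0]` and
`s h'' / h''^Q ≡ 1 mod ϖ (V∞ ⊓ V0)`. -/
theorem s35_fc_main {ϖ : F} {Vi V0 : Subring F} (hVi : s34_Unif ϖ Vi) (hV0 : s34_Unif ϖ V0)
    (hne : Vi ≠ V0) (σ W s : F ≃+* F) (hs : ∀ x, s x = σ (σ x))
    (hT1i : ∀ x : F, x ≠ 0 → σ x / x ∈ Vi ∧ x / σ x ∈ Vi)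
    (hT10 : ∀ x : F, x ≠ 0 → σ x / x ∈ V0 ∧ x / σ x ∈ V0)
    (hW0 : ∀ x : F, x ∈ V0 ↔ W x ∈ Vi) (hWϖ : W ϖ = ϖ)
    (hWW : ∀ x, W (W x) = x) (hWσ : ∀ x, W (σ x) = σ (W x))
    (C : Subring F) (hCi : C ≤ Vi)
    (hσC : ∀ c ∈ C, σ c ∈ C) (hWC : ∀ c ∈ C, W c = c)
    (Q : ℕ) (hfrob : ∀ c ∈ C, ϖ⁻¹ * (σ (σ c) - c ^ Q) ∈ C)
    (Nm : F → F) (hNm : ∀ x y, Nm (x * y) = Nm x * Nm y) (hNmσ : ∀ x, Nm (σ x) = σ (Nm x))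
    (hNR : ∀ h : F, h ∈ Vi → h ∈ V0 → ϖ⁻¹ * (Nm h - h * σ (W h)) ∈ Vi)
    (m : ℕ) (g c₁ c₂ f₁ f₂ : F) (hg : g ≠ 0)
    (hc₁ : c₁ ≠ 0) (hc₂ : c₂ ≠ 0) (hf₁ : f₁ ≠ 0) (hf₂ : f₂ ≠ 0)
    (hN₁ : Nm g = c₁ * f₁ ^ m) (hN₂ : Nm (W g) = c₂ * f₂ ^ m)
    (hc₁T : σ c₁ / c₁ ∈ C ∧ c₁ / σ c₁ ∈ C) (hc₂T : σ c₂ / c₂ ∈ C ∧ c₂ / σ c₂ ∈ C) :
    ∃ A ci c0 : F, (A ≠ 0 ∧ A ∈ Vi ⊓ V0 ∧ A⁻¹ ∈ Vi ⊓ V0) ∧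
      (ci ≠ 0 ∧ ci ∈ C ∧ ci⁻¹ ∈ C) ∧ (c0 ≠ 0 ∧ c0 ∈ C ∧ c0⁻¹ ∈ C) ∧
      ϖ⁻¹ * (s (s g) * g / (s g) ^ 2 / A ^ m - ci) ∈ Vi ∧
      ϖ⁻¹ * (s (s g) * g / (s g) ^ 2 / A ^ m - c0) ∈ V0 ∧
      ϖ⁻¹ * (s (s (s g) * g / (s g) ^ 2 / A ^ m) /
        (s (s g) * g / (s g) ^ 2 / A ^ m) ^ Q - 1) ∈ Vi ⊓ V0 := by
  have hϖ := hVi.ne_zero
  obtain ⟨hσi, hσϖi⟩ := s35_fc_stable hVi σ hT1i
  obtain ⟨hσ0, hσϖ0⟩ := s35_fc_stable hV0 σ hT10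
  have hWi : ∀ x ∈ Vi, W x ∈ V0 := fun x hx => (hW0 (W x)).mpr (by rw [hWW]; exact hx)
  have hW0' : ∀ x ∈ V0, W x ∈ Vi := fun x hx => (hW0 x).mp hx
  have hWϖ' : ϖ⁻¹ * W ϖ ∈ V0 := by
    rw [hWϖ, inv_mul_cancel₀ hϖ]; exact V0.one_mem
  have hσg : σ g ≠ 0 := (map_ne_zero σ).mpr hg
  have hσσg : σ (σ g) ≠ 0 := (map_ne_zero σ).mpr hσg
  have hu : σ (σ g) / g ≠ 0 := div_ne_zero hσσg hg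
  -- (H2), (H3)
  obtain ⟨H2, H3⟩ := s35_fa_of_norm (ϖ := ϖ) (Vi := Vi) (V0 := V0) σ W hWW hWσ Nm hNm hNmσ
    (fun h _ hi _ h0 _ => hNR h hi h0) hWi hW0' m g c₁ c₂ f₁ f₂ hg hc₁ hc₂ hf₁ hf₂ hN₁ hN₂
    (s35_fc_T1_sq σ hT1i g hg).1 (s35_fc_T1_sq σ hT1i g hg).2
    (s35_fc_T1_sq σ hT10 g hg).1 (s35_fc_T1_sq σ hT10 g hg).2
  -- the constants and the `Φ`'s are units
  have hunitC : ∀ c : F, c ≠ 0 → σ c / c ∈ C ∧ c / σ c ∈ C →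
      σ (σ c) / c ≠ 0 ∧ σ (σ c) / c ∈ C ∧ (σ (σ c) / c)⁻¹ ∈ C := by
    intro c hc hcT
    have hσc : σ c ≠ 0 := (map_ne_zero σ).mpr hc
    have hσσc : σ (σ c) ≠ 0 := (map_ne_zero σ).mpr hσc
    refine ⟨div_ne_zero hσσc hc, ?_, ?_⟩
    · have e : σ (σ c) / c = σ (σ c / c) * (σ c / c) := by
        rw [map_div₀]; field_simp
      rw [e]; exact C.mul_mem (hσC _ hcT.1) hcT.1
    · have e : (σ (σ c) / c)⁻¹ = σ (c / σ c) * (c / σ c) := by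
        rw [map_div₀]; field_simp
      rw [e]; exact C.mul_mem (hσC _ hcT.2) hcT.2
  have hunitV : ∀ f : F, f ≠ 0 →
      σ (σ f) / f ≠ 0 ∧ σ (σ f) / f ∈ Vi ∧ (σ (σ f) / f)⁻¹ ∈ Vi := by
    intro f hf
    have hσf : σ f ≠ 0 := (map_ne_zero σ).mpr hf
    have hσσf : σ (σ f) ≠ 0 := (map_ne_zero σ).mpr hσf
    refine ⟨div_ne_zero hσσf hf, (s35_fc_T1_sq σ hT1i f hf).1, ?_⟩
    rw [inv_div]; exact (s35_fc_T1_sq σ hT1i f hf).2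
  obtain ⟨hc₁0, hc₁C, hc₁C'⟩ := hunitC c₁ hc₁ hc₁T
  obtain ⟨hc₂0, hc₂C, hc₂C'⟩ := hunitC c₂ hc₂ hc₂T
  obtain ⟨hΦ₁0, hΦ₁V, hΦ₁V'⟩ := hunitV f₁ hf₁
  obtain ⟨hΦ₂0, hΦ₂V, hΦ₂V'⟩ := hunitV f₂ hf₂
  obtain ⟨A, hA, hhi, hh0, hH⟩ := s35_fc_of_rel hVi hV0 hne σ W hσi hσ0 hσϖi hσϖ0 hWi hWϖ'
    hWW hWσ C hCi hσC hWC Q hfrob m (σ (σ g) / g) (σ (σ c₁) / c₁) (σ (σ c₂) / c₂)
    (σ (σ f₁) / f₁) (σ (σ f₂) / f₂) hu hc₁0 hc₁C hc₁C' hc₂0 hc₂C hc₂C'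
    hΦ₁0 hΦ₁V hΦ₁V' hΦ₂0 hΦ₂V hΦ₂V' H2 H3
  -- rewrite in terms of `s`
  have hσ3 : σ (σ (σ g)) ≠ 0 := (map_ne_zero σ).mpr hσσg
  have hσ4 : σ (σ (σ (σ g))) ≠ 0 := (map_ne_zero σ).mpr hσ3
  have eu : σ (σ (σ (σ g) / g)) / (σ (σ g) / g) = s (s g) * g / (s g) ^ 2 := by
    simp only [hs, map_div₀]
    field_simp
  rw [eu] at hhi hh0 hH
  have hH' : ϖ⁻¹ * (s (s (s g) * g / (s g) ^ 2 / A ^ m) /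
      (s (s g) * g / (s g) ^ 2 / A ^ m) ^ Q - 1) ∈ Vi ⊓ V0 := by
    rw [hs (s (s g) * g / (s g) ^ 2 / A ^ m)]
    exact hH
  -- the constants
  have hκ : ∀ a b : F, (a ≠ 0 ∧ a ∈ C ∧ a⁻¹ ∈ C) → (b ≠ 0 ∧ b ∈ C ∧ b⁻¹ ∈ C) →
      (σ a / b ≠ 0 ∧ σ a / b ∈ C ∧ (σ a / b)⁻¹ ∈ C) := by
    rintro a b ⟨ha0, haC, haC'⟩ ⟨hb0, hbC, hbC'⟩
    refine ⟨div_ne_zero ((map_ne_zero σ).mpr ha0) hb0, ?_, ?_⟩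
    · rw [div_eq_mul_inv]; exact C.mul_mem (hσC _ haC) hbC'
    · rw [inv_div, div_eq_mul_inv, ← map_inv₀]; exact C.mul_mem hbC (hσC _ haC')
  exact ⟨A, _, _, hA, hκ _ _ ⟨hc₂0, hc₂C, hc₂C'⟩ ⟨hc₁0, hc₁C, hc₁C'⟩,
    hκ _ _ ⟨hc₁0, hc₁C, hc₁C'⟩ ⟨hc₂0, hc₂C, hc₂C'⟩, hhi, hh0, hH'⟩

/-- **(FC) data for the node lemma `s35_nf_main`.**  Same hypotheses as `s35_fc_main`; the output
is literally the data consumed by `s35_nf_main` for `u := s²g · g / (s g)²`: units `Φa` of `V∞`,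
`Φb` of `V0`, unit constants `κa`, `κb`, a unit `Ψ` of `V∞ ⊓ V0` with
`u ≡ κa Φa^m [V∞]`, `u ≡ κb Φb^m [V0]`, `Ψ ≡ s Φa / Φa^Q [V∞]`, `Ψ ≡ s Φb / Φb^Q [V0]`, and
`H := s u / (u^Q Ψ^m) ≡ 1 mod ϖ (V∞ ⊓ V0)`. -/
theorem s35_fc_data {ϖ : F} {Vi V0 : Subring F} (hVi : s34_Unif ϖ Vi) (hV0 : s34_Unif ϖ V0)
    (hne : Vi ≠ V0) (σ W s : F ≃+* F) (hs : ∀ x, s x = σ (σ x))
    (hT1i : ∀ x : F, x ≠ 0 → σ x / x ∈ Vi ∧ x / σ x ∈ Vi)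
    (hT10 : ∀ x : F, x ≠ 0 → σ x / x ∈ V0 ∧ x / σ x ∈ V0)
    (hW0 : ∀ x : F, x ∈ V0 ↔ W x ∈ Vi) (hWϖ : W ϖ = ϖ)
    (hWW : ∀ x, W (W x) = x) (hWσ : ∀ x, W (σ x) = σ (W x))
    (C : Subring F) (hCi : C ≤ Vi)
    (hσC : ∀ c ∈ C, σ c ∈ C) (hWC : ∀ c ∈ C, W c = c)
    (Q : ℕ) (hfrob : ∀ c ∈ C, ϖ⁻¹ * (σ (σ c) - c ^ Q) ∈ C)
    (Nm : F → F) (hNm : ∀ x y, Nm (x * y) = Nm x * Nm y) (hNmσ : ∀ x, Nm (σ x) = σ (Nm x))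
    (hNR : ∀ h : F, h ∈ Vi → h ∈ V0 → ϖ⁻¹ * (Nm h - h * σ (W h)) ∈ Vi)
    (m : ℕ) (g c₁ c₂ f₁ f₂ : F) (hg : g ≠ 0)
    (hc₁ : c₁ ≠ 0) (hc₂ : c₂ ≠ 0) (hf₁ : f₁ ≠ 0) (hf₂ : f₂ ≠ 0)
    (hN₁ : Nm g = c₁ * f₁ ^ m) (hN₂ : Nm (W g) = c₂ * f₂ ^ m)
    (hc₁T : σ c₁ / c₁ ∈ C ∧ c₁ / σ c₁ ∈ C) (hc₂T : σ c₂ / c₂ ∈ C ∧ c₂ / σ c₂ ∈ C) :
    ∃ Ψ Φa Φb κa κb : F,
      (Ψ ≠ 0 ∧ Ψ ∈ Vi ⊓ V0 ∧ Ψ⁻¹ ∈ Vi ⊓ V0) ∧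
      (Φa ≠ 0 ∧ Φa ∈ Vi ∧ Φa⁻¹ ∈ Vi) ∧ (Φb ≠ 0 ∧ Φb ∈ V0 ∧ Φb⁻¹ ∈ V0) ∧
      (κa ≠ 0 ∧ κa ∈ C ∧ κa⁻¹ ∈ C) ∧ (κb ≠ 0 ∧ κb ∈ C ∧ κb⁻¹ ∈ C) ∧
      ϖ⁻¹ * (s (s g) * g / (s g) ^ 2 - κa * Φa ^ m) ∈ Vi ∧
      ϖ⁻¹ * (s (s g) * g / (s g) ^ 2 - κb * Φb ^ m) ∈ V0 ∧
      ϖ⁻¹ * (Ψ - s Φa / Φa ^ Q) ∈ Vi ∧
      ϖ⁻¹ * (Ψ - s Φb / Φb ^ Q) ∈ V0 ∧
      ϖ⁻¹ * (s (s (s g) * g / (s g) ^ 2) /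
        ((s (s g) * g / (s g) ^ 2) ^ Q * Ψ ^ m) - 1) ∈ Vi ⊓ V0 := by
  have hϖ := hVi.ne_zero
  obtain ⟨hσi, hσϖi⟩ := s35_fc_stable hVi σ hT1i
  obtain ⟨hσ0, hσϖ0⟩ := s35_fc_stable hV0 σ hT10
  have hWi : ∀ x ∈ Vi, W x ∈ V0 := fun x hx => (hW0 (W x)).mpr (by rw [hWW]; exact hx)
  have hW0' : ∀ x ∈ V0, W x ∈ Vi := fun x hx => (hW0 x).mp hx
  have hWϖ' : ϖ⁻¹ * W ϖ ∈ V0 := by
    rw [hWϖ, inv_mul_cancel₀ hϖ]; exact V0.one_mem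
  have hC0 : C ≤ V0 := fun c hc => by
    have := hWi c (hCi hc)
    rwa [hWC c hc] at this
  have hσg : σ g ≠ 0 := (map_ne_zero σ).mpr hg
  have hσσg : σ (σ g) ≠ 0 := (map_ne_zero σ).mpr hσg
  have hu : σ (σ g) / g ≠ 0 := div_ne_zero hσσg hg
  have huT := s35_fc_T1_sq σ hT1i g hg
  have huT0 := s35_fc_T1_sq σ hT10 g hg
  -- (H2), (H3)
  obtain ⟨H2, H3⟩ := s35_fa_of_norm (ϖ := ϖ) (Vi := Vi) (V0 := V0) σ W hWW hWσ Nm hNm hNmσ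
    (fun h _ hi _ h0 _ => hNR h hi h0) hWi hW0' m g c₁ c₂ f₁ f₂ hg hc₁ hc₂ hf₁ hf₂ hN₁ hN₂
    huT.1 huT.2 huT0.1 huT0.2
  -- the constants and the `Φ`'s are units
  have hunitC : ∀ c : F, c ≠ 0 → σ c / c ∈ C ∧ c / σ c ∈ C →
      σ (σ c) / c ≠ 0 ∧ σ (σ c) / c ∈ C ∧ (σ (σ c) / c)⁻¹ ∈ C := by
    intro c hc hcT
    have hσc : σ c ≠ 0 := (map_ne_zero σ).mpr hc
    have hσσc : σ (σ c) ≠ 0 := (map_ne_zero σ).mpr hσc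
    refine ⟨div_ne_zero hσσc hc, ?_, ?_⟩
    · have e : σ (σ c) / c = σ (σ c / c) * (σ c / c) := by
        rw [map_div₀]; field_simp
      rw [e]; exact C.mul_mem (hσC _ hcT.1) hcT.1
    · have e : (σ (σ c) / c)⁻¹ = σ (c / σ c) * (c / σ c) := by
        rw [map_div₀]; field_simp
      rw [e]; exact C.mul_mem (hσC _ hcT.2) hcT.2
  have hunitV : ∀ f : F, f ≠ 0 →
      σ (σ f) / f ≠ 0 ∧ σ (σ f) / f ∈ Vi ∧ (σ (σ f) / f)⁻¹ ∈ Vi := by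
    intro f hf
    have hσf : σ f ≠ 0 := (map_ne_zero σ).mpr hf
    have hσσf : σ (σ f) ≠ 0 := (map_ne_zero σ).mpr hσf
    refine ⟨div_ne_zero hσσf hf, (s35_fc_T1_sq σ hT1i f hf).1, ?_⟩
    rw [inv_div]; exact (s35_fc_T1_sq σ hT1i f hf).2
  obtain ⟨hc₁0, hc₁C, hc₁C'⟩ := hunitC c₁ hc₁ hc₁T
  obtain ⟨hc₂0, hc₂C, hc₂C'⟩ := hunitC c₂ hc₂ hc₂T
  obtain ⟨hΦ₁0, hΦ₁V, hΦ₁V'⟩ := hunitV f₁ hf₁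
  obtain ⟨hΦ₂0, hΦ₂V, hΦ₂V'⟩ := hunitV f₂ hf₂
  have huinv : (σ (σ g) / g)⁻¹ = g / σ (σ g) := inv_div _ _
  obtain ⟨κa, κb, Φa, Φb, Ψ, hκa, hκb, hΦa, hΦb, hΨ, h1, h2, h3, h4, h5⟩ :=
    s35_fa_main hVi hV0 hne σ W hσi hσ0 hσϖi hσϖ0 hWi hW0' hWϖ' hWW hWσ C hCi hC0 hσC hWC Q hfrob
      m (σ (σ g) / g) (σ (σ c₁) / c₁) (σ (σ c₂) / c₂) (σ (σ f₁) / f₁) (σ (σ f₂) / f₂)
      hu huT.1 (huinv ▸ huT.2) huT0.1 (huinv ▸ huT0.2) hc₁0 hc₁C hc₁C' hc₂0 hc₂C hc₂C'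
      hΦ₁0 hΦ₁V hΦ₁V' hΦ₂0 hΦ₂V hΦ₂V' H2 H3
  -- rewrite in terms of `s`
  have hσ3 : σ (σ (σ g)) ≠ 0 := (map_ne_zero σ).mpr hσσg
  have hσ4 : σ (σ (σ (σ g))) ≠ 0 := (map_ne_zero σ).mpr hσ3
  have eu : σ (σ (σ (σ g) / g)) / (σ (σ g) / g) = s (s g) * g / (s g) ^ 2 := by
    simp only [hs, map_div₀]
    field_simp
  rw [eu] at h1 h2 h5
  refine ⟨Ψ, Φa, Φb, κa, κb, hΨ, hΦa, hΦb, hκa, hκb, h1, h2, ?_, ?_, ?_⟩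
  · rw [hs Φa]; exact h3
  · rw [hs Φb]; exact h4
  · rw [hs (s (s g) * g / (s g) ^ 2), ← div_div]; exact h5

/-- The multiplicative fold `(σ − l)(σ + l)(σ − 1)(σ + 1)(σ − 1)(σ + 1) g` of the hub `s35_FPow`
is `σ²u / u^(l²)` for `u = σ⁴g · g / (σ²g)²`. -/
theorem s35_fc_fold (σ : F ≃+* F) (l : ℕ) (g : F) (hg : g ≠ 0) :
    List.foldr (fun (r : ℤ) (y : F) => σ y / y ^ r) g [(l : ℤ), -(l : ℤ), 1, -1, 1, -1] =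
      σ (σ (σ (σ (σ (σ g))) * g / (σ (σ g)) ^ 2)) /
        (σ (σ (σ (σ g))) * g / (σ (σ g)) ^ 2) ^ (l ^ 2) := by
  have h1 : σ g ≠ 0 := (map_ne_zero σ).mpr hg
  have h2 : σ (σ g) ≠ 0 := (map_ne_zero σ).mpr h1
  have h3 : σ (σ (σ g)) ≠ 0 := (map_ne_zero σ).mpr h2
  have h4 : σ (σ (σ (σ g))) ≠ 0 := (map_ne_zero σ).mpr h3
  have h5 : σ (σ (σ (σ (σ g)))) ≠ 0 := (map_ne_zero σ).mpr h4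
  have h6 : σ (σ (σ (σ (σ (σ g))))) ≠ 0 := (map_ne_zero σ).mpr h5
  simp only [List.foldr_cons, List.foldr_nil, zpow_neg, zpow_one, zpow_natCast, map_div₀,
    map_mul, map_inv₀, map_pow, div_pow, mul_pow, inv_pow]
  field_simp
  ring

/-- The fold of the hub in terms of `s = σ²`. -/
theorem s35_fc_fold_s (σ s : F ≃+* F) (hs : ∀ x, s x = σ (σ x)) (l : ℕ) (g : F) (hg : g ≠ 0) :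
    List.foldr (fun (r : ℤ) (y : F) => σ y / y ^ r) g [(l : ℤ), -(l : ℤ), 1, -1, 1, -1] =
      s (s (s g) * g / (s g) ^ 2) / (s (s g) * g / (s g) ^ 2) ^ (l ^ 2) := by
  rw [s35_fc_fold σ l g hg]
  simp only [hs]

/-- The norm commutes with a ring automorphism of `F` restricting to an automorphism of `F'`. -/
theorem s35_fc_norm_comm {F' : Type*} [Field F'] [Algebra F' F] (σ : F ≃+* F) (σ' : F' ≃+* F')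
    (hσ' : ∀ y : F', σ (algebraMap F' F y) = algebraMap F' F (σ' y)) (x : F) :
    algebraMap F' F (Algebra.norm F' (σ x)) = σ (algebraMap F' F (Algebra.norm F' x)) := by
  have h := Algebra.norm_eq_of_equiv_equiv σ' σ (by
    ext y
    simp only [RingHom.coe_comp, RingHom.coe_coe, Function.comp_apply]
    exact (hσ' y).symm) x
  rw [hσ', h, RingEquiv.apply_symm_apply]

/-- **(FC) main, for `Nm = Algebra.norm F'`** (`F'` the level-`N` field, `σ'` the restriction of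
`σ` to `F'`; the norm–residue hypothesis `hNR` is verbatim the conclusion of `s35_nr_frob`). -/
theorem s35_fc_main_norm {F' : Type*} [Field F'] [Algebra F' F]
    {ϖ : F} {Vi V0 : Subring F} (hVi : s34_Unif ϖ Vi) (hV0 : s34_Unif ϖ V0)
    (hne : Vi ≠ V0) (σ W s : F ≃+* F) (hs : ∀ x, s x = σ (σ x))
    (σ' : F' ≃+* F') (hσ' : ∀ y : F', σ (algebraMap F' F y) = algebraMap F' F (σ' y))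
    (hT1i : ∀ x : F, x ≠ 0 → σ x / x ∈ Vi ∧ x / σ x ∈ Vi)
    (hT10 : ∀ x : F, x ≠ 0 → σ x / x ∈ V0 ∧ x / σ x ∈ V0)
    (hW0 : ∀ x : F, x ∈ V0 ↔ W x ∈ Vi) (hWϖ : W ϖ = ϖ)
    (hWW : ∀ x, W (W x) = x) (hWσ : ∀ x, W (σ x) = σ (W x))
    (C : Subring F) (hCi : C ≤ Vi)
    (hσC : ∀ c ∈ C, σ c ∈ C) (hWC : ∀ c ∈ C, W c = c)
    (Q : ℕ) (hfrob : ∀ c ∈ C, ϖ⁻¹ * (σ (σ c) - c ^ Q) ∈ C)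
    (hNR : ∀ h : F, h ∈ Vi → h ∈ V0 →
      ϖ⁻¹ * (algebraMap F' F (Algebra.norm F' h) - h * σ (W h)) ∈ Vi)
    (m : ℕ) (g : F) (c₁ c₂ f₁ f₂ : F') (hg : g ≠ 0)
    (hc₁ : c₁ ≠ 0) (hc₂ : c₂ ≠ 0) (hf₁ : f₁ ≠ 0) (hf₂ : f₂ ≠ 0)
    (hN₁ : Algebra.norm F' g = c₁ * f₁ ^ m) (hN₂ : Algebra.norm F' (W g) = c₂ * f₂ ^ m)
    (hc₁T : σ (algebraMap F' F c₁) / algebraMap F' F c₁ ∈ C ∧
      algebraMap F' F c₁ / σ (algebraMap F' F c₁) ∈ C)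
    (hc₂T : σ (algebraMap F' F c₂) / algebraMap F' F c₂ ∈ C ∧
      algebraMap F' F c₂ / σ (algebraMap F' F c₂) ∈ C) :
    ∃ A ci c0 : F, (A ≠ 0 ∧ A ∈ Vi ⊓ V0 ∧ A⁻¹ ∈ Vi ⊓ V0) ∧
      (ci ≠ 0 ∧ ci ∈ C ∧ ci⁻¹ ∈ C) ∧ (c0 ≠ 0 ∧ c0 ∈ C ∧ c0⁻¹ ∈ C) ∧
      ϖ⁻¹ * (s (s g) * g / (s g) ^ 2 / A ^ m - ci) ∈ Vi ∧
      ϖ⁻¹ * (s (s g) * g / (s g) ^ 2 / A ^ m - c0) ∈ V0 ∧
      ϖ⁻¹ * (s (s (s g) * g / (s g) ^ 2 / A ^ m) /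
        (s (s g) * g / (s g) ^ 2 / A ^ m) ^ Q - 1) ∈ Vi ⊓ V0 :=
  s35_fc_main hVi hV0 hne σ W s hs hT1i hT10 hW0 hWϖ hWW hWσ C hCi hσC hWC Q hfrob
    (fun x => algebraMap F' F (Algebra.norm F' x))
    (fun x y => by simp only [map_mul])
    (fun x => s35_fc_norm_comm σ σ' hσ' x) hNR m g
    (algebraMap F' F c₁) (algebraMap F' F c₂) (algebraMap F' F f₁) (algebraMap F' F f₂) hg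
    ((map_ne_zero _).mpr hc₁) ((map_ne_zero _).mpr hc₂)
    ((map_ne_zero _).mpr hf₁) ((map_ne_zero _).mpr hf₂)
    (by simp only [hN₁, map_mul, map_pow]) (by simp only [hN₂, map_mul, map_pow]) hc₁T hc₂T

/-- `s h'' / h''^Q` for `h'' = (s²g · g / (s g)²) / A^m` is `(s − Q)(s − 1)² g` (multiplicatively)
divided by the `m`-th power of `s A / A^Q`. -/
theorem s35_fc_H_eq (s : F ≃+* F) (Q m : ℕ) (g A : F) (hg : g ≠ 0) (hA : A ≠ 0) :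
    s (s (s g) * g / (s g) ^ 2 / A ^ m) / (s (s g) * g / (s g) ^ 2 / A ^ m) ^ Q =
      s (s (s g)) * (s g) ^ (1 + 2 * Q) / ((s (s g)) ^ (2 + Q) * g ^ Q) / (s A / A ^ Q) ^ m := by
  have h1 : s g ≠ 0 := (map_ne_zero s).mpr hg
  have h2 : s (s g) ≠ 0 := (map_ne_zero s).mpr h1
  have h3 : s (s (s g)) ≠ 0 := (map_ne_zero s).mpr h2
  have h4 : s A ≠ 0 := (map_ne_zero s).mpr hA
  simp only [map_div₀, map_mul, map_pow, div_pow, mul_pow]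
  field_simp
  ring

end Fermat.Agent.S35
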