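import Mathlib
import Fermat.Agent.S34.CoreNodal
import Fermat.Agent.S34.GalBook
import Fermat.Agent.S35.FDefs

/-!
# S35, block (MOD), core: from the point data of `H` to the hub conclusion

* `s35_mc_mul σ rs g` : the fold `y ↦ σ y / y ^ r` for a ring automorphism `σ` of a field (the
  `K₁`-level twin of `s35_fp_mul`).
* `s35_mc_map` : compatibility with a ring homomorphism intertwining `σ` with a semilinear
  automorphism.
* `s35_mc_six` : for `rs = [q, -q, 1, -1, 1, -1]` the fold is `s u₂ / u₂ ^ (q²)`,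
  `s = σ ∘ σ`, `u = s g / g`, `u₂ = s u / u`.
* `s35_mc_dvd` : the orders of the fold are divisible by `m` if those of `g` are.
* `s35_mc_core` : the analogue of the last step of `s34_pow_of_model`: if
  `H = s u₂ / (u₂ ^ (q²) * Ψ ^ m)` is `≡ 1` on the special fibre and has point data at all closed
  points of the special fibres of the two charts, then the fold of `ḡ` is an `m`-th power in
  `Q̄ · F(L)`.
-/

set_option autoImplicit false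
set_option synthInstance.maxHeartbeats 400000

open ModularCurve AlgebraicCurve

noncomputable section

namespace Fermat.Agent.S35

open Fermat.Agent.S18 Fermat.Agent.S34

/-- The fold of `y ↦ σ y / y ^ r` for a ring automorphism of a field. -/
def s35_mc_mul {F : Type*} [Field F] (σ : F ≃+* F) (rs : List ℤ) (g : F) : F :=
  rs.foldr (fun (r : ℤ) (y : F) => σ y / y ^ r) g

theorem s35_mc_mul_nil {F : Type*} [Field F] (σ : F ≃+* F) (g : F) : s35_mc_mul σ [] g = g := rfl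

theorem s35_mc_mul_cons {F : Type*} [Field F] (σ : F ≃+* F) (r : ℤ) (rs : List ℤ) (g : F) :
    s35_mc_mul σ (r :: rs) g = σ (s35_mc_mul σ rs g) / s35_mc_mul σ rs g ^ r := rfl

theorem s35_mc_mul_ne_zero {F : Type*} [Field F] (σ : F ≃+* F) (rs : List ℤ) (g : F)
    (hg : g ≠ 0) : s35_mc_mul σ rs g ≠ 0 := by
  induction rs with
  | nil => exact hg
  | cons r rs ih =>
    rw [s35_mc_mul_cons]
    exact div_ne_zero ((map_ne_zero σ).mpr ih) (zpow_ne_zero r ih)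

theorem s35_fp_mul_ne_zero {K F : Type*} [Field K] [Field F] [Algebra K F]
    (σ : SemilinearAut K F) (rs : List ℤ) (g : F) (hg : g ≠ 0) : s35_fp_mul σ rs g ≠ 0 := by
  induction rs with
  | nil => exact hg
  | cons r rs ih =>
    rw [s35_fp_mul_cons]
    exact div_ne_zero ((smul_ne_zero_iff_ne σ).mpr ih) (zpow_ne_zero r ih)

/-- Compatibility of the two folds under a ring homomorphism intertwining the actions. -/
theorem s35_mc_map {K F E : Type*} [Field K] [Field F] [Field E] [Algebra K E] (ι : F →+* E)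
    (σ : F ≃+* F) (τ : SemilinearAut K E) (h : ∀ x, ι (σ x) = τ • ι x) (rs : List ℤ) (g : F) :
    ι (s35_mc_mul σ rs g) = s35_fp_mul τ rs (ι g) := by
  induction rs with
  | nil => rfl
  | cons r rs ih =>
    rw [s35_mc_mul_cons, s35_fp_mul_cons, map_div₀, map_zpow₀, h, ih]

/-- For `rs = [q, -q, 1, -1, 1, -1]` the fold is `(s - q²)(s - 1)²`, `s = σ ∘ σ`. -/
theorem s35_mc_six {F : Type*} [Field F] (σ : F ≃+* F) (q : ℕ) (g : F) (hg : g ≠ 0) :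
    s35_mc_mul σ [(q : ℤ), -(q : ℤ), 1, -1, 1, -1] g =
      σ (σ (σ (σ (σ (σ g) / g)) / (σ (σ g) / g))) /
        (σ (σ (σ (σ g) / g)) / (σ (σ g) / g)) ^ (q ^ 2) := by
  have key : ∀ (r : ℕ) (y : F), y ≠ 0 →
      s35_mc_mul σ [(r : ℤ), -(r : ℤ)] y = σ (σ y) / y ^ (r ^ 2) := by
    intro r y hy
    have hσy : σ y ≠ 0 := (map_ne_zero σ).mpr hy
    simp only [s35_mc_mul, List.foldr_cons, List.foldr_nil]
    rw [zpow_neg, zpow_natCast, zpow_natCast, div_inv_eq_mul, map_mul, map_pow, mul_pow,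
      ← pow_mul, ← pow_two]
    field_simp
  have split : ∀ (a b : List ℤ) (y : F), s35_mc_mul σ (a ++ b) y
      = s35_mc_mul σ a (s35_mc_mul σ b y) := by
    intro a b y
    simp only [s35_mc_mul, List.foldr_append]
  have hu : σ (σ g) / g ≠ 0 :=
    div_ne_zero ((map_ne_zero σ).mpr ((map_ne_zero σ).mpr hg)) hg
  have hu2 : σ (σ (σ (σ g) / g)) / (σ (σ g) / g) ≠ 0 :=
    div_ne_zero ((map_ne_zero σ).mpr ((map_ne_zero σ).mpr hu)) hu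
  have e1 : ([(q : ℤ), -(q : ℤ), 1, -1, 1, -1] : List ℤ)
      = [(q : ℤ), -(q : ℤ)] ++ ([((1 : ℕ) : ℤ), -((1 : ℕ) : ℤ)] ++ [((1 : ℕ) : ℤ), -((1 : ℕ) : ℤ)]) := by
    simp
  rw [e1, split, split, key 1 g hg, one_pow, pow_one, key 1 _ hu, one_pow, pow_one, key q _ hu2]

/-- The orders of the fold are divisible by `m` if those of `g` are. -/
theorem s35_mc_dvd {K F : Type*} [Field K] [Field F] [Algebra K F] (σ : SemilinearAut K F)
    (m : ℤ) (rs : List ℤ) (g : F) (hg : g ≠ 0) (h : ∀ v : Place K F, m ∣ v.ord g) :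
    ∀ v : Place K F, m ∣ v.ord (s35_fp_mul σ rs g) := by
  induction rs with
  | nil => exact h
  | cons r rs ih =>
    intro v
    have h0 := s35_fp_mul_ne_zero σ rs g hg
    rw [s35_fp_mul_cons, div_eq_mul_inv,
      v.ord_mul ((smul_ne_zero_iff_ne σ).mpr h0) (inv_ne_zero (zpow_ne_zero r h0)), v.ord_inv,
      v.ord_zpow, s34_gb_ord_smul]
    exact dvd_add (ih _) (dvd_neg.mpr (Dvd.dvd.mul_left (ih v) r))

set_option maxHeartbeats 1000000 in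
/-- **(MOD), core.**  From the point data of `H = s u₂ / (u₂ ^ (q²) * Ψ ^ m)` to the hub
conclusion for `ḡ = s18_baseIncl g₁`. -/
theorem s35_mc_core (L : ℕ) [NeZero L] (A : ValuationSubring (AlgebraicClosure ℚ))
    (K₁ : IntermediateField ℚ (AlgebraicClosure ℚ)) [IsDiscreteValuationRing (s18_A1 A K₁)]
    {π : s18_A1 A K₁} (hπ : Irreducible π)
    {t : s18_F1 K₁ L} {B0 Binf : Subalgebra (s18_A1 A K₁) (s18_F1 K₁ L)}
    (V : Subring (s18_F1 K₁ L))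
    (hB0V : ∀ x ∈ B0, x ∈ V) (hBiV : ∀ x ∈ Binf, x ∈ V)
    (hcap0 : ∀ x ∈ B0, (algebraMap (s18_A1 A K₁) (s18_F1 K₁ L) π)⁻¹ * x ∈ V →
      (algebraMap (s18_A1 A K₁) (s18_F1 K₁ L) π)⁻¹ * x ∈ B0)
    (hcapi : ∀ x ∈ Binf, (algebraMap (s18_A1 A K₁) (s18_F1 K₁ L) π)⁻¹ * x ∈ V →
      (algebraMap (s18_A1 A K₁) (s18_F1 K₁ L) π)⁻¹ * x ∈ Binf)
    (hVu : ∀ x ∈ V, (1 + algebraMap (s18_A1 A K₁) (s18_F1 K₁ L) π * x)⁻¹ ∈ V)
    (frac0 : ∀ x : s18_F1 K₁ L, ∃ a ∈ B0.toSubring, ∃ b ∈ B0.toSubring, b ≠ 0 ∧ x = a / b)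
    (t_ne : t ≠ 0) (t_mem : t ∈ B0) (tinv_mem : t⁻¹ ∈ Binf)
    (glue0 : ∀ x ∈ B0, ∃ k : ℕ, t⁻¹ ^ k * x ∈ Binf)
    (glueInf : ∀ x ∈ Binf, ∃ k : ℕ, t ^ k * x ∈ B0)
    (h1 : ∃ c₁ : ℕ, ∀ c, c₁ ≤ c → ∀ x ∈ B0, ∀ k : ℕ,
      ∃ a ∈ B0, ∃ b ∈ Binf, t⁻¹ ^ k * x = a + t ^ c * b)
    (fin : ∀ c : ℕ, ∃ s : Finset (s18_F1 K₁ L), ∀ x ∈ B0, t⁻¹ ^ c * x ∈ Binf →
      x ∈ Submodule.span (s18_A1 A K₁) (s : Set (s18_F1 K₁ L)))
    (m : ℕ) (hm0 : 0 < m) (hmu : IsUnit ((m : ℕ) : s18_A1 A K₁))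
    (γ : AlgebraicClosure ℚ ≃ₐ[ℚ] AlgebraicClosure ℚ)
    (σ₁ : s18_F1 K₁ L ≃+* s18_F1 K₁ L)
    (hσ₁ : ∀ x : s18_F1 K₁ L, s18_baseIncl K₁ L (σ₁ x) =
      arithmeticGalois (modularFunctionFieldFull L) γ • s18_baseIncl K₁ L x)
    (q : ℕ) (g₁ Ψ : s18_F1 K₁ L) (hg₁ : g₁ ≠ 0) (hΨ : Ψ ≠ 0)
    (hdivg : ∀ P : Place (AlgebraicClosure ℚ) (modularFunctionFieldBar L),
      (m : ℤ) ∣ P.ord (s18_baseIncl K₁ L g₁))
    (hh1 : (algebraMap (s18_A1 A K₁) (s18_F1 K₁ L) π)⁻¹ *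
      (s35_mc_mul σ₁ [(q : ℤ), -(q : ℤ), 1, -1, 1, -1] g₁ / Ψ ^ m - 1) ∈ V)
    (hpts0 : ∀ 𝔪 : Ideal B0.toSubring, 𝔪.IsMaximal →
      (⟨algebraMap (s18_A1 A K₁) (s18_F1 K₁ L) π, B0.algebraMap_mem π⟩ : B0.toSubring) ∈ 𝔪 →
      s34_PointData (algebraMap (s18_A1 A K₁) (s18_F1 K₁ L) π) B0.toSubring V m
        (s35_mc_mul σ₁ [(q : ℤ), -(q : ℤ), 1, -1, 1, -1] g₁ / Ψ ^ m) 𝔪)
    (hptsi : ∀ 𝔪 : Ideal Binf.toSubring, 𝔪.IsMaximal →
      (⟨algebraMap (s18_A1 A K₁) (s18_F1 K₁ L) π, Binf.algebraMap_mem π⟩ : Binf.toSubring) ∈ 𝔪 →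
      s34_PointData (algebraMap (s18_A1 A K₁) (s18_F1 K₁ L) π) Binf.toSubring V m
        (s35_mc_mul σ₁ [(q : ℤ), -(q : ℤ), 1, -1, 1, -1] g₁ / Ψ ^ m) 𝔪) :
    ∃ x : modularFunctionFieldBar L,
      x ^ m = s35_fp_mul (arithmeticGalois (modularFunctionFieldFull L) γ)
        [(q : ℤ), -(q : ℤ), 1, -1, 1, -1] (s18_baseIncl K₁ L g₁) := by
  classical
  set H0 := s35_mc_mul σ₁ [(q : ℤ), -(q : ℤ), 1, -1, 1, -1] g₁ with hH0
  have hH0ne : H0 ≠ 0 := s35_mc_mul_ne_zero σ₁ _ g₁ hg₁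
  have hHne : H0 / Ψ ^ m ≠ 0 := div_ne_zero hH0ne (pow_ne_zero m hΨ)
  have hg0 : s18_baseIncl K₁ L g₁ ≠ 0 :=
    (map_ne_zero_iff _ (s18_baseIncl K₁ L).injective).mpr hg₁
  have hΨ0 : s18_baseIncl K₁ L Ψ ≠ 0 :=
    (map_ne_zero_iff _ (s18_baseIncl K₁ L).injective).mpr hΨ
  have hmap : s18_baseIncl K₁ L H0 =
      s35_fp_mul (arithmeticGalois (modularFunctionFieldFull L) γ)
        [(q : ℤ), -(q : ℤ), 1, -1, 1, -1] (s18_baseIncl K₁ L g₁) :=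
    s35_mc_map (s18_baseIncl K₁ L) σ₁ _ hσ₁ _ g₁
  -- divisibility of the orders of `H`
  have hdiv : ∀ P : Place (AlgebraicClosure ℚ) (modularFunctionFieldBar L),
      (m : ℤ) ∣ P.ord (s18_baseIncl K₁ L (H0 / Ψ ^ m)) := by
    intro P
    have h2 := s35_mc_dvd (arithmeticGalois (modularFunctionFieldFull L) γ) (m : ℤ)
      [(q : ℤ), -(q : ℤ), 1, -1, 1, -1] (s18_baseIncl K₁ L g₁) hg0 hdivg P
    have hfp0 := s35_fp_mul_ne_zero (arithmeticGalois (modularFunctionFieldFull L) γ)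
      [(q : ℤ), -(q : ℤ), 1, -1, 1, -1] (s18_baseIncl K₁ L g₁) hg0
    rw [map_div₀, map_pow, hmap, div_eq_mul_inv,
      P.ord_mul hfp0 (inv_ne_zero (pow_ne_zero m hΨ0)), P.ord_inv]
    have h3 : P.ord (s18_baseIncl K₁ L Ψ ^ m) = (m : ℤ) * P.ord (s18_baseIncl K₁ L Ψ) := by
      have := P.ord_zpow (s18_baseIncl K₁ L Ψ) (m : ℤ)
      rwa [zpow_natCast] at this
    rw [h3]
    exact dvd_add h2 (dvd_neg.mpr (dvd_mul_right _ _))
  -- the multiplier `b`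
  obtain ⟨a, ha, b, hb, hb0, hvab⟩ := frac0 (H0 / Ψ ^ m)
  have hbv : b * (H0 / Ψ ^ m) ∈ B0 := by
    rw [hvab, mul_div_cancel₀ _ hb0]; exact ha
  obtain ⟨x, hx⟩ := s34_core_nodal L A K₁ hπ V hB0V hBiV hcap0 hcapi hVu t_ne t_mem tinv_mem
    glue0 glueInf h1 fin m hm0 hmu (H0 / Ψ ^ m) b hHne hh1 hb0 hb hbv hdiv hpts0 hptsi
  refine ⟨x * s18_baseIncl K₁ L Ψ, ?_⟩
  rw [mul_pow, hx, map_div₀, map_pow, hmap, div_mul_cancel₀ _ (pow_ne_zero m hΨ0)]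

end Fermat.Agent.S35
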