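/-
NODE-2 (S35), leaf L6 (helper11): the abstract node/Frobenius lemma (STEP 3 of (F')).

Abstract setting (as in `S34/NodeTau.lean`, `S34/SmoothPoint.lean`): `F` a field, `ϖ ∈ F`,
`B` a subring (a chart), `V₁`, `V₂` two discrete valuation rings of `F` with uniformizer `ϖ`
(the two components of the special fibre, `s34_Unif`), `𝔪` a prime of `B` which is a *node*
(every element of `B` outside `𝔪` is a unit of `V₁` and of `V₂`), `R = B_𝔪 = s18_loc B 𝔪`.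

`s` is a ring automorphism of `F` (the coefficientwise action of `σ²`, `σ` a Frobenius lift) with

* `(sB)`  `s B ⊆ B`,   `(sV)` `s Vᵢ ⊆ Vᵢ`,   `(sϖ)` `s ϖ = c ϖ` with `c ∈ B`,
* `(sQ)`  `s b - b ^ Q ∈ 𝔪` for `b ∈ B` (`s` is the `Q`-power Frobenius on the residue field of
  the node; in particular the node is `s`-fixed).

Node hypotheses:

* `(N3)`  every element of `𝔪` is, locally at `𝔪`, a sum of an element vanishing on the first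
  component and one vanishing on the second ("`𝔪 = 𝔓₁ + 𝔓₂`", the branches are transversal);
* `(Aᵢ)`  the branch `R / (R ∩ ϖ Vᵢ)` is `m`-root closed in the residue field of `Vᵢ`
  (it is a discrete valuation ring with that fraction field).

Main result `s35_nf_main`: for `u = ω · Ξ ^ m` (`ω ∈ R^×`, `Ξ ∈ V^×`) with
`u ≡ cᵢ Φᵢ ^ m mod ϖ Vᵢ` (`cᵢ ∈ R^×`, `Φᵢ ∈ Vᵢ^×`) and `Ψ ≡ s Φᵢ / Φᵢ ^ Q mod ϖ Vᵢ`, the function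
`H = s u / (u ^ Q Ψ ^ m)` is `gl ^ m * w` with `gl ≡ 1 mod ϖ (V₁ ⊓ V₂)` and `w ∈ R^×`: the node
disjunct of `s34_PointData` (`s35_nf_pointData`).
-/
import Mathlib
import Fermat.Agent.S34.SmoothPoint
import Fermat.Agent.S34.NodeUnit

set_option autoImplicit false

namespace Fermat.Agent.S35

open Fermat.Agent.S18 Fermat.Agent.S34

variable {F : Type*} [Field F] {ϖ : F}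

/-! ### Congruences modulo `ϖ V` -/

/-- If `x ≡ y mod ϖ V` and `y ∈ V` then `x ∈ V`. -/
theorem s35_nf_mem_of_cong {V : Subring F} (hϖ0 : ϖ ≠ 0) (hϖV : ϖ ∈ V) {x y : F}
    (h : ϖ⁻¹ * (x - y) ∈ V) (hy : y ∈ V) : x ∈ V := by
  have e : x = y + ϖ * (ϖ⁻¹ * (x - y)) := by
    rw [← mul_assoc, mul_inv_cancel₀ hϖ0]; ring
  rw [e]
  exact V.add_mem hy (V.mul_mem hϖV h)

/-- If `x ≡ y mod ϖ V` and `y` is a unit of `V` then `x⁻¹ ∈ V`. -/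
theorem s35_nf_inv_mem_of_cong {V : Subring F} (hV : s34_Unif ϖ V) {x y : F}
    (h : ϖ⁻¹ * (x - y) ∈ V) (hy0 : y ≠ 0) (hyi : y⁻¹ ∈ V) : x⁻¹ ∈ V := by
  have hϖ0 := hV.ne_zero
  have e : x = y * (1 + ϖ * (y⁻¹ * (ϖ⁻¹ * (x - y)))) := by
    field_simp
    ring
  rw [e, mul_inv]
  exact V.mul_mem hyi (hV.one_add_inv_mem (V.mul_mem hyi h))

/-- Powers preserve congruences modulo `ϖ V`. -/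
theorem s35_nf_cong_pow {V : Subring F} {x y : F} (h : ϖ⁻¹ * (x - y) ∈ V) (hx : x ∈ V)
    (hy : y ∈ V) (n : ℕ) : ϖ⁻¹ * (x ^ n - y ^ n) ∈ V := by
  induction n with
  | zero => simp [V.zero_mem]
  | succ n ih =>
    have e : ϖ⁻¹ * (x ^ (n + 1) - y ^ (n + 1)) =
        ϖ⁻¹ * (x ^ n - y ^ n) * x + y ^ n * (ϖ⁻¹ * (x - y)) := by ring
    rw [e]
    exact V.add_mem (V.mul_mem ih hx) (V.mul_mem (V.pow_mem hy n) h)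

/-- A ring automorphism preserving `V` and multiplying `ϖ` by an element of `V` preserves
congruences modulo `ϖ V`. -/
theorem s35_nf_cong_map {V : Subring F} (hϖ0 : ϖ ≠ 0) (s : F ≃+* F) (hsV : ∀ x ∈ V, s x ∈ V)
    (hsϖ : ∃ c ∈ V, s ϖ = c * ϖ) {x y : F} (h : ϖ⁻¹ * (x - y) ∈ V) :
    ϖ⁻¹ * (s x - s y) ∈ V := by
  obtain ⟨c, hc, hcϖ⟩ := hsϖ
  have e : s x - s y = c * ϖ * s (ϖ⁻¹ * (x - y)) := by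
    rw [← hcϖ, ← map_mul, ← map_sub, ← mul_assoc, mul_inv_cancel₀ hϖ0, one_mul]
  rw [e]
  have e2 : ϖ⁻¹ * (c * ϖ * s (ϖ⁻¹ * (x - y))) = c * s (ϖ⁻¹ * (x - y)) := by
    field_simp
  rw [e2]
  exact V.mul_mem hc (hsV _ h)

/-! ### The local ring at `𝔪` and its maximal ideal -/

/-- The maximal ideal `𝔪 B_𝔪` of the local ring at `𝔪`, as a subset of `F`. -/
def s35_nf_max (B : Subring F) (𝔪 : Ideal B) : Set F :=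
  {z | ∃ a b : B, a ∈ 𝔪 ∧ b ∉ 𝔪 ∧ z = (a : F) / (b : F)}

/-- An element outside a prime ideal of a subring of a field is nonzero. -/
theorem s35_nf_ne_zero {B : Subring F} {𝔪 : Ideal B} {b : B} (hb : b ∉ 𝔪) : (b : F) ≠ 0 := by
  intro h
  apply hb
  have : b = 0 := Subtype.ext h
  rw [this]
  exact 𝔪.zero_mem

/-- `B_𝔪 ⊆ V` if the elements of `B` outside `𝔪` are units of `V`. -/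
theorem s35_nf_loc_le {B V : Subring F} (hBV : B ≤ V) (𝔪 : Ideal B)
    (hlocV : ∀ b : B, b ∉ 𝔪 → ((b : F))⁻¹ ∈ V) {x : F} (hx : x ∈ s18_loc B 𝔪) : x ∈ V := by
  obtain ⟨a, b, hb, rfl⟩ := hx
  rw [div_eq_mul_inv]
  exact V.mul_mem (hBV a.2) (hlocV b hb)

/-- `1 + 𝔪 B_𝔪 ⊆ B_𝔪^×`. -/
theorem s35_nf_unit_of_sub_one {B : Subring F} {𝔪 : Ideal B} {z : F}
    (hz : z - 1 ∈ s35_nf_max B 𝔪) : z ∈ s18_loc B 𝔪 ∧ z⁻¹ ∈ s18_loc B 𝔪 ∧ z ≠ 0 := by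
  obtain ⟨a, b, ha, hb, hab⟩ := hz
  have hb0 := s35_nf_ne_zero hb
  have hab' : a + b ∉ 𝔪 := fun h => hb (by
    have : b = a + b - a := by ring
    rw [this]
    exact 𝔪.sub_mem h ha)
  have hab0 := s35_nf_ne_zero hab'
  have e : z = ((a + b : B) : F) / (b : F) := by
    have : z = (z - 1) + 1 := by ring
    rw [this, hab]
    push_cast
    field_simp
  refine ⟨⟨a + b, b, hb, e⟩, ⟨b, a + b, hab', ?_⟩, ?_⟩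
  · rw [e, inv_div]
  · rw [e]
    exact div_ne_zero hab0 hb0

/-- The Frobenius quotient `s y / y ^ Q` of a unit `y` of `B_𝔪` lies in `1 + 𝔪 B_𝔪`. -/
theorem s35_nf_frob_unit {B : Subring F} {𝔪 : Ideal B} [h𝔪 : 𝔪.IsPrime] (s : F ≃+* F) (Q : ℕ)
    (hsB : ∀ x ∈ B, s x ∈ B)
    (hsQ : ∀ b : B, (⟨s b, hsB b b.2⟩ - b ^ Q : B) ∈ 𝔪)
    {y : F} (hy0 : y ≠ 0) (hy : y ∈ s18_loc B 𝔪) (hyi : y⁻¹ ∈ s18_loc B 𝔪) :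
    s y / y ^ Q - 1 ∈ s35_nf_max B 𝔪 := by
  obtain ⟨a, b, hb, rfl⟩ := hy
  obtain ⟨c, d, hd, hcd⟩ := hyi
  have hb0 := s35_nf_ne_zero hb
  have hd0 := s35_nf_ne_zero hd
  have ha0 : (a : F) ≠ 0 := fun h => hy0 (by rw [h, zero_div])
  have ha : a ∉ 𝔪 := by
    intro ha
    have h1 : b * d = a * c := by
      apply Subtype.ext
      push_cast
      rw [inv_div] at hcd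
      field_simp at hcd
      linear_combination hcd
    have h2 : b * d ∈ 𝔪 := by rw [h1]; exact 𝔪.mul_mem_right _ ha
    exact (h𝔪.mem_or_mem h2).elim hb hd
  have hsb : (⟨s b, hsB b b.2⟩ : B) ∉ 𝔪 := by
    intro h
    apply hb
    have h2 : b ^ Q ∈ 𝔪 := by
      have : b ^ Q = ⟨s b, hsB b b.2⟩ - (⟨s b, hsB b b.2⟩ - b ^ Q) := by ring
      rw [this]
      exact 𝔪.sub_mem h (hsQ b)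
    exact h𝔪.mem_of_pow_mem Q h2
  have haQ : a ^ Q ∉ 𝔪 := fun h => ha (h𝔪.mem_of_pow_mem Q h)
  have hden : (⟨s b, hsB b b.2⟩ : B) * a ^ Q ∉ 𝔪 := fun h => (h𝔪.mem_or_mem h).elim hsb haQ
  have hsb0 : s (b : F) ≠ 0 := (map_ne_zero s).mpr hb0
  refine ⟨(⟨s a, hsB a a.2⟩ - a ^ Q) * b ^ Q - (⟨s b, hsB b b.2⟩ - b ^ Q) * a ^ Q,
    ⟨s b, hsB b b.2⟩ * a ^ Q, ?_, hden, ?_⟩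
  · exact 𝔪.sub_mem (𝔪.mul_mem_right _ (hsQ a)) (𝔪.mul_mem_right _ (hsQ b))
  · have haQ0 : (a : F) ^ Q ≠ 0 := pow_ne_zero Q ha0
    have hbQ0 : (b : F) ^ Q ≠ 0 := pow_ne_zero Q hb0
    have e : (((⟨s a, hsB a a.2⟩ - a ^ Q) * b ^ Q - (⟨s b, hsB b b.2⟩ - b ^ Q) * a ^ Q : B) : F) =
        (s (a : F) - (a : F) ^ Q) * (b : F) ^ Q - (s (b : F) - (b : F) ^ Q) * (a : F) ^ Q := by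
      push_cast
      rfl
    have e2 : (((⟨s b, hsB b b.2⟩ : B) * a ^ Q : B) : F) = s (b : F) * (a : F) ^ Q := by
      push_cast
      rfl
    rw [e, e2, map_div₀, div_pow]
    field_simp
    ring

/-! ### Lifting through the node ring -/

/-- **Node ring surjectivity.**  Two elements `Y₁, Y₂ ∈ 1 + 𝔪 B_𝔪` are simultaneously
approximated, on the two branches, by a unit `μ` of `B_𝔪`. -/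
theorem s35_nf_node_lift {B V₁ V₂ : Subring F} (hB₁ : B ≤ V₁) (𝔪 : Ideal B)
    [h𝔪 : 𝔪.IsPrime]
    (hloc₁ : ∀ b : B, b ∉ 𝔪 → ((b : F))⁻¹ ∈ V₁) (hloc₂ : ∀ b : B, b ∉ 𝔪 → ((b : F))⁻¹ ∈ V₂)
    (hP₁ : ∀ a : B, ϖ⁻¹ * (a : F) ∈ V₁ → a ∈ 𝔪)
    (hN3 : ∀ z : B, z ∈ 𝔪 → ∃ p₁ p₂ : F, p₁ ∈ s18_loc B 𝔪 ∧ p₂ ∈ s18_loc B 𝔪 ∧
      (z : F) = p₁ + p₂ ∧ ϖ⁻¹ * p₁ ∈ V₁ ∧ ϖ⁻¹ * p₂ ∈ V₂)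
    {Y₁ Y₂ : F} (hY₁ : Y₁ - 1 ∈ s35_nf_max B 𝔪) (hY₂ : Y₂ - 1 ∈ s35_nf_max B 𝔪) :
    ∃ μ : F, μ ∈ s18_loc B 𝔪 ∧ μ⁻¹ ∈ s18_loc B 𝔪 ∧ μ ≠ 0 ∧
      ϖ⁻¹ * (μ - Y₁) ∈ V₁ ∧ ϖ⁻¹ * (μ - Y₂) ∈ V₂ := by
  obtain ⟨a₁, b₁, ha₁, hb₁, e₁⟩ := hY₁
  obtain ⟨a₂, b₂, ha₂, hb₂, e₂⟩ := hY₂
  have hb₁0 := s35_nf_ne_zero hb₁
  have hb₂0 := s35_nf_ne_zero hb₂
  -- `Y₁ - Y₂ = a / b` with `a ∈ 𝔪`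
  have hb : b₁ * b₂ ∉ 𝔪 := fun h => (h𝔪.mem_or_mem h).elim hb₁ hb₂
  have hb0 : (b₁ : F) * (b₂ : F) ≠ 0 := mul_ne_zero hb₁0 hb₂0
  have ha : a₁ * b₂ - a₂ * b₁ ∈ 𝔪 := 𝔪.sub_mem (𝔪.mul_mem_right _ ha₁) (𝔪.mul_mem_right _ ha₂)
  have e : Y₁ - Y₂ = ((a₁ : F) * (b₂ : F) - (a₂ : F) * (b₁ : F)) / ((b₁ : F) * (b₂ : F)) := by
    have : Y₁ - Y₂ = (Y₁ - 1) - (Y₂ - 1) := by ring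
    rw [this, e₁, e₂]
    field_simp
  obtain ⟨p₁, p₂, hp₁, hp₂, hsum, hp₁V, hp₂V⟩ := hN3 _ ha
  have hsum' : (a₁ : F) * (b₂ : F) - (a₂ : F) * (b₁ : F) = p₁ + p₂ := by
    rw [← hsum]; push_cast; ring
  have hbinv₁ : ((b₁ : F) * (b₂ : F))⁻¹ ∈ V₁ := by
    rw [mul_inv]; exact V₁.mul_mem (hloc₁ b₁ hb₁) (hloc₁ b₂ hb₂)
  have hbinv₂ : ((b₁ : F) * (b₂ : F))⁻¹ ∈ V₂ := by
    rw [mul_inv]; exact V₂.mul_mem (hloc₂ b₁ hb₁) (hloc₂ b₂ hb₂)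
  -- `p₁ ∈ 𝔪 B_𝔪`
  obtain ⟨c, d, hd, hcd⟩ := hp₁
  have hd0 := s35_nf_ne_zero hd
  have hc : c ∈ 𝔪 := by
    apply hP₁
    have e' : ϖ⁻¹ * (c : F) = ϖ⁻¹ * p₁ * (d : F) := by rw [hcd]; field_simp
    rw [e']
    exact V₁.mul_mem hp₁V (hB₁ d.2)
  -- the lift
  have hμ1 : (Y₁ - p₁ / ((b₁ : F) * (b₂ : F))) - 1 ∈ s35_nf_max B 𝔪 := by
    refine ⟨a₁ * (d * b₂) - c, b₁ * (d * b₂), ?_, ?_, ?_⟩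
    · exact 𝔪.sub_mem (𝔪.mul_mem_right _ ha₁) hc
    · exact fun h => (h𝔪.mem_or_mem h).elim hb₁
        (fun h' => (h𝔪.mem_or_mem h').elim hd hb₂)
    · have : Y₁ - p₁ / ((b₁ : F) * (b₂ : F)) - 1 = (Y₁ - 1) - p₁ / ((b₁ : F) * (b₂ : F)) := by
        ring
      rw [this, e₁, hcd]
      push_cast
      field_simp
  obtain ⟨hμ, hμi, hμ0⟩ := s35_nf_unit_of_sub_one hμ1
  refine ⟨_, hμ, hμi, hμ0, ?_, ?_⟩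
  · have e' : ϖ⁻¹ * (Y₁ - p₁ / ((b₁ : F) * (b₂ : F)) - Y₁) =
        -(ϖ⁻¹ * p₁ * ((b₁ : F) * (b₂ : F))⁻¹) := by
      field_simp
      ring
    rw [e']
    exact V₁.neg_mem (V₁.mul_mem hp₁V hbinv₁)
  · have e' : ϖ⁻¹ * (Y₁ - p₁ / ((b₁ : F) * (b₂ : F)) - Y₂) =
        ϖ⁻¹ * p₂ * ((b₁ : F) * (b₂ : F))⁻¹ := by
      have h1 : Y₁ - p₁ / ((b₁ : F) * (b₂ : F)) - Y₂ = (Y₁ - Y₂) - p₁ / ((b₁ : F) * (b₂ : F)) := by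
        ring
      rw [h1, e, hsum']
      field_simp
      ring
    rw [e']
    exact V₂.mul_mem hp₂V hbinv₂

/-! ### One branch -/

/-- **The branch computation.**  On one component `V`: the function `g̃ = s Ξ / (Ξ ^ Q Ψ)` is
congruent modulo `ϖ V` to an element `Y ∈ 1 + 𝔪 B_𝔪`. -/
theorem s35_nf_branch {B V : Subring F} (hV : s34_Unif ϖ V) (hBV : B ≤ V) (𝔪 : Ideal B)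
    [h𝔪 : 𝔪.IsPrime] (hlocV : ∀ b : B, b ∉ 𝔪 → ((b : F))⁻¹ ∈ V) (m : ℕ)
    (hA : ∀ x w : F, w ∈ s18_loc B 𝔪 → w⁻¹ ∈ s18_loc B 𝔪 → ϖ⁻¹ * (x ^ m - w) ∈ V →
      ∃ y : F, y ∈ s18_loc B 𝔪 ∧ y⁻¹ ∈ s18_loc B 𝔪 ∧ ϖ⁻¹ * (x - y) ∈ V)
    (s : F ≃+* F) (Q : ℕ) (hsB : ∀ x ∈ B, s x ∈ B) (hsV : ∀ x ∈ V, s x ∈ V)
    (hsϖ : ∃ c ∈ B, s ϖ = c * ϖ)
    (hsQ : ∀ b : B, (⟨s b, hsB b b.2⟩ - b ^ Q : B) ∈ 𝔪)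
    (u Ξ Ψ Φ c : F) (hu0 : u ≠ 0) (hΞ : Ξ ∈ V) (hΞi : Ξ⁻¹ ∈ V) (hΞ0 : Ξ ≠ 0)
    (hΦ : Φ ∈ V) (hΦi : Φ⁻¹ ∈ V) (hΦ0 : Φ ≠ 0)
    (hω : u * (Ξ⁻¹) ^ m ∈ s18_loc B 𝔪) (hωi : Ξ ^ m * u⁻¹ ∈ s18_loc B 𝔪)
    (hc : c ∈ s18_loc B 𝔪) (hci : c⁻¹ ∈ s18_loc B 𝔪)
    (hu : ϖ⁻¹ * (u - c * Φ ^ m) ∈ V) (hΨ : ϖ⁻¹ * (Ψ - s Φ / Φ ^ Q) ∈ V) :
    ∃ Y : F, Y - 1 ∈ s35_nf_max B 𝔪 ∧ ϖ⁻¹ * (s Ξ / (Ξ ^ Q * Ψ) - Y) ∈ V := by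
  have hϖ0 := hV.ne_zero
  have hRV : ∀ x : F, x ∈ s18_loc B 𝔪 → x ∈ V := fun x hx => s35_nf_loc_le hBV 𝔪 hlocV hx
  have hsϖV : ∃ c ∈ V, s ϖ = c * ϖ := by
    obtain ⟨c, hc, h⟩ := hsϖ
    exact ⟨c, hBV hc, h⟩
  -- `u` is a unit of `V`
  have huiV : u⁻¹ ∈ V := by
    have e : u⁻¹ = Ξ ^ m * u⁻¹ * (Ξ⁻¹) ^ m := by
      rw [inv_pow]; field_simp
    rw [e]
    exact V.mul_mem (hRV _ hωi) (V.pow_mem hΞi m)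
  -- `N = Ξ / Φ`
  have hN : Ξ * Φ⁻¹ ∈ V := V.mul_mem hΞ hΦi
  have hNi : (Ξ * Φ⁻¹)⁻¹ ∈ V := by
    rw [mul_inv, inv_inv]; exact V.mul_mem hΞi hΦ
  have hN0 : Ξ * Φ⁻¹ ≠ 0 := mul_ne_zero hΞ0 (inv_ne_zero hΦ0)
  -- `N ^ m ≡ c ω⁻¹`
  have hw : c * (Ξ ^ m * u⁻¹) ∈ s18_loc B 𝔪 := (s18_locRing B 𝔪).mul_mem hc hωi
  have hwi : (c * (Ξ ^ m * u⁻¹))⁻¹ ∈ s18_loc B 𝔪 := by
    have e : (c * (Ξ ^ m * u⁻¹))⁻¹ = c⁻¹ * (u * (Ξ⁻¹) ^ m) := by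
      rw [mul_inv, mul_inv, inv_inv, inv_pow, mul_comm (Ξ ^ m)⁻¹ u]
    rw [e]
    exact (s18_locRing B 𝔪).mul_mem hci hω
  have hNm : ϖ⁻¹ * ((Ξ * Φ⁻¹) ^ m - c * (Ξ ^ m * u⁻¹)) ∈ V := by
    have e : ϖ⁻¹ * ((Ξ * Φ⁻¹) ^ m - c * (Ξ ^ m * u⁻¹)) =
        Ξ ^ m * (Φ⁻¹) ^ m * u⁻¹ * (ϖ⁻¹ * (u - c * Φ ^ m)) := by
      rw [mul_pow, inv_pow]
      field_simp
    rw [e]
    exact V.mul_mem (V.mul_mem (V.mul_mem (V.pow_mem hΞ m) (V.pow_mem hΦi m)) huiV) hu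
  obtain ⟨y, hy, hyi, hNy⟩ := hA _ _ hw hwi hNm
  have hyV := hRV y hy
  have hyiV := hRV _ hyi
  have hy0 : y ≠ 0 := by
    rintro rfl
    rw [sub_zero] at hNy
    exact hV.not_dvd_of_inv_mem hN0 hNi hNy
  refine ⟨s y / y ^ Q, s35_nf_frob_unit s Q hsB hsQ hy0 hy hyi, ?_⟩
  -- `s N / N ^ Q ≡ s y / y ^ Q`
  have h1 : ϖ⁻¹ * (s (Ξ * Φ⁻¹) - s y) ∈ V := s35_nf_cong_map hϖ0 s hsV hsϖV hNy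
  have h2 : ϖ⁻¹ * ((Ξ * Φ⁻¹) ^ Q - y ^ Q) ∈ V := s35_nf_cong_pow hNy hN hyV Q
  have hsy0 : s y ≠ 0 := (map_ne_zero s).mpr hy0
  have hA1 : ϖ⁻¹ * (s (Ξ * Φ⁻¹) / (Ξ * Φ⁻¹) ^ Q - s y / y ^ Q) ∈ V := by
    have e : ϖ⁻¹ * (s (Ξ * Φ⁻¹) / (Ξ * Φ⁻¹) ^ Q - s y / y ^ Q) =
        (ϖ⁻¹ * (s (Ξ * Φ⁻¹) - s y) * y ^ Q - s y * (ϖ⁻¹ * ((Ξ * Φ⁻¹) ^ Q - y ^ Q))) *
          ((Ξ * Φ⁻¹)⁻¹) ^ Q * (y⁻¹) ^ Q := by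
      have hNQ0 : (Ξ * Φ⁻¹) ^ Q ≠ 0 := pow_ne_zero Q hN0
      have hyQ0 : y ^ Q ≠ 0 := pow_ne_zero Q hy0
      rw [inv_pow, inv_pow]
      field_simp
      ring
    rw [e]
    exact V.mul_mem (V.mul_mem (V.sub_mem (V.mul_mem h1 (V.pow_mem hyV Q))
      (V.mul_mem (hsV y hyV) h2)) (V.pow_mem hNi Q)) (V.pow_mem hyiV Q)
  -- `g̃ ≡ s N / N ^ Q`
  have hsΦ0 : s Φ ≠ 0 := (map_ne_zero s).mpr hΦ0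
  have hsΞ0 : s Ξ ≠ 0 := (map_ne_zero s).mpr hΞ0
  have hP0 : s Φ / Φ ^ Q ≠ 0 := div_ne_zero hsΦ0 (pow_ne_zero Q hΦ0)
  have hPi : (s Φ / Φ ^ Q)⁻¹ ∈ V := by
    rw [inv_div, div_eq_mul_inv, ← map_inv₀]
    exact V.mul_mem (V.pow_mem hΦ Q) (hsV _ hΦi)
  have hΨi : Ψ⁻¹ ∈ V := s35_nf_inv_mem_of_cong hV hΨ hP0 hPi
  have hΨ0 : Ψ ≠ 0 := by
    rintro rfl
    rw [zero_sub, mul_neg] at hΨ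
    have := V.neg_mem hΨ
    rw [neg_neg] at this
    exact hV.not_dvd_of_inv_mem hP0 hPi this
  have hA2 : ϖ⁻¹ * (s Ξ / (Ξ ^ Q * Ψ) - s (Ξ * Φ⁻¹) / (Ξ * Φ⁻¹) ^ Q) ∈ V := by
    have e : ϖ⁻¹ * (s Ξ / (Ξ ^ Q * Ψ) - s (Ξ * Φ⁻¹) / (Ξ * Φ⁻¹) ^ Q) =
        -(s Ξ * (Ξ⁻¹) ^ Q * Ψ⁻¹ * (s Φ / Φ ^ Q)⁻¹ * (ϖ⁻¹ * (Ψ - s Φ / Φ ^ Q))) := by
      rw [map_mul, map_inv₀, mul_pow, inv_pow, inv_pow]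
      have hΞQ0 : Ξ ^ Q ≠ 0 := pow_ne_zero Q hΞ0
      have hΦQ0 : Φ ^ Q ≠ 0 := pow_ne_zero Q hΦ0
      field_simp
      ring
    rw [e]
    exact V.neg_mem (V.mul_mem (V.mul_mem (V.mul_mem (V.mul_mem (hsV _ hΞ) (V.pow_mem hΞi Q))
      hΨi) hPi) hΨ)
  have e : ϖ⁻¹ * (s Ξ / (Ξ ^ Q * Ψ) - s y / y ^ Q) =
      ϖ⁻¹ * (s Ξ / (Ξ ^ Q * Ψ) - s (Ξ * Φ⁻¹) / (Ξ * Φ⁻¹) ^ Q) +
        ϖ⁻¹ * (s (Ξ * Φ⁻¹) / (Ξ * Φ⁻¹) ^ Q - s y / y ^ Q) := by ring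
  rw [e]
  exact V.add_mem hA2 hA1

/-! ### The node -/

/-- **The abstract node/Frobenius lemma (STEP 3).**  With `u = ω Ξ ^ m` (`ω` a unit of `B_𝔪`,
`Ξ` a unit of `V₁ ⊓ V₂`), `u ≡ cᵢ Φᵢ ^ m` and `Ψ ≡ s Φᵢ / Φᵢ ^ Q` modulo `ϖ Vᵢ` on the two
branches, the function `H = s u / (u ^ Q Ψ ^ m)` is `gl ^ m * w` with `w` a unit of `B_𝔪` and
`gl ≡ 1 mod ϖ (V₁ ⊓ V₂)`. -/
theorem s35_nf_main {B V₁ V₂ : Subring F} (hV₁ : s34_Unif ϖ V₁) (hV₂ : s34_Unif ϖ V₂)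
    (hB₁ : B ≤ V₁) (hB₂ : B ≤ V₂) (𝔪 : Ideal B) [h𝔪 : 𝔪.IsPrime]
    (hnode : ∀ b : B, b ∉ 𝔪 → ϖ⁻¹ * (b : F) ∉ V₁ ∧ ϖ⁻¹ * (b : F) ∉ V₂)
    (hN3 : ∀ z : B, z ∈ 𝔪 → ∃ p₁ p₂ : F, p₁ ∈ s18_loc B 𝔪 ∧ p₂ ∈ s18_loc B 𝔪 ∧
      (z : F) = p₁ + p₂ ∧ ϖ⁻¹ * p₁ ∈ V₁ ∧ ϖ⁻¹ * p₂ ∈ V₂)
    (m : ℕ)
    (hA₁ : ∀ x w : F, w ∈ s18_loc B 𝔪 → w⁻¹ ∈ s18_loc B 𝔪 → ϖ⁻¹ * (x ^ m - w) ∈ V₁ →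
      ∃ y : F, y ∈ s18_loc B 𝔪 ∧ y⁻¹ ∈ s18_loc B 𝔪 ∧ ϖ⁻¹ * (x - y) ∈ V₁)
    (hA₂ : ∀ x w : F, w ∈ s18_loc B 𝔪 → w⁻¹ ∈ s18_loc B 𝔪 → ϖ⁻¹ * (x ^ m - w) ∈ V₂ →
      ∃ y : F, y ∈ s18_loc B 𝔪 ∧ y⁻¹ ∈ s18_loc B 𝔪 ∧ ϖ⁻¹ * (x - y) ∈ V₂)
    (s : F ≃+* F) (Q : ℕ) (hsB : ∀ x ∈ B, s x ∈ B)
    (hsV₁ : ∀ x ∈ V₁, s x ∈ V₁) (hsV₂ : ∀ x ∈ V₂, s x ∈ V₂)
    (hsϖ : ∃ c ∈ B, s ϖ = c * ϖ)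
    (hsQ : ∀ b : B, (⟨s b, hsB b b.2⟩ - b ^ Q : B) ∈ 𝔪)
    (u Ξ Ψ Φ₁ Φ₂ c₁ c₂ : F) (hu0 : u ≠ 0)
    (hΞ : Ξ ∈ V₁ ⊓ V₂) (hΞi : Ξ⁻¹ ∈ V₁ ⊓ V₂) (hΞ0 : Ξ ≠ 0)
    (hΦ₁ : Φ₁ ∈ V₁) (hΦ₁i : Φ₁⁻¹ ∈ V₁) (hΦ₁0 : Φ₁ ≠ 0)
    (hΦ₂ : Φ₂ ∈ V₂) (hΦ₂i : Φ₂⁻¹ ∈ V₂) (hΦ₂0 : Φ₂ ≠ 0)
    (hω : u * (Ξ⁻¹) ^ m ∈ s18_loc B 𝔪) (hωi : Ξ ^ m * u⁻¹ ∈ s18_loc B 𝔪)
    (hc₁ : c₁ ∈ s18_loc B 𝔪) (hc₁i : c₁⁻¹ ∈ s18_loc B 𝔪)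
    (hc₂ : c₂ ∈ s18_loc B 𝔪) (hc₂i : c₂⁻¹ ∈ s18_loc B 𝔪)
    (hu₁ : ϖ⁻¹ * (u - c₁ * Φ₁ ^ m) ∈ V₁) (hu₂ : ϖ⁻¹ * (u - c₂ * Φ₂ ^ m) ∈ V₂)
    (hΨ₁ : ϖ⁻¹ * (Ψ - s Φ₁ / Φ₁ ^ Q) ∈ V₁) (hΨ₂ : ϖ⁻¹ * (Ψ - s Φ₂ / Φ₂ ^ Q) ∈ V₂) :
    ∃ gl w : F, s u / (u ^ Q * Ψ ^ m) = gl ^ m * w ∧ w ∈ s18_loc B 𝔪 ∧ w⁻¹ ∈ s18_loc B 𝔪 ∧
      ϖ⁻¹ * (gl - 1) ∈ V₁ ⊓ V₂ := by
  have hϖ0 := hV₁.ne_zero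
  have hloc₁ : ∀ b : B, b ∉ 𝔪 → ((b : F))⁻¹ ∈ V₁ := fun b hb =>
    hV₁.inv_mem_of_not_dvd (hB₁ b.2) (hnode b hb).1
  have hloc₂ : ∀ b : B, b ∉ 𝔪 → ((b : F))⁻¹ ∈ V₂ := fun b hb =>
    hV₂.inv_mem_of_not_dvd (hB₂ b.2) (hnode b hb).2
  have hP₁ : ∀ a : B, ϖ⁻¹ * (a : F) ∈ V₁ → a ∈ 𝔪 := fun a ha => by
    by_contra hcon
    exact (hnode a hcon).1 ha
  obtain ⟨Y₁, hY₁, hg₁⟩ := s35_nf_branch hV₁ hB₁ 𝔪 hloc₁ m hA₁ s Q hsB hsV₁ hsϖ hsQ u Ξ Ψ Φ₁ c₁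
    hu0 hΞ.1 hΞi.1 hΞ0 hΦ₁ hΦ₁i hΦ₁0 hω hωi hc₁ hc₁i hu₁ hΨ₁
  obtain ⟨Y₂, hY₂, hg₂⟩ := s35_nf_branch hV₂ hB₂ 𝔪 hloc₂ m hA₂ s Q hsB hsV₂ hsϖ hsQ u Ξ Ψ Φ₂ c₂
    hu0 hΞ.2 hΞi.2 hΞ0 hΦ₂ hΦ₂i hΦ₂0 hω hωi hc₂ hc₂i hu₂ hΨ₂
  obtain ⟨μ, hμ, hμi, hμ0, hμ₁, hμ₂⟩ := s35_nf_node_lift hB₁ 𝔪 hloc₁ hloc₂ hP₁ hN3 hY₁ hY₂
  -- the unit `ω` and its Frobenius quotient
  have hω0 : u * (Ξ⁻¹) ^ m ≠ 0 := mul_ne_zero hu0 (pow_ne_zero m (inv_ne_zero hΞ0))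
  have hωi' : (u * (Ξ⁻¹) ^ m)⁻¹ ∈ s18_loc B 𝔪 := by
    have e : (u * (Ξ⁻¹) ^ m)⁻¹ = Ξ ^ m * u⁻¹ := by
      rw [mul_inv, inv_pow, inv_inv, mul_comm]
    rw [e]; exact hωi
  have hw0 := s35_nf_unit_of_sub_one (s35_nf_frob_unit s Q hsB hsQ hω0 hω hωi')
  -- the Ψ is nonzero (it is congruent to a unit)
  have hsΦ0 : s Φ₁ ≠ 0 := (map_ne_zero s).mpr hΦ₁0
  have hP0 : s Φ₁ / Φ₁ ^ Q ≠ 0 := div_ne_zero hsΦ0 (pow_ne_zero Q hΦ₁0)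
  have hPi : (s Φ₁ / Φ₁ ^ Q)⁻¹ ∈ V₁ := by
    rw [inv_div, div_eq_mul_inv, ← map_inv₀]
    exact V₁.mul_mem (V₁.pow_mem hΦ₁ Q) (hsV₁ _ hΦ₁i)
  have hΨ0 : Ψ ≠ 0 := by
    rintro rfl
    rw [zero_sub, mul_neg] at hΨ₁
    have := V₁.neg_mem hΨ₁
    rw [neg_neg] at this
    exact hV₁.not_dvd_of_inv_mem hP0 hPi this
  have hsΞ0 : s Ξ ≠ 0 := (map_ne_zero s).mpr hΞ0
  have hsu0 : s u ≠ 0 := (map_ne_zero s).mpr hu0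
  refine ⟨s Ξ / (Ξ ^ Q * Ψ) * μ⁻¹, s (u * (Ξ⁻¹) ^ m) / (u * (Ξ⁻¹) ^ m) ^ Q * μ ^ m, ?_, ?_, ?_, ?_, ?_⟩
  · rw [map_mul, map_pow, map_inv₀]
    have hΞQ0 : Ξ ^ Q ≠ 0 := pow_ne_zero Q hΞ0
    have huQ0 : u ^ Q ≠ 0 := pow_ne_zero Q hu0
    rw [mul_pow, div_pow, mul_pow, mul_pow, inv_pow, inv_pow, inv_pow, inv_pow]
    have h1 : (Ξ ^ m) ^ Q = (Ξ ^ Q) ^ m := by rw [← pow_mul, ← pow_mul, mul_comm]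
    field_simp
    rw [h1]
  · exact (s18_locRing B 𝔪).mul_mem hw0.1 ((s18_locRing B 𝔪).pow_mem hμ m)
  · rw [mul_inv, ← inv_pow]
    exact (s18_locRing B 𝔪).mul_mem hw0.2.1 ((s18_locRing B 𝔪).pow_mem hμi m)
  · have e : ϖ⁻¹ * (s Ξ / (Ξ ^ Q * Ψ) * μ⁻¹ - 1) =
        (ϖ⁻¹ * (s Ξ / (Ξ ^ Q * Ψ) - Y₁) - ϖ⁻¹ * (μ - Y₁)) * μ⁻¹ := by
      field_simp
      ring
    rw [e]
    exact V₁.mul_mem (V₁.sub_mem hg₁ hμ₁) (s35_nf_loc_le hB₁ 𝔪 hloc₁ hμi)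
  · have e : ϖ⁻¹ * (s Ξ / (Ξ ^ Q * Ψ) * μ⁻¹ - 1) =
        (ϖ⁻¹ * (s Ξ / (Ξ ^ Q * Ψ) - Y₂) - ϖ⁻¹ * (μ - Y₂)) * μ⁻¹ := by
      field_simp
      ring
    rw [e]
    exact V₂.mul_mem (V₂.sub_mem hg₂ hμ₂) (s35_nf_loc_le hB₂ 𝔪 hloc₂ hμi)

end Fermat.Agent.S35
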