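/-
NODE-2 (S35), leaf (NFG) (helper1): the node/Frobenius lemma in the shapes of NODE-1's model.

Setting as in `S35/NodeFrob.lean` (`s35_nf_main`): `F` a field, `ϖ ∈ F`, `B` a chart, `V₁`, `V₂` the
two components (`s34_Unif ϖ Vᵢ`), `s` a ring automorphism of `F` (the square of a Frobenius lift
acting on coefficients).  This file produces the hypotheses of `s35_nf_main` from the facts that
NODE-1's nodal model provides at a crossing point `𝔪`: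

* `s35_nfo_omega` : from a function `G` carrying the horizontal divisor of `g` through `𝔪`
  (`hG0`/`hGi` of `s34_pow_of_model`): for `u = s(s g) g / (s g)²`, `Ξ = s(s G) G / (s G)²`,
  `Ξ` is a unit of `V₁ ⊓ V₂` and `u / Ξ ^ m` is a unit of `B_𝔪` (`s` permutes the horizontal primes
  through `𝔪` because of the Frobenius congruence `hsQ`);
* `s35_nfo_N3` : transversality `(N3)` from the local parameter `x` of the branch `V₁`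
  (shape of `hx` in `s34_node_G_components`);
* `s35_nfo_root` : the branch `B_𝔪 / (B_𝔪 ∩ ϖ V)` is `m`-root closed (it is a discrete valuation
  ring with uniformizer `x` and fraction field the residue field of `V`);
* `s35_nfo_node` : the conclusion of `s35_nf_main` from these shapes;
* `s35_nfo_pts` : `s34_PointData` for `H = s u / (u ^ Q Ψ ^ m)` at every closed point of the chart
  (crossing points by `s35_nfo_node`, the other points by `s34_pointData_of_cases`).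
-/
import Mathlib
import Fermat.Agent.S18.Gauss
import Fermat.Agent.S34.NodeUnit
import Fermat.Agent.S34.NodeTau
import Fermat.Agent.S34.SmoothPoint
import Fermat.Agent.S35.NodeFrob

set_option autoImplicit false

namespace Fermat.Agent.S35

open Fermat.Agent.S18 Fermat.Agent.S34

variable {F : Type*} [Field F] {ϖ : F}

/-! ### Valuation-ring calculus -/

/-- Integer powers of a unit of a subring. -/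
theorem s35_nfo_zpow_mem {V : Subring F} {c : F} (hc : c ∈ V) (hci : c⁻¹ ∈ V) (j : ℤ) :
    c ^ j ∈ V := by
  rcases Int.eq_nat_or_neg j with ⟨n, rfl | rfl⟩
  · rw [zpow_natCast]; exact V.pow_mem hc n
  · rw [zpow_neg, zpow_natCast, ← inv_pow]; exact V.pow_mem hci n

/-- `(T1)` for a ring automorphism preserving `V` and multiplying `ϖ` by a unit of `V`. -/
theorem s35_nfo_T1 {V : Subring F} (hV : s34_Unif ϖ V) (s : F ≃+* F)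
    (hsV : ∀ x ∈ V, s x ∈ V) (hsϖ : ∃ c : F, c ∈ V ∧ c⁻¹ ∈ V ∧ s ϖ = c * ϖ)
    (x : F) (hx : x ≠ 0) : s x / x ∈ V ∧ x / s x ∈ V := by
  obtain ⟨c, hc, hci, hsc⟩ := hsϖ
  have hϖ0 := hV.ne_zero
  obtain ⟨j, u, hu, hui, rfl⟩ := hV.decomp x hx
  have hu0 : u ≠ 0 := by rintro rfl; simp at hx
  have hc0 : c ≠ 0 := by
    rintro rfl
    rw [zero_mul] at hsc
    exact hϖ0 ((map_eq_zero s).mp hsc)
  have hsu0 : s u ≠ 0 := (map_ne_zero s).mpr hu0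
  have hϖj : ϖ ^ j ≠ 0 := zpow_ne_zero j hϖ0
  have hcj : c ^ j ≠ 0 := zpow_ne_zero j hc0
  have e : s (ϖ ^ j * u) = c ^ j * ϖ ^ j * s u := by
    rw [map_mul, map_zpow₀, hsc, mul_zpow]
  constructor
  · have e1 : s (ϖ ^ j * u) / (ϖ ^ j * u) = c ^ j * (s u * u⁻¹) := by
      rw [e]; field_simp
    rw [e1]
    exact V.mul_mem (s35_nfo_zpow_mem hc hci j) (V.mul_mem (hsV u hu) hui)
  · have e1 : ϖ ^ j * u / s (ϖ ^ j * u) = (c⁻¹) ^ j * (u * s u⁻¹) := by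
      rw [e, map_inv₀, inv_zpow]; field_simp
    rw [e1]
    exact V.mul_mem (s35_nfo_zpow_mem hci (by rwa [inv_inv]) j) (V.mul_mem hu (hsV _ hui))

/-- `(T1)` implies stability. -/
theorem s35_nfo_stable {V : Subring F} (s : F ≃+* F)
    (hT1 : ∀ x : F, x ≠ 0 → s x / x ∈ V ∧ x / s x ∈ V) (x : F) (hx : x ∈ V) : s x ∈ V := by
  by_cases hx0 : x = 0
  · rw [hx0, map_zero]; exact V.zero_mem
  have e : s x = s x / x * x := by field_simp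
  rw [e]
  exact V.mul_mem (hT1 x hx0).1 hx

/-- A valuation ring is root closed. -/
theorem s35_nfo_mem_of_pow {V : Subring F} (hV : s34_Unif ϖ V) {m : ℕ} (hm : 0 < m) {X : F}
    (h : X ^ m ∈ V) : X ∈ V := by
  by_cases hX : X = 0
  · rw [hX]; exact V.zero_mem
  obtain ⟨j, u, hu, hui, rfl⟩ := hV.decomp X hX
  have hu0 : u ≠ 0 := by rintro rfl; simp at hX
  have e : (ϖ ^ j * u) ^ m = ϖ ^ (j * m) * u ^ m := by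
    rw [mul_pow, ← zpow_natCast (ϖ ^ j) m, ← zpow_mul]
  rw [e, hV.mem_iff (pow_ne_zero m hu0) (V.pow_mem hu m)
    (by rw [← inv_pow]; exact V.pow_mem hui m)] at h
  rw [hV.mem_iff hu0 hu hui]
  by_contra hj
  push Not at hj
  have h1 : j * (m : ℤ) < 0 := mul_neg_of_neg_of_pos hj (by exact_mod_cast hm)
  omega

/-- If `ϖ` divides a power it divides the base. -/
theorem s35_nfo_dvd_of_pow {V : Subring F} (hV : s34_Unif ϖ V) {m : ℕ} (hm : 0 < m) {X : F}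
    (h : ϖ⁻¹ * X ^ m ∈ V) : ϖ⁻¹ * X ∈ V := by
  by_cases hX : X = 0
  · rw [hX, mul_zero]; exact V.zero_mem
  have hϖ0 := hV.ne_zero
  obtain ⟨j, u, hu, hui, rfl⟩ := hV.decomp X hX
  have hu0 : u ≠ 0 := by rintro rfl; simp at hX
  have e : ϖ⁻¹ * (ϖ ^ j * u) ^ m = ϖ ^ (j * m - 1) * u ^ m := by
    rw [mul_pow, ← zpow_natCast (ϖ ^ j) m, ← zpow_mul, zpow_sub₀ hϖ0, zpow_one]
    field_simp
  have e' : ϖ⁻¹ * (ϖ ^ j * u) = ϖ ^ (j - 1) * u := by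
    rw [zpow_sub₀ hϖ0, zpow_one]
    field_simp
  rw [e, hV.mem_iff (pow_ne_zero m hu0) (V.pow_mem hu m)
    (by rw [← inv_pow]; exact V.pow_mem hui m)] at h
  rw [e', hV.mem_iff hu0 hu hui]
  by_contra hj
  push Not at hj
  have h1 : j * (m : ℤ) ≤ 0 :=
    mul_nonpos_of_nonpos_of_nonneg (by omega) (by positivity)
  omega

/-! ### Horizontal primes -/

/-- `s` maps the complement of `𝔪` into itself. -/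
theorem s35_nfo_s_not_mem {B : Subring F} {𝔪 : Ideal B} [h𝔪 : 𝔪.IsPrime] (s : F ≃+* F) (Q : ℕ)
    (hsB : ∀ x ∈ B, s x ∈ B)
    (hsQ : ∀ b : B, (⟨s b, hsB b b.2⟩ - b ^ Q : B) ∈ 𝔪)
    {b : B} (hb : b ∉ 𝔪) : (⟨s b, hsB b b.2⟩ : B) ∉ 𝔪 := by
  intro h
  apply hb
  apply h𝔪.mem_of_pow_mem Q
  have e : b ^ Q = ⟨s b, hsB b b.2⟩ - (⟨s b, hsB b b.2⟩ - b ^ Q) := by ring
  rw [e]
  exact 𝔪.sub_mem h (hsQ b)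

/-- The preimage under `s` of a horizontal prime below `𝔪` is a horizontal prime below `𝔪`
(the point `𝔪` is fixed by `s` because of the Frobenius congruence). -/
theorem s35_nfo_hor (B : Subring F) (hϖB : ϖ ∈ B) (𝔪 : Ideal B) [h𝔪 : 𝔪.IsPrime] (Q : ℕ)
    (s : F ≃+* F) (hsB : ∀ x ∈ B, s x ∈ B) (hsϖ : ∃ c ∈ B, c⁻¹ ∈ B ∧ s ϖ = c * ϖ)
    (hsQ : ∀ b : B, (⟨s b, hsB b b.2⟩ - b ^ Q : B) ∈ 𝔪)
    (𝔮 : Ideal B) (h𝔮 : 𝔮.IsPrime) (h𝔮𝔪 : 𝔮 ≤ 𝔪) (hϖ𝔮 : (⟨ϖ, hϖB⟩ : B) ∉ 𝔮) :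
    (𝔮.comap ((s : F →+* F).restrict B B hsB)).IsPrime ∧
      𝔮.comap ((s : F →+* F).restrict B B hsB) ≤ 𝔪 ∧
      (⟨ϖ, hϖB⟩ : B) ∉ 𝔮.comap ((s : F →+* F).restrict B B hsB) := by
  by_cases hϖ0 : ϖ = 0
  · exfalso
    apply hϖ𝔮
    have : (⟨ϖ, hϖB⟩ : B) = 0 := Subtype.ext hϖ0
    rw [this]
    exact 𝔮.zero_mem
  set sB : B →+* B := (s : F →+* F).restrict B B hsB with hsBdef
  refine ⟨Ideal.IsPrime.comap sB, ?_, ?_⟩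
  · intro x hx
    have hx' : sB x ∈ 𝔪 := h𝔮𝔪 hx
    by_contra hcon
    exact s35_nfo_s_not_mem s Q hsB hsQ hcon hx'
  · intro hmem
    obtain ⟨c, hc, hc', hsϖc⟩ := hsϖ
    apply hϖ𝔮
    have hsϖ0 : s ϖ ≠ 0 := (map_ne_zero s).mpr hϖ0
    have hc0 : c ≠ 0 := by
      rintro rfl
      rw [zero_mul] at hsϖc
      exact hsϖ0 hsϖc
    have e : (⟨ϖ, hϖB⟩ : B) = ⟨c⁻¹, hc'⟩ * sB ⟨ϖ, hϖB⟩ := by
      apply Subtype.ext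
      show ϖ = c⁻¹ * s ϖ
      rw [hsϖc]
      field_simp
    rw [e]
    exact 𝔮.mul_mem_left _ hmem

/-- **The unit `ω`.**  For `u = s(s g) g / (s g)²` and `Ξ = s(s G) G / (s G)²`, where `g / G ^ m` is
a unit at every horizontal prime through `𝔪`: `Ξ` is a unit of `V₁ ⊓ V₂` and `u / Ξ ^ m` is a unit
of `B_𝔪`. -/
theorem s35_nfo_omega {B V₁ V₂ : Subring F} (hϖ0 : ϖ ≠ 0) (hB₁ : B ≤ V₁) (hB₂ : B ≤ V₂)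
    (hϖB : ϖ ∈ B)
    (hcap : ∀ x ∈ B, ϖ⁻¹ * x ∈ V₁ → ϖ⁻¹ * x ∈ V₂ → ϖ⁻¹ * x ∈ B)
    (𝔪 : Ideal B) [h𝔪 : 𝔪.IsPrime] (m Q : ℕ) (s : F ≃+* F) (hsB : ∀ x ∈ B, s x ∈ B)
    (hsϖ : ∃ c ∈ B, c⁻¹ ∈ B ∧ s ϖ = c * ϖ)
    (hT1₁ : ∀ x : F, x ≠ 0 → s x / x ∈ V₁ ∧ x / s x ∈ V₁)
    (hT1₂ : ∀ x : F, x ≠ 0 → s x / x ∈ V₂ ∧ x / s x ∈ V₂)
    (hsQ : ∀ b : B, (⟨s b, hsB b b.2⟩ - b ^ Q : B) ∈ 𝔪)
    (g G : F) (hg0 : g ≠ 0) (hG0 : G ≠ 0)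
    (hG : ∀ 𝔮 : Ideal B, 𝔮.IsPrime → 𝔮 ≤ 𝔪 → (⟨ϖ, hϖB⟩ : B) ∉ 𝔮 →
      g * (G⁻¹) ^ m ∈ s18_loc B 𝔮 ∧ G ^ m * g⁻¹ ∈ s18_loc B 𝔮) :
    s (s G) * G / (s G) ^ 2 ∈ V₁ ⊓ V₂ ∧ (s (s G) * G / (s G) ^ 2)⁻¹ ∈ V₁ ⊓ V₂ ∧
      s (s G) * G / (s G) ^ 2 ≠ 0 ∧ s (s g) * g / (s g) ^ 2 ≠ 0 ∧
      s (s g) * g / (s g) ^ 2 * ((s (s G) * G / (s G) ^ 2)⁻¹) ^ m ∈ s18_loc B 𝔪 ∧
      (s (s G) * G / (s G) ^ 2) ^ m * (s (s g) * g / (s g) ^ 2)⁻¹ ∈ s18_loc B 𝔪 := by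
  have hsg : s g ≠ 0 := (map_ne_zero s).mpr hg0
  have hssg : s (s g) ≠ 0 := (map_ne_zero s).mpr hsg
  have hsG : s G ≠ 0 := (map_ne_zero s).mpr hG0
  have hssG : s (s G) ≠ 0 := (map_ne_zero s).mpr hsG
  have hBV : B ≤ V₁ ⊓ V₂ := le_inf hB₁ hB₂
  have hcapV : ∀ x ∈ B, ϖ⁻¹ * x ∈ V₁ ⊓ V₂ → ϖ⁻¹ * x ∈ B := fun x hx h => hcap x hx h.1 h.2
  have hu0 : s (s g) * g / (s g) ^ 2 ≠ 0 := div_ne_zero (mul_ne_zero hssg hg0) (pow_ne_zero 2 hsg)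
  -- the functions `Ξ` and `ω`
  set Ξ : F := s (s G) * G / (s G) ^ 2 with hΞ
  have hΞ0 : Ξ ≠ 0 := div_ne_zero (mul_ne_zero hssG hG0) (pow_ne_zero 2 hsG)
  have hΞmem : ∀ V : Subring F, (∀ x : F, x ≠ 0 → s x / x ∈ V ∧ x / s x ∈ V) →
      Ξ ∈ V ∧ Ξ⁻¹ ∈ V := by
    intro V hT1
    constructor
    · have e : Ξ = s (s G) / s G * (G / s G) := by rw [hΞ]; field_simp
      rw [e]
      exact V.mul_mem (hT1 _ hsG).1 (hT1 _ hG0).2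
    · have e : Ξ⁻¹ = s G / s (s G) * (s G / G) := by rw [hΞ]; field_simp
      rw [e]
      exact V.mul_mem (hT1 _ hsG).2 (hT1 _ hG0).1
  set ω : F := s (s g) * g / (s g) ^ 2 * (Ξ⁻¹) ^ m with hω
  have e1 : ω = s (s (g * (G⁻¹) ^ m)) * (g * (G⁻¹) ^ m) * (s (G ^ m * g⁻¹)) ^ 2 := by
    rw [hω, hΞ]
    simp only [map_mul, map_pow, map_inv₀, div_eq_mul_inv, mul_inv, inv_inv]
    ring
  have hinv2 : G ^ m * g⁻¹ = (g * (G⁻¹) ^ m)⁻¹ := by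
    rw [mul_inv, inv_pow, inv_inv, mul_comm]
  have e2 : ω⁻¹ = s (s (G ^ m * g⁻¹)) * (G ^ m * g⁻¹) * (s (g * (G⁻¹) ^ m)) ^ 2 := by
    rw [e1, hinv2]
    generalize g * (G⁻¹) ^ m = γ
    simp only [map_inv₀, mul_inv, inv_pow, inv_inv]
  have hγ0 : g * (G⁻¹) ^ m ≠ 0 := mul_ne_zero hg0 (pow_ne_zero m (inv_ne_zero hG0))
  -- `ω` is a unit of `V₁` and of `V₂`
  have hωmem : ∀ V : Subring F, (∀ x : F, x ≠ 0 → s x / x ∈ V ∧ x / s x ∈ V) →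
      ω ∈ V ∧ ω⁻¹ ∈ V := by
    intro V hT1
    have hsγ0 : s (g * (G⁻¹) ^ m) ≠ 0 := (map_ne_zero s).mpr hγ0
    have hssγ0 : s (s (g * (G⁻¹) ^ m)) ≠ 0 := (map_ne_zero s).mpr hsγ0
    have hinv : s (G ^ m * g⁻¹) = (s (g * (G⁻¹) ^ m))⁻¹ := by
      rw [hinv2, map_inv₀]
    constructor
    · have e : ω = s (s (g * (G⁻¹) ^ m)) / s (g * (G⁻¹) ^ m) *
          ((g * (G⁻¹) ^ m) / s (g * (G⁻¹) ^ m)) := by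
        rw [e1, hinv]; field_simp
      rw [e]
      exact V.mul_mem (hT1 _ hsγ0).1 (hT1 _ hγ0).2
    · have e : ω⁻¹ = s (g * (G⁻¹) ^ m) / s (s (g * (G⁻¹) ^ m)) *
          (s (g * (G⁻¹) ^ m) / (g * (G⁻¹) ^ m)) := by
        rw [e2, hinv, hinv2, map_inv₀]; field_simp
      rw [e]
      exact V.mul_mem (hT1 _ hsγ0).2 (hT1 _ hγ0).1
  -- `ω` is a unit at every horizontal prime through the point, hence a unit of `B_𝔪`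
  have hhor : ∀ 𝔮 : Ideal B, 𝔮.IsPrime → 𝔮 ≤ 𝔪 → (⟨ϖ, hϖB⟩ : B) ∉ 𝔮 →
      ω ∈ s18_loc B 𝔮 ∧ ω⁻¹ ∈ s18_loc B 𝔮 := by
    intro 𝔮 h𝔮 h𝔮𝔪 hϖ𝔮
    have := h𝔮
    obtain ⟨h𝔮1, h𝔮1𝔪, hϖ𝔮1⟩ := s35_nfo_hor B hϖB 𝔪 Q s hsB hsϖ hsQ 𝔮 h𝔮 h𝔮𝔪 hϖ𝔮
    obtain ⟨h𝔮2, h𝔮2𝔪, hϖ𝔮2⟩ := s35_nfo_hor B hϖB 𝔪 Q s hsB hsϖ hsQ _ h𝔮1 h𝔮1𝔪 hϖ𝔮1
    obtain ⟨hω0, hω0'⟩ := hG 𝔮 h𝔮 h𝔮𝔪 hϖ𝔮
    obtain ⟨hω1, hω1'⟩ := hG _ h𝔮1 h𝔮1𝔪 hϖ𝔮1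
    obtain ⟨hω2, hω2'⟩ := hG _ h𝔮2 h𝔮2𝔪 hϖ𝔮2
    have a1 := s34_tau_loc B s hsB 𝔮 _ hω1
    have a1' := s34_tau_loc B s hsB 𝔮 _ hω1'
    have a2 := s34_tau_loc B s hsB 𝔮 _ (s34_tau_loc B s hsB _ _ hω2)
    have a2' := s34_tau_loc B s hsB 𝔮 _ (s34_tau_loc B s hsB _ _ hω2')
    constructor
    · rw [e1]
      exact (s18_locRing B 𝔮).mul_mem ((s18_locRing B 𝔮).mul_mem a2 hω0)
        ((s18_locRing B 𝔮).pow_mem a1' 2)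
    · rw [e2]
      exact (s18_locRing B 𝔮).mul_mem ((s18_locRing B 𝔮).mul_mem a2' hω0')
        ((s18_locRing B 𝔮).pow_mem a1 2)
  have hωV := hωmem V₁ hT1₁
  have hωV' := hωmem V₂ hT1₂
  have hωR : ω ∈ s18_loc B 𝔪 :=
    s34_mem_loc_of_horizontal hϖ0 B (V₁ ⊓ V₂) hBV hϖB hcapV 𝔪 ω ⟨hωV.1, hωV'.1⟩
      (fun 𝔮 h𝔮 h𝔮𝔪 hϖ𝔮 => (hhor 𝔮 h𝔮 h𝔮𝔪 hϖ𝔮).1)
  have hωR' : ω⁻¹ ∈ s18_loc B 𝔪 :=
    s34_mem_loc_of_horizontal hϖ0 B (V₁ ⊓ V₂) hBV hϖB hcapV 𝔪 ω⁻¹ ⟨hωV.2, hωV'.2⟩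
      (fun 𝔮 h𝔮 h𝔮𝔪 hϖ𝔮 => (hhor 𝔮 h𝔮 h𝔮𝔪 hϖ𝔮).2)
  have hΞ₁ := hΞmem V₁ hT1₁
  have hΞ₂ := hΞmem V₂ hT1₂
  refine ⟨⟨hΞ₁.1, hΞ₂.1⟩, ⟨hΞ₁.2, hΞ₂.2⟩, hΞ0, hu0, hωR, ?_⟩
  have e3 : Ξ ^ m * (s (s g) * g / (s g) ^ 2)⁻¹ = ω⁻¹ := by
    rw [hω, mul_inv, inv_pow, inv_inv, mul_comm]
  rw [e3]
  exact hωR'

/-! ### Transversality -/

/-- **(N3)** from the local parameter `x` of the branch `V₁` at a crossing point. -/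
theorem s35_nfo_N3 {B V₁ V₂ : Subring F} (hV₁ : s34_Unif ϖ V₁) (hV₂ : s34_Unif ϖ V₂)
    (hB₁ : B ≤ V₁) (hB₂ : B ≤ V₂) (𝔪 : Ideal B)
    (hnode : ∀ b : B, b ∉ 𝔪 → ϖ⁻¹ * (b : F) ∉ V₁ ∧ ϖ⁻¹ * (b : F) ∉ V₂)
    (x : B) (hx₂ : ϖ⁻¹ * (x : F) ∈ V₂)
    (hx : ∀ z ∈ 𝔪, ∃ r u : B, u ∉ 𝔪 ∧ ϖ⁻¹ * ((u * z - x * r : B) : F) ∈ V₁)
    (z : B) (hz : z ∈ 𝔪) :
    ∃ p₁ p₂ : F, p₁ ∈ s18_loc B 𝔪 ∧ p₂ ∈ s18_loc B 𝔪 ∧ (z : F) = p₁ + p₂ ∧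
      ϖ⁻¹ * p₁ ∈ V₁ ∧ ϖ⁻¹ * p₂ ∈ V₂ := by
  obtain ⟨r, u, hu, hur⟩ := hx z hz
  have hu0 : (u : F) ≠ 0 := s35_nf_ne_zero hu
  have hu₁ : ((u : F))⁻¹ ∈ V₁ := hV₁.inv_mem_of_not_dvd (hB₁ u.2) (hnode u hu).1
  have hu₂ : ((u : F))⁻¹ ∈ V₂ := hV₂.inv_mem_of_not_dvd (hB₂ u.2) (hnode u hu).2
  refine ⟨((u * z - x * r : B) : F) / (u : F), ((x * r : B) : F) / (u : F),
    ⟨u * z - x * r, u, hu, rfl⟩, ⟨x * r, u, hu, rfl⟩, ?_, ?_, ?_⟩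
  · push_cast
    field_simp
    ring
  · have e : ϖ⁻¹ * (((u * z - x * r : B) : F) / (u : F)) =
        ϖ⁻¹ * ((u * z - x * r : B) : F) * ((u : F))⁻¹ := by ring
    rw [e]
    exact V₁.mul_mem hur hu₁
  · have e : ϖ⁻¹ * (((x * r : B) : F) / (u : F)) = ϖ⁻¹ * (x : F) * (r : F) * ((u : F))⁻¹ := by
      push_cast; ring
    rw [e]
    exact V₂.mul_mem (V₂.mul_mem hx₂ (hB₂ r.2)) hu₂

/-! ### The branches -/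

/-- The component ideal `B ∩ ϖ V` of the chart `B`. -/
def s35_nfo_P (B V : Subring F) (ϖ : F) (hBV : B ≤ V) : Ideal B where
  carrier := {b | ϖ⁻¹ * (b : F) ∈ V}
  add_mem' := by
    intro a b ha hb
    show ϖ⁻¹ * ((a + b : B) : F) ∈ V
    rw [Subring.coe_add, mul_add]
    exact V.add_mem ha hb
  zero_mem' := by
    show ϖ⁻¹ * ((0 : B) : F) ∈ V
    rw [Subring.coe_zero, mul_zero]
    exact V.zero_mem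
  smul_mem' := by
    intro c b hb
    show ϖ⁻¹ * ((c * b : B) : F) ∈ V
    rw [Subring.coe_mul, mul_left_comm]
    exact V.mul_mem (hBV c.2) hb

theorem s35_nfo_mem_P {B V : Subring F} {hBV : B ≤ V} {b : B} :
    b ∈ s35_nfo_P B V ϖ hBV ↔ ϖ⁻¹ * (b : F) ∈ V := Iff.rfl

theorem s35_nfo_P_prime {B V : Subring F} (hV : s34_Unif ϖ V) (hBV : B ≤ V) :
    (s35_nfo_P B V ϖ hBV).IsPrime := by
  refine ⟨?_, ?_⟩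
  · rw [Ideal.ne_top_iff_one]
    intro h
    apply hV.inv_not_mem
    have h1 : ϖ⁻¹ * ((1 : B) : F) ∈ V := h
    rwa [Subring.coe_one, mul_one] at h1
  · intro a b hab
    have h1 : ϖ⁻¹ * ((a * b : B) : F) ∈ V := hab
    rw [Subring.coe_mul] at h1
    exact hV.prime (hBV a.2) (hBV b.2) h1

/-- `V = B_𝔓` for the component ideal `𝔓 = B ∩ ϖ V`: every element of `V` is a quotient `c / d`
of elements of `B` with `d` a unit of `V` (`x` vanishes on the other component only). -/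
theorem s35_nfo_fracV {B V V' : Subring F} (hV : s34_Unif ϖ V) (hV' : s34_Unif ϖ V')
    (hBV : B ≤ V) (hBV' : B ≤ V')
    (hcap : ∀ x ∈ B, ϖ⁻¹ * x ∈ V → ϖ⁻¹ * x ∈ V' → ϖ⁻¹ * x ∈ B)
    (hfrac : ∀ x : F, ∃ a ∈ B, ∃ b ∈ B, b ≠ 0 ∧ x = a / b)
    (x : B) (hxV' : ϖ⁻¹ * (x : F) ∈ V') (hxV : ϖ⁻¹ * (x : F) ∉ V)
    (z : F) (hz : z ∈ V) : ∃ c d : B, ϖ⁻¹ * (d : F) ∉ V ∧ z = (c : F) / (d : F) := by
  have hϖ0 := hV.ne_zero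
  obtain ⟨a, ha, b, hb, hb0, rfl⟩ := hfrac z
  obtain ⟨k, hk, hk'⟩ := hV.exists_pow (hBV hb) hb0
  have hx0 : (x : F) ≠ 0 := by
    intro h
    apply hxV
    rw [h, mul_zero]
    exact V.zero_mem
  have hxinv : ((x : F))⁻¹ ∈ V := hV.inv_mem_of_not_dvd (hBV x.2) hxV
  have hcapV : ∀ y ∈ B, ϖ⁻¹ * y ∈ V ⊓ V' → ϖ⁻¹ * y ∈ B := fun y hy h => hcap y hy h.1 h.2
  have hϖV : ϖ ∈ V ⊓ V' := ⟨hV.mem, hV'.mem⟩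
  have hxk : ∀ y : F, ϖ⁻¹ ^ k * ((x : F) ^ k * y) = (ϖ⁻¹ * (x : F)) ^ k * y := fun y => by
    rw [mul_pow]; ring
  have hb' : ϖ⁻¹ ^ k * ((x : F) ^ k * b) ∈ B := by
    apply s34_cap_pow hϖ0 B (V ⊓ V') hϖV hcapV (B.mul_mem (B.pow_mem x.2 k) hb) k
    refine ⟨?_, ?_⟩
    · have e : ϖ⁻¹ ^ k * ((x : F) ^ k * b) = (x : F) ^ k * (ϖ⁻¹ ^ k * b) := by ring
      rw [e]; exact V.mul_mem (V.pow_mem (hBV x.2) k) hk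
    · rw [hxk]; exact V'.mul_mem (V'.pow_mem hxV' k) (hBV' hb)
  have ha' : ϖ⁻¹ ^ k * ((x : F) ^ k * a) ∈ B := by
    apply s34_cap_pow hϖ0 B (V ⊓ V') hϖV hcapV (B.mul_mem (B.pow_mem x.2 k) ha) k
    refine ⟨?_, ?_⟩
    · have e : ϖ⁻¹ ^ k * ((x : F) ^ k * a) = (x : F) ^ k * ((ϖ⁻¹ ^ k * b) * (a / b)) := by
        field_simp
      rw [e]
      exact V.mul_mem (V.pow_mem (hBV x.2) k) (V.mul_mem hk hz)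
    · rw [hxk]; exact V'.mul_mem (V'.pow_mem hxV' k) (hBV' ha)
  refine ⟨⟨_, ha'⟩, ⟨_, hb'⟩, ?_, ?_⟩
  · have hne : ϖ⁻¹ ^ k * ((x : F) ^ k * b) ≠ 0 :=
      mul_ne_zero (pow_ne_zero _ (inv_ne_zero hϖ0)) (mul_ne_zero (pow_ne_zero _ hx0) hb0)
    refine hV.not_dvd_of_inv_mem hne ?_
    have e : (ϖ⁻¹ ^ k * ((x : F) ^ k * b))⁻¹ = ((x : F)⁻¹) ^ k * (ϖ⁻¹ ^ k * b)⁻¹ := by
      rw [mul_left_comm, mul_inv, ← inv_pow]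
    rw [e]
    exact V.mul_mem (V.pow_mem hxinv k) hk'
  · have hne : ϖ⁻¹ ^ k * (x : F) ^ k ≠ 0 :=
      mul_ne_zero (pow_ne_zero _ (inv_ne_zero hϖ0)) (pow_ne_zero _ hx0)
    show a / b = ϖ⁻¹ ^ k * ((x : F) ^ k * a) / (ϖ⁻¹ ^ k * ((x : F) ^ k * b))
    rw [← mul_assoc, ← mul_assoc, mul_div_mul_left _ _ hne]

/-- **The branch is `m`-root closed.**  At a crossing point `𝔪` whose branch along `V` has the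
local parameter `x` (`𝔪 B_𝔪 = x B_𝔪 + (B_𝔪 ∩ ϖ V)`), an element of `F` whose `m`-th power is
congruent modulo `ϖ V` to a unit of `B_𝔪` is itself congruent to a unit of `B_𝔪`: the ring
`B_𝔪 / (B_𝔪 ∩ ϖ V)` is a discrete valuation ring with fraction field `V / ϖ V`. -/
theorem s35_nfo_root {B V V' : Subring F} (hV : s34_Unif ϖ V) (hV' : s34_Unif ϖ V')
    (hBV : B ≤ V) (hBV' : B ≤ V')
    (hcap : ∀ x ∈ B, ϖ⁻¹ * x ∈ V → ϖ⁻¹ * x ∈ V' → ϖ⁻¹ * x ∈ B)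
    (hnoeth : IsNoetherianRing B) (hfrac : ∀ x : F, ∃ a ∈ B, ∃ b ∈ B, b ≠ 0 ∧ x = a / b)
    (𝔪 : Ideal B) [h𝔪 : 𝔪.IsPrime]
    (hnode : ∀ b : B, b ∉ 𝔪 → ϖ⁻¹ * (b : F) ∉ V ∧ ϖ⁻¹ * (b : F) ∉ V')
    (x : B) (hxV' : ϖ⁻¹ * (x : F) ∈ V') (hxV : ϖ⁻¹ * (x : F) ∉ V)
    (hx : ∀ z ∈ 𝔪, ∃ r u : B, u ∉ 𝔪 ∧ ϖ⁻¹ * ((u * z - x * r : B) : F) ∈ V)
    (m : ℕ) (hm : 0 < m) (X w : F) (hw : w ∈ s18_loc B 𝔪) (hwi : w⁻¹ ∈ s18_loc B 𝔪)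
    (hXw : ϖ⁻¹ * (X ^ m - w) ∈ V) :
    ∃ y : F, y ∈ s18_loc B 𝔪 ∧ y⁻¹ ∈ s18_loc B 𝔪 ∧ ϖ⁻¹ * (X - y) ∈ V := by
  classical
  have hϖ0 := hV.ne_zero
  have hlocV : ∀ b : B, b ∉ 𝔪 → ((b : F))⁻¹ ∈ V := fun b hb =>
    hV.inv_mem_of_not_dvd (hBV b.2) (hnode b hb).1
  by_cases hw0 : w = 0
  · -- degenerate case
    subst hw0
    rw [sub_zero] at hXw
    refine ⟨0, (s18_locRing B 𝔪).zero_mem, ?_, ?_⟩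
    · rw [inv_zero]; exact (s18_locRing B 𝔪).zero_mem
    · rw [sub_zero]; exact s35_nfo_dvd_of_pow hV hm hXw
  -- `w` and `X` are units of `V`
  have hwV : w ∈ V := s35_nf_loc_le hBV 𝔪 hlocV hw
  have hwiV : w⁻¹ ∈ V := s35_nf_loc_le hBV 𝔪 hlocV hwi
  have hXmV : X ^ m ∈ V := s35_nf_mem_of_cong hϖ0 hV.mem hXw hwV
  have hXmiV : (X ^ m)⁻¹ ∈ V := s35_nf_inv_mem_of_cong hV hXw hw0 hwiV
  have hXV : X ∈ V := s35_nfo_mem_of_pow hV hm hXmV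
  have hXiV : X⁻¹ ∈ V := s35_nfo_mem_of_pow hV hm (by rw [inv_pow]; exact hXmiV)
  have hX0 : X ≠ 0 := by
    rintro rfl
    rw [zero_pow hm.ne', zero_sub, mul_neg] at hXw
    exact hV.not_dvd_of_inv_mem hw0 hwiV (by simpa using V.neg_mem hXw)
  -- `X = c / d`
  obtain ⟨c, d, hd, hXcd⟩ := s35_nfo_fracV hV hV' hBV hBV' hcap hfrac x hxV' hxV X hXV
  have hd0 : (d : F) ≠ 0 := by
    intro h
    apply hd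
    rw [h, mul_zero]
    exact V.zero_mem
  have hc0 : (c : F) ≠ 0 := by
    intro h
    apply hX0
    rw [hXcd, h, zero_div]
  have hc : ϖ⁻¹ * (c : F) ∉ V := by
    intro h
    apply hd
    have e : ϖ⁻¹ * (d : F) = X⁻¹ * (ϖ⁻¹ * (c : F)) := by rw [hXcd]; field_simp
    rw [e]; exact V.mul_mem hXiV h
  -- `w = a / t` with `a, t ∉ 𝔪`
  obtain ⟨a, t, ht, hwat⟩ := hw
  obtain ⟨a', t', ht', hwat'⟩ := hwi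
  have ht0 := s35_nf_ne_zero ht
  have ht'0 := s35_nf_ne_zero ht'
  have ha0 : (a : F) ≠ 0 := by
    intro h
    apply hw0
    rw [hwat, h, zero_div]
  have ha : a ∉ 𝔪 := by
    intro ha
    have h1 : t * t' = a * a' := by
      apply Subtype.ext
      push_cast
      rw [hwat, inv_div] at hwat'
      field_simp at hwat'
      linear_combination hwat'
    have h2 : t * t' ∈ 𝔪 := by rw [h1]; exact 𝔪.mul_mem_right _ ha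
    exact (h𝔪.mem_or_mem h2).elim ht ht'
  -- the congruence in `B`
  have hPprime : (s35_nfo_P B V ϖ hBV).IsPrime := s35_nfo_P_prime hV hBV
  have hP𝔪 : s35_nfo_P B V ϖ hBV ≤ 𝔪 := fun b hb => by
    by_contra h
    exact (hnode b h).1 hb
  have hrel : c ^ m * t - a * d ^ m ∈ s35_nfo_P B V ϖ hBV := by
    show ϖ⁻¹ * ((c ^ m * t - a * d ^ m : B) : F) ∈ V
    have e : ϖ⁻¹ * ((c ^ m * t - a * d ^ m : B) : F) =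
        ϖ⁻¹ * (X ^ m - w) * ((d : F) ^ m * (t : F)) := by
      push_cast
      rw [hXcd, hwat, div_pow]
      field_simp
    rw [e]
    exact V.mul_mem hXw (V.mul_mem (V.pow_mem (hBV d.2) m) (hBV t.2))
  -- the quotient domain and its localisation at the point
  set P : Ideal B := s35_nfo_P B V ϖ hBV with hPdef
  set φ : B →+* B ⧸ P := Ideal.Quotient.mk P with hφ
  have hφsurj : Function.Surjective φ := Ideal.Quotient.mk_surjective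
  have hφ0 : ∀ b : B, φ b = 0 ↔ b ∈ P := fun b => Ideal.Quotient.eq_zero_iff_mem
  have h𝔪' : (𝔪.map φ).IsPrime :=
    Ideal.map_isPrime_of_surjective hφsurj (by rw [hφ, Ideal.mk_ker]; exact hP𝔪)
  have hmem : ∀ b : B, φ b ∈ 𝔪.map φ ↔ b ∈ 𝔪 := fun b => Ideal.mem_quotient_iff_mem hP𝔪
  have hinj : Function.Injective (algebraMap (B ⧸ P) (Localization.AtPrime (𝔪.map φ))) :=
    IsLocalization.injective (Localization.AtPrime (𝔪.map φ))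
      (Ideal.primeCompl_le_nonZeroDivisors (𝔪.map φ))
  have hunit : ∀ b : B, b ∉ 𝔪 →
      IsUnit (algebraMap (B ⧸ P) (Localization.AtPrime (𝔪.map φ)) (φ b)) := fun b hb =>
    IsLocalization.map_units (Localization.AtPrime (𝔪.map φ))
      (⟨φ b, fun h => hb ((hmem b).mp h)⟩ : (𝔪.map φ).primeCompl)
  -- the maximal ideal is generated by the image of `x`
  have hx𝔪 : x ∈ 𝔪 := by
    by_contra h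
    exact (hnode x h).2 hxV'
  have hmax : IsLocalRing.maximalIdeal (Localization.AtPrime (𝔪.map φ)) =
      Ideal.span {algebraMap (B ⧸ P) (Localization.AtPrime (𝔪.map φ)) (φ x)} := by
    apply le_antisymm
    · intro e he
      obtain ⟨a₁, s₁, rfl⟩ := IsLocalization.exists_mk'_eq (𝔪.map φ).primeCompl e
      rw [IsLocalization.AtPrime.mk'_mem_maximal_iff (Localization.AtPrime (𝔪.map φ))
        (𝔪.map φ)] at he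
      obtain ⟨z, rfl⟩ := hφsurj a₁
      have hz : z ∈ 𝔪 := (hmem z).mp he
      obtain ⟨r, u, hu, hur⟩ := hx z hz
      have hrel2 : φ u * φ z = φ x * φ r := by
        rw [← map_mul, ← map_mul, ← sub_eq_zero, ← map_sub]
        exact (hφ0 _).mpr hur
      obtain ⟨v₁, hv₁⟩ := (IsLocalization.map_units (Localization.AtPrime (𝔪.map φ))
        s₁).exists_right_inv
      obtain ⟨v₂, hv₂⟩ := (hunit u hu).exists_right_inv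
      have h1 := IsLocalization.mk'_spec (Localization.AtPrime (𝔪.map φ)) (φ z) s₁
      have h2 : algebraMap (B ⧸ P) (Localization.AtPrime (𝔪.map φ)) (φ u) *
          algebraMap (B ⧸ P) (Localization.AtPrime (𝔪.map φ)) (φ z) =
          algebraMap (B ⧸ P) (Localization.AtPrime (𝔪.map φ)) (φ x) *
            algebraMap (B ⧸ P) (Localization.AtPrime (𝔪.map φ)) (φ r) := by
        rw [← map_mul, hrel2, map_mul]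
      rw [Ideal.mem_span_singleton]
      refine ⟨algebraMap (B ⧸ P) (Localization.AtPrime (𝔪.map φ)) (φ r) * v₁ * v₂, ?_⟩
      linear_combination (v₁ * algebraMap (B ⧸ P) (Localization.AtPrime (𝔪.map φ)) (φ u) * v₂) * h1
        + (v₁ * v₂) * h2 - (IsLocalization.mk' (Localization.AtPrime (𝔪.map φ)) (φ z) s₁) * hv₁
        - (IsLocalization.mk' (Localization.AtPrime (𝔪.map φ)) (φ z) s₁ *
            algebraMap (B ⧸ P) (Localization.AtPrime (𝔪.map φ)) (s₁ : B ⧸ P) * v₁) * hv₂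
    · rw [Ideal.span_singleton_le_iff_mem,
        IsLocalization.AtPrime.to_map_mem_maximal_iff (Localization.AtPrime (𝔪.map φ)) (𝔪.map φ)]
      exact (hmem x).mpr hx𝔪
  have hprin : (IsLocalRing.maximalIdeal (Localization.AtPrime (𝔪.map φ))).IsPrincipal :=
    ⟨⟨_, hmax⟩⟩
  have hval : ValuationRing (Localization.AtPrime (𝔪.map φ)) :=
    ((tfae_of_isNoetherianRing_of_isLocalRing_of_isDomain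
      (Localization.AtPrime (𝔪.map φ))).out 4 1).mp hprin
  -- the images of `c`, `d`, `a`, `t`
  have hdO0 : algebraMap (B ⧸ P) (Localization.AtPrime (𝔪.map φ)) (φ d) ≠ 0 := by
    intro h
    apply hd
    exact (hφ0 d).mp (hinj (h.trans (map_zero _).symm))
  have hcO0 : algebraMap (B ⧸ P) (Localization.AtPrime (𝔪.map φ)) (φ c) ≠ 0 := by
    intro h
    apply hc
    exact (hφ0 c).mp (hinj (h.trans (map_zero _).symm))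
  have haO := hunit a ha
  have htO := hunit t ht
  have hrelO : algebraMap (B ⧸ P) (Localization.AtPrime (𝔪.map φ)) (φ c) ^ m *
      algebraMap (B ⧸ P) (Localization.AtPrime (𝔪.map φ)) (φ t) =
      algebraMap (B ⧸ P) (Localization.AtPrime (𝔪.map φ)) (φ a) *
        algebraMap (B ⧸ P) (Localization.AtPrime (𝔪.map φ)) (φ d) ^ m := by
    have h1 : φ (c ^ m * t - a * d ^ m) = 0 := (hφ0 _).mpr hrel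
    rw [map_sub, sub_eq_zero] at h1
    rw [← map_pow, ← map_pow, ← map_mul, ← map_mul, ← map_pow, ← map_pow, ← map_mul, ← map_mul,
      h1]
  -- the quotient `c / d` is a unit of the branch
  have key : ∃ e : Localization.AtPrime (𝔪.map φ), IsUnit e ∧
      algebraMap (B ⧸ P) (Localization.AtPrime (𝔪.map φ)) (φ c) =
        algebraMap (B ⧸ P) (Localization.AtPrime (𝔪.map φ)) (φ d) * e := by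
    obtain ⟨e, he | he⟩ := hval.toPreValuationRing.cond'
      (algebraMap (B ⧸ P) (Localization.AtPrime (𝔪.map φ)) (φ c))
      (algebraMap (B ⧸ P) (Localization.AtPrime (𝔪.map φ)) (φ d))
    · -- `d = c * e`
      have he := he.symm
      have h1 : algebraMap (B ⧸ P) (Localization.AtPrime (𝔪.map φ)) (φ t) =
          algebraMap (B ⧸ P) (Localization.AtPrime (𝔪.map φ)) (φ a) * e ^ m := by
        apply mul_left_cancel₀ (pow_ne_zero m hcO0)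
        rw [hrelO, he]
        ring
      have he_unit : IsUnit e := by
        have h2 : IsUnit (algebraMap (B ⧸ P) (Localization.AtPrime (𝔪.map φ)) (φ a) * e ^ m) :=
          h1 ▸ htO
        exact (isUnit_pow_iff hm.ne').mp (IsUnit.mul_iff.mp h2).2
      obtain ⟨e', he'⟩ := he_unit.exists_right_inv
      refine ⟨e', IsUnit.of_mul_eq_one e (by rw [mul_comm]; exact he'), ?_⟩
      rw [he, mul_assoc, he', mul_one]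
    · -- `c = d * e`
      have he := he.symm
      have h1 : e ^ m * algebraMap (B ⧸ P) (Localization.AtPrime (𝔪.map φ)) (φ t) =
          algebraMap (B ⧸ P) (Localization.AtPrime (𝔪.map φ)) (φ a) := by
        apply mul_left_cancel₀ (pow_ne_zero m hdO0)
        rw [mul_comm _ (algebraMap (B ⧸ P) (Localization.AtPrime (𝔪.map φ)) (φ a)), ← hrelO, he]
        ring
      have he_unit : IsUnit e := by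
        have h2 : IsUnit (e ^ m * algebraMap (B ⧸ P) (Localization.AtPrime (𝔪.map φ)) (φ t)) :=
          h1 ▸ haO
        exact (isUnit_pow_iff hm.ne').mp (IsUnit.mul_iff.mp h2).1
      exact ⟨e, he_unit, he⟩
  obtain ⟨e, he_unit, he⟩ := key
  obtain ⟨e₁, s₁, rfl⟩ := IsLocalization.exists_mk'_eq (𝔪.map φ).primeCompl e
  have he₁ : e₁ ∈ (𝔪.map φ).primeCompl :=
    (IsLocalization.AtPrime.isUnit_mk'_iff (Localization.AtPrime (𝔪.map φ)) (𝔪.map φ) e₁ s₁).mp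
      he_unit
  obtain ⟨e1, rfl⟩ := hφsurj e₁
  obtain ⟨t1, ht1⟩ := hφsurj (s₁ : B ⧸ P)
  have he1 : e1 ∉ 𝔪 := fun h => he₁ ((hmem e1).mpr h)
  have ht1' : t1 ∉ 𝔪 := fun h => s₁.2 (by rw [← ht1]; exact (hmem t1).mpr h)
  have hfin : c * t1 - d * e1 ∈ P := by
    rw [← hφ0, map_sub, map_mul, map_mul, sub_eq_zero]
    apply hinj
    rw [map_mul, map_mul, ht1, he, mul_assoc, IsLocalization.mk'_spec]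
  refine ⟨(e1 : F) / (t1 : F), ⟨e1, t1, ht1', rfl⟩, ⟨t1, e1, he1, by rw [inv_div]⟩, ?_⟩
  have ht10 : (t1 : F) ≠ 0 := s35_nf_ne_zero ht1'
  have e : ϖ⁻¹ * (X - (e1 : F) / (t1 : F)) =
      ϖ⁻¹ * ((c * t1 - d * e1 : B) : F) * (((d : F))⁻¹ * ((t1 : F))⁻¹) := by
    rw [hXcd]
    push_cast
    field_simp
  rw [e]
  exact V.mul_mem hfin (V.mul_mem (hV.inv_mem_of_not_dvd (hBV d.2) hd) (hlocV t1 ht1'))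

/-! ### The crossing points -/

/-- **The node/Frobenius lemma in NODE-1's shapes.**  At a crossing point `𝔪` of the chart `B`
with local parameters `x`, `y` of the two branches (`hx`, `hy`, the shapes of
`s34_node_G_components`) and a function `G` carrying the horizontal divisor of `g` through `𝔪`
(`hG`, the shape of `s34_pow_of_model`): for `u = s(s g) g / (s g)²`, `u ≡ cᵢ Φᵢ ^ m` and
`Ψ ≡ s Φᵢ / Φᵢ ^ Q` modulo `ϖ Vᵢ`, the function `H = s u / (u ^ Q Ψ ^ m)` is `gl ^ m * w` with `w`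
a unit of `B_𝔪` and `gl ≡ 1 mod ϖ (V₁ ⊓ V₂)`. -/
theorem s35_nfo_node {B V₁ V₂ : Subring F} (hV₁ : s34_Unif ϖ V₁) (hV₂ : s34_Unif ϖ V₂)
    (hB₁ : B ≤ V₁) (hB₂ : B ≤ V₂) (hϖB : ϖ ∈ B)
    (hcap : ∀ x ∈ B, ϖ⁻¹ * x ∈ V₁ → ϖ⁻¹ * x ∈ V₂ → ϖ⁻¹ * x ∈ B)
    (hnoeth : IsNoetherianRing B) (hfrac : ∀ x : F, ∃ a ∈ B, ∃ b ∈ B, b ≠ 0 ∧ x = a / b)
    (𝔪 : Ideal B) [h𝔪 : 𝔪.IsPrime]
    (hnode : ∀ b : B, b ∉ 𝔪 → ϖ⁻¹ * (b : F) ∉ V₁ ∧ ϖ⁻¹ * (b : F) ∉ V₂)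
    (hx : ∃ x : B, ϖ⁻¹ * (x : F) ∈ V₂ ∧ ϖ⁻¹ * (x : F) ∉ V₁ ∧
      ∀ z ∈ 𝔪, ∃ r u : B, u ∉ 𝔪 ∧ ϖ⁻¹ * ((u * z - x * r : B) : F) ∈ V₁)
    (hy : ∃ y : B, ϖ⁻¹ * (y : F) ∈ V₁ ∧ ϖ⁻¹ * (y : F) ∉ V₂ ∧
      ∀ z ∈ 𝔪, ∃ r u : B, u ∉ 𝔪 ∧ ϖ⁻¹ * ((u * z - y * r : B) : F) ∈ V₂)
    (m : ℕ) (hm : 0 < m) (s : F ≃+* F) (Q : ℕ) (hsB : ∀ x ∈ B, s x ∈ B)
    (hsϖ : ∃ c ∈ B, c⁻¹ ∈ B ∧ s ϖ = c * ϖ)
    (hT1₁ : ∀ x : F, x ≠ 0 → s x / x ∈ V₁ ∧ x / s x ∈ V₁)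
    (hT1₂ : ∀ x : F, x ≠ 0 → s x / x ∈ V₂ ∧ x / s x ∈ V₂)
    (hsQ : ∀ b : B, (⟨s b, hsB b b.2⟩ - b ^ Q : B) ∈ 𝔪)
    (g G : F) (hg0 : g ≠ 0) (hG0 : G ≠ 0)
    (hG : ∀ 𝔮 : Ideal B, 𝔮.IsPrime → 𝔮 ≤ 𝔪 → (⟨ϖ, hϖB⟩ : B) ∉ 𝔮 →
      g * (G⁻¹) ^ m ∈ s18_loc B 𝔮 ∧ G ^ m * g⁻¹ ∈ s18_loc B 𝔮)
    (Ψ Φ₁ Φ₂ c₁ c₂ : F)
    (hΦ₁ : Φ₁ ∈ V₁) (hΦ₁i : Φ₁⁻¹ ∈ V₁) (hΦ₁0 : Φ₁ ≠ 0)
    (hΦ₂ : Φ₂ ∈ V₂) (hΦ₂i : Φ₂⁻¹ ∈ V₂) (hΦ₂0 : Φ₂ ≠ 0)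
    (hc₁ : c₁ ∈ s18_loc B 𝔪) (hc₁i : c₁⁻¹ ∈ s18_loc B 𝔪)
    (hc₂ : c₂ ∈ s18_loc B 𝔪) (hc₂i : c₂⁻¹ ∈ s18_loc B 𝔪)
    (hu₁ : ϖ⁻¹ * (s (s g) * g / (s g) ^ 2 - c₁ * Φ₁ ^ m) ∈ V₁)
    (hu₂ : ϖ⁻¹ * (s (s g) * g / (s g) ^ 2 - c₂ * Φ₂ ^ m) ∈ V₂)
    (hΨ₁ : ϖ⁻¹ * (Ψ - s Φ₁ / Φ₁ ^ Q) ∈ V₁) (hΨ₂ : ϖ⁻¹ * (Ψ - s Φ₂ / Φ₂ ^ Q) ∈ V₂) :
    ∃ gl w : F,
      s (s (s g) * g / (s g) ^ 2) / ((s (s g) * g / (s g) ^ 2) ^ Q * Ψ ^ m) = gl ^ m * w ∧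
      w ∈ s18_loc B 𝔪 ∧ w⁻¹ ∈ s18_loc B 𝔪 ∧ ϖ⁻¹ * (gl - 1) ∈ V₁ ⊓ V₂ := by
  have hϖ0 := hV₁.ne_zero
  obtain ⟨x, hx₂, hx₁, hxgen⟩ := hx
  obtain ⟨y, hy₁, hy₂, hygen⟩ := hy
  obtain ⟨hΞ, hΞi, hΞ0, hu0, hω, hωi⟩ := s35_nfo_omega hϖ0 hB₁ hB₂ hϖB hcap 𝔪 m Q s hsB hsϖ
    hT1₁ hT1₂ hsQ g G hg0 hG0 hG
  have hsϖ' : ∃ c ∈ B, s ϖ = c * ϖ := by
    obtain ⟨c, hc, -, hcϖ⟩ := hsϖ
    exact ⟨c, hc, hcϖ⟩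
  exact s35_nf_main hV₁ hV₂ hB₁ hB₂ 𝔪 hnode
    (fun z hz => s35_nfo_N3 hV₁ hV₂ hB₁ hB₂ 𝔪 hnode x hx₂ hxgen z hz) m
    (fun X w hw hwi hXw => s35_nfo_root hV₁ hV₂ hB₁ hB₂ hcap hnoeth hfrac 𝔪 hnode x hx₂ hx₁
      hxgen m hm X w hw hwi hXw)
    (fun X w hw hwi hXw => s35_nfo_root hV₂ hV₁ hB₂ hB₁ (fun b hb h₂ h₁ => hcap b hb h₁ h₂)
      hnoeth hfrac 𝔪 (fun b hb => ⟨(hnode b hb).2, (hnode b hb).1⟩) y hy₁ hy₂ hygen m hm X w hw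
      hwi hXw)
    s Q hsB (s35_nfo_stable s hT1₁) (s35_nfo_stable s hT1₂) hsϖ' hsQ
    (s (s g) * g / (s g) ^ 2) (s (s G) * G / (s G) ^ 2) Ψ Φ₁ Φ₂ c₁ c₂ hu0 hΞ hΞi hΞ0
    hΦ₁ hΦ₁i hΦ₁0 hΦ₂ hΦ₂i hΦ₂0 hω hωi hc₁ hc₁i hc₂ hc₂i hu₁ hu₂ hΨ₁ hΨ₂

/-- **Local data at every closed point of a chart** for `H = s u / (u ^ Q Ψ ^ m)`,
`u = s(s g) g / (s g)²`.  Hypotheses: the chart facts of `s34_pow_of_model` for one chart `B`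
(`hsm` : regularity at the smooth points), at the crossing points the local parameters `hx`, `hy`
of the two branches, the Frobenius congruence `hsQ` and the function `G` of NODE-1 (`hG`), the
`s`-facts `hsB`, `hsϖ`, `(T1)`, and the output of the Frobenius chain (`Ψ`, `Φ₁`, `Φ₂`, `c₁`, `c₂`
with the four congruences and `H ≡ 1`). -/
theorem s35_nfo_pts {B V₁ V₂ : Subring F} (hV₁ : s34_Unif ϖ V₁) (hV₂ : s34_Unif ϖ V₂)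
    (hB₁ : B ≤ V₁) (hB₂ : B ≤ V₂) (hϖB : ϖ ∈ B)
    (hcap : ∀ x ∈ B, ϖ⁻¹ * x ∈ V₁ → ϖ⁻¹ * x ∈ V₂ → ϖ⁻¹ * x ∈ B)
    (hnoeth : IsNoetherianRing B) (hfrac : ∀ x : F, ∃ a ∈ B, ∃ b ∈ B, b ≠ 0 ∧ x = a / b)
    (m : ℕ) (hm : 0 < m) (hroot : ∀ z : F, z ^ m ∈ B → z ∈ B)
    (hsm : ∀ f : B, (ϖ⁻¹ * (f : F) ∈ V₁ ∨ ϖ⁻¹ * (f : F) ∈ V₂) →
      ∀ 𝔫 : Ideal (s34_away B (f : F) f.2), 𝔫.IsMaximal →
      (⟨ϖ, s34_le_away B (f : F) f.2 hϖB⟩ : s34_away B (f : F) f.2) ∈ 𝔫 →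
      ∃ s ∈ 𝔫, ∀ x ∈ 𝔫, ∃ u, u ∉ 𝔫 ∧
        u * x ∈ Ideal.span {(⟨ϖ, s34_le_away B (f : F) f.2 hϖB⟩ : s34_away B (f : F) f.2), s})
    (hx : ∀ 𝔪 : Ideal B, 𝔪.IsMaximal → (⟨ϖ, hϖB⟩ : B) ∈ 𝔪 →
      (∀ b : B, b ∉ 𝔪 → ϖ⁻¹ * (b : F) ∉ V₁ ∧ ϖ⁻¹ * (b : F) ∉ V₂) →
      ∃ x : B, ϖ⁻¹ * (x : F) ∈ V₂ ∧ ϖ⁻¹ * (x : F) ∉ V₁ ∧
        ∀ z ∈ 𝔪, ∃ r u : B, u ∉ 𝔪 ∧ ϖ⁻¹ * ((u * z - x * r : B) : F) ∈ V₁)
    (hy : ∀ 𝔪 : Ideal B, 𝔪.IsMaximal → (⟨ϖ, hϖB⟩ : B) ∈ 𝔪 →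
      (∀ b : B, b ∉ 𝔪 → ϖ⁻¹ * (b : F) ∉ V₁ ∧ ϖ⁻¹ * (b : F) ∉ V₂) →
      ∃ y : B, ϖ⁻¹ * (y : F) ∈ V₁ ∧ ϖ⁻¹ * (y : F) ∉ V₂ ∧
        ∀ z ∈ 𝔪, ∃ r u : B, u ∉ 𝔪 ∧ ϖ⁻¹ * ((u * z - y * r : B) : F) ∈ V₂)
    (s : F ≃+* F) (Q : ℕ) (hsB : ∀ x ∈ B, s x ∈ B)
    (hsϖ : ∃ c ∈ B, c⁻¹ ∈ B ∧ s ϖ = c * ϖ)
    (hT1₁ : ∀ x : F, x ≠ 0 → s x / x ∈ V₁ ∧ x / s x ∈ V₁)
    (hT1₂ : ∀ x : F, x ≠ 0 → s x / x ∈ V₂ ∧ x / s x ∈ V₂)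
    (hsQ : ∀ 𝔪 : Ideal B, 𝔪.IsMaximal → (⟨ϖ, hϖB⟩ : B) ∈ 𝔪 →
      (∀ b : B, b ∉ 𝔪 → ϖ⁻¹ * (b : F) ∉ V₁ ∧ ϖ⁻¹ * (b : F) ∉ V₂) →
      ∀ b : B, (⟨s b, hsB b b.2⟩ - b ^ Q : B) ∈ 𝔪)
    (g : F) (hg0 : g ≠ 0)
    (hG : ∀ 𝔪 : Ideal B, 𝔪.IsMaximal → (⟨ϖ, hϖB⟩ : B) ∈ 𝔪 →
      (∀ b : B, b ∉ 𝔪 → ϖ⁻¹ * (b : F) ∉ V₁ ∧ ϖ⁻¹ * (b : F) ∉ V₂) →
      ∃ G : F, G ≠ 0 ∧ ∀ 𝔮 : Ideal B, 𝔮.IsPrime → 𝔮 ≤ 𝔪 → (⟨ϖ, hϖB⟩ : B) ∉ 𝔮 →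
        g * (G⁻¹) ^ m ∈ s18_loc B 𝔮 ∧ G ^ m * g⁻¹ ∈ s18_loc B 𝔮)
    (Ψ Φ₁ Φ₂ c₁ c₂ : F)
    (hΦ₁ : Φ₁ ∈ V₁) (hΦ₁i : Φ₁⁻¹ ∈ V₁) (hΦ₁0 : Φ₁ ≠ 0)
    (hΦ₂ : Φ₂ ∈ V₂) (hΦ₂i : Φ₂⁻¹ ∈ V₂) (hΦ₂0 : Φ₂ ≠ 0)
    (hc₁ : c₁ ∈ B) (hc₁i : c₁⁻¹ ∈ B) (hc₂ : c₂ ∈ B) (hc₂i : c₂⁻¹ ∈ B)
    (hu₁ : ϖ⁻¹ * (s (s g) * g / (s g) ^ 2 - c₁ * Φ₁ ^ m) ∈ V₁)
    (hu₂ : ϖ⁻¹ * (s (s g) * g / (s g) ^ 2 - c₂ * Φ₂ ^ m) ∈ V₂)
    (hΨ₁ : ϖ⁻¹ * (Ψ - s Φ₁ / Φ₁ ^ Q) ∈ V₁) (hΨ₂ : ϖ⁻¹ * (Ψ - s Φ₂ / Φ₂ ^ Q) ∈ V₂)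
    (hh1 : ϖ⁻¹ * (s (s (s g) * g / (s g) ^ 2) / ((s (s g) * g / (s g) ^ 2) ^ Q * Ψ ^ m) - 1) ∈
      V₁ ⊓ V₂)
    (𝔪 : Ideal B) (h𝔪 : 𝔪.IsMaximal) (hϖ𝔪 : (⟨ϖ, hϖB⟩ : B) ∈ 𝔪) :
    s34_PointData ϖ B (V₁ ⊓ V₂) m
      (s (s (s g) * g / (s g) ^ 2) / ((s (s g) * g / (s g) ^ 2) ^ Q * Ψ ^ m)) 𝔪 := by
  have h𝔪p : 𝔪.IsPrime := h𝔪.isPrime
  refine s34_pointData_of_cases hV₁ hV₂ hB₁ hB₂ hϖB hcap hnoeth hfrac 𝔪 hϖ𝔪 m hm hroot _ hh1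
    (fun f _ hf => hsm f hf) ?_
  intro hnode
  obtain ⟨G, hG0, hGq⟩ := hG 𝔪 h𝔪 hϖ𝔪 hnode
  obtain ⟨gl, w, hgw, hw, hwi, hgl⟩ := s35_nfo_node hV₁ hV₂ hB₁ hB₂ hϖB hcap hnoeth hfrac 𝔪
    hnode (hx 𝔪 h𝔪 hϖ𝔪 hnode) (hy 𝔪 h𝔪 hϖ𝔪 hnode) m hm s Q hsB hsϖ hT1₁ hT1₂
    (hsQ 𝔪 h𝔪 hϖ𝔪 hnode) g G hg0 hG0 hGq Ψ Φ₁ Φ₂ c₁ c₂ hΦ₁ hΦ₁i hΦ₁0 hΦ₂ hΦ₂i hΦ₂0
    (s18_le_locRing B 𝔪 hc₁) (s18_le_locRing B 𝔪 hc₁i) (s18_le_locRing B 𝔪 hc₂)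
    (s18_le_locRing B 𝔪 hc₂i) hu₁ hu₂ hΨ₁ hΨ₂
  have hϖ0 := hV₁.ne_zero
  -- `gl ≠ 0`
  have hgl0 : gl ≠ 0 := by
    rintro rfl
    apply hV₁.inv_not_mem
    have e : ϖ⁻¹ = -(ϖ⁻¹ * ((0 : F) - 1)) := by ring
    rw [e]
    exact V₁.neg_mem hgl.1
  refine ⟨gl, hgl, ?_⟩
  intro 𝔮 h𝔮 h𝔮𝔪 hϖ𝔮
  -- `B_𝔪 ⊆ B_𝔮`
  have hmono : ∀ v : F, v ∈ s18_loc B 𝔪 → v ∈ s18_loc B 𝔮 := by
    rintro v ⟨a, b, hb, rfl⟩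
    exact ⟨a, b, fun h => hb (h𝔮𝔪 h), rfl⟩
  have hglm0 : gl ^ m ≠ 0 := pow_ne_zero m hgl0
  constructor
  · have e : s (s (s g) * g / (s g) ^ 2) / ((s (s g) * g / (s g) ^ 2) ^ Q * Ψ ^ m) *
        (gl⁻¹) ^ m = w := by
      rw [hgw, inv_pow]
      field_simp
    rw [e]
    exact hmono w hw
  · have e : gl ^ m *
        (s (s (s g) * g / (s g) ^ 2) / ((s (s g) * g / (s g) ^ 2) ^ Q * Ψ ^ m))⁻¹ = w⁻¹ := by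
      rw [hgw, mul_inv]
      field_simp
    rw [e]
    exact hmono _ hwi

end Fermat.Agent.S35
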