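import Mathlib
import Fermat.Agent.S35.ModCore
import Fermat.Agent.S35.NodeFrobG
import Fermat.Agent.S35.FrobChain

/-!
# S35, block (MOD): the power statement (F'-pow) at a level from the nodal model

`s35_pow_of_model` : assumption-passing assembly (the `s`-clone of `s34_pow_of_model`, with
`s = σ₁ ∘ σ₁` for the coefficientwise action `σ₁` of a Frobenius lift `γ` at `q`, `Q = q²`).
Given, over a number field `K₁ ⊆ Q̄` with `A₁ = A ∩ K₁` a DVR,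

* the two charts `B0`, `Binf` of `F = K₁ · F(L)`, the two components `V₁`, `V₂`, regularity at
  the smooth points (`hsm0`, `hsmi`) and the functions `G` at the crossing points (`hG0`, `hGi`):
  verbatim as in `s34_pow_of_model`;
* `σ₁` stabilising the charts, with `(T1)` at both components; the swap `W₁`; the constants `C`
  (`σ₁² ≡ (·)^(q²)` modulo `ϖ` on `C`);
* `Nm` : the norm to the lower level, with the norm–residue formula `hNR`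
  (`Nm h ≡ h · σ₁ (W₁ h) mod ϖ V₁` on `V₁ ⊓ V₂`) and the two norm relations `hN₁`, `hN₂` for `g₁`;
* at every crossing point the parameters `x`, `y` (`hx0`, `hy0`, `hxi`, `hyi`: the shapes of
  NODE-1's contract) and the Frobenius property `s b ≡ b^(q²) mod 𝔪` (`hsQ0`, `hsQi`),

the fold `(γ - q)(γ + q)(γ - 1)(γ + 1)(γ - 1)(γ + 1) ḡ` (`ḡ` the image of `g₁` in `Q̄ · F(L)`) is
an `m`-th power in `Q̄ · F(L)`: the conclusion of the hub `s35_FPow`.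

Proof: `s35_fc_data` (Frobenius chain: `Φa, Φb, κa, κb, Ψ`, `H ≡ 1`), `s35_nfo_pts` (point data
of `H := s u / (u^Q Ψ^m)`, `u := s²g₁ · g₁ / (s g₁)²`), `s35_mc_core` (two-chart theorem).
-/

set_option autoImplicit false
set_option synthInstance.maxHeartbeats 400000

open ModularCurve AlgebraicCurve

noncomputable section

namespace Fermat.Agent.S35

open Fermat.Agent.S18 Fermat.Agent.S34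

set_option maxHeartbeats 4000000 in
/-- **(MOD)** the power statement (F'-pow) at level `L` from the nodal model over `K₁`: the
conclusion of the hub `s35_FPow` for `ḡ = s18_baseIncl g₁`.

Hypotheses:
* the charts, the two components `V₁`, `V₂`, regularity at the smooth points (`hsm0`, `hsmi`) and
  the functions `G` at the crossing points (`hG0`, `hGi`): verbatim as in `s34_pow_of_model`;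
* `σ₁` : the coefficientwise action of the Frobenius lift `γ` on `K₁ · F(L)`, stabilising the
  charts, with `(T1)` at both components;
* `W₁` : the swap; `C` : the constants (`σ₁² ≡ (·)^(q²)` modulo `ϖ`);
* `Nm` : the norm to the lower level with the norm–residue formula `hNR` and the two norm
  relations `hN₁`, `hN₂`;
* `hx0`, `hy0`, `hxi`, `hyi` : at every crossing point the parameters `x`, `y` of the two branches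
  (the shapes of NODE-1's contract); `hsQ0`, `hsQi` : `σ₁ (σ₁ b) ≡ b^(q²)` modulo the crossing
  point. -/
theorem s35_pow_of_model (L : ℕ) [NeZero L] (A : ValuationSubring (AlgebraicClosure ℚ))
    (K₁ : IntermediateField ℚ (AlgebraicClosure ℚ)) [IsDiscreteValuationRing (s18_A1 A K₁)]
    {π : s18_A1 A K₁} (hπ : Irreducible π)
    {t : s18_F1 K₁ L} {B0 Binf : Subalgebra (s18_A1 A K₁) (s18_F1 K₁ L)}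
    (V₁ V₂ : Subring (s18_F1 K₁ L))
    (hV₁ : s34_Unif (algebraMap (s18_A1 A K₁) (s18_F1 K₁ L) π) V₁)
    (hV₂ : s34_Unif (algebraMap (s18_A1 A K₁) (s18_F1 K₁ L) π) V₂)
    (hne : V₁ ≠ V₂)
    (hB0₁ : B0.toSubring ≤ V₁) (hB0₂ : B0.toSubring ≤ V₂)
    (hBi₁ : Binf.toSubring ≤ V₁) (hBi₂ : Binf.toSubring ≤ V₂)
    (hcap0 : ∀ x ∈ B0.toSubring, (algebraMap (s18_A1 A K₁) (s18_F1 K₁ L) π)⁻¹ * x ∈ V₁ →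
      (algebraMap (s18_A1 A K₁) (s18_F1 K₁ L) π)⁻¹ * x ∈ V₂ →
      (algebraMap (s18_A1 A K₁) (s18_F1 K₁ L) π)⁻¹ * x ∈ B0.toSubring)
    (hcapi : ∀ x ∈ Binf.toSubring, (algebraMap (s18_A1 A K₁) (s18_F1 K₁ L) π)⁻¹ * x ∈ V₁ →
      (algebraMap (s18_A1 A K₁) (s18_F1 K₁ L) π)⁻¹ * x ∈ V₂ →
      (algebraMap (s18_A1 A K₁) (s18_F1 K₁ L) π)⁻¹ * x ∈ Binf.toSubring)
    (noeth0 : IsNoetherianRing B0.toSubring) (noethi : IsNoetherianRing Binf.toSubring)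
    (frac0 : ∀ x : s18_F1 K₁ L, ∃ a ∈ B0.toSubring, ∃ b ∈ B0.toSubring, b ≠ 0 ∧ x = a / b)
    (fraci : ∀ x : s18_F1 K₁ L, ∃ a ∈ Binf.toSubring, ∃ b ∈ Binf.toSubring, b ≠ 0 ∧ x = a / b)
    (t_ne : t ≠ 0) (t_mem : t ∈ B0) (tinv_mem : t⁻¹ ∈ Binf)
    (glue0 : ∀ x ∈ B0, ∃ k : ℕ, t⁻¹ ^ k * x ∈ Binf)
    (glueInf : ∀ x ∈ Binf, ∃ k : ℕ, t ^ k * x ∈ B0)
    (h1 : ∃ c₁ : ℕ, ∀ c, c₁ ≤ c → ∀ x ∈ B0, ∀ k : ℕ,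
      ∃ a ∈ B0, ∃ b ∈ Binf, t⁻¹ ^ k * x = a + t ^ c * b)
    (fin : ∀ c : ℕ, ∃ s : Finset (s18_F1 K₁ L), ∀ x ∈ B0, t⁻¹ ^ c * x ∈ Binf →
      x ∈ Submodule.span (s18_A1 A K₁) (s : Set (s18_F1 K₁ L)))
    (m : ℕ) (hm0 : 0 < m) (hmu : IsUnit ((m : ℕ) : s18_A1 A K₁))
    (hroot0 : ∀ z : s18_F1 K₁ L, z ^ m ∈ B0.toSubring → z ∈ B0.toSubring)
    (hrooti : ∀ z : s18_F1 K₁ L, z ^ m ∈ Binf.toSubring → z ∈ Binf.toSubring)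
    -- the Frobenius lift and its coefficientwise action
    (γ : AlgebraicClosure ℚ ≃ₐ[ℚ] AlgebraicClosure ℚ)
    (σ₁ : s18_F1 K₁ L ≃+* s18_F1 K₁ L)
    (hσ₁ : ∀ x : s18_F1 K₁ L, s18_baseIncl K₁ L (σ₁ x) =
      arithmeticGalois (modularFunctionFieldFull L) γ • s18_baseIncl K₁ L x)
    (hσB0 : ∀ x ∈ B0.toSubring, σ₁ x ∈ B0.toSubring)
    (hσBi : ∀ x ∈ Binf.toSubring, σ₁ x ∈ Binf.toSubring)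
    (hσπ : ∃ c : s18_A1 A K₁, IsUnit c ∧
      σ₁ (algebraMap (s18_A1 A K₁) (s18_F1 K₁ L) π) =
        algebraMap (s18_A1 A K₁) (s18_F1 K₁ L) c * algebraMap (s18_A1 A K₁) (s18_F1 K₁ L) π)
    (hT1₁ : ∀ x : s18_F1 K₁ L, x ≠ 0 → σ₁ x / x ∈ V₁ ∧ x / σ₁ x ∈ V₁)
    (hT1₂ : ∀ x : s18_F1 K₁ L, x ≠ 0 → σ₁ x / x ∈ V₂ ∧ x / σ₁ x ∈ V₂)
    -- the swap
    (W₁ : s18_F1 K₁ L ≃+* s18_F1 K₁ L)
    (hW0 : ∀ x : s18_F1 K₁ L, x ∈ V₂ ↔ W₁ x ∈ V₁)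
    (hWϖ : W₁ (algebraMap (s18_A1 A K₁) (s18_F1 K₁ L) π) =
      algebraMap (s18_A1 A K₁) (s18_F1 K₁ L) π)
    (hWW : ∀ x, W₁ (W₁ x) = x) (hWσ : ∀ x, W₁ (σ₁ x) = σ₁ (W₁ x))
    -- the constants
    (C : Subring (s18_F1 K₁ L)) (hCB0 : C ≤ B0.toSubring) (hCBi : C ≤ Binf.toSubring)
    (hσC : ∀ c ∈ C, σ₁ c ∈ C) (hWC : ∀ c ∈ C, W₁ c = c)
    (q : ℕ)
    (hfrob : ∀ c ∈ C, (algebraMap (s18_A1 A K₁) (s18_F1 K₁ L) π)⁻¹ *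
      (σ₁ (σ₁ c) - c ^ (q ^ 2)) ∈ C)
    -- the norm to the lower level
    (Nm : s18_F1 K₁ L → s18_F1 K₁ L) (hNm : ∀ x y, Nm (x * y) = Nm x * Nm y)
    (hNmσ : ∀ x, Nm (σ₁ x) = σ₁ (Nm x))
    (hNR : ∀ h : s18_F1 K₁ L, h ∈ V₁ → h ∈ V₂ →
      (algebraMap (s18_A1 A K₁) (s18_F1 K₁ L) π)⁻¹ * (Nm h - h * σ₁ (W₁ h)) ∈ V₁)
    -- the function and its two norm relations
    (g₁ : s18_F1 K₁ L) (hg₁ : g₁ ≠ 0)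
    (hdivg : ∀ P : Place (AlgebraicClosure ℚ) (modularFunctionFieldBar L),
      (m : ℤ) ∣ P.ord (s18_baseIncl K₁ L g₁))
    (c₁ c₂ f₁ f₂ : s18_F1 K₁ L) (hc₁ : c₁ ≠ 0) (hc₂ : c₂ ≠ 0) (hf₁ : f₁ ≠ 0) (hf₂ : f₂ ≠ 0)
    (hN₁ : Nm g₁ = c₁ * f₁ ^ m) (hN₂ : Nm (W₁ g₁) = c₂ * f₂ ^ m)
    (hc₁T : σ₁ c₁ / c₁ ∈ C ∧ c₁ / σ₁ c₁ ∈ C) (hc₂T : σ₁ c₂ / c₂ ∈ C ∧ c₂ / σ₁ c₂ ∈ C)
    -- regularity at the smooth points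
    (hsm0 : ∀ f : B0.toSubring,
      ((algebraMap (s18_A1 A K₁) (s18_F1 K₁ L) π)⁻¹ * (f : s18_F1 K₁ L) ∈ V₁ ∨
        (algebraMap (s18_A1 A K₁) (s18_F1 K₁ L) π)⁻¹ * (f : s18_F1 K₁ L) ∈ V₂) →
      ∀ 𝔫 : Ideal (s34_away B0.toSubring (f : s18_F1 K₁ L) f.2), 𝔫.IsMaximal →
      (⟨algebraMap (s18_A1 A K₁) (s18_F1 K₁ L) π,
        s34_le_away B0.toSubring (f : s18_F1 K₁ L) f.2 (B0.algebraMap_mem π)⟩ :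
        s34_away B0.toSubring (f : s18_F1 K₁ L) f.2) ∈ 𝔫 →
      ∃ s ∈ 𝔫, ∀ x ∈ 𝔫, ∃ u, u ∉ 𝔫 ∧ u * x ∈ Ideal.span
        {(⟨algebraMap (s18_A1 A K₁) (s18_F1 K₁ L) π,
          s34_le_away B0.toSubring (f : s18_F1 K₁ L) f.2 (B0.algebraMap_mem π)⟩ :
          s34_away B0.toSubring (f : s18_F1 K₁ L) f.2), s})
    (hsmi : ∀ f : Binf.toSubring,
      ((algebraMap (s18_A1 A K₁) (s18_F1 K₁ L) π)⁻¹ * (f : s18_F1 K₁ L) ∈ V₁ ∨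
        (algebraMap (s18_A1 A K₁) (s18_F1 K₁ L) π)⁻¹ * (f : s18_F1 K₁ L) ∈ V₂) →
      ∀ 𝔫 : Ideal (s34_away Binf.toSubring (f : s18_F1 K₁ L) f.2), 𝔫.IsMaximal →
      (⟨algebraMap (s18_A1 A K₁) (s18_F1 K₁ L) π,
        s34_le_away Binf.toSubring (f : s18_F1 K₁ L) f.2 (Binf.algebraMap_mem π)⟩ :
        s34_away Binf.toSubring (f : s18_F1 K₁ L) f.2) ∈ 𝔫 →
      ∃ s ∈ 𝔫, ∀ x ∈ 𝔫, ∃ u, u ∉ 𝔫 ∧ u * x ∈ Ideal.span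
        {(⟨algebraMap (s18_A1 A K₁) (s18_F1 K₁ L) π,
          s34_le_away Binf.toSubring (f : s18_F1 K₁ L) f.2 (Binf.algebraMap_mem π)⟩ :
          s34_away Binf.toSubring (f : s18_F1 K₁ L) f.2), s})
    -- the crossing points: a function carrying the horizontal divisor of `g₁`
    (hG0 : ∀ 𝔪 : Ideal B0.toSubring, 𝔪.IsMaximal →
      (⟨algebraMap (s18_A1 A K₁) (s18_F1 K₁ L) π, B0.algebraMap_mem π⟩ : B0.toSubring) ∈ 𝔪 →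
      (∀ s : B0.toSubring, s ∉ 𝔪 →
        (algebraMap (s18_A1 A K₁) (s18_F1 K₁ L) π)⁻¹ * (s : s18_F1 K₁ L) ∉ V₁ ∧
        (algebraMap (s18_A1 A K₁) (s18_F1 K₁ L) π)⁻¹ * (s : s18_F1 K₁ L) ∉ V₂) →
      ∃ G : s18_F1 K₁ L, G ≠ 0 ∧
        ∀ 𝔮 : Ideal B0.toSubring, 𝔮.IsPrime → 𝔮 ≤ 𝔪 →
          (⟨algebraMap (s18_A1 A K₁) (s18_F1 K₁ L) π, B0.algebraMap_mem π⟩ : B0.toSubring) ∉ 𝔮 →
          g₁ * (G⁻¹) ^ m ∈ s18_loc B0.toSubring 𝔮 ∧ G ^ m * g₁⁻¹ ∈ s18_loc B0.toSubring 𝔮)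
    (hGi : ∀ 𝔪 : Ideal Binf.toSubring, 𝔪.IsMaximal →
      (⟨algebraMap (s18_A1 A K₁) (s18_F1 K₁ L) π, Binf.algebraMap_mem π⟩ : Binf.toSubring) ∈ 𝔪 →
      (∀ s : Binf.toSubring, s ∉ 𝔪 →
        (algebraMap (s18_A1 A K₁) (s18_F1 K₁ L) π)⁻¹ * (s : s18_F1 K₁ L) ∉ V₁ ∧
        (algebraMap (s18_A1 A K₁) (s18_F1 K₁ L) π)⁻¹ * (s : s18_F1 K₁ L) ∉ V₂) →
      ∃ G : s18_F1 K₁ L, G ≠ 0 ∧
        ∀ 𝔮 : Ideal Binf.toSubring, 𝔮.IsPrime → 𝔮 ≤ 𝔪 →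
          (⟨algebraMap (s18_A1 A K₁) (s18_F1 K₁ L) π, Binf.algebraMap_mem π⟩ :
            Binf.toSubring) ∉ 𝔮 →
          g₁ * (G⁻¹) ^ m ∈ s18_loc Binf.toSubring 𝔮 ∧
            G ^ m * g₁⁻¹ ∈ s18_loc Binf.toSubring 𝔮)
    -- the crossing points: the parameters `x`, `y` and the Frobenius property of `s = σ₁ ∘ σ₁`
    (hx0 : ∀ 𝔪 : Ideal B0.toSubring, 𝔪.IsMaximal →
      (⟨algebraMap (s18_A1 A K₁) (s18_F1 K₁ L) π, B0.algebraMap_mem π⟩ : B0.toSubring) ∈ 𝔪 →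
      (∀ b : B0.toSubring, b ∉ 𝔪 →
        (algebraMap (s18_A1 A K₁) (s18_F1 K₁ L) π)⁻¹ * (b : s18_F1 K₁ L) ∉ V₁ ∧
        (algebraMap (s18_A1 A K₁) (s18_F1 K₁ L) π)⁻¹ * (b : s18_F1 K₁ L) ∉ V₂) →
      ∃ x : B0.toSubring, (algebraMap (s18_A1 A K₁) (s18_F1 K₁ L) π)⁻¹ * (x : s18_F1 K₁ L) ∈ V₂ ∧
        (algebraMap (s18_A1 A K₁) (s18_F1 K₁ L) π)⁻¹ * (x : s18_F1 K₁ L) ∉ V₁ ∧
        ∀ z ∈ 𝔪, ∃ r u : B0.toSubring, u ∉ 𝔪 ∧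
          (algebraMap (s18_A1 A K₁) (s18_F1 K₁ L) π)⁻¹ * ((u * z - x * r : B0.toSubring) : s18_F1 K₁ L) ∈ V₁)
    (hy0 : ∀ 𝔪 : Ideal B0.toSubring, 𝔪.IsMaximal →
      (⟨algebraMap (s18_A1 A K₁) (s18_F1 K₁ L) π, B0.algebraMap_mem π⟩ : B0.toSubring) ∈ 𝔪 →
      (∀ b : B0.toSubring, b ∉ 𝔪 →
        (algebraMap (s18_A1 A K₁) (s18_F1 K₁ L) π)⁻¹ * (b : s18_F1 K₁ L) ∉ V₁ ∧
        (algebraMap (s18_A1 A K₁) (s18_F1 K₁ L) π)⁻¹ * (b : s18_F1 K₁ L) ∉ V₂) →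
      ∃ y : B0.toSubring, (algebraMap (s18_A1 A K₁) (s18_F1 K₁ L) π)⁻¹ * (y : s18_F1 K₁ L) ∈ V₁ ∧
        (algebraMap (s18_A1 A K₁) (s18_F1 K₁ L) π)⁻¹ * (y : s18_F1 K₁ L) ∉ V₂ ∧
        ∀ z ∈ 𝔪, ∃ r u : B0.toSubring, u ∉ 𝔪 ∧
          (algebraMap (s18_A1 A K₁) (s18_F1 K₁ L) π)⁻¹ * ((u * z - y * r : B0.toSubring) : s18_F1 K₁ L) ∈ V₂)
    (hsQ0 : ∀ 𝔪 : Ideal B0.toSubring, 𝔪.IsMaximal →
      (⟨algebraMap (s18_A1 A K₁) (s18_F1 K₁ L) π, B0.algebraMap_mem π⟩ : B0.toSubring) ∈ 𝔪 →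
      (∀ b : B0.toSubring, b ∉ 𝔪 →
        (algebraMap (s18_A1 A K₁) (s18_F1 K₁ L) π)⁻¹ * (b : s18_F1 K₁ L) ∉ V₁ ∧
        (algebraMap (s18_A1 A K₁) (s18_F1 K₁ L) π)⁻¹ * (b : s18_F1 K₁ L) ∉ V₂) →
      ∀ b : B0.toSubring,
        (⟨σ₁ (σ₁ (b : s18_F1 K₁ L)), hσB0 _ (hσB0 _ b.2)⟩ - b ^ (q ^ 2) : B0.toSubring) ∈ 𝔪)
    (hxi : ∀ 𝔪 : Ideal Binf.toSubring, 𝔪.IsMaximal →
      (⟨algebraMap (s18_A1 A K₁) (s18_F1 K₁ L) π, Binf.algebraMap_mem π⟩ : Binf.toSubring) ∈ 𝔪 →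
      (∀ b : Binf.toSubring, b ∉ 𝔪 →
        (algebraMap (s18_A1 A K₁) (s18_F1 K₁ L) π)⁻¹ * (b : s18_F1 K₁ L) ∉ V₁ ∧
        (algebraMap (s18_A1 A K₁) (s18_F1 K₁ L) π)⁻¹ * (b : s18_F1 K₁ L) ∉ V₂) →
      ∃ x : Binf.toSubring, (algebraMap (s18_A1 A K₁) (s18_F1 K₁ L) π)⁻¹ * (x : s18_F1 K₁ L) ∈ V₂ ∧
        (algebraMap (s18_A1 A K₁) (s18_F1 K₁ L) π)⁻¹ * (x : s18_F1 K₁ L) ∉ V₁ ∧
        ∀ z ∈ 𝔪, ∃ r u : Binf.toSubring, u ∉ 𝔪 ∧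
          (algebraMap (s18_A1 A K₁) (s18_F1 K₁ L) π)⁻¹ * ((u * z - x * r : Binf.toSubring) : s18_F1 K₁ L) ∈ V₁)
    (hyi : ∀ 𝔪 : Ideal Binf.toSubring, 𝔪.IsMaximal →
      (⟨algebraMap (s18_A1 A K₁) (s18_F1 K₁ L) π, Binf.algebraMap_mem π⟩ : Binf.toSubring) ∈ 𝔪 →
      (∀ b : Binf.toSubring, b ∉ 𝔪 →
        (algebraMap (s18_A1 A K₁) (s18_F1 K₁ L) π)⁻¹ * (b : s18_F1 K₁ L) ∉ V₁ ∧
        (algebraMap (s18_A1 A K₁) (s18_F1 K₁ L) π)⁻¹ * (b : s18_F1 K₁ L) ∉ V₂) →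
      ∃ y : Binf.toSubring, (algebraMap (s18_A1 A K₁) (s18_F1 K₁ L) π)⁻¹ * (y : s18_F1 K₁ L) ∈ V₁ ∧
        (algebraMap (s18_A1 A K₁) (s18_F1 K₁ L) π)⁻¹ * (y : s18_F1 K₁ L) ∉ V₂ ∧
        ∀ z ∈ 𝔪, ∃ r u : Binf.toSubring, u ∉ 𝔪 ∧
          (algebraMap (s18_A1 A K₁) (s18_F1 K₁ L) π)⁻¹ * ((u * z - y * r : Binf.toSubring) : s18_F1 K₁ L) ∈ V₂)
    (hsQi : ∀ 𝔪 : Ideal Binf.toSubring, 𝔪.IsMaximal →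
      (⟨algebraMap (s18_A1 A K₁) (s18_F1 K₁ L) π, Binf.algebraMap_mem π⟩ : Binf.toSubring) ∈ 𝔪 →
      (∀ b : Binf.toSubring, b ∉ 𝔪 →
        (algebraMap (s18_A1 A K₁) (s18_F1 K₁ L) π)⁻¹ * (b : s18_F1 K₁ L) ∉ V₁ ∧
        (algebraMap (s18_A1 A K₁) (s18_F1 K₁ L) π)⁻¹ * (b : s18_F1 K₁ L) ∉ V₂) →
      ∀ b : Binf.toSubring,
        (⟨σ₁ (σ₁ (b : s18_F1 K₁ L)), hσBi _ (hσBi _ b.2)⟩ - b ^ (q ^ 2) : Binf.toSubring) ∈ 𝔪) :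
    ∃ x : modularFunctionFieldBar L,
      x ^ m = s35_fp_mul (arithmeticGalois (modularFunctionFieldFull L) γ)
        [(q : ℤ), -(q : ℤ), 1, -1, 1, -1] (s18_baseIncl K₁ L g₁) := by
  classical
  have hϖ0 : (algebraMap (s18_A1 A K₁) (s18_F1 K₁ L) π) ≠ 0 := hV₁.ne_zero
  -- `s = σ₁ ∘ σ₁`
  have hs : ∀ x, (σ₁.trans σ₁) x = σ₁ (σ₁ x) := fun x => rfl
  -- the constants lie in `V₁`
  have hCi : C ≤ V₁ := fun c hc => hB0₁ (hCB0 hc)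
  -- the Frobenius chain
  obtain ⟨Ψ, Φa, Φb, κa, κb, hΨ, hΦa, hΦb, hκa, hκb, hu₁, hu₂, hΨ₁, hΨ₂, hh1⟩ :=
    s35_fc_data hV₁ hV₂ hne σ₁ W₁ (σ₁.trans σ₁) hs hT1₁ hT1₂ hW0 hWϖ hWW hWσ C hCi hσC hWC
      (q ^ 2) hfrob Nm hNm hNmσ hNR m g₁ c₁ c₂ f₁ f₂ hg₁ hc₁ hc₂ hf₁ hf₂ hN₁ hN₂ hc₁T hc₂T
  -- the unit `c` with `σ₁ ϖ = c ϖ`
  obtain ⟨c, hcu, hcσ⟩ := hσπ
  obtain ⟨c', hc'⟩ := hcu.exists_right_inv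
  have hcc' : algebraMap (s18_A1 A K₁) (s18_F1 K₁ L) c *
      algebraMap (s18_A1 A K₁) (s18_F1 K₁ L) c' = 1 := by
    rw [← map_mul, hc', map_one]
  have hcinv : (algebraMap (s18_A1 A K₁) (s18_F1 K₁ L) c)⁻¹ =
      algebraMap (s18_A1 A K₁) (s18_F1 K₁ L) c' := (eq_inv_of_mul_eq_one_right hcc').symm
  -- `s ϖ = (σ₁ c · c) ϖ` in a chart
  have hsϖ : ∀ (B : Subalgebra (s18_A1 A K₁) (s18_F1 K₁ L))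
      (hσB : ∀ x ∈ B.toSubring, σ₁ x ∈ B.toSubring),
      ∃ d ∈ B.toSubring, d⁻¹ ∈ B.toSubring ∧
        (σ₁.trans σ₁) (algebraMap (s18_A1 A K₁) (s18_F1 K₁ L) π) =
          d * algebraMap (s18_A1 A K₁) (s18_F1 K₁ L) π := by
    intro B hσB
    refine ⟨σ₁ (algebraMap (s18_A1 A K₁) (s18_F1 K₁ L) c) *
      algebraMap (s18_A1 A K₁) (s18_F1 K₁ L) c, ?_, ?_, ?_⟩
    · exact B.toSubring.mul_mem (hσB _ (B.algebraMap_mem c)) (B.algebraMap_mem c)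
    · rw [mul_inv, ← map_inv₀, hcinv]
      exact B.toSubring.mul_mem (hσB _ (B.algebraMap_mem c')) (B.algebraMap_mem c')
    · rw [hs, hcσ, map_mul, hcσ]
      ring
  -- `(T1)` for `s`
  have hT1s₁ : ∀ x : s18_F1 K₁ L, x ≠ 0 →
      (σ₁.trans σ₁) x / x ∈ V₁ ∧ x / (σ₁.trans σ₁) x ∈ V₁ := fun x hx =>
    s35_fc_T1_sq σ₁ hT1₁ x hx
  have hT1s₂ : ∀ x : s18_F1 K₁ L, x ≠ 0 →
      (σ₁.trans σ₁) x / x ∈ V₂ ∧ x / (σ₁.trans σ₁) x ∈ V₂ := fun x hx =>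
    s35_fc_T1_sq σ₁ hT1₂ x hx
  -- the function `H` in the shape of `s35_mc_core`
  have hσg : σ₁ g₁ ≠ 0 := (map_ne_zero σ₁).mpr hg₁
  have hσσg : σ₁ (σ₁ g₁) ≠ 0 := (map_ne_zero σ₁).mpr hσg
  have hσ3 : σ₁ (σ₁ (σ₁ g₁)) ≠ 0 := (map_ne_zero σ₁).mpr hσσg
  have hσ4 : σ₁ (σ₁ (σ₁ (σ₁ g₁))) ≠ 0 := (map_ne_zero σ₁).mpr hσ3
  have eu : σ₁ (σ₁ (σ₁ (σ₁ g₁) / g₁)) / (σ₁ (σ₁ g₁) / g₁) =
      (σ₁.trans σ₁) ((σ₁.trans σ₁) g₁) * g₁ / ((σ₁.trans σ₁) g₁) ^ 2 := by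
    simp only [hs, map_div₀]
    field_simp
  have eH : s35_mc_mul σ₁ [(q : ℤ), -(q : ℤ), 1, -1, 1, -1] g₁ / Ψ ^ m =
      (σ₁.trans σ₁) ((σ₁.trans σ₁) ((σ₁.trans σ₁) g₁) * g₁ / ((σ₁.trans σ₁) g₁) ^ 2) /
        (((σ₁.trans σ₁) ((σ₁.trans σ₁) g₁) * g₁ / ((σ₁.trans σ₁) g₁) ^ 2) ^ (q ^ 2) * Ψ ^ m) := by
    rw [s35_mc_six σ₁ q g₁ hg₁, eu, div_div, hs ((σ₁.trans σ₁) ((σ₁.trans σ₁) g₁) * g₁ /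
      ((σ₁.trans σ₁) g₁) ^ 2)]
  -- point data in a chart
  have hpts : ∀ (B : Subalgebra (s18_A1 A K₁) (s18_F1 K₁ L)) (hB₁ : B.toSubring ≤ V₁)
      (hB₂ : B.toSubring ≤ V₂)
      (hcap : ∀ x ∈ B.toSubring, (algebraMap (s18_A1 A K₁) (s18_F1 K₁ L) π)⁻¹ * x ∈ V₁ →
        (algebraMap (s18_A1 A K₁) (s18_F1 K₁ L) π)⁻¹ * x ∈ V₂ →
        (algebraMap (s18_A1 A K₁) (s18_F1 K₁ L) π)⁻¹ * x ∈ B.toSubring)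
      (noeth : IsNoetherianRing B.toSubring)
      (frac : ∀ x : s18_F1 K₁ L, ∃ a ∈ B.toSubring, ∃ b ∈ B.toSubring, b ≠ 0 ∧ x = a / b)
      (hroot : ∀ z : s18_F1 K₁ L, z ^ m ∈ B.toSubring → z ∈ B.toSubring)
      (hσB : ∀ x ∈ B.toSubring, σ₁ x ∈ B.toSubring)
      (hCB : C ≤ B.toSubring)
      (hsm : ∀ f : B.toSubring,
        ((algebraMap (s18_A1 A K₁) (s18_F1 K₁ L) π)⁻¹ * (f : s18_F1 K₁ L) ∈ V₁ ∨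
          (algebraMap (s18_A1 A K₁) (s18_F1 K₁ L) π)⁻¹ * (f : s18_F1 K₁ L) ∈ V₂) →
        ∀ 𝔫 : Ideal (s34_away B.toSubring (f : s18_F1 K₁ L) f.2), 𝔫.IsMaximal →
        (⟨algebraMap (s18_A1 A K₁) (s18_F1 K₁ L) π,
          s34_le_away B.toSubring (f : s18_F1 K₁ L) f.2 (B.algebraMap_mem π)⟩ :
          s34_away B.toSubring (f : s18_F1 K₁ L) f.2) ∈ 𝔫 →
        ∃ s ∈ 𝔫, ∀ x ∈ 𝔫, ∃ u, u ∉ 𝔫 ∧ u * x ∈ Ideal.span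
          {(⟨algebraMap (s18_A1 A K₁) (s18_F1 K₁ L) π,
            s34_le_away B.toSubring (f : s18_F1 K₁ L) f.2 (B.algebraMap_mem π)⟩ :
            s34_away B.toSubring (f : s18_F1 K₁ L) f.2), s})
      (hG : ∀ 𝔪 : Ideal B.toSubring, 𝔪.IsMaximal →
        (⟨algebraMap (s18_A1 A K₁) (s18_F1 K₁ L) π, B.algebraMap_mem π⟩ : B.toSubring) ∈ 𝔪 →
        (∀ s : B.toSubring, s ∉ 𝔪 →
          (algebraMap (s18_A1 A K₁) (s18_F1 K₁ L) π)⁻¹ * (s : s18_F1 K₁ L) ∉ V₁ ∧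
          (algebraMap (s18_A1 A K₁) (s18_F1 K₁ L) π)⁻¹ * (s : s18_F1 K₁ L) ∉ V₂) →
        ∃ G : s18_F1 K₁ L, G ≠ 0 ∧
          ∀ 𝔮 : Ideal B.toSubring, 𝔮.IsPrime → 𝔮 ≤ 𝔪 →
            (⟨algebraMap (s18_A1 A K₁) (s18_F1 K₁ L) π, B.algebraMap_mem π⟩ : B.toSubring) ∉ 𝔮 →
            g₁ * (G⁻¹) ^ m ∈ s18_loc B.toSubring 𝔮 ∧ G ^ m * g₁⁻¹ ∈ s18_loc B.toSubring 𝔮)
      (hx : ∀ 𝔪 : Ideal B.toSubring, 𝔪.IsMaximal →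
        (⟨algebraMap (s18_A1 A K₁) (s18_F1 K₁ L) π, B.algebraMap_mem π⟩ : B.toSubring) ∈ 𝔪 →
        (∀ b : B.toSubring, b ∉ 𝔪 →
          (algebraMap (s18_A1 A K₁) (s18_F1 K₁ L) π)⁻¹ * (b : s18_F1 K₁ L) ∉ V₁ ∧
          (algebraMap (s18_A1 A K₁) (s18_F1 K₁ L) π)⁻¹ * (b : s18_F1 K₁ L) ∉ V₂) →
        ∃ x : B.toSubring, (algebraMap (s18_A1 A K₁) (s18_F1 K₁ L) π)⁻¹ * (x : s18_F1 K₁ L) ∈ V₂ ∧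
          (algebraMap (s18_A1 A K₁) (s18_F1 K₁ L) π)⁻¹ * (x : s18_F1 K₁ L) ∉ V₁ ∧
          ∀ z ∈ 𝔪, ∃ r u : B.toSubring, u ∉ 𝔪 ∧
            (algebraMap (s18_A1 A K₁) (s18_F1 K₁ L) π)⁻¹ * ((u * z - x * r : B.toSubring) : s18_F1 K₁ L) ∈ V₁)
      (hy : ∀ 𝔪 : Ideal B.toSubring, 𝔪.IsMaximal →
        (⟨algebraMap (s18_A1 A K₁) (s18_F1 K₁ L) π, B.algebraMap_mem π⟩ : B.toSubring) ∈ 𝔪 →
        (∀ b : B.toSubring, b ∉ 𝔪 →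
          (algebraMap (s18_A1 A K₁) (s18_F1 K₁ L) π)⁻¹ * (b : s18_F1 K₁ L) ∉ V₁ ∧
          (algebraMap (s18_A1 A K₁) (s18_F1 K₁ L) π)⁻¹ * (b : s18_F1 K₁ L) ∉ V₂) →
        ∃ y : B.toSubring, (algebraMap (s18_A1 A K₁) (s18_F1 K₁ L) π)⁻¹ * (y : s18_F1 K₁ L) ∈ V₁ ∧
          (algebraMap (s18_A1 A K₁) (s18_F1 K₁ L) π)⁻¹ * (y : s18_F1 K₁ L) ∉ V₂ ∧
          ∀ z ∈ 𝔪, ∃ r u : B.toSubring, u ∉ 𝔪 ∧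
            (algebraMap (s18_A1 A K₁) (s18_F1 K₁ L) π)⁻¹ * ((u * z - y * r : B.toSubring) : s18_F1 K₁ L) ∈ V₂)
      (hsQ : ∀ 𝔪 : Ideal B.toSubring, 𝔪.IsMaximal →
        (⟨algebraMap (s18_A1 A K₁) (s18_F1 K₁ L) π, B.algebraMap_mem π⟩ : B.toSubring) ∈ 𝔪 →
        (∀ b : B.toSubring, b ∉ 𝔪 →
          (algebraMap (s18_A1 A K₁) (s18_F1 K₁ L) π)⁻¹ * (b : s18_F1 K₁ L) ∉ V₁ ∧
          (algebraMap (s18_A1 A K₁) (s18_F1 K₁ L) π)⁻¹ * (b : s18_F1 K₁ L) ∉ V₂) →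
        ∀ b : B.toSubring,
          (⟨σ₁ (σ₁ (b : s18_F1 K₁ L)), hσB _ (hσB _ b.2)⟩ - b ^ (q ^ 2) : B.toSubring) ∈ 𝔪)
      (𝔪 : Ideal B.toSubring), 𝔪.IsMaximal →
      (⟨algebraMap (s18_A1 A K₁) (s18_F1 K₁ L) π, B.algebraMap_mem π⟩ : B.toSubring) ∈ 𝔪 →
      s34_PointData (algebraMap (s18_A1 A K₁) (s18_F1 K₁ L) π) B.toSubring (V₁ ⊓ V₂) m
        (s35_mc_mul σ₁ [(q : ℤ), -(q : ℤ), 1, -1, 1, -1] g₁ / Ψ ^ m) 𝔪 := by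
    intro B hB₁ hB₂ hcap noeth frac hroot hσB hCB hsm hG hx hy hsQ 𝔪 h𝔪 hϖ𝔪
    rw [eH]
    exact s35_nfo_pts hV₁ hV₂ hB₁ hB₂ (B.algebraMap_mem π) hcap noeth frac m hm0 hroot hsm hx hy
      (σ₁.trans σ₁) (q ^ 2) (fun x hx => hσB _ (hσB _ hx)) (hsϖ B hσB) hT1s₁ hT1s₂ hsQ g₁ hg₁ hG
      Ψ Φa Φb κa κb hΦa.2.1 hΦa.2.2 hΦa.1 hΦb.2.1 hΦb.2.2 hΦb.1 (hCB hκa.2.1) (hCB hκa.2.2)
      (hCB hκb.2.1) (hCB hκb.2.2) hu₁ hu₂ hΨ₁ hΨ₂ hh1 𝔪 h𝔪 hϖ𝔪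
  exact s35_mc_core L A K₁ hπ (V₁ ⊓ V₂) (fun x hx => ⟨hB0₁ hx, hB0₂ hx⟩)
    (fun x hx => ⟨hBi₁ hx, hBi₂ hx⟩) (fun x hx hxV => hcap0 x hx hxV.1 hxV.2)
    (fun x hx hxV => hcapi x hx hxV.1 hxV.2) (fun x hx => s34_inf_one_add_inv hV₁ hV₂ x hx)
    frac0 t_ne t_mem tinv_mem glue0 glueInf h1 fin m hm0 hmu γ σ₁ hσ₁ q g₁ Ψ hg₁ hΨ.1 hdivg
    (by rw [eH]; exact hh1)
    (hpts B0 hB0₁ hB0₂ hcap0 noeth0 frac0 hroot0 hσB0 hCB0 hsm0 hG0 hx0 hy0 hsQ0)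
    (hpts Binf hBi₁ hBi₂ hcapi noethi fraci hrooti hσBi hCBi hsmi hGi hxi hyi hsQi)

end Fermat.Agent.S35
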