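import Mathlib
import Fermat.Agent.S35.InstDefs
import Fermat.Agent.S35.ModelPkg
import Fermat.Agent.S35.PowModel
import Fermat.Agent.S35.ChooseK
import Fermat.Agent.S34.NodeInstXY
import Fermat.Agent.S18.A1Facts

/-!
# S35, block (INST2): the hub statement at the model levels from the contract

`s35_inst_pow` : the facts `s34_ct_*` (file `S34/InstDefs.lean`) and `s35_ct_*`
(file `S35/InstDefs.lean`) about the concrete nodal model give the hub statement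
`s35_FPow N₁ q` at every level `N₁ * q` with `q ∤ N₁` and `2 ∣ N₁` or `3 ∣ N₁`.
-/

set_option autoImplicit false
set_option synthInstance.maxHeartbeats 400000
set_option linter.style.haveILetI false

open ModularCurve AlgebraicCurve

noncomputable section

namespace Fermat.Agent.S35

open Fermat.Agent.S18 Fermat.Agent.S34 Fermat.Agent.S29

/-- A maximal ideal of a chart containing `π` meets the constants in `(π)`. -/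
theorem s35_in_hker {A₀ F : Type*} [CommRing A₀] [IsDomain A₀] [IsDiscreteValuationRing A₀]
    [Field F] [Algebra A₀ F] {π : A₀} (hπ : Irreducible π) (B : Subalgebra A₀ F)
    (𝔪 : Ideal B.toSubring) (h𝔪 : 𝔪.IsMaximal) (a : A₀)
    (ha : (⟨algebraMap A₀ F a, B.algebraMap_mem a⟩ : B.toSubring) ∈ 𝔪) : ∃ a', a = π * a' := by
  by_contra hcon
  have hu : IsUnit a := by
    by_contra hnu
    have hmax : IsLocalRing.maximalIdeal A₀ = Ideal.span {π} :=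
      (IsDiscreteValuationRing.irreducible_iff_uniformizer π).mp hπ
    have h1 : a ∈ IsLocalRing.maximalIdeal A₀ := hnu
    rw [hmax, Ideal.mem_span_singleton'] at h1
    obtain ⟨b, hb⟩ := h1
    exact hcon ⟨b, by rw [← hb, mul_comm]⟩
  obtain ⟨b, hb⟩ := hu.exists_right_inv
  apply h𝔪.ne_top
  rw [Ideal.eq_top_iff_one]
  have h1 : (1 : B.toSubring) =
      (⟨algebraMap A₀ F a, B.algebraMap_mem a⟩ : B.toSubring) *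
        ⟨algebraMap A₀ F b, B.algebraMap_mem b⟩ := by
    apply Subtype.ext
    show (1 : F) = algebraMap A₀ F a * algebraMap A₀ F b
    rw [← map_mul, hb, map_one]
  rw [h1]
  exact 𝔪.mul_mem_right _ ha

/-- The branch parameters `x`, `y` at every crossing point, in the shape of
`s35_pow_of_model`, from the shape `s34_md_XY` and the rationality of the crossing points. -/
theorem s35_in_xy {A₀ F : Type*} [CommRing A₀] [IsDomain A₀] [IsDiscreteValuationRing A₀]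
    [Field F] [Algebra A₀ F] {π : A₀} (hπ : Irreducible π) (B : Subalgebra A₀ F)
    (V₁ V₂ : Subring F) (hB₁ : B.toSubring ≤ V₁) (hB₂ : B.toSubring ≤ V₂)
    (hxy : s34_md_XY π B V₁ V₂ hB₁ hB₂) (hrat : s35_md_Rat π B V₁ V₂)
    (𝔪 : Ideal B.toSubring) (h𝔪 : 𝔪.IsMaximal)
    (hϖ𝔪 : (⟨algebraMap A₀ F π, B.algebraMap_mem π⟩ : B.toSubring) ∈ 𝔪)
    (hnode : ∀ b : B.toSubring, b ∉ 𝔪 →
      (algebraMap A₀ F π)⁻¹ * (b : F) ∉ V₁ ∧ (algebraMap A₀ F π)⁻¹ * (b : F) ∉ V₂) :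
    (∃ x : B.toSubring, (algebraMap A₀ F π)⁻¹ * (x : F) ∈ V₂ ∧
        (algebraMap A₀ F π)⁻¹ * (x : F) ∉ V₁ ∧
        ∀ z ∈ 𝔪, ∃ r u : B.toSubring, u ∉ 𝔪 ∧
          (algebraMap A₀ F π)⁻¹ * ((u * z - x * r : B.toSubring) : F) ∈ V₁) ∧
    (∃ y : B.toSubring, (algebraMap A₀ F π)⁻¹ * (y : F) ∈ V₁ ∧
        (algebraMap A₀ F π)⁻¹ * (y : F) ∉ V₂ ∧
        ∀ z ∈ 𝔪, ∃ r u : B.toSubring, u ∉ 𝔪 ∧
          (algebraMap A₀ F π)⁻¹ * ((u * z - y * r : B.toSubring) : F) ∈ V₂) := by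
  obtain ⟨⟨x, hx2, hx1, hx⟩, ⟨y, hy1, hy2, hy⟩⟩ := hxy 𝔪 h𝔪 hϖ𝔪 hnode
    (hrat 𝔪 ⟨h𝔪, hϖ𝔪, hnode⟩) (fun a ha => s35_in_hker hπ B 𝔪 h𝔪 a ha)
  exact ⟨⟨x, hx2, hx1, hx⟩, ⟨y, hy1, hy2, hy⟩⟩

set_option maxHeartbeats 4000000 in
/-- **(INST2)** the hub statement at the model levels. -/
theorem s35_inst_pow (hfin : s34_ct_fin) (hunif : s34_ct_unif) (hle : s34_ct_le)
    (hcap : s34_ct_cap) (hsm : s34_ct_sm) (hxy : s34_ct_xy)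
    (hsig : s35_ct_sig) (hne : s35_ct_ne) (hnr : s35_ct_nr) (hrat : s35_ct_rat)
    (hsq : s35_ct_sq)
    (N₁ q : ℕ) [NeZero N₁] [NeZero q] (hq : q.Prime) (hqN : ¬ q ∣ N₁)
    (hM : (2 ∣ N₁ ∧ q ≠ 2) ∨ (3 ∣ N₁ ∧ q ≠ 3)) : s35_FPow N₁ q := by
  intro P hP γ hγ m hm0 hqm W hWα hWβ g hg0 hdiv hn₁ hn₂
  haveI : Fact q.Prime := ⟨hq⟩
  haveI : NeZero (N₁ * q) := ⟨mul_ne_zero (NeZero.ne N₁) hq.ne_zero⟩
  -- a primitive root of unity of order `q² - 1`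
  have hq2 : 0 < q ^ 2 - 1 := by
    have := hq.two_le
    have : 4 ≤ q ^ 2 := by nlinarith
    omega
  haveI : NeZero (q ^ 2 - 1) := ⟨hq2.ne'⟩
  obtain ⟨ζ₀, hζ₀⟩ : ∃ ζ₀ : AlgebraicClosure ℚ, IsPrimitiveRoot ζ₀ (q ^ 2 - 1) :=
    HasEnoughRootsOfUnity.exists_primitiveRoot (AlgebraicClosure ℚ) (q ^ 2 - 1)
  -- the number field
  obtain ⟨K₁, hK₁, hS, hK⟩ :=
    s35_ck_main_nmAlong N₁ q hq hqN W hWα hWβ m hm0 g hg0 hn₁ hn₂ {ζ₀}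
  obtain ⟨hfix, g₁, hg₁, hg₁0, hWg⟩ := hK K₁ le_rfl
  haveI : FiniteDimensional ℚ K₁ := hK₁.1
  haveI : IsGalois ℚ K₁ := hK₁.2
  haveI hDVR : IsDiscreteValuationRing (s18_A1 P K₁) := s18_a1_dvr P hP K₁
  obtain ⟨π, hπ⟩ := IsDiscreteValuationRing.exists_irreducible (s18_A1 P K₁)
  have hζ : IsPrimitiveRoot (⟨ζ₀, hS ζ₀ (Finset.mem_singleton_self ζ₀)⟩ : K₁) (q ^ 2 - 1) :=
    IsPrimitiveRoot.of_map_of_injective (f := algebraMap K₁ (AlgebraicClosure ℚ))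
      hζ₀ (algebraMap K₁ (AlgebraicClosure ℚ)).injective
  -- the coordinate
  obtain ⟨tL, htL⟩ : ∃ tL : modularFunctionFieldFull (N₁ * q), s34_md_IsT N₁ q tL := by
    rcases hM with ⟨h2, -⟩ | ⟨h3, -⟩
    · exact ⟨s18_cz_t2 (N₁ * q) (dvd_mul_of_dvd_left h2 q), Or.inl ⟨rfl, h2⟩⟩
    · exact ⟨s18_cz_t3 (N₁ * q) (dvd_mul_of_dvd_left h3 q), Or.inr ⟨rfl, h3⟩⟩
  -- the swap
  have hcop : Nat.Coprime q N₁ := (hq.coprime_iff_not_dvd).mpr hqN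
  obtain ⟨W₁, hW₁⟩ := s34_md_exists_swap K₁ N₁ q hcop
  obtain ⟨hW₁α, hW₁β, hW₁W, hW₁σ, -⟩ := id hW₁
  -- the function
  obtain ⟨hWg₁, c₁, c₂, f₁, f₂, hc₁, hc₂, hf₁, hf₂, hN₁, hN₂⟩ := hWg W₁ hW₁α hW₁β
  have hmu : IsUnit ((m : ℕ) : s18_A1 P K₁) := s18_a1_isUnit_natCast P hP K₁ m hqm
  have hdivg : ∀ P' : Place (AlgebraicClosure ℚ) (modularFunctionFieldBar (N₁ * q)),
      (m : ℤ) ∣ P'.ord (s18_baseIncl K₁ (N₁ * q) g₁) := by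
    rw [hg₁]; exact hdiv
  have hfix' : ∀ P' : Place (AlgebraicClosure ℚ) (modularFunctionFieldBar (N₁ * q)),
      P'.ord (s18_baseIncl K₁ (N₁ * q) g₁) ≠ 0 →
      ∀ σ : AlgebraicClosure ℚ ≃ₐ[ℚ] AlgebraicClosure ℚ, (∀ c ∈ K₁, σ c = c) →
        arithmeticGalois (modularFunctionFieldFull (N₁ * q)) σ • P' = P' := by
    rw [hg₁]; exact hfix
  -- the contract
  have pkg := s35_pkg_chart N₁ q P K₁ hfin hunif hle hcap hsm hqN hP π hπ tL htL W₁ hW₁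
  obtain ⟨hG0, hGi⟩ := s35_pkg_hG N₁ q P K₁ hfin hunif hle hcap hxy hqN hP π hπ tL htL W₁ hW₁
    m g₁ hg₁0 hdivg hfix'
  obtain ⟨hxy0, hxyi⟩ := hxy N₁ q hqN P hP K₁ π hπ tL htL W₁ hW₁ pkg.hB0₁ pkg.hB0₂
    pkg.hBi₁ pkg.hBi₂
  obtain ⟨hσ₁, hσB0, hσBi, hσπ, hT1₁, hT1₂, hσC, hfrob, hcT, hσα⟩ :=
    hsig N₁ q hqN P hP K₁ π hπ tL htL W₁ hW₁ γ hγ
  have hne' := hne N₁ q hqN P hP K₁ π hπ tL htL W₁ hW₁
  have hNR := hnr N₁ q hqN P hP K₁ π hπ tL htL W₁ hW₁ γ hγ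
  obtain ⟨hrat0, hrati⟩ := hrat N₁ q hqN P hP K₁ π hπ _ hζ tL htL W₁ hW₁
  obtain ⟨hsq0, hsqi⟩ := hsq N₁ q hqN P hP K₁ π hπ _ hζ tL htL W₁ hW₁ γ hγ
    ((s34_gi_tau K₁ (N₁ * q) γ).trans (s34_gi_tau K₁ (N₁ * q) γ)) (fun _ => rfl)
  -- the constants
  have hCB0 : s35_sg_C (s18_A1 P K₁) (N₁ * q) ≤ (s34_md_B0 P K₁ (N₁ * q) tL).toSubring := by
    rintro c ⟨a, ha, rfl⟩
    exact (s34_md_B0 P K₁ (N₁ * q) tL).algebraMap_mem ⟨a, ha⟩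
  have hCBi : s35_sg_C (s18_A1 P K₁) (N₁ * q) ≤ (s34_md_Binf P K₁ (N₁ * q) tL).toSubring := by
    rintro c ⟨a, ha, rfl⟩
    exact (s34_md_Binf P K₁ (N₁ * q) tL).algebraMap_mem ⟨a, ha⟩
  have key := s35_pow_of_model (N₁ * q) P K₁ hπ (t := s18_coord K₁ tL)
    (B0 := s34_md_B0 P K₁ (N₁ * q) tL) (Binf := s34_md_Binf P K₁ (N₁ * q) tL)
    (s34_md_V1 P K₁ (N₁ * q)) (s34_md_V2 P K₁ (N₁ * q) W₁) pkg.hV₁ pkg.hV₂ hne'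
    pkg.hB0₁ pkg.hB0₂ pkg.hBi₁ pkg.hBi₂ pkg.hcap0 pkg.hcapi pkg.noeth0 pkg.noethi
    pkg.frac0 pkg.fraci pkg.t_ne pkg.t_mem pkg.tinv_mem pkg.glue0 pkg.glueInf pkg.h1 pkg.fin
    m hm0 hmu (pkg.hroot0 m hm0) (pkg.hrooti m hm0)
    γ (s34_gi_tau K₁ (N₁ * q) γ) hσ₁ hσB0 hσBi hσπ hT1₁ hT1₂
    (W₁ : s18_F1 K₁ (N₁ * q) ≃+* s18_F1 K₁ (N₁ * q)) (fun _ => Iff.rfl)
    (W₁.commutes (π : K₁)) hW₁W (fun x => hW₁σ (γ.restrictNormal K₁) x)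
    (s35_sg_C (s18_A1 P K₁) (N₁ * q)) hCB0 hCBi hσC
    (fun c hc => s35_sg_C_swap (W₁ : s18_F1 K₁ (N₁ * q) →ₐ[K₁] s18_F1 K₁ (N₁ * q)) c hc)
    q hfrob
    (s35_nmAlong (heckeAlphaBar K₁ N₁ q).toRingHom)
    (s35_nmAlong_mul _)
    (fun x => s35_nmAlong_equiv (heckeAlphaBar K₁ N₁ q).toRingHom (s34_gi_tau K₁ N₁ γ)
      (s34_gi_tau K₁ (N₁ * q) γ) hσα x)
    hNR g₁ hg₁0 hdivg
    (algebraMap K₁ (s18_F1 K₁ (N₁ * q)) c₁) (algebraMap K₁ (s18_F1 K₁ (N₁ * q)) c₂)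
    (heckeAlphaBar K₁ N₁ q f₁) (heckeAlphaBar K₁ N₁ q f₂)
    ((map_ne_zero _).mpr hc₁) ((map_ne_zero _).mpr hc₂)
    ((map_ne_zero _).mpr hf₁) ((map_ne_zero _).mpr hf₂)
    hN₁ hN₂ (hcT c₁ hc₁) (hcT c₂ hc₂) pkg.hsm0 pkg.hsmi hG0 hGi
    (fun 𝔪 h𝔪 hϖ𝔪 hnode => (s35_in_xy hπ _ _ _ pkg.hB0₁ pkg.hB0₂ hxy0 hrat0 𝔪 h𝔪 hϖ𝔪 hnode).1)
    (fun 𝔪 h𝔪 hϖ𝔪 hnode => (s35_in_xy hπ _ _ _ pkg.hB0₁ pkg.hB0₂ hxy0 hrat0 𝔪 h𝔪 hϖ𝔪 hnode).2)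
    (fun 𝔪 h𝔪 hϖ𝔪 hnode b => hsq0 𝔪 ⟨h𝔪, hϖ𝔪, hnode⟩ (fun x hx => hσB0 _ (hσB0 _ hx)) b)
    (fun 𝔪 h𝔪 hϖ𝔪 hnode => (s35_in_xy hπ _ _ _ pkg.hBi₁ pkg.hBi₂ hxyi hrati 𝔪 h𝔪 hϖ𝔪 hnode).1)
    (fun 𝔪 h𝔪 hϖ𝔪 hnode => (s35_in_xy hπ _ _ _ pkg.hBi₁ pkg.hBi₂ hxyi hrati 𝔪 h𝔪 hϖ𝔪 hnode).2)
    (fun 𝔪 h𝔪 hϖ𝔪 hnode b => hsqi 𝔪 ⟨h𝔪, hϖ𝔪, hnode⟩ (fun x hx => hσBi _ (hσBi _ hx)) b)
  rw [hg₁] at key
  exact key

end Fermat.Agent.S35
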