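import Fermat.Statements.S35
import Fermat.Agent.S35.HFTop
import Fermat.Agent.S35.FPowLevel
import Fermat.Agent.S35.Inst

/-!
# S35: the statement from the contract of the concrete nodal model

`s35_final` : the frozen statement S35 from the six function-independent facts `s34_ct_*` about
the nodal model of `X₀(N₁ q)` (file `S34/InstDefs.lean`) and the five Frobenius-side facts
`s35_ct_*` (file `S35/InstDefs.lean`), via `s35_hf_top` (the Hecke/Frobenius transfer),
`s35_lvl` (raising the level) and `s35_inst_pow` (the hub statement at the model levels).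
-/

set_option autoImplicit false
open Polynomial
open CuspForm CuspForm.IsNewform

namespace Fermat.Agent.S35

open Fermat.Agent.S34

theorem s35_final (hfin : s34_ct_fin) (hunif : s34_ct_unif) (hle : s34_ct_le)
    (hcap : s34_ct_cap) (hsm : s34_ct_sm) (hxy : s34_ct_xy)
    (hsig : s35_ct_sig) (hne : s35_ct_ne) (hnr : s35_ct_nr) (hrat : s35_ct_rat)
    (hsq : s35_ct_sq)
    {M : ℕ} [NeZero M] {g : CuspForm (CongruenceSubgroup.Gamma0 M) 2} (hg : g.IsNewform)
    (lam : ℕ) [Fact lam.Prime]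
    (S : Finset ℕ)
    (O' : Type) [CommRing O'] [IsDomain O'] [IsDiscreteValuationRing O']
    [IsAdicComplete (IsLocalRing.maximalIdeal O') O'] [Finite (IsLocalRing.ResidueField O')]
    [CharZero O'] (hlamO' : (lam : O') ∈ IsLocalRing.maximalIdeal O')
    (chig : CuspForm.heckeAlgebra M 2 (↑S : Set ℕ) →+* ℂ)
    (hchig : ∀ (ℓ : ℕ) (hℓ : ℓ.Prime) (hℓM : ¬ ℓ ∣ M) (hℓS : ℓ ∉ (↑S : Set ℕ)),
      chig (CuspForm.heckeAlgebra.T hℓ hℓM hℓS) = ModularFormClass.qCoeff g ℓ)
    (iota : chig.range →+* O')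
    (hlamS : lam ∈ S) (hMS : ∀ q : ℕ, q.Prime → q ∣ M → q ∈ S)
    :
    ∃ (O'' : Type) (_ : CommRing O'') (_ : IsDomain O'') (_ : IsDiscreteValuationRing O'')
      (_ : IsAdicComplete (IsLocalRing.maximalIdeal O'') O'') (_ : Finite (IsLocalRing.ResidueField O''))
      (_ : CharZero O'') (_ : Algebra O' O'') (_ : Module.Finite O' O'') (_ : IsLocalHom (algebraMap O' O'')),
      Function.Injective (algebraMap O' O'') ∧
      ∃ ρ : GaloisRepAdic O'',
        (∀ (ℓ : ℕ) (hℓ : ℓ.Prime) (hℓM : ¬ ℓ ∣ M) (hℓS : ℓ ∉ (↑S : Set ℕ)),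
          ∀ A : ValuationSubring (AlgebraicClosure ℚ), A.LiesOverPrime ℓ →
            ∀ σ : AlgebraicClosure ℚ ≃ₐ[ℚ] AlgebraicClosure ℚ, A.IsFrobeniusAt σ ℓ →
              LinearMap.charpoly (ρ.ρ σ) =
                X ^ 2 - C (algebraMap O' O'' ((iota.comp chig.rangeRestrict) (CuspForm.heckeAlgebra.T hℓ hℓM hℓS))) * X
                  + C ((ℓ : O''))) ∧
        (∀ q : ℕ, q.Prime → q ≠ lam → q ∣ M → ¬ q ^ 2 ∣ M →
          ∀ A : ValuationSubring (AlgebraicClosure ℚ), A.LiesOverPrime q →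
            ∀ σ : AlgebraicClosure ℚ ≃ₐ[ℚ] AlgebraicClosure ℚ, A.IsFrobeniusAt σ q →
              LinearMap.charpoly (ρ.ρ σ) = X ^ 2 - C ((q : O'') + 1) * X + C ((q : O'')) ∨
              LinearMap.charpoly (ρ.ρ σ) = X ^ 2 + C ((q : O'') + 1) * X + C ((q : O''))) :=
  s35_hf_top hg lam S O' hlamO' chig hchig iota hlamS hMS
    (fun N q _ _ hq hqN _ _ => s35_lvl N q hq hqN
      (fun L' _ _ hqL hM =>
        s35_inst_pow hfin hunif hle hcap hsm hxy hsig hne hnr hrat hsq L' q hq hqL hM))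

end Fermat.Agent.S35
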