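import Mathlib
import Fermat.Agent.S34.InstDefs
import Fermat.Agent.S35.InstDefs
import Fermat.Agent.S34.GaussZeroInst
import Fermat.Agent.S18.A1Facts

/-!
# S35 (INST2): the two components of the nodal model are distinct

`s35_nei_model` : in the context of the contract of `S34/InstDefs.lean`, the two valuation rings
`V₁ = s34_md_V1` (the `q`-expansion Gauss ring) and `V₂ = s34_md_V2 W` (its pull-back by the swap)
are different — the hypothesis `hne` of `s35_pow_of_model`.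

`s35_nei_witness` : an element of `V₁` which is not in `V₂`.

`s35_nei_ct : s35_ct_ne` : the contract item (ne) of `S35/InstDefs.lean`.
-/

set_option autoImplicit false
set_option synthInstance.maxHeartbeats 400000
set_option maxHeartbeats 4000000

open ModularCurve AlgebraicCurve

noncomputable section

namespace Fermat.Agent.S35

open Fermat.Agent.S18 Fermat.Agent.S34

/-- An element of `V₁` which is not in `V₂`. -/
theorem s35_nei_witness (N₁ q : ℕ) [NeZero N₁] [NeZero (N₁ * q)] [Fact q.Prime]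
    (P : ValuationSubring (AlgebraicClosure ℚ)) (hP : P.LiesOverPrime q)
    (K₁ : IntermediateField ℚ (AlgebraicClosure ℚ)) [FiniteDimensional ℚ K₁] [IsGalois ℚ K₁]
    [IsDiscreteValuationRing (s18_A1 P K₁)] (π : s18_A1 P K₁) (hπ : Irreducible π)
    (hM : 2 ∣ N₁ ∨ 3 ∣ N₁)
    (W : s18_F1 K₁ (N₁ * q) ≃ₐ[K₁] s18_F1 K₁ (N₁ * q))
    (hW : haveI : NeZero q := ⟨(Fact.out : q.Prime).ne_zero⟩; s34_md_IsSwap K₁ N₁ q W) :
    ∃ z : s18_F1 K₁ (N₁ * q), z ∈ s34_md_V1 P K₁ (N₁ * q) ∧ z ∉ s34_md_V2 P K₁ (N₁ * q) W := by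
  have : NeZero q := ⟨(Fact.out : q.Prime).ne_zero⟩
  have : NumberField K₁ :=
    { to_charZero := inferInstance, to_finiteDimensional := inferInstance }
  obtain ⟨hWα, hWβ, -, -, -⟩ := hW
  obtain ⟨c, hc⟩ : ∃ c : s18_A1 P K₁, ((q : ℕ) : s18_A1 P K₁) = π * c := by
    have h1 := s18_ell_mem_maximalIdeal q (s18_A1 P K₁) (s18_a1_ell P hP K₁)
    rw [hπ.maximalIdeal_eq, Ideal.mem_span_singleton'] at h1
    obtain ⟨e, he⟩ := h1
    exact ⟨e, by rw [← he, mul_comm]⟩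
  rcases hM with h2 | h3
  · obtain ⟨z, hz1, hz2⟩ := s34_gz_ne_model (K := K₁) (A₁ := s18_A1 P K₁) (N := N₁) (ℓ := q)
      (W : s18_F1 K₁ (N₁ * q) ≃+* s18_F1 K₁ (N₁ * q)) hπ c hc (W.commutes (π : K₁)) hWα hWβ
      (s18_coord K₁ (s18_cz_t2 N₁ h2)) s18_t2 (s34_gzi_coord_t2 K₁ N₁ h2) (-1) (by norm_num)
      s34_gzi_t2_lead.1 s34_gzi_t2_lead.2
    exact ⟨z, hz1, fun h => hz2 h⟩
  · obtain ⟨z, hz1, hz2⟩ := s34_gz_ne_model (K := K₁) (A₁ := s18_A1 P K₁) (N := N₁) (ℓ := q)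
      (W : s18_F1 K₁ (N₁ * q) ≃+* s18_F1 K₁ (N₁ * q)) hπ c hc (W.commutes (π : K₁)) hWα hWβ
      (s18_coord K₁ (s18_cz_t3 N₁ h3)) s18_t3 (s34_gzi_coord_t3 K₁ N₁ h3) (-1) (by norm_num)
      s34_gzi_t3_lead.1 s34_gzi_t3_lead.2
    exact ⟨z, hz1, fun h => hz2 h⟩

/-- **`V₁ ≠ V₂`** in the context of the contract (`hne` of `s35_pow_of_model`). -/
theorem s35_nei_model :
    ∀ (N₁ q : ℕ) [NeZero N₁] [NeZero (N₁ * q)] [Fact q.Prime], ¬ q ∣ N₁ →
    ∀ (P : ValuationSubring (AlgebraicClosure ℚ)), P.LiesOverPrime q →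
    ∀ (K₁ : IntermediateField ℚ (AlgebraicClosure ℚ)) [FiniteDimensional ℚ K₁] [IsGalois ℚ K₁]
      [IsDiscreteValuationRing (s18_A1 P K₁)] (π : s18_A1 P K₁), Irreducible π →
    ∀ (tL : modularFunctionFieldFull (N₁ * q)), s34_md_IsT N₁ q tL →
    ∀ (W : s18_F1 K₁ (N₁ * q) ≃ₐ[K₁] s18_F1 K₁ (N₁ * q)),
      haveI : NeZero q := ⟨(Fact.out : q.Prime).ne_zero⟩
      s34_md_IsSwap K₁ N₁ q W →
    s34_md_V1 P K₁ (N₁ * q) ≠ s34_md_V2 P K₁ (N₁ * q) W := by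
  intro N₁ q _ _ _ _ P hP K₁ _ _ _ π hπ tL htL W hW hne
  have hM : 2 ∣ N₁ ∨ 3 ∣ N₁ := by
    rcases htL with ⟨-, h2⟩ | ⟨-, h3⟩
    · exact Or.inl h2
    · exact Or.inr h3
  obtain ⟨z, hz1, hz2⟩ := s35_nei_witness N₁ q P hP K₁ π hπ hM W hW
  exact hz2 (hne ▸ hz1)

/-- **Contract item (ne).** -/
theorem s35_nei_ct : s35_ct_ne := s35_nei_model

end Fermat.Agent.S35
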