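import Mathlib
import Fermat.Agent.S34.ExtInst
import Fermat.Agent.S35.NormModel

/-!
# S35, leaf (NRI): the norm–residue congruence in the model

Setting of NODE-1's model (`ExtInst.lean`): `K` a field of constants with a discrete valuation
ring `A₁` (uniformizer `π`, residue characteristic `ℓ`), `F' = K · F(N)`, `F = K · F(N ℓ)`,
`α = heckeAlphaBar K N ℓ`, `β = heckeBetaBar K N ℓ`, `V' = s34_gi_V A₁ N`,
`V∞ = s34_gi_V A₁ (N ℓ)`, `W` the swap (`W ∘ α = β`, `W ∘ β = α`), `V0 = V∞.comap W`.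

For a pair of compatible automorphisms `σ` of `F`, `σ'` of `F'` (the coefficientwise action of a
Frobenius lift) preserving the Gauss rings and satisfying the Frobenius congruence
`β (σ' y) ≡ (α y) ^ ℓ` modulo `π V∞` on `V'`:

* `s35_ni_hNR` : `π⁻¹ * (Nm h - h * σ (W h)) ∈ V∞` for every `h ∈ V∞ ∩ V0`, where
  `Nm = s35_nmAlong α` — literally the hypothesis `hNR` of `s35_fa_of_norm`;
* `s35_ni_hNm`, `s35_ni_hNmσ` : the hypotheses `hNm`, `hNmσ` of `s35_fa_of_norm` for the same `Nm`.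
-/

set_option autoImplicit false
set_option linter.unusedSectionVars false
set_option linter.style.haveILetI false

open ModularCurve

noncomputable section

namespace Fermat.Agent.S35

open Fermat.Agent.S18 Fermat.Agent.S34

section Model

variable {K : Type*} [Field K] [Algebra ℚ K] [Algebra K (AlgebraicClosure ℚ)]
variable {A₁ : ValuationSubring K}
variable {N ℓ : ℕ} [NeZero N] [NeZero ℓ] [NeZero (N * ℓ)]
variable [IsDiscreteValuationRing A₁] {π : A₁}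

local notation "F'" => laurentBaseChange K (modularFunctionFieldFull N)
local notation "FF" => laurentBaseChange K (modularFunctionFieldFull (N * ℓ))

/-- `hNm` of `s35_fa_of_norm` for the norm along `α`. -/
theorem s35_ni_hNm (x y : FF) :
    s35_nmAlong (heckeAlphaBar K N ℓ).toRingHom (x * y) =
      s35_nmAlong (heckeAlphaBar K N ℓ).toRingHom x *
        s35_nmAlong (heckeAlphaBar K N ℓ).toRingHom y :=
  s35_nmAlong_mul _ x y

/-- `hNmσ` of `s35_fa_of_norm` for the norm along `α`. -/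
theorem s35_ni_hNmσ (σ : FF ≃+* FF) (σ' : F' ≃+* F')
    (hσα : ∀ y : F', σ (heckeAlphaBar K N ℓ y) = heckeAlphaBar K N ℓ (σ' y)) (x : FF) :
    s35_nmAlong (heckeAlphaBar K N ℓ).toRingHom (σ x) =
      σ (s35_nmAlong (heckeAlphaBar K N ℓ).toRingHom x) :=
  s35_nmAlong_equiv _ σ' σ hσα x

set_option maxHeartbeats 1600000 in
set_option synthInstance.maxHeartbeats 400000 in
/-- **(NRI)**: the norm–residue congruence in the model, in the shape of the hypothesis `hNR` of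
`s35_fa_of_norm`. -/
theorem s35_ni_hNR [Fact ℓ.Prime] (hM : 2 ∣ N ∨ 3 ∣ N) (hℓN : ¬ ℓ ∣ N)
    (hπ : Irreducible π) (c : A₁) (hℓ : (ℓ : A₁) = π * c) (W : FF ≃+* FF)
    (hWϖ : W (algebraMap K FF (π : K)) = algebraMap K FF (π : K))
    (hWα : ∀ x : F', W (heckeAlphaBar K N ℓ x) = heckeBetaBar K N ℓ x)
    (hWβ : ∀ x : F', W (heckeBetaBar K N ℓ x) = heckeAlphaBar K N ℓ x)
    (σ : FF ≃+* FF) (σ' : F' ≃+* F')
    (hσα : ∀ y : F', σ (heckeAlphaBar K N ℓ y) = heckeAlphaBar K N ℓ (σ' y))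
    (hσV : ∀ x ∈ s34_gi_V A₁ (N * ℓ), σ x ∈ s34_gi_V A₁ (N * ℓ))
    (hσϖ : (algebraMap K FF (π : K))⁻¹ * σ (algebraMap K FF (π : K)) ∈ s34_gi_V A₁ (N * ℓ))
    (hσ'V : ∀ y ∈ s34_gi_V A₁ N, σ' y ∈ s34_gi_V A₁ N)
    (hFC : ∀ y ∈ s34_gi_V A₁ N, (algebraMap K FF (π : K))⁻¹ *
      (heckeBetaBar K N ℓ (σ' y) - heckeAlphaBar K N ℓ y ^ ℓ) ∈ s34_gi_V A₁ (N * ℓ)) :
    ∀ h : FF, h ≠ 0 → h ∈ s34_gi_V A₁ (N * ℓ) → h⁻¹ ∈ s34_gi_V A₁ (N * ℓ) →
      h ∈ (s34_gi_V A₁ (N * ℓ)).comap (W : FF →+* FF) →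
      h⁻¹ ∈ (s34_gi_V A₁ (N * ℓ)).comap (W : FF →+* FF) →
      (algebraMap K FF (π : K))⁻¹ *
        (s35_nmAlong (heckeAlphaBar K N ℓ).toRingHom h - h * σ (W h)) ∈ s34_gi_V A₁ (N * ℓ) := by
  have hℓp : ℓ.Prime := Fact.out
  haveI : CharZero K := algebraRat.charZero K
  haveI : CharZero F' := charZero_of_injective_algebraMap (algebraMap K F').injective
  have hιϖ : (heckeAlphaBar K N ℓ).toRingHom (algebraMap K F' (π : K)) =
      algebraMap K FF (π : K) := (heckeAlphaBar K N ℓ).commutes (π : K)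
  -- uniformizers
  have hV'0 := s34_gi_unif (A₁ := A₁) (N := N) hπ
  have hV' : s35_Unif (algebraMap K F' (π : K)) (s34_gi_V A₁ N) :=
    ⟨hV'0.mem, hV'0.inv_not_mem, hV'0.decomp⟩
  have hV₁0 := s34_gi_unif (A₁ := A₁) (N := N * ℓ) hπ
  have hV₁ : s35_Unif ((heckeAlphaBar K N ℓ).toRingHom (algebraMap K F' (π : K)))
      (s34_gi_V A₁ (N * ℓ)) := by
    rw [hιϖ]
    exact ⟨hV₁0.mem, hV₁0.inv_not_mem, hV₁0.decomp⟩
  have hV₂0 := s34_gz_V0_unif (A₁ := A₁) (N := N) (ℓ := ℓ) W hπ hWϖ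
  have hV₂ : s35_Unif ((heckeAlphaBar K N ℓ).toRingHom (algebraMap K F' (π : K)))
      ((s34_gi_V A₁ (N * ℓ)).comap (W : FF →+* FF)) := by
    rw [hιϖ]
    exact ⟨hV₂0.mem, hV₂0.inv_not_mem, hV₂0.decomp⟩
  -- residue characteristic
  have hqϖ : (algebraMap K F' (π : K))⁻¹ * ((ℓ : ℕ) : F') ∈ s34_gi_V A₁ N := by
    have h1 : ((ℓ : ℕ) : F') = algebraMap K F' (π : K) * algebraMap K F' (c : K) := by
      rw [← map_mul]
      have h2 : ((ℓ : ℕ) : K) = (π : K) * (c : K) := by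
        have := congrArg (fun a : A₁ => (a : K)) hℓ
        simpa using this
      rw [← h2, map_natCast]
    rw [h1, inv_mul_cancel_left₀ hV'0.ne_zero]
    exact s34_gi_algebraMap_mem c
  -- (EXT) outputs
  obtain ⟨hint, hres⟩ := s34_ei_model_haupt (A₁ := A₁) hM hℓN hπ c hℓ W hWϖ hWα hWβ
  -- the Frobenius congruence in the `W`-form
  have hFC' : ∀ y ∈ s34_gi_V A₁ N,
      ((heckeAlphaBar K N ℓ).toRingHom (algebraMap K F' (π : K)))⁻¹ *
        (W (σ ((heckeAlphaBar K N ℓ).toRingHom y)) - (heckeAlphaBar K N ℓ).toRingHom y ^ ℓ) ∈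
          s34_gi_V A₁ (N * ℓ) := by
    intro y hy
    rw [hιϖ]
    have e : W (σ ((heckeAlphaBar K N ℓ).toRingHom y)) = heckeBetaBar K N ℓ (σ' y) := by
      show W (σ (heckeAlphaBar K N ℓ y)) = _
      rw [hσα, hWα]
    rw [e]
    exact hFC y hy
  have hfin := s35_nm_finrank K N ℓ hℓp hℓN
  have key := s35_nr_two_equiv (heckeAlphaBar K N ℓ).toRingHom ℓ hℓp hfin hV' hV₁ hV₂ hqϖ
    (fun y hy => (s34_gz_alpha_mem_iff y).mpr hy)
    (fun y hy => (s34_gz_alpha_mem_V0_iff W hπ hWα y).mpr hy)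
    hint (by rw [hιϖ]; exact hres) W σ (fun x => Iff.rfl) (by rw [hιϖ]; exact hWϖ)
    hσV (by rw [hιϖ]; exact hσϖ) σ' hσα hσ'V hFC'
  rw [hιϖ] at key
  exact key

end Model

end Fermat.Agent.S35
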