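import Mathlib
import Fermat.Agent.S35.NormInst
import Fermat.Agent.S35.SigmaModel
import Fermat.Agent.S34.GaussZeroInst

/-!
# S35, leaf (NRI), final form: the norm–residue congruence for the coefficientwise Frobenius

Setting of `NormInst.lean` / `SigmaModel.lean`: `K` a field of constants with a discrete valuation
ring `A₁` (uniformizer `π`, residue characteristic `ℓ`), `σ : K ≃ₐ[ℚ] K` a Frobenius lift
(`σ A₁ = A₁`, `σ a ≡ a ^ ℓ` modulo the maximal ideal), `σ₁ = arithmeticRingAut _ σ` its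
coefficientwise action on `K · F(N ℓ)`, `W` the swap.

* `s35_ni_hNR_sigma` : `π⁻¹ * (Nm h - h * σ₁ (W h)) ∈ V∞` for all `h ∈ V∞ ∩ V0`
  (`Nm = s35_nmAlong α`): the hypothesis `hNR` of `s35_fa_of_norm` with no open `σ`-hypothesis.
* `s35_ni_hNmσ_sigma` : `Nm (σ₁ x) = σ₁ (Nm x)`.
* `s35_ni_hNR_frob`, `s35_ni_hNmσ_frob` : the concrete case `K = K₁ ⊆ Q̄` normal over `ℚ`,
  `A₁ = A ∩ K₁`, `γ` a Frobenius element at `A`, `σ₁ = s34_gi_tau K₁ (N ℓ) γ`.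
-/

set_option autoImplicit false
set_option linter.unusedSectionVars false
set_option linter.style.haveILetI false
set_option synthInstance.maxHeartbeats 400000

open ModularCurve

noncomputable section

namespace Fermat.Agent.S35

open Fermat.Agent.S18 Fermat.Agent.S34

section Model

variable {K : Type*} [Field K] [Algebra ℚ K] [Algebra K (AlgebraicClosure ℚ)]
variable {A₁ : ValuationSubring K}
variable {N ℓ : ℕ} [NeZero N] [NeZero ℓ] [NeZero (N * ℓ)]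
variable [IsDiscreteValuationRing A₁] {π : A₁}

local notation "F'" => laurentBaseChange K (modularFunctionFieldFull N)
local notation "FF" => laurentBaseChange K (modularFunctionFieldFull (N * ℓ))

/-- `hNmσ` of `s35_fa_of_norm` for the coefficientwise action of an automorphism of `K`. -/
theorem s35_ni_hNmσ_sigma (σ : K ≃ₐ[ℚ] K) (x : FF) :
    s35_nmAlong (heckeAlphaBar K N ℓ).toRingHom
        (arithmeticRingAut (modularFunctionFieldFull (N * ℓ)) σ x) =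
      arithmeticRingAut (modularFunctionFieldFull (N * ℓ)) σ
        (s35_nmAlong (heckeAlphaBar K N ℓ).toRingHom x) :=
  s35_ni_hNmσ (arithmeticRingAut (modularFunctionFieldFull (N * ℓ)) σ)
    (arithmeticRingAut (modularFunctionFieldFull N) σ) (fun y => s35_sg_alpha_sigma σ y) x

set_option maxHeartbeats 1600000 in
/-- **(NRI), final form**: the norm–residue congruence in the model for the coefficientwise
action `σ₁` of a Frobenius lift `σ` of `K`. -/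
theorem s35_ni_hNR_sigma [Fact ℓ.Prime] [CharP (IsLocalRing.ResidueField A₁) ℓ]
    (hM : 2 ∣ N ∨ 3 ∣ N) (hℓN : ¬ ℓ ∣ N)
    (hπ : Irreducible π) (c : A₁) (hℓ : (ℓ : A₁) = π * c) (W : FF ≃+* FF)
    (hWϖ : W (algebraMap K FF (π : K)) = algebraMap K FF (π : K))
    (hWα : ∀ x : F', W (heckeAlphaBar K N ℓ x) = heckeBetaBar K N ℓ x)
    (hWβ : ∀ x : F', W (heckeBetaBar K N ℓ x) = heckeAlphaBar K N ℓ x)
    (σ : K ≃ₐ[ℚ] K) (hσ : ∀ a : K, a ∈ A₁ → σ a ∈ A₁)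
    (hσ' : ∀ a : K, a ∈ A₁ → σ.symm a ∈ A₁)
    (hfr : ∀ a : K, a ∈ A₁ → σ a - a ^ ℓ ∈ A₁.nonunits) :
    ∀ h : FF, h ≠ 0 → h ∈ s34_gi_V A₁ (N * ℓ) → h⁻¹ ∈ s34_gi_V A₁ (N * ℓ) →
      h ∈ (s34_gi_V A₁ (N * ℓ)).comap (W : FF →+* FF) →
      h⁻¹ ∈ (s34_gi_V A₁ (N * ℓ)).comap (W : FF →+* FF) →
      (algebraMap K FF (π : K))⁻¹ *
        (s35_nmAlong (heckeAlphaBar K N ℓ).toRingHom h -
          h * arithmeticRingAut (modularFunctionFieldFull (N * ℓ)) σ (W h)) ∈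
        s34_gi_V A₁ (N * ℓ) :=
  s35_ni_hNR hM hℓN hπ c hℓ W hWϖ hWα hWβ
    (arithmeticRingAut (modularFunctionFieldFull (N * ℓ)) σ)
    (arithmeticRingAut (modularFunctionFieldFull N) σ)
    (fun y => s35_sg_alpha_sigma σ y)
    (fun _ hx => s34_gi_tau_mem σ hσ hx)
    (s35_sg_C_le_V (s35_sg_hφϖ hπ σ hσ hσ'))
    (fun _ hy => s34_gi_tau_mem σ hσ hy)
    (fun y hy => s35_sg_frob_beta hπ σ hσ hfr y hy)

end Model

section Concrete

local notation "Qb" => AlgebraicClosure ℚ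

variable (A : ValuationSubring Qb) (K₁ : IntermediateField ℚ Qb) [Normal ℚ K₁]
variable {N ℓ : ℕ} [NeZero N] [NeZero ℓ] [NeZero (N * ℓ)]
variable [IsDiscreteValuationRing (s18_A1 A K₁)] {π : s18_A1 A K₁}

/-- `hNmσ` of `s35_fa_of_norm` for `σ₁ = s34_gi_tau K₁ (N ℓ) γ`. -/
theorem s35_ni_hNmσ_frob (γ : Qb ≃ₐ[ℚ] Qb) (x : s18_F1 K₁ (N * ℓ)) :
    s35_nmAlong (heckeAlphaBar K₁ N ℓ).toRingHom (s34_gi_tau K₁ (N * ℓ) γ x) =
      s34_gi_tau K₁ (N * ℓ) γ (s35_nmAlong (heckeAlphaBar K₁ N ℓ).toRingHom x) :=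
  s35_ni_hNmσ_sigma (γ.restrictNormal K₁) x

set_option maxHeartbeats 1600000 in
/-- **(NRI), concrete form**: for a Frobenius element `γ` at `A` (over `ℓ`), the coefficientwise
action `σ₁ = s34_gi_tau K₁ (N ℓ) γ` satisfies the norm–residue congruence
`π⁻¹ * (Nm h - h * σ₁ (W h)) ∈ V∞` for all `h ∈ V∞ ∩ V0`. -/
theorem s35_ni_hNR_frob [Fact ℓ.Prime] (hA : A.LiesOverPrime ℓ) {γ : Qb ≃ₐ[ℚ] Qb}
    (hγ : A.IsFrobeniusAt γ ℓ) (hM : 2 ∣ N ∨ 3 ∣ N) (hℓN : ¬ ℓ ∣ N) (hπ : Irreducible π)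
    (W : s18_F1 K₁ (N * ℓ) ≃+* s18_F1 K₁ (N * ℓ))
    (hWϖ : W (algebraMap K₁ (s18_F1 K₁ (N * ℓ)) (π : K₁)) =
      algebraMap K₁ (s18_F1 K₁ (N * ℓ)) (π : K₁))
    (hWα : ∀ x : s18_F1 K₁ N, W (heckeAlphaBar K₁ N ℓ x) = heckeBetaBar K₁ N ℓ x)
    (hWβ : ∀ x : s18_F1 K₁ N, W (heckeBetaBar K₁ N ℓ x) = heckeAlphaBar K₁ N ℓ x) :
    ∀ h : s18_F1 K₁ (N * ℓ), h ≠ 0 → h ∈ s34_gi_V (s18_A1 A K₁) (N * ℓ) →
      h⁻¹ ∈ s34_gi_V (s18_A1 A K₁) (N * ℓ) →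
      h ∈ (s34_gi_V (s18_A1 A K₁) (N * ℓ)).comap
        (W : s18_F1 K₁ (N * ℓ) →+* s18_F1 K₁ (N * ℓ)) →
      h⁻¹ ∈ (s34_gi_V (s18_A1 A K₁) (N * ℓ)).comap
        (W : s18_F1 K₁ (N * ℓ) →+* s18_F1 K₁ (N * ℓ)) →
      (algebraMap K₁ (s18_F1 K₁ (N * ℓ)) (π : K₁))⁻¹ *
        (s35_nmAlong (heckeAlphaBar K₁ N ℓ).toRingHom h -
          h * s34_gi_tau K₁ (N * ℓ) γ (W h)) ∈ s34_gi_V (s18_A1 A K₁) (N * ℓ) := by
  haveI : CharP (IsLocalRing.ResidueField (s18_A1 A K₁)) ℓ := s35_sg_charP A K₁ hA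
  obtain ⟨c, hc⟩ := s34_gzi_ell_dvd hπ ℓ
    (s35_sg_ell_inv_not_mem A K₁ (Fact.out : ℓ.Prime).ne_zero hA)
  exact s35_ni_hNR_sigma hM hℓN hπ c hc W hWϖ hWα hWβ (γ.restrictNormal K₁)
    (s35_sg_restrict_mem A K₁ hγ) (s35_sg_restrict_symm_mem A K₁ hγ)
    (s35_sg_restrict_frob A K₁ hγ)

end Concrete

end Fermat.Agent.S35
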