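import Mathlib
import Fermat.Agent.S35.InstDefs
import Fermat.Agent.S35.NormInstSigma

/-!
# S35, block (INST2): the contract fact (nr)

`s35_nq_ct_nr : s35_ct_nr` — the norm–residue formula `Nm h ≡ h · σ₁ (W h)` modulo `ϖ V∞` for
**all** `h ∈ V∞ ⊓ V0` (no unit hypotheses), in the vocabulary of the contract `InstDefs.lean`.

* `s35_nq_hNR` : the model form (σ-facts as hypotheses), the all-`h` twin of `s35_ni_hNR`;
* `s35_nq_hNR_sigma` : `σ₁` the coefficientwise action of a Frobenius lift of `K`;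
* `s35_nq_hNR_frob` : the concrete case `K = K₁ ⊆ Q̄`, `σ₁ = s34_gi_tau K₁ (N ℓ) γ`;
* `s35_nq_ct_nr` : the contract proposition.
-/

set_option autoImplicit false
set_option linter.unusedSectionVars false
set_option linter.style.haveILetI false
set_option synthInstance.maxHeartbeats 400000

open ModularCurve AlgebraicCurve

noncomputable section

namespace Fermat.Agent.S35

open Fermat.Agent.S18 Fermat.Agent.S34

section Model

variable {K : Type*} [Field K] [Algebra ℚ K] [Algebra K (AlgebraicClosure ℚ)]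
variable {A₁ : ValuationSubring K}
variable {N ℓ : ℕ} [NeZero N] [NeZero ℓ] [NeZero (N * ℓ)]
variable [IsDiscreteValuationRing A₁] {π : A₁}

local notation "F'" => laurentBaseChange K (modularFunctionFieldFull N)
local notation "FF" => laurentBaseChange K (modularFunctionFieldFull (N * ℓ))

set_option maxHeartbeats 1600000 in
/-- The norm–residue congruence in the model for all `h ∈ V∞ ⊓ V0` (the hypothesis `hNR` of
`s35_fc_data` / `s35_pow_of_model`), `σ`-facts as hypotheses. -/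
theorem s35_nq_hNR [Fact ℓ.Prime] (hM : 2 ∣ N ∨ 3 ∣ N) (hℓN : ¬ ℓ ∣ N)
    (hπ : Irreducible π) (c : A₁) (hℓ : (ℓ : A₁) = π * c) (W : FF ≃+* FF)
    (hWϖ : W (algebraMap K FF (π : K)) = algebraMap K FF (π : K))
    (hWα : ∀ x : F', W (heckeAlphaBar K N ℓ x) = heckeBetaBar K N ℓ x)
    (hWβ : ∀ x : F', W (heckeBetaBar K N ℓ x) = heckeAlphaBar K N ℓ x)
    (σ : FF ≃+* FF) (σ' : F' ≃+* F')
    (hσα : ∀ y : F', σ (heckeAlphaBar K N ℓ y) = heckeAlphaBar K N ℓ (σ' y))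
    (hσV : ∀ x ∈ s34_gi_V A₁ (N * ℓ), σ x ∈ s34_gi_V A₁ (N * ℓ))
    (hσϖ : (algebraMap K FF (π : K))⁻¹ * σ (algebraMap K FF (π : K)) ∈ s34_gi_V A₁ (N * ℓ))
    (hσ'V : ∀ y ∈ s34_gi_V A₁ N, σ' y ∈ s34_gi_V A₁ N)
    (hFC : ∀ y ∈ s34_gi_V A₁ N, (algebraMap K FF (π : K))⁻¹ *
      (heckeBetaBar K N ℓ (σ' y) - heckeAlphaBar K N ℓ y ^ ℓ) ∈ s34_gi_V A₁ (N * ℓ)) :
    ∀ h : FF, h ∈ s34_gi_V A₁ (N * ℓ) →
      h ∈ (s34_gi_V A₁ (N * ℓ)).comap (W : FF →+* FF) →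
      (algebraMap K FF (π : K))⁻¹ *
        (s35_nmAlong (heckeAlphaBar K N ℓ).toRingHom h - h * σ (W h)) ∈ s34_gi_V A₁ (N * ℓ) := by
  have hℓp : ℓ.Prime := Fact.out
  haveI : CharZero K := algebraRat.charZero K
  haveI : CharZero F' := charZero_of_injective_algebraMap (algebraMap K F').injective
  have hιϖ : (heckeAlphaBar K N ℓ).toRingHom (algebraMap K F' (π : K)) =
      algebraMap K FF (π : K) := (heckeAlphaBar K N ℓ).commutes (π : K)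
  -- uniformizers
  have hV'0 := s34_gi_unif (A₁ := A₁) (N := N) hπ
  have hV' : s35_Unif (algebraMap K F' (π : K)) (s34_gi_V A₁ N) :=
    ⟨hV'0.mem, hV'0.inv_not_mem, hV'0.decomp⟩
  have hV₁0 := s34_gi_unif (A₁ := A₁) (N := N * ℓ) hπ
  have hV₁ : s35_Unif ((heckeAlphaBar K N ℓ).toRingHom (algebraMap K F' (π : K)))
      (s34_gi_V A₁ (N * ℓ)) := by
    rw [hιϖ]
    exact ⟨hV₁0.mem, hV₁0.inv_not_mem, hV₁0.decomp⟩
  have hV₂0 := s34_gz_V0_unif (A₁ := A₁) (N := N) (ℓ := ℓ) W hπ hWϖ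
  have hV₂ : s35_Unif ((heckeAlphaBar K N ℓ).toRingHom (algebraMap K F' (π : K)))
      ((s34_gi_V A₁ (N * ℓ)).comap (W : FF →+* FF)) := by
    rw [hιϖ]
    exact ⟨hV₂0.mem, hV₂0.inv_not_mem, hV₂0.decomp⟩
  -- residue characteristic
  have hqϖ : (algebraMap K F' (π : K))⁻¹ * ((ℓ : ℕ) : F') ∈ s34_gi_V A₁ N := by
    have h1 : ((ℓ : ℕ) : F') = algebraMap K F' (π : K) * algebraMap K F' (c : K) := by
      rw [← map_mul]
      have h2 : ((ℓ : ℕ) : K) = (π : K) * (c : K) := by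
        have := congrArg (fun a : A₁ => (a : K)) hℓ
        simpa using this
      rw [← h2, map_natCast]
    rw [h1, inv_mul_cancel_left₀ hV'0.ne_zero]
    exact s34_gi_algebraMap_mem c
  -- (EXT) outputs
  obtain ⟨hint, hres⟩ := s34_ei_model_haupt (A₁ := A₁) hM hℓN hπ c hℓ W hWϖ hWα hWβ
  -- the Frobenius congruence in the `W`-form
  have hFC' : ∀ y ∈ s34_gi_V A₁ N,
      ((heckeAlphaBar K N ℓ).toRingHom (algebraMap K F' (π : K)))⁻¹ *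
        (W (σ ((heckeAlphaBar K N ℓ).toRingHom y)) - (heckeAlphaBar K N ℓ).toRingHom y ^ ℓ) ∈
          s34_gi_V A₁ (N * ℓ) := by
    intro y hy
    rw [hιϖ]
    have e : W (σ ((heckeAlphaBar K N ℓ).toRingHom y)) = heckeBetaBar K N ℓ (σ' y) := by
      show W (σ (heckeAlphaBar K N ℓ y)) = _
      rw [hσα, hWα]
    rw [e]
    exact hFC y hy
  have hfin := s35_nm_finrank K N ℓ hℓp hℓN
  intro h hh₁ hh₂
  have key := s35_nr_two (heckeAlphaBar K N ℓ).toRingHom ℓ hℓp hfin hV' hV₁ hV₂ hqϖ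
    (fun y hy => (s34_gz_alpha_mem_iff y).mpr hy)
    (fun y hy => (s34_gz_alpha_mem_V0_iff W hπ hWα y).mpr hy)
    hint (by rw [hιϖ]; exact hres) (W : FF →+* FF) (σ : FF →+* FF) (fun x => Iff.rfl)
    (by rw [hιϖ]; exact hWϖ)
    hσV (by rw [hιϖ]; exact hσϖ) (σ' : F' →+* F') hσα hσ'V hFC' hh₁ hh₂
  rw [hιϖ] at key
  exact key

set_option maxHeartbeats 1600000 in
/-- The norm–residue congruence for all `h ∈ V∞ ⊓ V0`, for the coefficientwise action `σ₁` of a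
Frobenius lift `σ` of `K`. -/
theorem s35_nq_hNR_sigma [Fact ℓ.Prime] [CharP (IsLocalRing.ResidueField A₁) ℓ]
    (hM : 2 ∣ N ∨ 3 ∣ N) (hℓN : ¬ ℓ ∣ N)
    (hπ : Irreducible π) (c : A₁) (hℓ : (ℓ : A₁) = π * c) (W : FF ≃+* FF)
    (hWϖ : W (algebraMap K FF (π : K)) = algebraMap K FF (π : K))
    (hWα : ∀ x : F', W (heckeAlphaBar K N ℓ x) = heckeBetaBar K N ℓ x)
    (hWβ : ∀ x : F', W (heckeBetaBar K N ℓ x) = heckeAlphaBar K N ℓ x)
    (σ : K ≃ₐ[ℚ] K) (hσ : ∀ a : K, a ∈ A₁ → σ a ∈ A₁)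
    (hσ' : ∀ a : K, a ∈ A₁ → σ.symm a ∈ A₁)
    (hfr : ∀ a : K, a ∈ A₁ → σ a - a ^ ℓ ∈ A₁.nonunits) :
    ∀ h : FF, h ∈ s34_gi_V A₁ (N * ℓ) →
      h ∈ (s34_gi_V A₁ (N * ℓ)).comap (W : FF →+* FF) →
      (algebraMap K FF (π : K))⁻¹ *
        (s35_nmAlong (heckeAlphaBar K N ℓ).toRingHom h -
          h * arithmeticRingAut (modularFunctionFieldFull (N * ℓ)) σ (W h)) ∈
        s34_gi_V A₁ (N * ℓ) :=
  s35_nq_hNR hM hℓN hπ c hℓ W hWϖ hWα hWβ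
    (arithmeticRingAut (modularFunctionFieldFull (N * ℓ)) σ)
    (arithmeticRingAut (modularFunctionFieldFull N) σ)
    (fun y => s35_sg_alpha_sigma σ y)
    (fun _ hx => s34_gi_tau_mem σ hσ hx)
    (s35_sg_C_le_V (s35_sg_hφϖ hπ σ hσ hσ'))
    (fun _ hy => s34_gi_tau_mem σ hσ hy)
    (fun y hy => s35_sg_frob_beta hπ σ hσ hfr y hy)

end Model

section Concrete

local notation "Qb" => AlgebraicClosure ℚ

variable (A : ValuationSubring Qb) (K₁ : IntermediateField ℚ Qb) [Normal ℚ K₁]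
variable {N ℓ : ℕ} [NeZero N] [NeZero ℓ] [NeZero (N * ℓ)]
variable [IsDiscreteValuationRing (s18_A1 A K₁)] {π : s18_A1 A K₁}

set_option maxHeartbeats 1600000 in
/-- The norm–residue congruence for all `h ∈ V∞ ⊓ V0`, for a Frobenius element `γ` at `A`
(over `ℓ`) and `σ₁ = s34_gi_tau K₁ (N ℓ) γ`. -/
theorem s35_nq_hNR_frob [Fact ℓ.Prime] (hA : A.LiesOverPrime ℓ) {γ : Qb ≃ₐ[ℚ] Qb}
    (hγ : A.IsFrobeniusAt γ ℓ) (hM : 2 ∣ N ∨ 3 ∣ N) (hℓN : ¬ ℓ ∣ N) (hπ : Irreducible π)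
    (W : s18_F1 K₁ (N * ℓ) ≃+* s18_F1 K₁ (N * ℓ))
    (hWϖ : W (algebraMap K₁ (s18_F1 K₁ (N * ℓ)) (π : K₁)) =
      algebraMap K₁ (s18_F1 K₁ (N * ℓ)) (π : K₁))
    (hWα : ∀ x : s18_F1 K₁ N, W (heckeAlphaBar K₁ N ℓ x) = heckeBetaBar K₁ N ℓ x)
    (hWβ : ∀ x : s18_F1 K₁ N, W (heckeBetaBar K₁ N ℓ x) = heckeAlphaBar K₁ N ℓ x) :
    ∀ h : s18_F1 K₁ (N * ℓ), h ∈ s34_gi_V (s18_A1 A K₁) (N * ℓ) →
      h ∈ (s34_gi_V (s18_A1 A K₁) (N * ℓ)).comap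
        (W : s18_F1 K₁ (N * ℓ) →+* s18_F1 K₁ (N * ℓ)) →
      (algebraMap K₁ (s18_F1 K₁ (N * ℓ)) (π : K₁))⁻¹ *
        (s35_nmAlong (heckeAlphaBar K₁ N ℓ).toRingHom h -
          h * s34_gi_tau K₁ (N * ℓ) γ (W h)) ∈ s34_gi_V (s18_A1 A K₁) (N * ℓ) := by
  haveI : CharP (IsLocalRing.ResidueField (s18_A1 A K₁)) ℓ := s35_sg_charP A K₁ hA
  obtain ⟨c, hc⟩ := s34_gzi_ell_dvd hπ ℓ
    (s35_sg_ell_inv_not_mem A K₁ (Fact.out : ℓ.Prime).ne_zero hA)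
  exact s35_nq_hNR_sigma hM hℓN hπ c hc W hWϖ hWα hWβ (γ.restrictNormal K₁)
    (s35_sg_restrict_mem A K₁ hγ) (s35_sg_restrict_symm_mem A K₁ hγ)
    (s35_sg_restrict_frob A K₁ hγ)

end Concrete

set_option maxHeartbeats 1600000 in
/-- **Contract (nr).** -/
theorem s35_nq_ct_nr : s35_ct_nr := by
  intro N₁ q _ _ _ hqN P hP K₁ _ _ _ π hπ tL htL W hW γ hγ
  haveI : NeZero q := ⟨(Fact.out : q.Prime).ne_zero⟩
  obtain ⟨hWα, hWβ, -, -, -⟩ := hW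
  have hM : 2 ∣ N₁ ∨ 3 ∣ N₁ := htL.elim (fun h => Or.inl h.2) (fun h => Or.inr h.2)
  intro h hh₁ hh₂
  exact s35_nq_hNR_frob P K₁ hP hγ hM hqN hπ W.toRingEquiv (W.commutes _) hWα hWβ h hh₁ hh₂

end Fermat.Agent.S35

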