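import Mathlib
import Fermat.Agent.S34.TauModel

/-!
# S35 (NODE-2), leaf (SIG)(3): Frobenius at a crossing point

Abstract core (Mathlib only).  `B` a subring of a field `F` containing the image of `A₀`, `𝔪` an
ideal of `B` containing the two component ideals `Pinf`, `P0` and the uniformizer, `s` a ring
endomorphism of `F` preserving `B`, acting on the constants through `γ : A₀ →+* A₀` with
`γ a ≡ a ^ (q²) mod π`, fixing the rational chart `C`.  Under the hypotheses `hspan`, `hfrob`,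
`hsum`, `hres` of `s34_n3_transversal` (verbatim shapes) and `hker`:

* `s35_sn_frob_node` : `s 𝔪 ⊆ 𝔪` and `s x - x ^ (q²) ∈ 𝔪` for every `x ∈ B`.

Model part.  `F = K · F(N)`, `A₁` a discrete valuation subring of `K`, `σ : K ≃ₐ[ℚ] K` preserving
`A₁` with `σ a ≡ a ^ q mod π`, `τ = arithmeticRingAut σ` the coefficientwise action,
`s = τ ∘ τ`, `𝔓∞ = B ∩ ϖ V∞` (`V∞ = s34_gi_V A₁ N`), `C` a set of functions with rational
`q`-expansions: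

* `s35_sn_frob_gen` : (S3) for `s` from `hspan`, `hfrob`, `hsum`, `hres`;
* `s35_sn_frob_model` : the same for `K = K₁ ⊆ Q̄`, `A₁ = A ∩ K₁`, `σ = γ|K₁`, `γ` a Frobenius
  element at `A` (`A.IsFrobeniusAt γ q`), `τ = s34_gi_tau K₁ L γ`;
* `s35_sn_sq_chart`, `s35_sn_sq_pi`, `s35_sn_sq_V` : `s B ⊆ B` for the integral-closure charts,
  `s ϖ = c ϖ`, `s V∞ ⊆ V∞`.
-/

set_option autoImplicit false
set_option linter.unusedSectionVars false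
set_option synthInstance.maxHeartbeats 400000

open ModularCurve

open scoped Pointwise

noncomputable section

namespace Fermat.Agent.S35

open Fermat.Agent.S18 Fermat.Agent.S34

/-- Congruent elements have congruent powers. -/
theorem s35_sn_pow_sub_pow_mem {R : Type*} [CommRing R] (I : Ideal R) {a b : R} (h : a - b ∈ I)
    (n : ℕ) : a ^ n - b ^ n ∈ I := by
  obtain ⟨c, hc⟩ := sub_dvd_pow_sub_pow a b n
  rw [hc]
  exact I.mul_mem_right _ h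

/-- **(S3): Frobenius at a crossing point.**  The semilinear endomorphism `s` stabilises the
crossing point `𝔪` and induces the `q²`-power map on `B / 𝔪`. -/
theorem s35_sn_frob_node {A₀ F : Type*} [CommRing A₀] [Field F] [Algebra A₀ F] (π : A₀)
    (B : Subring F) (hAB : ∀ a : A₀, algebraMap A₀ F a ∈ B)
    (𝔪 Pinf P0 : Ideal B) (hPinf : Pinf ≤ 𝔪) (hP0 : P0 ≤ 𝔪)
    (hπ𝔪 : (⟨algebraMap A₀ F π, hAB π⟩ : B) ∈ 𝔪)
    (q : ℕ) (hq : 0 < q)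
    (B₁ : Subring F) (C : Set F) (hCB : ∀ f ∈ C, f ∈ B)
    (hspan : ∀ x ∈ B₁, x ∈ AddSubgroup.closure
      {z : F | ∃ (a : A₀) (f : F), f ∈ C ∧ z = algebraMap A₀ F a * f})
    (hfrob : ∀ f : B, (f : F) ∈ C → ∃ g : B, g - f ^ q ∈ Pinf ∧ g ^ q - f ∈ P0)
    (hsum : ∀ x : B, ∃ x' : B, (x' : F) ∈ B₁ ∧ x - x' ∈ Pinf)
    (hres : ∀ b : B, ∃ a : A₀, b - ⟨algebraMap A₀ F a, hAB a⟩ ∈ 𝔪)
    (hker : ∀ a : A₀, (⟨algebraMap A₀ F a, hAB a⟩ : B) ∈ 𝔪 → ∃ a', a = π * a')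
    (s : F →+* F) (hsB : ∀ x ∈ B, s x ∈ B)
    (γ : A₀ →+* A₀) (hsA : ∀ a : A₀, s (algebraMap A₀ F a) = algebraMap A₀ F (γ a))
    (hγ : ∀ a : A₀, ∃ b : A₀, γ a - a ^ (q ^ 2) = π * b)
    (hsC : ∀ f ∈ C, s f = f)
    (hsP : ∀ x : B, x ∈ Pinf → (⟨s x, hsB x x.2⟩ : B) ∈ 𝔪) :
    (∀ x : B, x ∈ 𝔪 → (⟨s x, hsB x x.2⟩ : B) ∈ 𝔪) ∧
      ∀ x : B, (⟨s x, hsB x x.2⟩ : B) - x ^ (q ^ 2) ∈ 𝔪 := by
  classical
  -- the structure maps as ring homomorphisms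
  set φ : A₀ →+* B := (algebraMap A₀ F).codRestrict B hAB with hφ
  set sB : B →+* B := (s.comp B.subtype).codRestrict B (fun x => hsB x x.2) with hsBdef
  have hφ_apply : ∀ a : A₀, φ a = ⟨algebraMap A₀ F a, hAB a⟩ := fun a => rfl
  have hsB_apply : ∀ x : B, sB x = ⟨s x, hsB x x.2⟩ := fun x => rfl
  have hπ' : φ π ∈ 𝔪 := hπ𝔪
  -- (F1) `s` on constants
  have F1 : ∀ a : A₀, sB (φ a) = φ (γ a) := fun a => Subtype.ext (hsA a)
  -- (F2) `γ` is the `q²`-power map modulo `𝔪`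
  have F2 : ∀ a : A₀, φ (γ a) - φ a ^ (q ^ 2) ∈ 𝔪 := by
    intro a
    obtain ⟨b, hb⟩ := hγ a
    have h1 : φ (γ a) - φ a ^ (q ^ 2) = φ π * φ b := by
      rw [← map_pow, ← map_sub, hb, map_mul]
    rw [h1]
    exact 𝔪.mul_mem_right _ hπ'
  -- (F3) rational functions take values in `𝔽_{q²}` at the crossing point
  have F3 : ∀ f : B, (f : F) ∈ C → f ^ (q ^ 2) - f ∈ 𝔪 := by
    intro f hf
    obtain ⟨g, hg1, hg2⟩ := hfrob f hf
    have h1 : g ^ q - (f ^ q) ^ q ∈ 𝔪 := s35_sn_pow_sub_pow_mem 𝔪 (hPinf hg1) q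
    have h2 : (f ^ q) ^ q = f ^ (q ^ 2) := by rw [← pow_mul, pow_two]
    rw [h2] at h1
    have h3 : f ^ (q ^ 2) - f = (g ^ q - f) - (g ^ q - f ^ (q ^ 2)) := by ring
    rw [h3]
    exact 𝔪.sub_mem (hP0 hg2) h1
  -- (F5) the value of a rational function at the crossing point is fixed by `γ`
  have F5 : ∀ f : B, (f : F) ∈ C → ∃ c : A₀, f - φ c ∈ 𝔪 ∧ φ (γ c) - φ c ∈ 𝔪 := by
    intro f hf
    obtain ⟨c, hc⟩ := hres f
    refine ⟨c, hc, ?_⟩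
    have h1 : f ^ (q ^ 2) - φ c ^ (q ^ 2) ∈ 𝔪 := s35_sn_pow_sub_pow_mem 𝔪 hc (q ^ 2)
    have h2 : φ (γ c) - φ c = (φ (γ c) - φ c ^ (q ^ 2)) - (f ^ (q ^ 2) - φ c ^ (q ^ 2))
        + (f ^ (q ^ 2) - f) + (f - φ c) := by ring
    rw [h2]
    exact 𝔪.add_mem (𝔪.add_mem (𝔪.sub_mem (F2 c) h1) (F3 f hf)) hc
  -- (F6) on the span of the rational chart, `s` is `γ` on values
  have F6 : ∀ z : F, z ∈ AddSubgroup.closure
      {z : F | ∃ (a : A₀) (f : F), f ∈ C ∧ z = algebraMap A₀ F a * f} →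
      ∃ (hz : z ∈ B) (c : A₀), (⟨z, hz⟩ : B) - φ c ∈ 𝔪 ∧ sB ⟨z, hz⟩ - φ (γ c) ∈ 𝔪 := by
    intro z hz
    induction hz using AddSubgroup.closure_induction with
    | mem z hz =>
        obtain ⟨a, f, hf, rfl⟩ := hz
        obtain ⟨c, h1, h2⟩ := F5 ⟨f, hCB f hf⟩ hf
        refine ⟨B.mul_mem (hAB a) (hCB f hf), a * c, ?_, ?_⟩
        · have h3 : (⟨algebraMap A₀ F a * f, B.mul_mem (hAB a) (hCB f hf)⟩ : B) - φ (a * c) =
              φ a * ((⟨f, hCB f hf⟩ : B) - φ c) := by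
            rw [map_mul, mul_sub]
            rfl
          rw [h3]
          exact 𝔪.mul_mem_left _ h1
        · have h3 : sB (⟨algebraMap A₀ F a * f, B.mul_mem (hAB a) (hCB f hf)⟩ : B) =
              φ (γ a) * (⟨f, hCB f hf⟩ : B) := by
            apply Subtype.ext
            show s (algebraMap A₀ F a * f) = algebraMap A₀ F (γ a) * f
            rw [map_mul, hsA, hsC f hf]
          have h4 : φ (γ a) * (⟨f, hCB f hf⟩ : B) - φ (γ (a * c)) =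
              φ (γ a) * (((⟨f, hCB f hf⟩ : B) - φ c) - (φ (γ c) - φ c)) := by
            rw [map_mul, map_mul]
            ring
          rw [h3, h4]
          exact 𝔪.mul_mem_left _ (𝔪.sub_mem h1 h2)
    | zero =>
        refine ⟨B.zero_mem, 0, ?_, ?_⟩
        · have : (⟨0, B.zero_mem⟩ : B) - φ 0 = 0 := by
            rw [map_zero, sub_zero]
            rfl
          rw [this]
          exact 𝔪.zero_mem
        · have : sB (⟨0, B.zero_mem⟩ : B) - φ (γ 0) = 0 := by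
            have h0 : (⟨0, B.zero_mem⟩ : B) = 0 := rfl
            rw [h0, map_zero, map_zero, map_zero, sub_zero]
          rw [this]
          exact 𝔪.zero_mem
    | add x y _ _ hx hy =>
        obtain ⟨hxB, c₁, h1, h2⟩ := hx
        obtain ⟨hyB, c₂, h3, h4⟩ := hy
        refine ⟨B.add_mem hxB hyB, c₁ + c₂, ?_, ?_⟩
        · have h5 : (⟨x + y, B.add_mem hxB hyB⟩ : B) - φ (c₁ + c₂) =
              ((⟨x, hxB⟩ : B) - φ c₁) + ((⟨y, hyB⟩ : B) - φ c₂) := by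
            rw [map_add]
            have h6 : (⟨x + y, B.add_mem hxB hyB⟩ : B) = ⟨x, hxB⟩ + ⟨y, hyB⟩ := rfl
            rw [h6]
            ring
          rw [h5]
          exact 𝔪.add_mem h1 h3
        · have h5 : sB (⟨x + y, B.add_mem hxB hyB⟩ : B) - φ (γ (c₁ + c₂)) =
              (sB (⟨x, hxB⟩ : B) - φ (γ c₁)) + (sB (⟨y, hyB⟩ : B) - φ (γ c₂)) := by
            have h6 : (⟨x + y, B.add_mem hxB hyB⟩ : B) = ⟨x, hxB⟩ + ⟨y, hyB⟩ := rfl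
            rw [h6, map_add, map_add, map_add]
            ring
          rw [h5]
          exact 𝔪.add_mem h2 h4
    | neg x _ hx =>
        obtain ⟨hxB, c, h1, h2⟩ := hx
        refine ⟨B.neg_mem hxB, -c, ?_, ?_⟩
        · have h5 : (⟨-x, B.neg_mem hxB⟩ : B) - φ (-c) = -((⟨x, hxB⟩ : B) - φ c) := by
            have h6 : (⟨-x, B.neg_mem hxB⟩ : B) = -⟨x, hxB⟩ := rfl
            rw [h6, map_neg]
            ring
          rw [h5]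
          exact 𝔪.neg_mem h1
        · have h5 : sB (⟨-x, B.neg_mem hxB⟩ : B) - φ (γ (-c)) = -(sB (⟨x, hxB⟩ : B) - φ (γ c)) := by
            have h6 : (⟨-x, B.neg_mem hxB⟩ : B) = -⟨x, hxB⟩ := rfl
            rw [h6, map_neg, map_neg, map_neg]
            ring
          rw [h5]
          exact 𝔪.neg_mem h2
  -- `γ π ∈ π A₀`
  have hγπ : φ (γ π) ∈ 𝔪 := by
    obtain ⟨b, hb⟩ := hγ π
    have h1 : γ π = π * (π ^ (q ^ 2 - 1) + b) := by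
      have h2 : π ^ (q ^ 2) = π * π ^ (q ^ 2 - 1) := by
        rw [← pow_succ']
        congr 1
        have : 0 < q ^ 2 := pow_pos hq 2
        omega
      rw [mul_add, ← h2, ← hb]
      ring
    rw [h1, map_mul]
    exact 𝔪.mul_mem_right _ hπ'
  -- (F7) `s` maps `𝔪 ∩ B₁` into `𝔪`
  have F7 : ∀ x' : B, (x' : F) ∈ B₁ → x' ∈ 𝔪 → sB x' ∈ 𝔪 := by
    intro x' hx'B₁ hx'𝔪
    obtain ⟨hz, c, h1, h2⟩ := F6 (x' : F) (hspan _ hx'B₁)
    have hx'eq : (⟨(x' : F), hz⟩ : B) = x' := rfl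
    rw [hx'eq] at h1 h2
    have hc : φ c ∈ 𝔪 := by
      have h3 : φ c = x' - (x' - φ c) := by ring
      rw [h3]
      exact 𝔪.sub_mem hx'𝔪 h1
    obtain ⟨c', rfl⟩ := hker c hc
    have h4 : φ (γ (π * c')) ∈ 𝔪 := by
      rw [map_mul, map_mul]
      exact 𝔪.mul_mem_right _ hγπ
    have h5 : sB x' = (sB x' - φ (γ (π * c'))) + φ (γ (π * c')) := by ring
    rw [h5]
    exact 𝔪.add_mem h2 h4
  -- (F8) `s 𝔪 ⊆ 𝔪`
  have F8 : ∀ x : B, x ∈ 𝔪 → sB x ∈ 𝔪 := by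
    intro x hx
    obtain ⟨x', hx'B₁, hp⟩ := hsum x
    have hx' : x' ∈ 𝔪 := by
      have h3 : x' = x - (x - x') := by ring
      rw [h3]
      exact 𝔪.sub_mem hx (hPinf hp)
    have h4 : sB x = sB x' + sB (x - x') := by
      rw [← map_add]
      congr 1
      ring
    rw [h4]
    exact 𝔪.add_mem (F7 x' hx'B₁ hx') (hsP _ hp)
  refine ⟨F8, fun x => ?_⟩
  obtain ⟨a, ha⟩ := hres x
  have h1 : x ^ (q ^ 2) - φ a ^ (q ^ 2) ∈ 𝔪 := s35_sn_pow_sub_pow_mem 𝔪 ha (q ^ 2)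
  have h2 : sB x - x ^ (q ^ 2) =
      sB (x - φ a) + (φ (γ a) - φ a ^ (q ^ 2)) - (x ^ (q ^ 2) - φ a ^ (q ^ 2)) := by
    rw [map_sub, F1]
    ring
  show sB x - x ^ (q ^ 2) ∈ 𝔪
  rw [h2]
  exact 𝔪.sub_mem (𝔪.add_mem (F8 _ ha) (F2 a)) h1

/-- The square of an endomorphism which is the `q`-power map modulo `π` is the `q²`-power map
modulo `π`. -/
theorem s35_sn_frob_sq {A₀ : Type*} [CommRing A₀] (π : A₀) (γ : A₀ →+* A₀) (q : ℕ) (hq : 0 < q)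
    (hγ : ∀ a : A₀, ∃ b : A₀, γ a - a ^ q = π * b) :
    ∀ a : A₀, ∃ b : A₀, γ (γ a) - a ^ (q ^ 2) = π * b := by
  intro a
  obtain ⟨b, hb⟩ := hγ a
  obtain ⟨b', hb'⟩ := hγ π
  obtain ⟨c, hc⟩ := sub_dvd_pow_sub_pow (γ a) (a ^ q) q
  have h1 : γ a = a ^ q + π * b := by rw [← hb]; ring
  have h2 : γ π = π * (π ^ (q - 1) + b') := by
    have h : π ^ q = π * π ^ (q - 1) := by
      rw [← pow_succ']
      congr 1
      omega
    rw [mul_add, ← h, ← hb']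
    ring
  refine ⟨b * c + (π ^ (q - 1) + b') * γ b, ?_⟩
  have h3 : γ (γ a) = (γ a) ^ q + γ π * γ b := by
    conv_lhs => rw [h1]
    rw [map_add, map_pow, map_mul]
  have h4 : (a ^ q) ^ q = a ^ (q ^ 2) := by rw [← pow_mul, pow_two]
  have h5 : γ a ^ q - (a ^ q) ^ q = π * b * c := by rw [hc, hb]
  rw [h3, ← h4, h2]
  linear_combination h5

section Generic

variable {N : ℕ} {K : Type*} [Field K] [Algebra ℚ K] {A₁ : ValuationSubring K}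

local notation "FK" => laurentBaseChange K (modularFunctionFieldFull N)

/-- The coefficientwise action fixes functions with rational `q`-expansion. -/
theorem s35_sn_fix_rat (σ : K ≃ₐ[ℚ] K) (f : FK) (x₀ : LaurentSeries ℚ)
    (hf : (f : LaurentSeries K) = coeffMap (algebraMap ℚ K) x₀) :
    arithmeticRingAut (modularFunctionFieldFull N) σ f = f := by
  apply Subtype.ext
  rw [coe_arithmeticRingAut_apply, hf]
  exact coeffMap_coeffEmb σ x₀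

/-- The coefficientwise action on constants of `A₁`. -/
theorem s35_sn_tau_const (σ : K ≃ₐ[ℚ] K) (hσ : ∀ a : K, a ∈ A₁ → σ a ∈ A₁) (a : A₁) :
    arithmeticRingAut (modularFunctionFieldFull N) σ (algebraMap A₁ FK a) =
      algebraMap A₁ FK (s34_gi_resAut σ hσ a) :=
  s34_tm_algebraMap σ hσ a

variable [IsDiscreteValuationRing A₁] {π : A₁}

/-- `τ ϖ = c ϖ` with `c` a unit constant. -/
theorem s35_sn_tau_pi (hπ : Irreducible π) (σ : K ≃ₐ[ℚ] K) (hσ : ∀ a : K, a ∈ A₁ → σ a ∈ A₁)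
    (hσ' : ∀ a : K, a ∈ A₁ → σ.symm a ∈ A₁) :
    ∃ u : A₁ˣ, arithmeticRingAut (modularFunctionFieldFull N) σ (algebraMap A₁ FK π) =
      algebraMap A₁ FK (u : A₁) * algebraMap A₁ FK π := by
  obtain ⟨u, hu⟩ := s34_tm_unif σ hσ hσ' hπ
  refine ⟨u, ?_⟩
  have key : s34_tm_resEquiv σ hσ hσ' π = (u : A₁) * π := by rw [hu, mul_comm]
  rw [s34_tm_algebraMap σ hσ, ← map_mul]
  exact congrArg (algebraMap A₁ FK) key

/-- The coefficientwise action preserves `ϖ V∞`. -/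
theorem s35_sn_tau_dvd (hπ : Irreducible π) (σ : K ≃ₐ[ℚ] K) (hσ : ∀ a : K, a ∈ A₁ → σ a ∈ A₁)
    (hσ' : ∀ a : K, a ∈ A₁ → σ.symm a ∈ A₁) (y : FK)
    (hy : (algebraMap A₁ FK π)⁻¹ * y ∈ s34_gi_V A₁ N) :
    (algebraMap A₁ FK π)⁻¹ * arithmeticRingAut (modularFunctionFieldFull N) σ y ∈
      s34_gi_V A₁ N := by
  obtain ⟨u, hu⟩ := s35_sn_tau_pi (N := N) hπ σ hσ hσ'
  have h1 := s34_gi_tau_mem σ hσ hy
  rw [map_mul, map_inv₀, hu] at h1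
  have hu0 : algebraMap A₁ FK (u : A₁) ≠ 0 := (u.isUnit.map (algebraMap A₁ FK)).ne_zero
  have hϖ0 : algebraMap A₁ FK π ≠ 0 := (s34_gi_unif (N := N) hπ).ne_zero
  have h2 : (algebraMap A₁ FK π)⁻¹ * arithmeticRingAut (modularFunctionFieldFull N) σ y =
      algebraMap A₁ FK (u : A₁) * ((algebraMap A₁ FK (u : A₁) * algebraMap A₁ FK π)⁻¹ *
        arithmeticRingAut (modularFunctionFieldFull N) σ y) := by
    field_simp
  rw [h2]
  exact (s34_gi_V A₁ N).mul_mem (s34_gi_algebraMap_mem (u : A₁)) h1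

/-- **(S3) in the model, generic constant field.** -/
theorem s35_sn_frob_gen (hπ : Irreducible π) (σ : K ≃ₐ[ℚ] K)
    (hσ : ∀ a : K, a ∈ A₁ → σ a ∈ A₁) (hσ' : ∀ a : K, a ∈ A₁ → σ.symm a ∈ A₁)
    (q : ℕ) (hq : 0 < q)
    (hσq : ∀ a : A₁, ∃ b : A₁, s34_gi_resAut σ hσ a - a ^ q = π * b)
    (s : FK ≃+* FK)
    (hs : ∀ x : FK, s x = arithmeticRingAut (modularFunctionFieldFull N) σ
      (arithmeticRingAut (modularFunctionFieldFull N) σ x))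
    (B : Subring FK) (hAB : ∀ a : A₁, algebraMap A₁ FK a ∈ B) (hsB : ∀ x ∈ B, s x ∈ B)
    (𝔪 Pinf P0 : Ideal B) (h𝔪 : 𝔪 ≠ ⊤) (hPinf : Pinf ≤ 𝔪) (hP0 : P0 ≤ 𝔪)
    (hπ𝔪 : (⟨algebraMap A₁ FK π, hAB π⟩ : B) ∈ 𝔪)
    (hPV : ∀ x : B, x ∈ Pinf ↔ (algebraMap A₁ FK π)⁻¹ * (x : FK) ∈ s34_gi_V A₁ N)
    (B₁ : Subring FK) (C : Set FK) (hCB : ∀ f ∈ C, f ∈ B)
    (hCrat : ∀ f ∈ C, ∃ x₀ : LaurentSeries ℚ,
      ((f : FK) : LaurentSeries K) = coeffMap (algebraMap ℚ K) x₀)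
    (hspan : ∀ x ∈ B₁, x ∈ AddSubgroup.closure
      {z : FK | ∃ (a : A₁) (f : FK), f ∈ C ∧ z = algebraMap A₁ FK a * f})
    (hfrob : ∀ f : B, (f : FK) ∈ C → ∃ g : B, g - f ^ q ∈ Pinf ∧ g ^ q - f ∈ P0)
    (hsum : ∀ x : B, ∃ x' : B, (x' : FK) ∈ B₁ ∧ x - x' ∈ Pinf)
    (hres : ∀ b : B, ∃ a : A₁, b - ⟨algebraMap A₁ FK a, hAB a⟩ ∈ 𝔪) :
    (∀ x : B, x ∈ 𝔪 → (⟨s x, hsB x x.2⟩ : B) ∈ 𝔪) ∧
      ∀ b : B, (⟨s b, hsB b b.2⟩ - b ^ (q ^ 2) : B) ∈ 𝔪 := by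
  -- `𝔪 ∩ A₁ = π A₁`
  have hker : ∀ a : A₁, (⟨algebraMap A₁ FK a, hAB a⟩ : B) ∈ 𝔪 → ∃ a', a = π * a' := by
    intro a ha
    refine s34_gi_res_dvd hπ a ((IsLocalRing.residue_eq_zero_iff _).mpr fun hu => h𝔪 ?_)
    obtain ⟨v, hv⟩ := hu.exists_right_inv
    rw [Ideal.eq_top_iff_one]
    have h1 : (1 : B) = ⟨algebraMap A₁ FK a, hAB a⟩ * ⟨algebraMap A₁ FK v, hAB v⟩ := by
      apply Subtype.ext
      show (1 : FK) = algebraMap A₁ FK a * algebraMap A₁ FK v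
      rw [← map_mul, hv, map_one]
    rw [h1]
    exact 𝔪.mul_mem_right _ ha
  have key := s35_sn_frob_node π B hAB 𝔪 Pinf P0 hPinf hP0 hπ𝔪 q hq B₁ C hCB hspan hfrob hsum
    hres hker (s : FK →+* FK) hsB ((s34_gi_resAut σ hσ).comp (s34_gi_resAut σ hσ))
    (fun a => by
      show s (algebraMap A₁ FK a) = _
      rw [hs, s35_sn_tau_const σ hσ, s35_sn_tau_const σ hσ]
      rfl)
    (fun a => s35_sn_frob_sq π (s34_gi_resAut σ hσ) q hq hσq a)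
    (fun f hf => by
      obtain ⟨x₀, hx₀⟩ := hCrat f hf
      show s f = f
      rw [hs, s35_sn_fix_rat σ f x₀ hx₀, s35_sn_fix_rat σ f x₀ hx₀])
    (fun x hx => by
      apply hPinf
      rw [hPV]
      show (algebraMap A₁ FK π)⁻¹ * s (x : FK) ∈ s34_gi_V A₁ N
      rw [hs]
      exact s35_sn_tau_dvd hπ σ hσ hσ' _ (s35_sn_tau_dvd hπ σ hσ hσ' _ ((hPV x).mp hx)))
  exact ⟨key.1, key.2⟩

end Generic

section Concrete

local notation "Qb" => AlgebraicClosure ℚ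

variable (A : ValuationSubring Qb) (K₁ : IntermediateField ℚ Qb) [Normal ℚ K₁]

/-- A Frobenius element lies in the decomposition group. -/
theorem s35_sn_frob_smul {γ : Qb ≃ₐ[ℚ] Qb} {q : ℕ} (hγ : A.IsFrobeniusAt γ q) : γ • A = A :=
  MulAction.mem_stabilizer_iff.mp hγ.mem_decompositionSubgroup

/-- A Frobenius element raises elements of `A` to the `q`-th power modulo the maximal ideal. -/
theorem s35_sn_frob_mem {γ : Qb ≃ₐ[ℚ] Qb} {q : ℕ} (hγ : A.IsFrobeniusAt γ q) (a : Qb)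
    (ha : a ∈ A) : γ a - a ^ q ∈ A.nonunits := by
  obtain ⟨hσ, hF⟩ := hγ
  have h1 := hF (IsLocalRing.residue A ⟨a, ha⟩)
  rw [← IsLocalRing.ResidueField.residue_smul, ← map_pow, ← sub_eq_zero, ← map_sub,
    IsLocalRing.residue_eq_zero_iff, ← ValuationSubring.coe_mem_nonunits_iff] at h1
  exact h1

/-- The restriction to `K₁` of a Frobenius element is the `q`-power map modulo `π` on
`A₁ = A ∩ K₁`. -/
theorem s35_sn_resAut_frob [IsDiscreteValuationRing (s18_A1 A K₁)] {π : s18_A1 A K₁}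
    (hπ : Irreducible π) {γ : Qb ≃ₐ[ℚ] Qb} {q : ℕ} (hγ : A.IsFrobeniusAt γ q)
    (a : s18_A1 A K₁) :
    ∃ b : s18_A1 A K₁, s34_gi_resAut (A₁ := s18_A1 A K₁) (γ.restrictNormal K₁)
      (s34_gi_restrict_mem A K₁ γ (s35_sn_frob_smul A hγ)) a - a ^ q = π * b := by
  refine s34_gi_res_dvd hπ _ ((IsLocalRing.residue_eq_zero_iff _).mpr fun hu => ?_)
  obtain ⟨v, hv⟩ := hu.exists_right_inv
  have h3 := s35_sn_frob_mem A hγ (algebraMap K₁ Qb (a : K₁)) a.2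
  have h4 : algebraMap K₁ Qb ((s34_gi_resAut (A₁ := s18_A1 A K₁) (γ.restrictNormal K₁)
      (s34_gi_restrict_mem A K₁ γ (s35_sn_frob_smul A hγ)) a - a ^ q : s18_A1 A K₁) : K₁) =
      γ (algebraMap K₁ Qb (a : K₁)) - algebraMap K₁ Qb (a : K₁) ^ q := by
    rw [← AlgEquiv.restrictNormal_commutes, ← map_pow, ← map_sub]
    rfl
  have h5 : algebraMap K₁ Qb (((s34_gi_resAut (A₁ := s18_A1 A K₁) (γ.restrictNormal K₁)
      (s34_gi_restrict_mem A K₁ γ (s35_sn_frob_smul A hγ)) a - a ^ q : s18_A1 A K₁) : K₁)) *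
      algebraMap K₁ Qb ((v : s18_A1 A K₁) : K₁) = 1 := by
    rw [← map_mul]
    have := congrArg (fun z : s18_A1 A K₁ => algebraMap K₁ Qb (z : K₁)) hv
    simpa using this
  rw [h4] at h5
  have hvP : algebraMap K₁ Qb ((v : s18_A1 A K₁) : K₁) ∈ A := v.2
  have h6 : (γ (algebraMap K₁ Qb (a : K₁)) - algebraMap K₁ Qb (a : K₁) ^ q)⁻¹ ∈ A := by
    rw [inv_eq_of_mul_eq_one_right h5]
    exact hvP
  rw [ValuationSubring.mem_nonunits_iff_exists_mem_maximalIdeal] at h3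
  obtain ⟨hmem, hmax⟩ := h3
  apply (IsLocalRing.mem_maximalIdeal _).mp hmax
  refine IsUnit.of_mul_eq_one ⟨_, h6⟩ (Subtype.ext ?_)
  show (γ (algebraMap K₁ Qb (a : K₁)) - algebraMap K₁ Qb (a : K₁) ^ q) *
    (γ (algebraMap K₁ Qb (a : K₁)) - algebraMap K₁ Qb (a : K₁) ^ q)⁻¹ = 1
  apply mul_inv_cancel₀
  intro h0
  rw [h0, zero_mul] at h5
  exact zero_ne_one h5

variable (L : ℕ) [NeZero L]

/-- **(S3) in the model**: for `γ` a Frobenius element at `A` and `s = σ₁ ∘ σ₁`,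
`σ₁ = s34_gi_tau K₁ L γ`, the automorphism `s` fixes every crossing point `𝔪` of a chart `B` and
induces the `q²`-power map on `B / 𝔪`.  Hypotheses `hspan`, `hfrob`, `hsum`, `hres` are those of
`s34_n3_transversal`; `C` consists of functions with rational `q`-expansions; `Pinf = B ∩ ϖ V∞`. -/
theorem s35_sn_frob_model [IsDiscreteValuationRing (s18_A1 A K₁)] {π : s18_A1 A K₁}
    (hπ : Irreducible π) (q : ℕ) (hq : 0 < q) (γ : Qb ≃ₐ[ℚ] Qb) (hγ : A.IsFrobeniusAt γ q)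
    (s : s18_F1 K₁ L ≃+* s18_F1 K₁ L)
    (hs : ∀ x : s18_F1 K₁ L, s x = s34_gi_tau K₁ L γ (s34_gi_tau K₁ L γ x))
    (B : Subring (s18_F1 K₁ L))
    (hAB : ∀ a : s18_A1 A K₁, algebraMap (s18_A1 A K₁) (s18_F1 K₁ L) a ∈ B)
    (hsB : ∀ x ∈ B, s x ∈ B)
    (𝔪 Pinf P0 : Ideal B) (h𝔪 : 𝔪 ≠ ⊤) (hPinf : Pinf ≤ 𝔪) (hP0 : P0 ≤ 𝔪)
    (hπ𝔪 : (⟨algebraMap (s18_A1 A K₁) (s18_F1 K₁ L) π, hAB π⟩ : B) ∈ 𝔪)
    (hPV : ∀ x : B, x ∈ Pinf ↔
      (algebraMap (s18_A1 A K₁) (s18_F1 K₁ L) π)⁻¹ * (x : s18_F1 K₁ L) ∈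
        s34_gi_V (s18_A1 A K₁) L)
    (B₁ : Subring (s18_F1 K₁ L)) (C : Set (s18_F1 K₁ L)) (hCB : ∀ f ∈ C, f ∈ B)
    (hCrat : ∀ f ∈ C, ∃ x₀ : LaurentSeries ℚ,
      ((f : s18_F1 K₁ L) : LaurentSeries K₁) = coeffMap (algebraMap ℚ K₁) x₀)
    (hspan : ∀ x ∈ B₁, x ∈ AddSubgroup.closure
      {z : s18_F1 K₁ L | ∃ (a : s18_A1 A K₁) (f : s18_F1 K₁ L),
        f ∈ C ∧ z = algebraMap (s18_A1 A K₁) (s18_F1 K₁ L) a * f})
    (hfrob : ∀ f : B, (f : s18_F1 K₁ L) ∈ C → ∃ g : B, g - f ^ q ∈ Pinf ∧ g ^ q - f ∈ P0)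
    (hsum : ∀ x : B, ∃ x' : B, (x' : s18_F1 K₁ L) ∈ B₁ ∧ x - x' ∈ Pinf)
    (hres : ∀ b : B, ∃ a : s18_A1 A K₁,
      b - ⟨algebraMap (s18_A1 A K₁) (s18_F1 K₁ L) a, hAB a⟩ ∈ 𝔪) :
    (∀ x : B, x ∈ 𝔪 → (⟨s x, hsB x x.2⟩ : B) ∈ 𝔪) ∧
      ∀ b : B, (⟨s b, hsB b b.2⟩ - b ^ (q ^ 2) : B) ∈ 𝔪 :=
  s35_sn_frob_gen hπ (γ.restrictNormal K₁)
    (s34_gi_restrict_mem A K₁ γ (s35_sn_frob_smul A hγ))
    (s34_gi_restrict_symm_mem A K₁ γ (s35_sn_frob_smul A hγ)) q hq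
    (s35_sn_resAut_frob A K₁ hπ hγ) s hs B hAB hsB 𝔪 Pinf P0 h𝔪 hPinf hP0 hπ𝔪 hPV B₁ C hCB
    hCrat hspan hfrob hsum hres

/-! ### (SIG)(4): `s = σ₁ ∘ σ₁` on the charts, the uniformizer and the Gauss ring -/

/-- `s` stabilises the integral-closure chart of a rational coordinate. -/
theorem s35_sn_sq_chart (γ : Qb ≃ₐ[ℚ] Qb) (hγ : γ • A = A)
    (s : s18_F1 K₁ L ≃+* s18_F1 K₁ L)
    (hs : ∀ x : s18_F1 K₁ L, s x = s34_gi_tau K₁ L γ (s34_gi_tau K₁ L γ x))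
    (t : modularFunctionFieldFull L) :
    ∀ x ∈ (s34_ic_chart (s18_A1 A K₁) (s18_coord K₁ t)).toSubring,
      s x ∈ (s34_ic_chart (s18_A1 A K₁) (s18_coord K₁ t)).toSubring := by
  intro x hx
  rw [hs]
  exact s34_tm_m_hτB0 A K₁ L γ hγ t _ (s34_tm_m_hτB0 A K₁ L γ hγ t x hx)

/-- `s` stabilises the integral-closure chart of the inverse of a rational coordinate. -/
theorem s35_sn_sq_chart_inv (γ : Qb ≃ₐ[ℚ] Qb) (hγ : γ • A = A)
    (s : s18_F1 K₁ L ≃+* s18_F1 K₁ L)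
    (hs : ∀ x : s18_F1 K₁ L, s x = s34_gi_tau K₁ L γ (s34_gi_tau K₁ L γ x))
    (t : modularFunctionFieldFull L) :
    ∀ x ∈ (s34_ic_chart (s18_A1 A K₁) (s18_coord K₁ t)⁻¹).toSubring,
      s x ∈ (s34_ic_chart (s18_A1 A K₁) (s18_coord K₁ t)⁻¹).toSubring := by
  intro x hx
  rw [hs]
  exact s34_tm_m_hτBi A K₁ L γ hγ t _ (s34_tm_m_hτBi A K₁ L γ hγ t x hx)

/-- `s` preserves the Gauss ring at infinity. -/
theorem s35_sn_sq_V [IsDiscreteValuationRing (s18_A1 A K₁)] (γ : Qb ≃ₐ[ℚ] Qb) (hγ : γ • A = A)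
    (s : s18_F1 K₁ L ≃+* s18_F1 K₁ L)
    (hs : ∀ x : s18_F1 K₁ L, s x = s34_gi_tau K₁ L γ (s34_gi_tau K₁ L γ x)) :
    ∀ x ∈ s34_gi_V (s18_A1 A K₁) L, s x ∈ s34_gi_V (s18_A1 A K₁) L := by
  intro x hx
  rw [hs]
  exact s34_gi_tau_mem_V A K₁ L γ hγ (s34_gi_tau_mem_V A K₁ L γ hγ hx)

/-- `s ϖ = c ϖ` with `c` a unit of `A₁` (shape of `hτπ` of `s34_pow_of_model`). -/
theorem s35_sn_sq_pi [IsDiscreteValuationRing (s18_A1 A K₁)] {π : s18_A1 A K₁}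
    (hπ : Irreducible π) (γ : Qb ≃ₐ[ℚ] Qb) (hγ : γ • A = A)
    (s : s18_F1 K₁ L ≃+* s18_F1 K₁ L)
    (hs : ∀ x : s18_F1 K₁ L, s x = s34_gi_tau K₁ L γ (s34_gi_tau K₁ L γ x)) :
    ∃ c : s18_A1 A K₁, IsUnit c ∧
      s (algebraMap (s18_A1 A K₁) (s18_F1 K₁ L) π) =
        algebraMap (s18_A1 A K₁) (s18_F1 K₁ L) c * algebraMap (s18_A1 A K₁) (s18_F1 K₁ L) π := by
  obtain ⟨c, hc, hcπ⟩ := s34_tm_m_hτπ A K₁ L hπ γ hγ
  refine ⟨s34_gi_resAut (A₁ := s18_A1 A K₁) (γ.restrictNormal K₁)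
    (s34_gi_restrict_mem A K₁ γ hγ) c * c, (hc.map _).mul hc, ?_⟩
  rw [hs, hcπ, map_mul, hcπ, map_mul, mul_assoc]
  congr 1
  exact s35_sn_tau_const (γ.restrictNormal K₁) (s34_gi_restrict_mem A K₁ γ hγ) c

/-- `s ϖ = c ϖ` with `c ∈ B` (shape of `hsϖ` of `s35_nf_main`). -/
theorem s35_sn_sq_pi_mem [IsDiscreteValuationRing (s18_A1 A K₁)] {π : s18_A1 A K₁}
    (hπ : Irreducible π) (γ : Qb ≃ₐ[ℚ] Qb) (hγ : γ • A = A)
    (s : s18_F1 K₁ L ≃+* s18_F1 K₁ L)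
    (hs : ∀ x : s18_F1 K₁ L, s x = s34_gi_tau K₁ L γ (s34_gi_tau K₁ L γ x))
    (B : Subring (s18_F1 K₁ L))
    (hAB : ∀ a : s18_A1 A K₁, algebraMap (s18_A1 A K₁) (s18_F1 K₁ L) a ∈ B) :
    ∃ c ∈ B, s (algebraMap (s18_A1 A K₁) (s18_F1 K₁ L) π) =
      c * algebraMap (s18_A1 A K₁) (s18_F1 K₁ L) π := by
  obtain ⟨c, -, hc⟩ := s35_sn_sq_pi A K₁ L hπ γ hγ s hs
  exact ⟨_, hAB c, hc⟩

end Concrete

end Fermat.Agent.S35
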