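import Mathlib
import Fermat.Agent.S35.SigmaNode
import Fermat.Agent.S34.NodeInstXY
import Fermat.Agent.S34.FrobRes

/-!
# S35 (NODE-2), leaf (SIG)(3), model wiring: Frobenius at every crossing point

In the vocabulary of NODE-1's `s34_ni_hx` / `s34_ni_hG_full` (level `N ℓ`, native level-`N` chart
`B₁ = s18_chAlg N ℓ A t`, swap `W`, chart `B ⊇ α(B₁)` with `B = α(B₁) + (B ∩ ϖ V∞)`):

* `s35_sn_n3_inputs` : the `x`-side inputs `hCB`, `hspan`, `hfrob`, `hsum` of the transversality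
  lemma, for `C = s34_fc_C`, `𝔓∞ = s34_ni_P ϖ B V∞`, `𝔓0 = s34_ni_P ϖ B V0`;
* `s35_sn_hres` : every crossing point is rational (`hres`), from a primitive `(ℓ² - 1)`-th root
  of unity in the constant field;
* `s35_sn_hsQ_full` : for `γ` a Frobenius element at `A` and `s = σ₁ ∘ σ₁`
  (`σ₁ = s34_gi_tau K₁ (N ℓ) γ`), `s 𝔪 ⊆ 𝔪` and `s b - b ^ (ℓ²) ∈ 𝔪` at every crossing point `𝔪`
  of `B`: the hypothesis `hsQ` of `s35_nf_main`.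
-/

set_option autoImplicit false
set_option synthInstance.maxHeartbeats 400000
set_option linter.unusedSectionVars false

open ModularCurve

open scoped Pointwise

noncomputable section

namespace Fermat.Agent.S35

open Fermat.Agent.S18 Fermat.Agent.S28 Fermat.Agent.S34

section Gen

variable {K : Type*} [Field K] [Algebra ℚ K] (A : ValuationSubring K)
variable {N ℓ : ℕ} [NeZero N] [NeZero ℓ] [Fact ℓ.Prime]

local notation "F'" => laurentBaseChange K (modularFunctionFieldFull N)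
local notation "FF" => laurentBaseChange K (modularFunctionFieldFull (N * ℓ))

/-- The `x`-side inputs of the transversality lemma in the model (as in the proof of
`s34_ni_hx`). -/
theorem s35_sn_n3_inputs [IsDiscreteValuationRing A] (hℓ : ((ℓ : K))⁻¹ ∉ A) {π : A}
    (hπ : Irreducible π) (t : modularFunctionFieldFull N)
    (hCW : ∀ x ∈ s18_czRing N ℓ t, x ∈ Wring ℓ)
    (W : FF ≃+* FF) (hWW : ∀ x, W (W x) = x)
    (hWα : ∀ x : F', W (heckeAlphaBar K N ℓ x) = heckeBetaBar K N ℓ x)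
    (B : Subring FF) (hWB : ∀ b ∈ B, W b ∈ B)
    (hαB : ∀ x ∈ (s18_chAlg N ℓ A t).toSubring, (heckeAlphaBar K N ℓ).toRingHom x ∈ B)
    (hB₁ : B ≤ s34_gi_V A (N * ℓ)) (hB₂ : B ≤ (s34_gi_V A (N * ℓ)).comap (W : FF →+* FF))
    (hresInf : ∀ x ∈ B, ∃ x' ∈ (s18_chAlg N ℓ A t).toSubring,
      (algebraMap A FF π)⁻¹ * (x - (heckeAlphaBar K N ℓ).toRingHom x') ∈ s34_gi_V A (N * ℓ)) :
    (∀ f ∈ s34_fc_C K N (N * ℓ) ℓ t, f ∈ B) ∧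
    (∀ x ∈ (s18_chAlg N ℓ A t).toSubring.map (heckeAlphaBar K N ℓ).toRingHom,
      x ∈ AddSubgroup.closure {z : FF | ∃ (a : A) (f : FF),
        f ∈ s34_fc_C K N (N * ℓ) ℓ t ∧ z = algebraMap A FF a * f}) ∧
    (∀ f : B, (f : FF) ∈ s34_fc_C K N (N * ℓ) ℓ t → ∃ g : B,
      g - f ^ ℓ ∈ s34_ni_P (algebraMap A FF π) B _ hB₁ ∧
      g ^ ℓ - f ∈ s34_ni_P (algebraMap A FF π) B _ hB₂) ∧
    (∀ x : B, ∃ x' : B,
      (x' : FF) ∈ (s18_chAlg N ℓ A t).toSubring.map (heckeAlphaBar K N ℓ).toRingHom ∧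
      x - x' ∈ s34_ni_P (algebraMap A FF π) B _ hB₁) := by
  have hWϖ : W (algebraMap K FF (π : K)) = algebraMap K FF (π : K) := s34_ni_W_const W hWα _
  refine ⟨s34_ni_C_mem A t B hαB, ?_, ?_, ?_⟩
  · rintro _ ⟨x, hx, rfl⟩
    exact s34_fc_span A (dvd_mul_right N ℓ) t _ hx
  · exact s34_fc_hfrob (N' := N) (N := N * ℓ) A hℓ hπ t hCW W hWW hWϖ
      (s34_ni_hWq t W hWα) ((s34_gi_V A (N * ℓ)).comap (W : FF →+* FF)) (fun _ h => h) B hWB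
      (s34_ni_P (algebraMap A FF π) B _ hB₁) (s34_ni_P (algebraMap A FF π) B _ hB₂)
      (fun b h => h) (fun b h => h)
  · exact s34_n3t_hsum (algebraMap A FF π) B (s34_gi_V A (N * ℓ))
      (heckeAlphaBar K N ℓ).toRingHom (s18_chAlg N ℓ A t).toSubring hαB
      (s34_ni_P (algebraMap A FF π) B _ hB₁) (fun b h => h) hresInf

/-- **Every crossing point is rational** when the constant field contains a primitive
`(ℓ² - 1)`-th root of unity. -/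
theorem s35_sn_hres [IsDiscreteValuationRing A] (hℓ : ((ℓ : K))⁻¹ ∉ A) {π : A}
    (hπ : Irreducible π) (t : modularFunctionFieldFull N)
    (hCW : ∀ x ∈ s18_czRing N ℓ t, x ∈ Wring ℓ)
    (W : FF ≃+* FF) (hWW : ∀ x, W (W x) = x)
    (hWα : ∀ x : F', W (heckeAlphaBar K N ℓ x) = heckeBetaBar K N ℓ x)
    (B : Subring FF) (hAB : ∀ a : A, algebraMap A FF a ∈ B) (hWB : ∀ b ∈ B, W b ∈ B)
    (hαB : ∀ x ∈ (s18_chAlg N ℓ A t).toSubring, (heckeAlphaBar K N ℓ).toRingHom x ∈ B)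
    (hB₁ : B ≤ s34_gi_V A (N * ℓ)) (hB₂ : B ≤ (s34_gi_V A (N * ℓ)).comap (W : FF →+* FF))
    (hresInf : ∀ x ∈ B, ∃ x' ∈ (s18_chAlg N ℓ A t).toSubring,
      (algebraMap A FF π)⁻¹ * (x - (heckeAlphaBar K N ℓ).toRingHom x') ∈ s34_gi_V A (N * ℓ))
    (ζ : K) (hζ : IsPrimitiveRoot ζ (ℓ ^ 2 - 1))
    (𝔪 : Ideal B) (h𝔪 : 𝔪.IsMaximal)
    (hP1𝔪 : s34_ni_P (algebraMap A FF π) B _ hB₁ ≤ 𝔪)
    (hP2𝔪 : s34_ni_P (algebraMap A FF π) B _ hB₂ ≤ 𝔪) :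
    ∀ b : B, ∃ a : A, b - ⟨algebraMap A FF a, hAB a⟩ ∈ 𝔪 := by
  obtain ⟨hCB, hspan, hfrob, hsum⟩ := s35_sn_n3_inputs A hℓ hπ t hCW W hWW hWα B hWB hαB hB₁
    hB₂ hresInf
  have hℓ1 : 1 < ℓ := (Fact.out : ℓ.Prime).one_lt
  have hpos : 0 < ℓ ^ 2 - 1 := by
    have : 4 ≤ ℓ ^ 2 := by nlinarith
    omega
  have hζA : ζ ∈ A := s34_fc_root_mem_valuationSubring A ζ (ℓ ^ 2 - 1) hpos hζ.pow_eq_one
  have hζ' : IsPrimitiveRoot (⟨ζ, hζA⟩ : A) (ℓ ^ 2 - 1) :=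
    IsPrimitiveRoot.of_map_of_injective (f := A.subtype) hζ Subtype.val_injective
  obtain ⟨S, hScard, hSroot, hSinj⟩ := s34_fc_roots_of_primitive ℓ hℓ1 (⟨ζ, hζA⟩ : A) hζ'
    (IsLocalRing.maximalIdeal A) (s18_ell_mem_maximalIdeal ℓ A hℓ)
  refine s34_fc_hres B hAB 𝔪 (s34_ni_P (algebraMap A FF π) B _ hB₁)
    (s34_ni_P (algebraMap A FF π) B _ hB₂) hP1𝔪 hP2𝔪 ℓ hℓ1
    ((s18_chAlg N ℓ A t).toSubring.map (heckeAlphaBar K N ℓ).toRingHom)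
    (s34_fc_C K N (N * ℓ) ℓ t) hCB hspan hfrob hsum S hScard ?_ ?_
  · intro a ha
    have h0 : (⟨algebraMap A FF (a ^ (ℓ ^ 2) - a), hAB _⟩ : B) = 0 := by
      apply Subtype.ext
      show algebraMap A FF (a ^ (ℓ ^ 2) - a) = 0
      rw [hSroot a ha, map_zero]
    rw [h0]
    exact 𝔪.zero_mem
  · intro a ha b hb hab
    apply hSinj a ha b hb
    by_contra hnot
    have hu : IsUnit (a - b) := by
      by_contra hnu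
      exact hnot hnu
    obtain ⟨v, hv⟩ := hu.exists_right_inv
    apply h𝔪.ne_top
    rw [Ideal.eq_top_iff_one]
    have h1 : (1 : B) = ⟨algebraMap A FF (a - b), hAB _⟩ * ⟨algebraMap A FF v, hAB v⟩ := by
      apply Subtype.ext
      show (1 : FF) = algebraMap A FF (a - b) * algebraMap A FF v
      rw [← map_mul, hv, map_one]
    rw [h1]
    exact 𝔪.mul_mem_right _ hab

end Gen

section Model

local notation "Qb" => AlgebraicClosure ℚ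

set_option maxHeartbeats 4000000 in
/-- **(S3) at every crossing point of the model**, in the vocabulary of `s34_ni_hG_full`:
`hsQ` of `s35_nf_main` for `s = σ₁ ∘ σ₁`, `σ₁ = s34_gi_tau K₁ (N ℓ) γ`, `γ` a Frobenius element
at `A`, when `K₁` contains a primitive `(ℓ² - 1)`-th root of unity. -/
theorem s35_sn_hsQ_full (N ℓ : ℕ) [NeZero N] [NeZero ℓ] [Fact ℓ.Prime]
    (A : ValuationSubring Qb) (K₁ : IntermediateField ℚ Qb) [Normal ℚ K₁]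
    [IsDiscreteValuationRing (s18_A1 A K₁)]
    {π : s18_A1 A K₁} (hπ : Irreducible π) (hℓ : ((ℓ : K₁))⁻¹ ∉ s18_A1 A K₁)
    -- the native chart of level `N`
    (t : modularFunctionFieldFull N) (hCW : ∀ x ∈ s18_czRing N ℓ t, x ∈ Wring ℓ)
    -- the swap
    (W : s18_F1 K₁ (N * ℓ) ≃+* s18_F1 K₁ (N * ℓ)) (hWW : ∀ x, W (W x) = x)
    (hWα : ∀ x : s18_F1 K₁ N, W (heckeAlphaBar K₁ N ℓ x) = heckeBetaBar K₁ N ℓ x)
    -- the chart of level `N ℓ`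
    (B : Subring (s18_F1 K₁ (N * ℓ)))
    (hAB : ∀ a : s18_A1 A K₁, algebraMap (s18_A1 A K₁) (s18_F1 K₁ (N * ℓ)) a ∈ B)
    (hWB : ∀ b ∈ B, W b ∈ B)
    (hαB : ∀ x ∈ (s18_chAlg N ℓ (s18_A1 A K₁) t).toSubring,
      (heckeAlphaBar K₁ N ℓ).toRingHom x ∈ B)
    (hB₁ : B ≤ s34_gi_V (s18_A1 A K₁) (N * ℓ))
    (hB₂ : B ≤ (s34_gi_V (s18_A1 A K₁) (N * ℓ)).comap
      (W : s18_F1 K₁ (N * ℓ) →+* s18_F1 K₁ (N * ℓ)))
    (hresInf : ∀ x ∈ B, ∃ x' ∈ (s18_chAlg N ℓ (s18_A1 A K₁) t).toSubring,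
      (algebraMap (s18_A1 A K₁) (s18_F1 K₁ (N * ℓ)) π)⁻¹ *
        (x - (heckeAlphaBar K₁ N ℓ).toRingHom x') ∈ s34_gi_V (s18_A1 A K₁) (N * ℓ))
    -- roots of unity
    (ζ : K₁) (hζ : IsPrimitiveRoot ζ (ℓ ^ 2 - 1))
    -- the Frobenius element
    (γ : Qb ≃ₐ[ℚ] Qb) (hγ : A.IsFrobeniusAt γ ℓ)
    (s : s18_F1 K₁ (N * ℓ) ≃+* s18_F1 K₁ (N * ℓ))
    (hs : ∀ x : s18_F1 K₁ (N * ℓ),
      s x = s34_gi_tau K₁ (N * ℓ) γ (s34_gi_tau K₁ (N * ℓ) γ x))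
    (hsB : ∀ x ∈ B, s x ∈ B)
    -- the crossing point
    (𝔪 : Ideal B) (h𝔪 : 𝔪.IsMaximal)
    (hnode : ∀ b : B, b ∉ 𝔪 →
      (algebraMap (s18_A1 A K₁) (s18_F1 K₁ (N * ℓ)) π)⁻¹ * (b : s18_F1 K₁ (N * ℓ)) ∉
        s34_gi_V (s18_A1 A K₁) (N * ℓ) ∧
      (algebraMap (s18_A1 A K₁) (s18_F1 K₁ (N * ℓ)) π)⁻¹ * (b : s18_F1 K₁ (N * ℓ)) ∉
        (s34_gi_V (s18_A1 A K₁) (N * ℓ)).comap
          (W : s18_F1 K₁ (N * ℓ) →+* s18_F1 K₁ (N * ℓ))) :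
    (∀ b : B, ∃ a : s18_A1 A K₁,
      b - ⟨algebraMap (s18_A1 A K₁) (s18_F1 K₁ (N * ℓ)) a, hAB a⟩ ∈ 𝔪) ∧
    (∀ x : B, x ∈ 𝔪 → (⟨s x, hsB x x.2⟩ : B) ∈ 𝔪) ∧
    ∀ b : B, (⟨s b, hsB b b.2⟩ - b ^ (ℓ ^ 2) : B) ∈ 𝔪 := by
  have hP1𝔪 : s34_ni_P (algebraMap (s18_A1 A K₁) (s18_F1 K₁ (N * ℓ)) π) B _ hB₁ ≤ 𝔪 := by
    intro x hx
    by_contra hcon
    exact (hnode x hcon).1 (s34_ni_mem_P.mp hx)
  have hP2𝔪 : s34_ni_P (algebraMap (s18_A1 A K₁) (s18_F1 K₁ (N * ℓ)) π) B _ hB₂ ≤ 𝔪 := by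
    intro x hx
    by_contra hcon
    exact (hnode x hcon).2 (s34_ni_mem_P.mp hx)
  have hV₁ : s34_Unif (algebraMap K₁ (s18_F1 K₁ (N * ℓ)) ((π : s18_A1 A K₁) : K₁))
      (s34_gi_V (s18_A1 A K₁) (N * ℓ)) := s34_gi_unif (N := N * ℓ) hπ
  have hϖ𝔪 : (⟨algebraMap (s18_A1 A K₁) (s18_F1 K₁ (N * ℓ)) π, hAB π⟩ : B) ∈ 𝔪 :=
    hP1𝔪 (s34_ni_ϖ_mem_P hV₁ hB₁ (hAB π))
  obtain ⟨hCB, hspan, hfrob, hsum⟩ := s35_sn_n3_inputs (s18_A1 A K₁) hℓ hπ t hCW W hWW hWα B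
    hWB hαB hB₁ hB₂ hresInf
  have hres := s35_sn_hres (s18_A1 A K₁) hℓ hπ t hCW W hWW hWα B hAB hWB hαB hB₁ hB₂ hresInf ζ hζ
    𝔪 h𝔪 hP1𝔪 hP2𝔪
  refine ⟨hres, ?_⟩
  exact s35_sn_frob_model A K₁ (N * ℓ) hπ ℓ (Fact.out : ℓ.Prime).pos γ hγ s hs B hAB hsB 𝔪
    (s34_ni_P (algebraMap (s18_A1 A K₁) (s18_F1 K₁ (N * ℓ)) π) B _ hB₁)
    (s34_ni_P (algebraMap (s18_A1 A K₁) (s18_F1 K₁ (N * ℓ)) π) B _ hB₂) h𝔪.ne_top hP1𝔪 hP2𝔪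
    hϖ𝔪 (fun x => s34_ni_mem_P)
    ((s18_chAlg N ℓ (s18_A1 A K₁) t).toSubring.map (heckeAlphaBar K₁ N ℓ).toRingHom)
    (s34_fc_C K₁ N (N * ℓ) ℓ t) hCB
    (fun f hf => by obtain ⟨x₀, -, e⟩ := hf; exact ⟨x₀, e⟩) hspan hfrob hsum hres

end Model

end Fermat.Agent.S35
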