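import Mathlib
import Fermat.Agent.S35.InstDefs
import Fermat.Agent.S35.SigmaNodeFull
import Fermat.Agent.S34.XYInst

/-!
# S35, block (INST2), contract items 4 and 5: `s35_ct_rat`, `s35_ct_sq`

In the concrete nodal model of `S34/InstDefs.lean` (level `N₁ * q`, Hauptmodul `t₂` / `t₃`,
integral-closure charts `B0`, `Binf`, components `V₁ = V∞`, `V₂ = V0 = V∞.comap W`), when `K₁`
contains a primitive `(q² - 1)`-th root of unity: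

* `s35_rq_ct_rat : s35_ct_rat` — every crossing point of both charts has the residue field of
  `A₁` (helper23's `s35_sn_hres`);
* `s35_rq_ct_sq : s35_ct_sq` — for a Frobenius element `γ` at `P` and `s = σ₁ ∘ σ₁`,
  `σ₁ = s34_gi_tau K₁ (N₁ q) γ`, one has `s b ≡ b ^ (q²)` at every crossing point of both charts
  (helper23's `s35_sn_hsQ_full`).

The model inputs (`hCW`, `α(B₁) ⊆ B`, `B ≤ V∞`, (RES), stability of the charts under the swap) are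
those of `S34/XYInst.lean`.
-/

set_option autoImplicit false
set_option synthInstance.maxHeartbeats 400000
set_option maxHeartbeats 4000000
set_option linter.unusedSectionVars false
set_option linter.unusedVariables false

open ModularCurve ModularCurve.IgusaScheme Fermat.Agent.S28

noncomputable section

namespace Fermat.Agent.S35

open Fermat.Agent.S18 Fermat.Agent.S34

section Generic

variable {N : ℕ} [NeZero N] {ℓ : ℕ} [NeZero ℓ] [Fact ℓ.Prime]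
variable {K : Type*} [Field K] [Algebra ℚ K] {A : ValuationSubring K}
variable {t : modularFunctionFieldFull N}
variable [IsDiscreteValuationRing A] {π : A}

local notation "F'" => laurentBaseChange K (modularFunctionFieldFull N)
local notation "FF" => laurentBaseChange K (modularFunctionFieldFull (N * ℓ))

/-- **(rat) for one integral-closure chart** `B = s34_ic_chart A T`, `T = α t`. -/
theorem s35_rq_rat (hR : s18_ResBasis ℓ A π) (h : s18_cz_Coord N ℓ t)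
    {B : Subring (LaurentSeries ℚ)} (hB : CoreData N ℓ B)
    (hchart : s18_Chart (algebraMap A F' π) (s18_chAlg N ℓ A t).toSubring)
    (hsm : s18_SmHyp π (s18_coord K t) (s18_chAlg N ℓ A t))
    (T : FF) (hT : heckeAlphaBar K N ℓ (s18_coord K t) = T)
    (W : FF ≃+* FF) (hWW : ∀ x, W (W x) = x)
    (hWα : ∀ x : F', W (heckeAlphaBar K N ℓ x) = heckeBetaBar K N ℓ x)
    (hWB : ∀ x ∈ (s34_ic_chart A T).toSubring, W x ∈ (s34_ic_chart A T).toSubring)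
    (hκ : ∀ y ∈ s34_gi_V A (N * ℓ), ∃ y' ∈ s34_gi_V A N,
      (algebraMap A FF π)⁻¹ * (y - heckeAlphaBar K N ℓ y') ∈ s34_gi_V A (N * ℓ))
    (ζ : K) (hζ : IsPrimitiveRoot ζ (ℓ ^ 2 - 1)) :
    s35_md_Rat π (s34_ic_chart A T) (s34_gi_V A (N * ℓ))
      ((s34_gi_V A (N * ℓ)).comap (W : FF →+* FF)) := by
  subst hT
  have hℓ : ((ℓ : K))⁻¹ ∉ A := hR.unit
  have hπ : Irreducible π := hR.irr
  have hCW : ∀ x ∈ s18_czRing N ℓ t, x ∈ Wring ℓ := by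
    intro x hx
    rw [s18_Wring_eq]
    exact s18_czRing_le_W h hB x hx
  have hAB : ∀ a : A, algebraMap A FF a ∈
      (s34_ic_chart A (heckeAlphaBar K N ℓ (s18_coord K t))).toSubring :=
    fun a => (s34_ic_chart A (heckeAlphaBar K N ℓ (s18_coord K t))).algebraMap_mem a
  have hαB : ∀ x ∈ (s18_chAlg N ℓ A t).toSubring, (heckeAlphaBar K N ℓ).toRingHom x ∈
      (s34_ic_chart A (heckeAlphaBar K N ℓ (s18_coord K t))).toSubring :=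
    fun x hx => s34_lc_incl_mem_ic ℓ hsm x hx
  have hresInf := s34_xi_hresInf hR h hB hchart hsm hκ
  have hB₁ : (s34_ic_chart A (heckeAlphaBar K N ℓ (s18_coord K t))).toSubring ≤
      s34_gi_V A (N * ℓ) := s34_ri_ic_le_V ℓ hR h hB
  have hB₂ : (s34_ic_chart A (heckeAlphaBar K N ℓ (s18_coord K t))).toSubring ≤
      (s34_gi_V A (N * ℓ)).comap (W : FF →+* FF) := fun b hb => hB₁ (hWB b hb)
  rintro 𝔪 ⟨h𝔪, hϖ𝔪, hnode⟩
  have hle1 : s34_ni_P (algebraMap A FF π) _ _ hB₁ ≤ 𝔪 := by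
    intro b hb
    by_contra hb𝔪
    exact (hnode b hb𝔪).1 hb
  have hle2 : s34_ni_P (algebraMap A FF π) _ _ hB₂ ≤ 𝔪 := by
    intro b hb
    by_contra hb𝔪
    exact (hnode b hb𝔪).2 hb
  exact s35_sn_hres A hℓ hπ t hCW W hWW hWα _ hAB hWB hαB hB₁ hB₂ hresInf ζ hζ 𝔪 h𝔪 hle1 hle2

end Generic

section Model

local notation "Qb" => AlgebraicClosure ℚ

variable (N₁ : ℕ) [NeZero N₁] (q : ℕ) [NeZero q] [Fact q.Prime]
  (A : ValuationSubring (AlgebraicClosure ℚ)) (hA : A.LiesOverPrime q)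
  (K₁ : IntermediateField ℚ (AlgebraicClosure ℚ)) [NumberField K₁] [IsGalois ℚ K₁]
  [IsDiscreteValuationRing (s18_A1 A K₁)]

/-- **(sq) for one integral-closure chart** `B = s34_ic_chart A₁ T`, `T = α t`, of the model. -/
theorem s35_rq_sq {π : s18_A1 A K₁} {t : modularFunctionFieldFull N₁}
    (hR : s18_ResBasis q (s18_A1 A K₁) π) (h : s18_cz_Coord N₁ q t)
    {B : Subring (LaurentSeries ℚ)} (hB : CoreData N₁ q B)
    (hchart : s18_Chart (algebraMap (s18_A1 A K₁) (s18_F1 K₁ N₁) π)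
      (s18_chAlg N₁ q (s18_A1 A K₁) t).toSubring)
    (hsm : s18_SmHyp π (s18_coord K₁ t) (s18_chAlg N₁ q (s18_A1 A K₁) t))
    (T : s18_F1 K₁ (N₁ * q)) (hT : heckeAlphaBar K₁ N₁ q (s18_coord K₁ t) = T)
    (W : s18_F1 K₁ (N₁ * q) ≃+* s18_F1 K₁ (N₁ * q)) (hWW : ∀ x, W (W x) = x)
    (hWα : ∀ x : s18_F1 K₁ N₁, W (heckeAlphaBar K₁ N₁ q x) = heckeBetaBar K₁ N₁ q x)
    (hWB : ∀ x ∈ (s34_ic_chart (s18_A1 A K₁) T).toSubring,
      W x ∈ (s34_ic_chart (s18_A1 A K₁) T).toSubring)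
    (hκ : ∀ y ∈ s34_gi_V (s18_A1 A K₁) (N₁ * q), ∃ y' ∈ s34_gi_V (s18_A1 A K₁) N₁,
      (algebraMap (s18_A1 A K₁) (s18_F1 K₁ (N₁ * q)) π)⁻¹ * (y - heckeAlphaBar K₁ N₁ q y') ∈
        s34_gi_V (s18_A1 A K₁) (N₁ * q))
    (ζ : K₁) (hζ : IsPrimitiveRoot ζ (q ^ 2 - 1))
    (γ : Qb ≃ₐ[ℚ] Qb) (hγ : A.IsFrobeniusAt γ q)
    (s : s18_F1 K₁ (N₁ * q) ≃+* s18_F1 K₁ (N₁ * q))
    (hs : ∀ x : s18_F1 K₁ (N₁ * q),
      s x = s34_gi_tau K₁ (N₁ * q) γ (s34_gi_tau K₁ (N₁ * q) γ x)) :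
    s35_md_Sq π (s34_ic_chart (s18_A1 A K₁) T) (s34_gi_V (s18_A1 A K₁) (N₁ * q))
      ((s34_gi_V (s18_A1 A K₁) (N₁ * q)).comap
        (W : s18_F1 K₁ (N₁ * q) →+* s18_F1 K₁ (N₁ * q))) s (q ^ 2) := by
  subst hT
  have hℓ : ((q : K₁))⁻¹ ∉ s18_A1 A K₁ := hR.unit
  have hπ : Irreducible π := hR.irr
  have hCW : ∀ x ∈ s18_czRing N₁ q t, x ∈ Wring q := by
    intro x hx
    rw [s18_Wring_eq]
    exact s18_czRing_le_W h hB x hx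
  have hAB : ∀ a : s18_A1 A K₁, algebraMap (s18_A1 A K₁) (s18_F1 K₁ (N₁ * q)) a ∈
      (s34_ic_chart (s18_A1 A K₁) (heckeAlphaBar K₁ N₁ q (s18_coord K₁ t))).toSubring :=
    fun a => (s34_ic_chart (s18_A1 A K₁)
      (heckeAlphaBar K₁ N₁ q (s18_coord K₁ t))).algebraMap_mem a
  have hαB : ∀ x ∈ (s18_chAlg N₁ q (s18_A1 A K₁) t).toSubring,
      (heckeAlphaBar K₁ N₁ q).toRingHom x ∈
      (s34_ic_chart (s18_A1 A K₁) (heckeAlphaBar K₁ N₁ q (s18_coord K₁ t))).toSubring :=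
    fun x hx => s34_lc_incl_mem_ic q hsm x hx
  have hresInf := s34_xi_hresInf hR h hB hchart hsm hκ
  have hB₁ : (s34_ic_chart (s18_A1 A K₁) (heckeAlphaBar K₁ N₁ q (s18_coord K₁ t))).toSubring ≤
      s34_gi_V (s18_A1 A K₁) (N₁ * q) := s34_ri_ic_le_V q hR h hB
  have hB₂ : (s34_ic_chart (s18_A1 A K₁) (heckeAlphaBar K₁ N₁ q (s18_coord K₁ t))).toSubring ≤
      (s34_gi_V (s18_A1 A K₁) (N₁ * q)).comap
        (W : s18_F1 K₁ (N₁ * q) →+* s18_F1 K₁ (N₁ * q)) := fun b hb => hB₁ (hWB b hb)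
  rintro 𝔪 ⟨h𝔪, hϖ𝔪, hnode⟩ hsB b
  exact (s35_sn_hsQ_full N₁ q A K₁ hπ hℓ t hCW W hWW hWα _ hAB hWB hαB hB₁ hB₂ hresInf ζ hζ
    γ hγ s hs hsB 𝔪 h𝔪 hnode).2.2 b

include hA in
/-- **(rat) and (sq), one coordinate**: both integral-closure charts of the model at level
`N₁ * q`, from the S18 chart package of a coordinate `t₀` of level `N₁` and the swap `W`. -/
theorem s35_rq_model_coord (hqN : ¬ q ∣ N₁) (M : ℕ) (hqM : q ≠ M) (hMN : M ∣ N₁)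
    (hM23 : 2 ∣ N₁ ∨ 3 ∣ N₁)
    {π : s18_A1 A K₁} (hπ : Irreducible π)
    (t₀ : modularFunctionFieldFull N₁) (tL : modularFunctionFieldFull (N₁ * q))
    (htL : (tL : LaurentSeries ℚ) = (t₀ : LaurentSeries ℚ))
    (h : s18_cz_Coord N₁ q t₀)
    (hT : s18_TwoChart π (s18_coord K₁ t₀) (s18_chAlg N₁ q (s18_A1 A K₁) t₀)
      (s18_chAlg N₁ q (s18_A1 A K₁) t₀⁻¹))
    (hP : s18_ChartPkg π (s18_coord K₁ t₀) (s18_chAlg N₁ q (s18_A1 A K₁) t₀)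
      (s18_chAlg N₁ q (s18_A1 A K₁) t₀⁻¹))
    (hHaupt : Fermat.Agent.S37.s37_IsHaupt M (s18_baseIncl K₁ (N₁ * q) (s18_coord K₁ tL)))
    (W : s18_F1 K₁ (N₁ * q) ≃+* s18_F1 K₁ (N₁ * q))
    (hWc : ∀ c : K₁, W (algebraMap K₁ (s18_F1 K₁ (N₁ * q)) c) =
      algebraMap K₁ (s18_F1 K₁ (N₁ * q)) c)
    (hWα : ∀ x : s18_F1 K₁ N₁, W (heckeAlphaBar K₁ N₁ q x) = heckeBetaBar K₁ N₁ q x)
    (hWβ : ∀ x : s18_F1 K₁ N₁, W (heckeBetaBar K₁ N₁ q x) = heckeAlphaBar K₁ N₁ q x)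
    (hWW : ∀ x : s18_F1 K₁ (N₁ * q), W (W x) = x)
    (ζ : K₁) (hζ : IsPrimitiveRoot ζ (q ^ 2 - 1)) :
    (s35_md_Rat π (s34_ic_chart (s18_A1 A K₁) (s18_coord K₁ tL))
        (s34_gi_V (s18_A1 A K₁) (N₁ * q))
        ((s34_gi_V (s18_A1 A K₁) (N₁ * q)).comap
          (W : s18_F1 K₁ (N₁ * q) →+* s18_F1 K₁ (N₁ * q))) ∧
      s35_md_Rat π (s34_ic_chart (s18_A1 A K₁) (s18_coord K₁ tL)⁻¹)
        (s34_gi_V (s18_A1 A K₁) (N₁ * q))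
        ((s34_gi_V (s18_A1 A K₁) (N₁ * q)).comap
          (W : s18_F1 K₁ (N₁ * q) →+* s18_F1 K₁ (N₁ * q)))) ∧
    ∀ γ : Qb ≃ₐ[ℚ] Qb, A.IsFrobeniusAt γ q →
    ∀ s : s18_F1 K₁ (N₁ * q) ≃+* s18_F1 K₁ (N₁ * q),
      (∀ x, s x = s34_gi_tau K₁ (N₁ * q) γ (s34_gi_tau K₁ (N₁ * q) γ x)) →
      s35_md_Sq π (s34_ic_chart (s18_A1 A K₁) (s18_coord K₁ tL))
        (s34_gi_V (s18_A1 A K₁) (N₁ * q))
        ((s34_gi_V (s18_A1 A K₁) (N₁ * q)).comap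
          (W : s18_F1 K₁ (N₁ * q) →+* s18_F1 K₁ (N₁ * q))) s (q ^ 2) ∧
      s35_md_Sq π (s34_ic_chart (s18_A1 A K₁) (s18_coord K₁ tL)⁻¹)
        (s34_gi_V (s18_A1 A K₁) (N₁ * q))
        ((s34_gi_V (s18_A1 A K₁) (N₁ * q)).comap
          (W : s18_F1 K₁ (N₁ * q) →+* s18_F1 K₁ (N₁ * q))) s (q ^ 2) := by
  have hq : q.Prime := Fact.out
  have hR : s18_ResBasis q (s18_A1 A K₁) π := s18_a1_resbasis A hA K₁ π hπ
  obtain ⟨B, hB⟩ := core N₁ q hqN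
  -- the coordinate at the two levels
  have hcoord : heckeAlphaBar K₁ N₁ q (s18_coord K₁ t₀) = s18_coord K₁ tL :=
    s34_lc_incl_coord q tL htL
  have hcoord' : heckeAlphaBar K₁ N₁ q (s18_coord K₁ t₀⁻¹) = (s18_coord K₁ tL)⁻¹ := by
    rw [s18_coord_inv, map_inv₀, hcoord]
  -- the swap
  have hWt : ((W (s18_coord K₁ tL) : s18_F1 K₁ (N₁ * q)) : LaurentSeries K₁) =
      qExpand K₁ q ((s18_coord K₁ tL : s18_F1 K₁ (N₁ * q)) : LaurentSeries K₁) := by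
    rw [← hcoord, hWα, coe_heckeBetaBar, coe_heckeAlphaBar]
  obtain ⟨hW0, hWi⟩ := s34_ws_chart_stable N₁ q M hq hqN hqM hMN A hA K₁ (s18_coord K₁ tL) hHaupt
    (W : s18_F1 K₁ (N₁ * q) →+* s18_F1 K₁ (N₁ * q)) hWc hWt
  have hsmInf : s18_SmHyp π (s18_coord K₁ t₀⁻¹) (s18_chAlg N₁ q (s18_A1 A K₁) t₀⁻¹) := by
    rw [s18_coord_inv]
    exact hP.smInf
  have hchInf : s18_Chart (algebraMap (s18_A1 A K₁) (s18_F1 K₁ N₁) π)
      (s18_chAlg N₁ q (s18_A1 A K₁) t₀⁻¹).toSubring := hT.chartInf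
  have hκ := s34_rx_hres N₁ q A hA K₁ hqN hM23 hπ W hWc hWα hWβ
  refine ⟨⟨s35_rq_rat hR h hB hT.chart0 hP.sm0 (s18_coord K₁ tL) hcoord W hWW hWα
      (fun x hx => hW0 x hx) hκ ζ hζ,
    s35_rq_rat hR h.inv hB hchInf hsmInf (s18_coord K₁ tL)⁻¹ hcoord' W hWW hWα
      (fun x hx => hWi x hx) hκ ζ hζ⟩, ?_⟩
  intro γ hγ s hs
  exact ⟨s35_rq_sq N₁ q A K₁ hR h hB hT.chart0 hP.sm0 (s18_coord K₁ tL) hcoord W hWW hWα
      (fun x hx => hW0 x hx) hκ ζ hζ γ hγ s hs,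
    s35_rq_sq N₁ q A K₁ hR h.inv hB hchInf hsmInf (s18_coord K₁ tL)⁻¹ hcoord' W hWW hWα
      (fun x hx => hWi x hx) hκ ζ hζ γ hγ s hs⟩

include hA in
/-- **(rat) and (sq)** for the Hauptmodul given by `s34_md_IsT` and a swap given by
`s34_md_IsSwap`. -/
theorem s35_rq_model (hqN : ¬ q ∣ N₁) {π : s18_A1 A K₁} (hπ : Irreducible π)
    (ζ : K₁) (hζ : IsPrimitiveRoot ζ (q ^ 2 - 1))
    (tL : modularFunctionFieldFull (N₁ * q)) (htL : s34_md_IsT N₁ q tL)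
    (W : s18_F1 K₁ (N₁ * q) ≃ₐ[K₁] s18_F1 K₁ (N₁ * q)) (hW : s34_md_IsSwap K₁ N₁ q W) :
    (s35_md_Rat π (s34_md_B0 A K₁ (N₁ * q) tL) (s34_md_V1 A K₁ (N₁ * q))
        (s34_md_V2 A K₁ (N₁ * q) W) ∧
      s35_md_Rat π (s34_md_Binf A K₁ (N₁ * q) tL) (s34_md_V1 A K₁ (N₁ * q))
        (s34_md_V2 A K₁ (N₁ * q) W)) ∧
    ∀ γ : Qb ≃ₐ[ℚ] Qb, A.IsFrobeniusAt γ q →
    ∀ s : s18_F1 K₁ (N₁ * q) ≃+* s18_F1 K₁ (N₁ * q),
      (∀ x, s x = s34_gi_tau K₁ (N₁ * q) γ (s34_gi_tau K₁ (N₁ * q) γ x)) →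
      s35_md_Sq π (s34_md_B0 A K₁ (N₁ * q) tL) (s34_md_V1 A K₁ (N₁ * q))
        (s34_md_V2 A K₁ (N₁ * q) W) s (q ^ 2) ∧
      s35_md_Sq π (s34_md_Binf A K₁ (N₁ * q) tL) (s34_md_V1 A K₁ (N₁ * q))
        (s34_md_V2 A K₁ (N₁ * q) W) s (q ^ 2) := by
  obtain ⟨hWα, hWβ, hWW, -, -⟩ := hW
  rcases htL with ⟨h, h2⟩ | ⟨h, h3⟩
  · obtain rfl : tL = s18_cz_t2 (N₁ * q) (dvd_mul_of_dvd_left h2 q) := Subtype.ext h
    have hqM : q ≠ 2 := fun h => hqN (h ▸ h2)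
    exact s35_rq_model_coord N₁ q A hA K₁ hqN 2 hqM h2 (Or.inl h2) hπ (s18_cz_t2 N₁ h2)
      (s18_cz_t2 (N₁ * q) (dvd_mul_of_dvd_left h2 q)) rfl (s18_cz_coord_t2 N₁ q h2 hqM)
      (s34_lc_twoChart_t2 N₁ A hA K₁ hqN h2 π hπ)
      (s18_ch_pkg_t2 (s18_a1_ell A hA K₁) hqN h2 π hπ)
      (s34_ws_isHaupt_t2 (N₁ * q) K₁ (dvd_mul_of_dvd_left h2 q))
      (W : s18_F1 K₁ (N₁ * q) ≃+* s18_F1 K₁ (N₁ * q)) (fun c => W.commutes c) hWα hWβ hWW ζ hζ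
  · obtain rfl : tL = s18_cz_t3 (N₁ * q) (dvd_mul_of_dvd_left h3 q) := Subtype.ext h
    have hqM : q ≠ 3 := fun h => hqN (h ▸ h3)
    exact s35_rq_model_coord N₁ q A hA K₁ hqN 3 hqM h3 (Or.inr h3) hπ (s18_cz_t3 N₁ h3)
      (s18_cz_t3 (N₁ * q) (dvd_mul_of_dvd_left h3 q)) rfl (s18_cz_coord_t3 N₁ q h3 hqM)
      (s34_lc_twoChart_t3 N₁ A hA K₁ hqN h3 π hπ)
      (s18_ch_pkg_t3 (s18_a1_ell A hA K₁) hqN h3 π hπ)
      (s34_ws_isHaupt_t3 (N₁ * q) K₁ (dvd_mul_of_dvd_left h3 q))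
      (W : s18_F1 K₁ (N₁ * q) ≃+* s18_F1 K₁ (N₁ * q)) (fun c => W.commutes c) hWα hWβ hWW ζ hζ

end Model

/-- **Contract item 4**: `s35_ct_rat`. -/
theorem s35_rq_ct_rat : s35_ct_rat := by
  intro N₁ q _ _ _ hqN P hP K₁ _ _ _ π hπ ζ hζ tL htL W hW
  have : NeZero q := ⟨(Fact.out : q.Prime).ne_zero⟩
  have : NumberField K₁ := { to_charZero := inferInstance, to_finiteDimensional := inferInstance }
  exact (s35_rq_model N₁ q P hP K₁ hqN hπ ζ hζ tL htL W hW).1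

/-- **Contract item 5**: `s35_ct_sq`. -/
theorem s35_rq_ct_sq : s35_ct_sq := by
  intro N₁ q _ _ _ hqN P hP K₁ _ _ _ π hπ ζ hζ tL htL W hW γ hγ s hs
  have : NeZero q := ⟨(Fact.out : q.Prime).ne_zero⟩
  have : NumberField K₁ := { to_charZero := inferInstance, to_finiteDimensional := inferInstance }
  exact (s35_rq_model N₁ q P hP K₁ hqN hπ ζ hζ tL htL W hW).2 γ hγ s hs

end Fermat.Agent.S35
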