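import Mathlib
import Fermat.Agent.S34.InstDefs
import Fermat.Agent.S35.InstDefs
import Fermat.Agent.S34.TauModel
import Fermat.Agent.S34.GaussZeroInst
import Fermat.Agent.S35.SigmaModel

/-!
# S35 (INST2), contract item (sig): the coefficientwise action of a Frobenius element

`s35_sgi_ct_sig : s35_ct_sig` — in the context of the contract of `S34/InstDefs.lean`, for a
Frobenius element `γ` at the place `P` and `σ₁ = s34_gi_tau K₁ (N₁ * q) γ`:

1. `σ₁` is compatible with the extension of constants (`s34_tm_model`);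
2. 3. `σ₁` preserves the two integral-closure charts (`s34_tm_model`);
4. `σ₁ ϖ = c ϖ` with `c` a unit of `A₁` (`s34_tm_model`);
5. 6. (T1) for `σ₁` at `V₁ = V∞` and at `V₂ = V∞.comap W` (`s34_gzi_T1_inf`, `s34_gzi_T1_zero`);
7. 8. 9. the constants `C = s35_sg_C` : `σ₁ C ⊆ C`, `σ₁² c ≡ c ^ (q²)` modulo `ϖ C`, (T1) for the
   non-zero constants of `K₁` (`s35_sgi_C_sigma`, `s35_sgi_C_frob`, `s35_sgi_C_T1`);
10. `σ₁ ∘ α = α ∘ σ₁'` (`s35_sgi_alpha`).
-/

set_option autoImplicit false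
set_option linter.unusedSectionVars false
set_option synthInstance.maxHeartbeats 400000
set_option maxHeartbeats 4000000

open ModularCurve AlgebraicCurve

open scoped Pointwise

noncomputable section

namespace Fermat.Agent.S35

open Fermat.Agent.S18 Fermat.Agent.S34

section Clauses

local notation "Qb" => AlgebraicClosure ℚ

variable (P : ValuationSubring Qb) (K₁ : IntermediateField ℚ Qb) [Normal ℚ K₁]
variable (L : ℕ) [NeZero L]

/-- Clause (7): the coefficientwise action of a Frobenius element preserves the constants. -/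
theorem s35_sgi_C_sigma {γ : Qb ≃ₐ[ℚ] Qb} {q : ℕ} (hγ : P.IsFrobeniusAt γ q) :
    ∀ c ∈ s35_sg_C (s18_A1 P K₁) L, s34_gi_tau K₁ L γ c ∈ s35_sg_C (s18_A1 P K₁) L :=
  fun c hc => s35_sg_C_sigma (γ.restrictNormal K₁) (s35_sg_restrict_mem P K₁ hγ) c hc

variable [IsDiscreteValuationRing (s18_A1 P K₁)] {π : s18_A1 P K₁}

/-- Clause (8): the square of the coefficientwise action of a Frobenius element is the
`q²`-power map on the constants, modulo `ϖ`. -/
theorem s35_sgi_C_frob {γ : Qb ≃ₐ[ℚ] Qb} {q : ℕ} (hγ : P.IsFrobeniusAt γ q)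
    (hπ : Irreducible π) :
    ∀ c ∈ s35_sg_C (s18_A1 P K₁) L,
      (algebraMap (s18_A1 P K₁) (s18_F1 K₁ L) π)⁻¹ *
        (s34_gi_tau K₁ L γ (s34_gi_tau K₁ L γ c) - c ^ (q ^ 2)) ∈
        s35_sg_C (s18_A1 P K₁) L := by
  intro c hc
  rw [s34_gzi_algebraMap]
  exact s35_sg_C_frob2 hπ q (γ.restrictNormal K₁) (s35_sg_restrict_mem P K₁ hγ)
    (s35_sg_restrict_frob P K₁ hγ) c hc

/-- Clause (9): (T1) for the non-zero constants. -/
theorem s35_sgi_C_T1 {γ : Qb ≃ₐ[ℚ] Qb} {q : ℕ} (hγ : P.IsFrobeniusAt γ q)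
    (hπ : Irreducible π) :
    ∀ c : K₁, c ≠ 0 →
      s34_gi_tau K₁ L γ (algebraMap K₁ (s18_F1 K₁ L) c) /
          algebraMap K₁ (s18_F1 K₁ L) c ∈ s35_sg_C (s18_A1 P K₁) L ∧
      algebraMap K₁ (s18_F1 K₁ L) c /
          s34_gi_tau K₁ L γ (algebraMap K₁ (s18_F1 K₁ L) c) ∈
        s35_sg_C (s18_A1 P K₁) L :=
  fun c hc => s35_sg_C_T1 hπ (γ.restrictNormal K₁) (s35_sg_restrict_mem P K₁ hγ)
    (s35_sg_restrict_symm_mem P K₁ hγ) c hc

/-- Clause (10): the coefficientwise action commutes with the inclusion `α` of the lower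
level. -/
theorem s35_sgi_alpha (N q : ℕ) [NeZero N] [NeZero q] [NeZero (N * q)] (γ : Qb ≃ₐ[ℚ] Qb) :
    ∀ y : s18_F1 K₁ N,
      s34_gi_tau K₁ (N * q) γ (heckeAlphaBar K₁ N q y) =
        heckeAlphaBar K₁ N q (s34_gi_tau K₁ N γ y) :=
  fun y => s35_sg_alpha_sigma (γ.restrictNormal K₁) y

end Clauses

/-- **Contract item (sig).** -/
theorem s35_sgi_ct_sig : s35_ct_sig := by
  intro N₁ q _ _ _ hqN P hP K₁ _ _ _ π hπ tL htL W hW γ hγ
  have : NeZero q := ⟨(Fact.out : q.Prime).ne_zero⟩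
  have hγP : γ • P = P := s35_sg_frob_smul P hγ
  obtain ⟨h1, h2, h3, h4⟩ := s34_tm_model P K₁ (N₁ * q) hπ γ hγP tL
  refine ⟨h1, h2, h3, h4, s34_gzi_T1_inf P K₁ (N₁ * q) hπ γ hγP, ?_,
    s35_sgi_C_sigma P K₁ (N₁ * q) hγ, s35_sgi_C_frob P K₁ (N₁ * q) hγ hπ,
    s35_sgi_C_T1 P K₁ (N₁ * q) hγ hπ, s35_sgi_alpha K₁ N₁ q γ⟩
  exact s34_gzi_T1_zero P K₁ (N₁ * q) hπ
    (W : s18_F1 K₁ (N₁ * q) ≃+* s18_F1 K₁ (N₁ * q)) hW.2.2.2.1 γ hγP

end Fermat.Agent.S35
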