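import Fermat.Agent.S35.ChooseK

/-!
# S35 (NODE-2), leaf (K1), add-on: the number field with a primitive `(l² - 1)`-th root of unity

* `s35_ck_zeta` : `ℚ̄` contains a primitive `n`-th root of unity for every `n ≠ 0`.
* `s35_ck_zeta_mem` : a primitive root of unity of `ℚ̄` lying in `K₁` is a primitive root of unity
  of `K₁`.
* `s35_ck_pkg` : the package consumed by the assembly (INST2): ONE finite Galois `K₁ / ℚ`
  containing a primitive `(l² - 1)`-th root of unity, over which `g` is defined, the support of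
  `div g` is fixed by `Gal(ℚ̄ / K₁)`, and both norm relations hold (in the `s35_nmAlong` form) for
  every swap `W₁` of `K₁ · F(N l)`.
-/

set_option autoImplicit false
set_option synthInstance.maxHeartbeats 400000

open AlgebraicCurve ModularCurve
open Fermat.Agent.S18 Fermat.Agent.S29 Fermat.Agent.S34 Fermat.Agent.S37

noncomputable section

namespace Fermat.Agent.S35

local notation "Qb" => AlgebraicClosure ℚ

/-- `ℚ̄` contains a primitive `n`-th root of unity. -/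
theorem s35_ck_zeta (n : ℕ) (hn : n ≠ 0) : ∃ ζ : Qb, IsPrimitiveRoot ζ n := by
  have : NeZero n := ⟨hn⟩
  have : NeZero (n : Qb) := ⟨by exact_mod_cast hn⟩
  exact HasEnoughRootsOfUnity.exists_primitiveRoot Qb n

/-- A primitive root of unity of `ℚ̄` lying in `K₁` is a primitive root of unity of `K₁`. -/
theorem s35_ck_zeta_mem (K₁ : IntermediateField ℚ Qb) {n : ℕ} {ζ : Qb} (hζ : IsPrimitiveRoot ζ n)
    (h : ζ ∈ K₁) : IsPrimitiveRoot (⟨ζ, h⟩ : K₁) n :=
  IsPrimitiveRoot.of_map_of_injective (f := algebraMap K₁ Qb) hζ (algebraMap K₁ Qb).injective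

set_option maxHeartbeats 2000000 in
/-- **(K1), package for (INST2).**  One finite Galois number field `K₁` containing a primitive
`(l² - 1)`-th root of unity, over which everything is defined. -/
theorem s35_ck_pkg (N l : ℕ) [NeZero N] [NeZero l] (hl : l.Prime) (hlN : ¬ l ∣ N)
    (W : modularFunctionFieldBar (N * l) ≃ₐ[Qb] modularFunctionFieldBar (N * l))
    (hWα : ∀ x, W (heckeAlphaBar Qb N l x) = heckeBetaBar Qb N l x)
    (hWβ : ∀ x, W (heckeBetaBar Qb N l x) = heckeAlphaBar Qb N l x)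
    (m : ℕ) (hm : 0 < m) (g : modularFunctionFieldBar (N * l)) (hg : g ≠ 0)
    (h₁ : ∃ (c : Qb) (f : modularFunctionFieldBar N),
      s29_kh_normAlong (heckeAlphaBar Qb N l) g =
        algebraMap Qb (modularFunctionFieldBar N) c * f ^ m)
    (h₂ : ∃ (c : Qb) (f : modularFunctionFieldBar N),
      s29_kh_normAlong (heckeAlphaBar Qb N l) (W g) =
        algebraMap Qb (modularFunctionFieldBar N) c * f ^ m) :
    ∃ K₁ : IntermediateField ℚ Qb, s18_d1_IsGaloisNF K₁ ∧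
      (∃ ζ : K₁, IsPrimitiveRoot ζ (l ^ 2 - 1)) ∧
      (∀ P : Place Qb (modularFunctionFieldBar (N * l)), P.ord g ≠ 0 →
        ∀ σ : Qb ≃ₐ[ℚ] Qb, (∀ c ∈ K₁, σ c = c) →
          arithmeticGalois (modularFunctionFieldFull (N * l)) σ • P = P) ∧
      ∃ g₁ : s18_F1 K₁ (N * l), s18_baseIncl K₁ (N * l) g₁ = g ∧ g₁ ≠ 0 ∧
        ∀ W₁ : s18_F1 K₁ (N * l) ≃ₐ[K₁] s18_F1 K₁ (N * l),
          (∀ x, W₁ (heckeAlphaBar K₁ N l x) = heckeBetaBar K₁ N l x) →
          (∀ x, W₁ (heckeBetaBar K₁ N l x) = heckeAlphaBar K₁ N l x) →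
          s18_baseIncl K₁ (N * l) (W₁ g₁) = W g ∧
          ∃ (c₁ c₂ : K₁) (f₁ f₂ : s18_F1 K₁ N), c₁ ≠ 0 ∧ c₂ ≠ 0 ∧ f₁ ≠ 0 ∧ f₂ ≠ 0 ∧
            s35_nmAlong (heckeAlphaBar K₁ N l).toRingHom g₁ =
              algebraMap K₁ (s18_F1 K₁ (N * l)) c₁ * (heckeAlphaBar K₁ N l f₁) ^ m ∧
            s35_nmAlong (heckeAlphaBar K₁ N l).toRingHom (W₁ g₁) =
              algebraMap K₁ (s18_F1 K₁ (N * l)) c₂ * (heckeAlphaBar K₁ N l f₂) ^ m := by
  classical
  have hn : l ^ 2 - 1 ≠ 0 := by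
    have h2 : 2 ≤ l := hl.two_le
    have h4 : 4 ≤ l ^ 2 := by nlinarith
    omega
  obtain ⟨ζ, hζ⟩ := s35_ck_zeta (l ^ 2 - 1) hn
  obtain ⟨K₀, hK₀, hS, h⟩ := s35_ck_main_nmAlong N l hl hlN W hWα hWβ m hm g hg h₁ h₂ {ζ}
  obtain ⟨hfix, hrest⟩ := h K₀ le_rfl
  exact ⟨K₀, hK₀, ⟨⟨ζ, hS ζ (Finset.mem_singleton_self ζ)⟩, s35_ck_zeta_mem K₀ hζ _⟩, hfix, hrest⟩

end Fermat.Agent.S35
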