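import Fermat.Agent.S35.HeckePol
import Fermat.Agent.S35.FrobTransfer

/-!
# S35 (NODE-2), glue (T) × (E4): the transfer hypothesis for a polynomial Hecke element

`helper6`'s `s35_ft_core` / `s35_ft_clause_core` take a lattice endomorphism `θ`, an element
`d ∈ T` and a transfer hypothesis `hfin`.  Here `θ = s35_ev M M _ e` for a Hecke polynomial
`e ∈ ℤ[X_ℓ : ℓ ∤ M]` with `χ_g(e) = d ∈ ℤ`, and `π = ι' ∘ chig.rangeRestrict`.

* `s35_pt_dvd` : an element of a subring of `ℂ` which is `P ·` (algebraic integer) maps to a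
  multiple of `P` in every integrally closed domain of characteristic zero.
* `s35_pt_hfin` : the hypothesis `hfin` (with `c = 0`).
* `s35_pt_clause` : S35 clause 2 from `∏_{r ∈ rs} (γ - r)` killing `ι_n (ev_M(e) Λ)`.
-/

set_option autoImplicit false

open Polynomial ModularCurve CongruenceSubgroup ModularCurve.Period
open Fermat.Agent.S29 Fermat.Agent.S31

noncomputable section

namespace Fermat.Agent.S35

local notation "Qb" => AlgebraicClosure ℚ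
local notation "Γ" => (AlgebraicClosure ℚ ≃ₐ[ℚ] AlgebraicClosure ℚ)

/-- If `y ∈ R₀ ⊆ ℂ` is `P` times an algebraic integer, its image in an integrally closed domain
of characteristic zero is divisible by `P`. -/
theorem s35_pt_dvd {O : Type*} [CommRing O] [IsDomain O] [IsIntegrallyClosed O] [CharZero O]
    (R₀ : Subring ℂ) (ι' : R₀ →+* O) (y : R₀) (P : ℕ) (hP : P ≠ 0) (a : ℂ)
    (ha : IsIntegral ℤ a) (hy : (y : ℂ) = (P : ℂ) * a) : ∃ z : O, ι' y = (P : O) * z := by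
  obtain ⟨f, hfm, hf⟩ := ha
  -- `y` is a root of `scaleRoots f P`
  have h1 : eval₂ (algebraMap ℤ ℂ) (algebraMap ℤ ℂ (P : ℤ) * a) (scaleRoots f (P : ℤ)) = 0 :=
    scaleRoots_eval₂_eq_zero _ hf
  have h2 : eval₂ (algebraMap ℤ R₀) y (scaleRoots f (P : ℤ)) = 0 := by
    apply Subtype.val_injective
    have h3 := Polynomial.hom_eval₂ (scaleRoots f (P : ℤ)) (algebraMap ℤ R₀) R₀.subtype y
    have h4 : R₀.subtype.comp (algebraMap ℤ R₀) = algebraMap ℤ ℂ := RingHom.ext_int _ _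
    rw [h4] at h3
    have h5 : R₀.subtype y = algebraMap ℤ ℂ (P : ℤ) * a := by
      rw [Subring.coe_subtype, hy]
      simp
    rw [h5, h1] at h3
    exact h3
  have h6 : eval₂ (algebraMap ℤ O) (ι' y) (scaleRoots f (P : ℤ)) = 0 := by
    have h3 := Polynomial.hom_eval₂ (scaleRoots f (P : ℤ)) (algebraMap ℤ R₀) ι' y
    have h4 : ι'.comp (algebraMap ℤ R₀) = algebraMap ℤ O := RingHom.ext_int _ _
    rw [h4, h2, map_zero] at h3
    exact h3.symm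
  -- pass to the fraction field
  let K := FractionRing O
  have hPK : ((P : ℤ) : K) ≠ 0 := by
    rw [Int.cast_natCast]
    exact Nat.cast_ne_zero.mpr hP
  set z : K := algebraMap O K (ι' y) / ((P : ℤ) : K) with hz
  have hyz : algebraMap O K (ι' y) = algebraMap ℤ K (P : ℤ) * z := by
    rw [hz, eq_intCast (algebraMap ℤ K), mul_div_cancel₀ _ hPK]
  have h7 : eval₂ (algebraMap ℤ K) (algebraMap O K (ι' y)) (scaleRoots f (P : ℤ)) = 0 := by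
    have h3 := Polynomial.hom_eval₂ (scaleRoots f (P : ℤ)) (algebraMap ℤ O) (algebraMap O K) (ι' y)
    have h4 : (algebraMap O K).comp (algebraMap ℤ O) = algebraMap ℤ K := RingHom.ext_int _ _
    rw [h4, h6, map_zero] at h3
    exact h3.symm
  rw [hyz, scaleRoots_eval₂_mul] at h7
  have h8 : eval₂ (algebraMap ℤ K) z f = 0 := by
    rcases mul_eq_zero.mp h7 with h | h
    · rw [eq_intCast (algebraMap ℤ K)] at h
      exact absurd h (pow_ne_zero _ hPK)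
    · exact h
  have hzint : IsIntegral ℤ z := ⟨f, hfm, h8⟩
  have hzO : IsIntegral O z := hzint.tower_top
  obtain ⟨z', hz'⟩ := IsIntegrallyClosed.isIntegral_iff.mp hzO
  refine ⟨z', ?_⟩
  apply IsFractionRing.injective O K
  rw [hyz, map_mul, hz', map_natCast, map_natCast]

/-- **The transfer hypothesis `hfin`** of `s35_ft_core` for the Hecke polynomial `e` with
`χ_g(e) = d ∈ ℤ` and `π = ι' ∘ chig.rangeRestrict` (with `c = 0`). -/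
theorem s35_pt_hfin {M : ℕ} [NeZero M] {g : CuspForm (Gamma0 M) 2}
    (hg : g.IsNormalizedEigenform) (p : ℕ) (hp0 : p ≠ 0) (S : Finset ℕ)
    {T : Type} [CommRing T] [IsDomain T] [IsLocalRing T] [IsIntegrallyClosed T] [CharZero T]
    (hpT : (p : T) ∈ IsLocalRing.maximalIdeal T)
    (chig : CuspForm.heckeAlgebra M 2 (↑S : Set ℕ) →+* ℂ)
    (hchig : ∀ (ℓ : ℕ) (hℓ : ℓ.Prime) (hℓM : ¬ ℓ ∣ M) (hℓS : ℓ ∉ (↑S : Set ℕ)),
      chig (CuspForm.heckeAlgebra.T hℓ hℓM hℓS) = ModularFormClass.qCoeff g ℓ)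
    (ι' : chig.range →+* T) (q : ℕ) (e : s35_Pol M) (d : ℤ) (hd : s35_chi g e = (d : ℂ))
    (rs : List ℤ) :
    ∃ c : ℕ, ∀ (k : ℕ) (ℓ : ℕ) (hℓ : ℓ.Prime) (hℓN : ¬ ℓ ∣ M)
      (hℓS : ℓ ∉ (↑S : Set ℕ)) (j : ℕ),
      (∀ ψ : ↥(parabolicHoms ℤ (Gamma0 M) ℤ), ∃ ψ' : ↥(parabolicHoms ℤ (Gamma0 M) ℤ),
        (s35_ft_R rs (s31_dk (s29_cp_Tpar M ℓ hℓ hℓN ℤ ℤ)
            ((ℓ : ℕ) : Module.End ℤ ↥(parabolicHoms ℤ (Gamma0 M) ℤ)) j)
          ((q : ℕ) : Module.End ℤ ↥(parabolicHoms ℤ (Gamma0 M) ℤ)) * s35_ev M M dvd_rfl e) ψ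
          = (p ^ (k + c)) • ψ') →
      s35_ft_R rs (s31_dk ((ι'.comp chig.rangeRestrict) (CuspForm.heckeAlgebra.T hℓ hℓN hℓS))
          (ℓ : T) j) (q : T) * (d : T) ∈ IsLocalRing.maximalIdeal T ^ k := by
  refine ⟨0, fun k ℓ hℓ hℓN hℓS j hu => ?_⟩
  rw [add_zero] at hu
  -- the Hecke polynomial `E`
  let i : s35_Idx M := ⟨ℓ, hℓ, hℓN⟩
  let E : s35_Pol M := s35_ft_R rs (s31_dk (MvPolynomial.X i) ((ℓ : ℕ) : s35_Pol M) j)
    ((q : ℕ) : s35_Pol M) * e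
  have hE : s35_ev M M dvd_rfl E = s35_ft_R rs (s31_dk (s29_cp_Tpar M ℓ hℓ hℓN ℤ ℤ)
      ((ℓ : ℕ) : Module.End ℤ ↥(parabolicHoms ℤ (Gamma0 M) ℤ)) j)
      ((q : ℕ) : Module.End ℤ ↥(parabolicHoms ℤ (Gamma0 M) ℤ)) * s35_ev M M dvd_rfl e := by
    rw [map_mul, s35_ft_R_map, s31_dk_map, s35_ev_X, map_natCast, map_natCast]
  have hEχ : s35_chi g E = s35_ft_R rs (s31_dk (ModularFormClass.qCoeff g ℓ) ((ℓ : ℕ) : ℂ) j)
      ((q : ℕ) : ℂ) * (d : ℂ) := by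
    rw [map_mul, s35_ft_R_map, s31_dk_map, s35_chi_X, map_natCast, map_natCast, hd]
  obtain ⟨a, ha, haE⟩ := s35_chi_dvd hg E (p ^ k) (fun ψ => by
    obtain ⟨ψ', hψ'⟩ := hu ψ
    exact ⟨ψ', by rw [hE, hψ']⟩)
  -- the element of `chig.range`
  let t₀ : chig.range := chig.rangeRestrict (CuspForm.heckeAlgebra.T hℓ hℓN hℓS)
  let y : chig.range := s35_ft_R rs (s31_dk t₀ ((ℓ : ℕ) : chig.range) j) ((q : ℕ) : chig.range)
    * ((d : ℤ) : chig.range)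
  have hy : (y : ℂ) = ((p ^ k : ℕ) : ℂ) * a := by
    rw [← haE, hEχ]
    have h1 : (y : ℂ) = chig.range.subtype y := rfl
    rw [h1, map_mul, s35_ft_R_map, s31_dk_map, map_natCast, map_natCast, map_intCast]
    have h2 : chig.range.subtype t₀ = ModularFormClass.qCoeff g ℓ := hchig ℓ hℓ hℓN hℓS
    rw [h2]
  obtain ⟨z, hz⟩ := s35_pt_dvd chig.range ι' y (p ^ k) (pow_ne_zero k hp0) a ha hy
  have hy' : ι' y = s35_ft_R rs (s31_dk ((ι'.comp chig.rangeRestrict)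
      (CuspForm.heckeAlgebra.T hℓ hℓN hℓS)) (ℓ : T) j) (q : T) * (d : T) := by
    rw [map_mul, s35_ft_R_map, s31_dk_map, map_natCast, map_natCast, map_intCast]
    rfl
  rw [← hy', hz, Nat.cast_pow]
  exact Ideal.mul_mem_right _ _ (Ideal.pow_mem_pow hpT k)

/-- **S35 clause 2 from the geometric input.**  If `χ_g(e) = d ≠ 0` and `∏_{r ∈ rs} (γ - r)`
(`rs ⊆ {1, -1, q, -q}`) kills `ι_n (ev_M(e) Λ)` at every level `n`, then the characteristic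
polynomial of `ρ(γ)` is `X² ∓ (q + 1) X + q`. -/
theorem s35_pt_clause (M : ℕ) [NeZero M] {g : CuspForm (Gamma0 M) 2}
    (hg : g.IsNormalizedEigenform) (p : ℕ) [Fact p.Prime] (S : Finset ℕ)
    (hpS : p ∈ S) (hMS : ∀ q : ℕ, q.Prime → q ∣ M → q ∈ S) (hcheb : s29_asm_Cheb)
    {T : Type} [CommRing T] [IsDomain T] [IsLocalRing T]
    [IsHausdorff (IsLocalRing.maximalIdeal T) T] [CharZero T] [IsIntegrallyClosed T]
    (hpT : (p : T) ∈ IsLocalRing.maximalIdeal T)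
    (chig : CuspForm.heckeAlgebra M 2 (↑S : Set ℕ) →+* ℂ)
    (hchig : ∀ (ℓ : ℕ) (hℓ : ℓ.Prime) (hℓM : ¬ ℓ ∣ M) (hℓS : ℓ ∉ (↑S : Set ℕ)),
      chig (CuspForm.heckeAlgebra.T hℓ hℓM hℓS) = ModularFormClass.qCoeff g ℓ)
    (ι' : chig.range →+* T) (ρ : GaloisRepAdic T)
    (hfrob : ∀ (ℓ : ℕ) (hℓ : ℓ.Prime) (hℓN : ¬ ℓ ∣ M) (hℓS : ℓ ∉ (↑S : Set ℕ))
      (A : ValuationSubring Qb), A.LiesOverPrime ℓ → ∀ σ : Γ, A.IsFrobeniusAt σ ℓ →
        LinearMap.charpoly (ρ.ρ σ)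
          = X ^ 2 - C ((ι'.comp chig.rangeRestrict) (CuspForm.heckeAlgebra.T hℓ hℓN hℓS)) * X
            + C ((ℓ : T)))
    (q : ℕ) (hq : q.Prime) (hqp : q ≠ p) (P : ValuationSubring Qb) (hP : P.LiesOverPrime q)
    (γ : Γ) (hγ : P.IsFrobeniusAt γ q)
    (e : s35_Pol M) (d : ℤ) (hd0 : d ≠ 0) (hd : s35_chi g e = (d : ℂ)) (rs : List ℤ)
    (hrs : ∀ r ∈ rs, r = 1 ∨ r = -1 ∨ r = (q : ℤ) ∨ r = -(q : ℤ))
    (hF : ∀ n : ℕ, ∃ ι : ↥(parabolicHoms ℤ (Gamma0 M) ℤ) →+ JZero M,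
      (∀ ψ, (p ^ n) • ι ψ = 0) ∧ (∀ ψ, ι ψ = 0 → ∃ ψ', ψ = (p ^ n) • ψ') ∧
      (∀ (ℓ : ℕ) (hℓ : ℓ.Prime) (hℓN : ¬ ℓ ∣ M), ¬ ℓ ∣ M * p → ∀ ψ,
        ι (s29_cp_Tpar M ℓ hℓ hℓN ℤ ℤ ψ) = heckeOperatorBar M ⟨ℓ, hℓ⟩ (ι ψ)) ∧
      ∀ ψ, s35_ft_app M γ rs (ι (s35_ev M M dvd_rfl e ψ)) = 0) :
    LinearMap.charpoly (ρ.ρ γ) = X ^ 2 - C ((q : T) + 1) * X + C ((q : T)) ∨
      LinearMap.charpoly (ρ.ρ γ) = X ^ 2 + C ((q : T) + 1) * X + C ((q : T)) :=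
  s35_ft_clause_core M p S hpS hMS hcheb hpT (ι'.comp chig.rangeRestrict) ρ hfrob q hq hqp P hP
    γ hγ (s35_ev M M dvd_rfl e) (d : T) (Int.cast_ne_zero.mpr hd0) rs hrs
    (s35_pt_hfin hg p (Fact.out : p.Prime).ne_zero S hpT chig hchig ι' q e d hd rs) hF

end Fermat.Agent.S35
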