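import Fermat.Agent.S29.ChebAsm
import Fermat.Agent.S35.PolTransfer
import Fermat.Agent.S35.NewE

/-!
# S35: clause 2 from the contract `hF`

`s35_clause2_of_hF` : for a newform `g` of level `N' * q` and a Galois representation `ρ` over a
complete DVR `O''` with the Frobenius characteristic polynomials of S30 (clause 1), a Frobenius
lift `σ` at `q ≠ lam` has `charpoly ρ(σ) = X² ∓ (q + 1) X + q`, PROVIDED (`hF`) for every Hecke
polynomial `e` killing the level-`N'` lattice the operator `(σ² - q²)(σ² - 1)²` kills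
`ι_n (e Λ)` for a bridge tower `ι_n : Λ → J₀(N' q)[lam ^ n]`.

(Glue of `s35_e_main` (newness gives `e` with `χ_g(e) ∈ ℤ ∖ {0}`) and `s35_pt_clause`.)
-/

set_option autoImplicit false
open Polynomial
open CuspForm CuspForm.IsNewform

namespace Fermat.Agent.S35

open ModularCurve ModularCurve.Period CongruenceSubgroup Fermat.Agent.S29

/-- S35 clause 2 (level `N' * q`) from the contract `hF`. -/
theorem s35_clause2_of_hF {N' q : ℕ} [NeZero N'] [NeZero (N' * q)]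
    {g : CuspForm (CongruenceSubgroup.Gamma0 (N' * q)) 2}
    (hg : g.IsNewform) (lam : ℕ) [Fact lam.Prime] (S : Finset ℕ)
    (O' : Type) [CommRing O'] [IsDomain O'] [IsDiscreteValuationRing O']
    (chig : CuspForm.heckeAlgebra (N' * q) 2 (↑S : Set ℕ) →+* ℂ)
    (hchig : ∀ (ℓ : ℕ) (hℓ : ℓ.Prime) (hℓM : ¬ ℓ ∣ N' * q) (hℓS : ℓ ∉ (↑S : Set ℕ)),
      chig (CuspForm.heckeAlgebra.T hℓ hℓM hℓS) = ModularFormClass.qCoeff g ℓ)
    (iota : chig.range →+* O')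
    (hlamS : lam ∈ S) (hMS : ∀ p : ℕ, p.Prime → p ∣ N' * q → p ∈ S)
    (O'' : Type) [CommRing O''] [IsDomain O''] [IsDiscreteValuationRing O'']
    [IsAdicComplete (IsLocalRing.maximalIdeal O'') O''] [CharZero O''] [Algebra O' O'']
    (hlamO'' : (lam : O'') ∈ IsLocalRing.maximalIdeal O'')
    (ρ : GaloisRepAdic O'')
    (hρ : ∀ (ℓ : ℕ) (hℓ : ℓ.Prime) (hℓM : ¬ ℓ ∣ N' * q) (hℓS : ℓ ∉ (↑S : Set ℕ)),
      ∀ A : ValuationSubring (AlgebraicClosure ℚ), A.LiesOverPrime ℓ →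
        ∀ σ : AlgebraicClosure ℚ ≃ₐ[ℚ] AlgebraicClosure ℚ, A.IsFrobeniusAt σ ℓ →
          LinearMap.charpoly (ρ.ρ σ) =
            X ^ 2 - C (algebraMap O' O'' ((iota.comp chig.rangeRestrict)
              (CuspForm.heckeAlgebra.T hℓ hℓM hℓS))) * X + C ((ℓ : O'')))
    (hq : q.Prime) (hqlam : q ≠ lam)
    (A : ValuationSubring (AlgebraicClosure ℚ)) (hA : A.LiesOverPrime q)
    (σ : AlgebraicClosure ℚ ≃ₐ[ℚ] AlgebraicClosure ℚ) (hσ : A.IsFrobeniusAt σ q)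
    (hF : ∀ e : s35_Pol (N' * q), s35_ev N' (N' * q) (dvd_mul_right N' q) e = 0 →
      ∀ n : ℕ, ∃ ι : ↥(parabolicHoms ℤ (Gamma0 (N' * q)) ℤ) →+ JZero (N' * q),
        (∀ ψ, (lam ^ n) • ι ψ = 0) ∧ (∀ ψ, ι ψ = 0 → ∃ ψ', ψ = (lam ^ n) • ψ') ∧
        (∀ (ℓ : ℕ) (hℓ : ℓ.Prime) (hℓN : ¬ ℓ ∣ N' * q), ¬ ℓ ∣ N' * q * lam → ∀ ψ,
          ι (s29_cp_Tpar (N' * q) ℓ hℓ hℓN ℤ ℤ ψ) = heckeOperatorBar (N' * q) ⟨ℓ, hℓ⟩ (ι ψ)) ∧
        ∀ ψ, s35_ft_app (N' * q) σ [(q : ℤ), -(q : ℤ), 1, -1, 1, -1]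
          (ι (s35_ev (N' * q) (N' * q) dvd_rfl e ψ)) = 0) :
    LinearMap.charpoly (ρ.ρ σ) = X ^ 2 - C ((q : O'') + 1) * X + C ((q : O'')) ∨
      LinearMap.charpoly (ρ.ρ σ) = X ^ 2 + C ((q : O'') + 1) * X + C ((q : O'')) := by
  have hN0 : N' ≠ 0 := NeZero.ne N'
  have hne : N' ≠ N' * q := by
    intro h
    have h1 : N' * 1 = N' * q := by rw [mul_one]; exact h
    exact hq.one_lt.ne (Nat.eq_of_mul_eq_mul_left (Nat.pos_of_ne_zero hN0) h1)
  obtain ⟨e, d, hd0, he, hd⟩ := s35_e_main (dvd_mul_right N' q) hne hg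
  exact s35_pt_clause (N' * q) hg.1 lam S hlamS hMS s29_cheb_asm hlamO'' chig hchig
    ((algebraMap O' O'').comp iota) ρ
    (fun ℓ hℓ hℓN hℓS A hA σ hσ => hρ ℓ hℓ hℓN hℓS A hA σ hσ)
    q hq hqlam A hA σ hσ e d hd0 hd [(q : ℤ), -(q : ℤ), 1, -1, 1, -1]
    (by
      intro r hr
      simp only [List.mem_cons, List.mem_nil_iff, or_false] at hr
      rcases hr with h | h | h | h | h | h
      · exact Or.inr (Or.inr (Or.inl h))
      · exact Or.inr (Or.inr (Or.inr h))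
      · exact Or.inl h
      · exact Or.inr (Or.inl h)
      · exact Or.inl h
      · exact Or.inr (Or.inl h))
    (hF e he)

end Fermat.Agent.S35
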