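import Mathlib

/-!
# S35 (NODE-2), block (E1)/(E2), abstract part: two-group transfer data

`ι' : Γ' →* G` (injective), `ι : Γ →* G` group homs, `δ : I → G` a finite family such that the
cosets `ι'(Γ') δ i` are pairwise distinct and their union is stable under right multiplication
by `ι(Γ)`.  Then `δ i * ι γ = ι' (coc γ i) * δ (perm γ i)` for a unique permutation `perm γ`
of `I` and unique `coc γ i : Γ'`, and `(T χ)(γ) := ∑ i, χ (coc γ i)` is a homomorphism
`Hom(Γ', A) → Hom(Γ, A)` for every abelian group `A`, natural in `A`.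

For `Γ' = Γ` this is the Hecke transfer of `S29/CohHeckeAbs.lean`; for `Γ' ≤ Γ = G` and `δ` a
system of right coset representatives it is the corestriction (transfer).
-/

set_option autoImplicit false

namespace Fermat.Agent.S35

/-- Abstract two-group transfer data. -/
structure s35_co_Data (Γ' Γ G I : Type*) [Group Γ'] [Group Γ] [Group G] where
  /-- the embedding of `Γ'` -/
  ι' : Γ' →* G
  ι'_inj : Function.Injective ι'
  /-- the map of `Γ` -/
  ι : Γ →* G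
  /-- the coset representatives -/
  δ : I → G
  ex : ∀ (γ : Γ) (i : I), ∃ (j : I) (γ' : Γ'), δ i * ι γ = ι' γ' * δ j
  uniq : ∀ (i j : I) (γ' : Γ'), δ i = ι' γ' * δ j → i = j

namespace s35_co_Data

variable {Γ' Γ G I : Type*} [Group Γ'] [Group Γ] [Group G] (D : s35_co_Data Γ' Γ G I)

/-- the index `σ_γ(i)`. -/
noncomputable def idx (γ : Γ) (i : I) : I := (D.ex γ i).choose

/-- the cocycle `γ_i`. -/
noncomputable def coc (γ : Γ) (i : I) : Γ' := (D.ex γ i).choose_spec.choose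

theorem spec (γ : Γ) (i : I) : D.δ i * D.ι γ = D.ι' (D.coc γ i) * D.δ (D.idx γ i) :=
  (D.ex γ i).choose_spec.choose_spec

theorem eq_of_spec {γ : Γ} {γ' : Γ'} {i j : I} (h : D.δ i * D.ι γ = D.ι' γ' * D.δ j) :
    j = D.idx γ i ∧ γ' = D.coc γ i := by
  have h1 := D.spec γ i
  rw [h] at h1
  have h2 : D.δ j = D.ι' (γ'⁻¹ * D.coc γ i) * D.δ (D.idx γ i) := by
    rw [map_mul, map_inv, mul_assoc, ← h1, inv_mul_cancel_left]
  have hj : j = D.idx γ i := D.uniq _ _ _ h2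
  refine ⟨hj, ?_⟩
  rw [← hj] at h1
  exact D.ι'_inj (mul_right_cancel h1)

theorem idx_one (i : I) : D.idx 1 i = i :=
  ((D.eq_of_spec (γ := 1) (γ' := 1) (i := i) (j := i) (by simp)).1).symm

theorem coc_one (i : I) : D.coc 1 i = 1 :=
  ((D.eq_of_spec (γ := 1) (γ' := 1) (i := i) (j := i) (by simp)).2).symm

theorem spec_mul (γ₁ γ₂ : Γ) (i : I) :
    D.δ i * D.ι (γ₁ * γ₂) =
      D.ι' (D.coc γ₁ i * D.coc γ₂ (D.idx γ₁ i)) * D.δ (D.idx γ₂ (D.idx γ₁ i)) := by
  rw [map_mul, ← mul_assoc, D.spec γ₁ i, mul_assoc, D.spec γ₂ (D.idx γ₁ i), ← mul_assoc, map_mul]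

theorem idx_mul (γ₁ γ₂ : Γ) (i : I) : D.idx (γ₁ * γ₂) i = D.idx γ₂ (D.idx γ₁ i) :=
  ((D.eq_of_spec (D.spec_mul γ₁ γ₂ i)).1).symm

theorem coc_mul (γ₁ γ₂ : Γ) (i : I) :
    D.coc (γ₁ * γ₂) i = D.coc γ₁ i * D.coc γ₂ (D.idx γ₁ i) :=
  ((D.eq_of_spec (D.spec_mul γ₁ γ₂ i)).2).symm

/-- the permutation `σ_γ` of the index set. -/
noncomputable def perm (γ : Γ) : Equiv.Perm I where
  toFun := D.idx γ
  invFun := D.idx γ⁻¹
  left_inv i := by rw [← D.idx_mul, mul_inv_cancel, D.idx_one]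
  right_inv i := by rw [← D.idx_mul, inv_mul_cancel, D.idx_one]

@[simp] theorem perm_apply (γ : Γ) (i : I) : D.perm γ i = D.idx γ i := rfl

theorem spec' (γ : Γ) (i : I) : D.δ i * D.ι γ = D.ι' (D.coc γ i) * D.δ (D.perm γ i) :=
  D.spec γ i

theorem perm_mul (γ₁ γ₂ : Γ) : D.perm (γ₁ * γ₂) = D.perm γ₂ * D.perm γ₁ := by
  ext i
  simp [D.idx_mul]

theorem perm_one : D.perm 1 = 1 := by
  ext i
  simp [D.idx_one]

theorem perm_pow (γ : Γ) (n : ℕ) : D.perm (γ ^ n) = D.perm γ ^ n := by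
  induction n with
  | zero => simp [D.perm_one]
  | succ n ih => rw [pow_succ, D.perm_mul, ih, pow_succ']

/-- if `σ_γ` fixes `i` then `γ_i = δ_i γ δ_i⁻¹`. -/
theorem coc_conj {γ : Γ} {i : I} (h : D.idx γ i = i) :
    D.ι' (D.coc γ i) = D.δ i * D.ι γ * (D.δ i)⁻¹ := by
  have h1 := D.spec γ i
  rw [h] at h1
  rw [h1, mul_inv_cancel_right]

/-- if `σ_γ ^ n = 1` then `(γ ^ n)_i = δ_i γ ^ n δ_i⁻¹`. -/
theorem coc_pow_conj {γ : Γ} {n : ℕ} (h : D.perm γ ^ n = 1) (i : I) :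
    D.ι' (D.coc (γ ^ n) i) = D.δ i * D.ι (γ ^ n) * (D.δ i)⁻¹ := by
  apply D.coc_conj
  rw [← D.perm_apply, D.perm_pow, h]
  rfl

variable [Fintype I]

/-- **the transfer** `Hom(Γ', A) → Hom(Γ, A)`. -/
noncomputable def T (A : Type*) [AddCommGroup A] :
    (Additive Γ' →+ A) →+ (Additive Γ →+ A) where
  toFun χ :=
    { toFun := fun γ => ∑ i : I, χ (Additive.ofMul (D.coc (Additive.toMul γ) i))
      map_zero' := by
        show ∑ i : I, χ (Additive.ofMul (D.coc 1 i)) = 0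
        simp [D.coc_one]
      map_add' := fun γ₁ γ₂ => by
        show ∑ i : I, χ (Additive.ofMul (D.coc (Additive.toMul γ₁ * Additive.toMul γ₂) i)) = _
        simp only [D.coc_mul, ofMul_mul, map_add, Finset.sum_add_distrib]
        congr 1
        exact Equiv.sum_comp (D.perm (Additive.toMul γ₁))
          (fun j => χ (Additive.ofMul (D.coc (Additive.toMul γ₂) j))) }
  map_zero' := by
    ext γ
    simp
  map_add' χ χ' := by
    ext γ
    simp [Finset.sum_add_distrib]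

theorem T_apply {A : Type*} [AddCommGroup A] (χ : Additive Γ' →+ A) (γ : Γ) :
    D.T A χ (Additive.ofMul γ) = ∑ i : I, χ (Additive.ofMul (D.coc γ i)) := rfl

/-- naturality in the coefficient group. -/
theorem T_comp {A B : Type*} [AddCommGroup A] [AddCommGroup B] (f : A →+ B)
    (χ : Additive Γ' →+ A) : D.T B (f.comp χ) = f.comp (D.T A χ) := by
  ext γ
  show ∑ i : I, f (χ _) = f (∑ i : I, χ _)
  rw [map_sum]

/-- **independence of the representatives**: if `δ₂ k = ι'(h k) * δ₁ (b k)` for a bijection `b`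
of the index sets, the two transfers agree. -/
theorem T_eq_of_rep {I₂ : Type*} [Fintype I₂] (D₂ : s35_co_Data Γ' Γ G I₂)
    (hι' : D₂.ι' = D.ι') (hι : D₂.ι = D.ι) (b : I₂ ≃ I) (h : I₂ → Γ')
    (hδ : ∀ k, D₂.δ k = D.ι' (h k) * D.δ (b k)) (A : Type*) [AddCommGroup A] :
    D₂.T A = D.T A := by
  have key : ∀ (γ : Γ) (k : I₂), b (D₂.idx γ k) = D.idx γ (b k) ∧
      D₂.coc γ k = h k * D.coc γ (b k) * (h (D₂.idx γ k))⁻¹ := by
    intro γ k
    have h1 := D₂.spec γ k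
    rw [hδ k, hδ (D₂.idx γ k), hι, hι'] at h1
    have h2 : D.δ (b k) * D.ι γ =
        D.ι' ((h k)⁻¹ * D₂.coc γ k * h (D₂.idx γ k)) * D.δ (b (D₂.idx γ k)) := by
      rw [map_mul, map_mul, map_inv, mul_assoc, mul_assoc, ← h1, mul_assoc,
        inv_mul_cancel_left]
    obtain ⟨h3, h4⟩ := D.eq_of_spec h2
    refine ⟨h3, ?_⟩
    rw [← h4]
    group
  refine AddMonoidHom.ext fun χ => AddMonoidHom.ext fun γ' => ?_
  obtain ⟨γ, rfl⟩ := Additive.ofMul.surjective γ'
  rw [T_apply, T_apply]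
  have h5 : ∀ k : I₂, χ (Additive.ofMul (D₂.coc γ k)) =
      χ (Additive.ofMul (h k)) + χ (Additive.ofMul (D.coc γ (b k))) -
        χ (Additive.ofMul (h (D₂.idx γ k))) := by
    intro k
    rw [(key γ k).2, ofMul_mul, ofMul_mul, ofMul_inv, map_add, map_add, map_neg]
    abel
  rw [Finset.sum_congr rfl (fun k _ => h5 k), Finset.sum_sub_distrib, Finset.sum_add_distrib]
  have h6 : ∑ k : I₂, χ (Additive.ofMul (h (D₂.idx γ k))) = ∑ k : I₂, χ (Additive.ofMul (h k)) :=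
    Equiv.sum_comp (D₂.perm γ) (fun k => χ (Additive.ofMul (h k)))
  rw [h6, add_sub_cancel_left]
  exact Equiv.sum_comp b (fun i => χ (Additive.ofMul (D.coc γ i)))

end s35_co_Data

end Fermat.Agent.S35
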