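import Fermat.Agent.S35.CorAbs
import Fermat.Agent.S29.KapHeckeNorm

/-!
# S35 (NODE-2), block (E1)/(E2): the two transfers `Hom(Γ₀(N ℓ), A) → Hom(Γ₀(N), A)`

For a prime `ℓ ∤ N`:

* `s35_co_rep N ℓ hl hlN i` : right coset representatives of `Γ₀(N ℓ) \ Γ₀(N)`, indexed by
  `Option (Fin ℓ)` through `s29_ch_perm N ℓ hl hlN (rep i) none = i`;
* `s35_co_data1` : the transfer data `δ i = rep i` (corestriction);
* `s35_co_w` : the Atkin–Lehner matrix `(ℓ b; N ℓ ℓ d')`, `ℓ d' - N b = 1`;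
* `s35_co_data2` : the transfer data `δ i = w * rep i` (corestriction after conjugation by `w`).
-/

set_option autoImplicit false

open CongruenceSubgroup
open scoped MatrixGroups

noncomputable section

namespace Fermat.Agent.S35

open Fermat.Agent.S29

/-- `Γ₀(N ℓ) ≤ Γ₀(N)`. -/
theorem s35_co_mem_of_mul {N l : ℕ} (η : Gamma0 (N * l)) : (η : SL(2, ℤ)) ∈ Gamma0 N := by
  have h := s29_ch_dvd η
  rw [Gamma0_mem, ZMod.intCast_zmod_eq_zero_iff_dvd]
  exact dvd_trans (by push_cast; exact dvd_mul_right _ _) h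

/-- the inclusion `Γ₀(N ℓ) → Γ₀(N)`. -/
def s35_co_incl (N l : ℕ) (η : Gamma0 (N * l)) : Gamma0 N := ⟨(η : SL(2, ℤ)), s35_co_mem_of_mul η⟩

theorem s35_co_iota_incl (N l : ℕ) (η : Gamma0 (N * l)) :
    s29_ch_iota N (s35_co_incl N l η) = s29_ch_iota (N * l) η := rfl

/-- an element of `Γ₀(N)` fixing the coset `Γ₀(N) δ_∞` lies in `Γ₀(N ℓ)`. -/
theorem s35_co_mem_of_perm_none (N l : ℕ) (hl : l.Prime) (hlN : ¬ l ∣ N) (η : Gamma0 N)
    (h : s29_ch_perm N l hl hlN η none = none) : (η : SL(2, ℤ)) ∈ Gamma0 (N * l) := by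
  have h1 := s29_ch_spec N l hl hlN η none
  rw [h] at h1
  have h2 : s29_ch_delta l none * s29_ch_iota N η =
      s29_ch_iota N (s29_ch_coc N l hl hlN η none) * s29_ch_delta l none := h1
  have h3 := congrArg (fun g : GL (Fin 2) ℝ => (g : Matrix (Fin 2) (Fin 2) ℝ)) h2
  simp only [Units.val_mul] at h3
  rw [s29_ch_delta_val hl.ne_zero, s29_ch_iota_val, s29_ch_iota_val, ← Matrix.map_mul,
    ← Matrix.map_mul] at h3
  have h4 := Matrix.map_injective (Int.castRingHom ℝ).injective_int h3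
  rw [s29_ch_val_eq η, s29_ch_val_eq (s29_ch_coc N l hl hlN η none)] at h4
  simp only [s29_ch_deltaZ, Matrix.mul_fin_two] at h4
  have h10 := congrFun (congrFun h4 1) 0
  simp at h10
  have hN := s29_ch_dvd (s29_ch_coc N l hl hlN η none)
  rw [Gamma0_mem, ZMod.intCast_zmod_eq_zero_iff_dvd, h10]
  push_cast
  exact mul_dvd_mul hN dvd_rfl

/-- right coset representatives of `Γ₀(N ℓ) \ Γ₀(N)`. -/
def s35_co_rep (N l : ℕ) (hl : l.Prime) (hlN : ¬ l ∣ N) (i : Option (Fin l)) : Gamma0 N :=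
  (s29_kh_perm_trans N l hl hlN i).choose

theorem s35_co_rep_spec (N l : ℕ) (hl : l.Prime) (hlN : ¬ l ∣ N) (i : Option (Fin l)) :
    s29_ch_perm N l hl hlN (s35_co_rep N l hl hlN i) none = i :=
  (s29_kh_perm_trans N l hl hlN i).choose_spec

theorem s35_co_perm_mul (N l : ℕ) (hl : l.Prime) (hlN : ¬ l ∣ N) (γ γ' : Gamma0 N) :
    s29_ch_perm N l hl hlN (γ * γ') = s29_ch_perm N l hl hlN γ' * s29_ch_perm N l hl hlN γ :=
  (s29_ch_data N l hl hlN).perm_mul γ γ'

theorem s35_co_perm_inv (N l : ℕ) (hl : l.Prime) (hlN : ¬ l ∣ N) (γ : Gamma0 N) :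
    s29_ch_perm N l hl hlN γ⁻¹ = (s29_ch_perm N l hl hlN γ)⁻¹ := by
  have h := s35_co_perm_mul N l hl hlN γ γ⁻¹
  rw [mul_inv_cancel] at h
  have h1 : s29_ch_perm N l hl hlN (1 : Gamma0 N) = 1 := (s29_ch_data N l hl hlN).perm_one
  rw [h1] at h
  exact eq_inv_of_mul_eq_one_left h.symm

/-- **the corestriction data** `Γ₀(N ℓ) ≤ Γ₀(N)`. -/
def s35_co_data1 (N l : ℕ) (hl : l.Prime) (hlN : ¬ l ∣ N) :
    s35_co_Data (Gamma0 (N * l)) (Gamma0 N) (GL (Fin 2) ℝ) (Option (Fin l)) where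
  ι' := s29_ch_iota (N * l)
  ι'_inj := s29_ch_iota_injective (N * l)
  ι := s29_ch_iota N
  δ i := s29_ch_iota N (s35_co_rep N l hl hlN i)
  ex γ i := by
    set j := s29_ch_perm N l hl hlN γ i with hj
    set η : Gamma0 N := s35_co_rep N l hl hlN i * γ * (s35_co_rep N l hl hlN j)⁻¹ with hη
    have hperm : s29_ch_perm N l hl hlN η none = none := by
      rw [hη, s35_co_perm_mul, s35_co_perm_mul, s35_co_perm_inv, Equiv.Perm.mul_apply,
        Equiv.Perm.mul_apply, s35_co_rep_spec, ← hj, Equiv.Perm.inv_eq_iff_eq,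
        s35_co_rep_spec]
    refine ⟨j, ⟨(η : SL(2, ℤ)), s35_co_mem_of_perm_none N l hl hlN η hperm⟩, ?_⟩
    have h1 : s29_ch_iota (N * l) ⟨(η : SL(2, ℤ)), s35_co_mem_of_perm_none N l hl hlN η hperm⟩ =
        s29_ch_iota N η := rfl
    rw [h1, ← map_mul, ← map_mul, hη, inv_mul_cancel_right]
  uniq i j γ' h := by
    have h1 : s29_ch_iota N (s35_co_rep N l hl hlN i) =
        s29_ch_iota N (s35_co_incl N l γ' * s35_co_rep N l hl hlN j) := by
      rw [map_mul, s35_co_iota_incl]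
      exact h
    have h2 := s29_ch_iota_injective N h1
    have h3 := s35_co_rep_spec N l hl hlN i
    rw [h2, s35_co_perm_mul, Equiv.Perm.mul_apply,
      s29_kh_perm_none_of_mem N l hl hlN (s35_co_incl N l γ') γ'.2, s35_co_rep_spec] at h3
    exact h3.symm

/-! ### The Atkin–Lehner matrix -/

/-- Bézout coefficient `b` of `ℓ d' - N b = 1`. -/
def s35_co_b (N l : ℕ) : ℤ := -Int.gcdB (l : ℤ) (N : ℤ)

/-- Bézout coefficient `d'` of `ℓ d' - N b = 1`. -/
def s35_co_d (N l : ℕ) : ℤ := Int.gcdA (l : ℤ) (N : ℤ)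

theorem s35_co_bez (N l : ℕ) (hl : l.Prime) (hlN : ¬ l ∣ N) :
    (l : ℤ) * s35_co_d N l - N * s35_co_b N l = 1 := by
  have h := Int.gcd_eq_gcd_ab (l : ℤ) (N : ℤ)
  have hg : Int.gcd (l : ℤ) (N : ℤ) = 1 := by
    rw [Int.gcd_natCast_natCast]
    exact (Nat.Prime.coprime_iff_not_dvd hl).2 hlN
  rw [hg] at h
  unfold s35_co_b s35_co_d
  push_cast at h
  linarith

/-- the integral Atkin–Lehner matrix `(ℓ b; N ℓ ℓ d')`. -/
def s35_co_wZ (N l : ℕ) : Matrix (Fin 2) (Fin 2) ℤ :=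
  !![(l : ℤ), s35_co_b N l; (N : ℤ) * l, l * s35_co_d N l]

/-- `γ₀ = (1 b; N ℓ d') ∈ Γ₀(N)`. -/
def s35_co_g0 (N l : ℕ) (hl : l.Prime) (hlN : ¬ l ∣ N) : Gamma0 N :=
  s29_ch_mk N 1 (s35_co_b N l) N (l * s35_co_d N l)
    (by linarith [s35_co_bez N l hl hlN]) dvd_rfl

/-- **the Atkin–Lehner matrix** `w = γ₀ · diag(ℓ, 1)` in `GL₂(ℝ)`. -/
def s35_co_w (N l : ℕ) (hl : l.Prime) (hlN : ¬ l ∣ N) : GL (Fin 2) ℝ :=
  s29_ch_iota N (s35_co_g0 N l hl hlN) * s29_ch_delta l none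

theorem s35_co_w_val (N l : ℕ) (hl : l.Prime) (hlN : ¬ l ∣ N) :
    ((s35_co_w N l hl hlN : GL (Fin 2) ℝ) : Matrix (Fin 2) (Fin 2) ℝ) =
      (s35_co_wZ N l).map (Int.castRingHom ℝ) := by
  rw [s35_co_w, Units.val_mul, s29_ch_iota_val, s29_ch_delta_val hl.ne_zero, ← Matrix.map_mul]
  congr 1
  rw [s35_co_g0, s29_ch_mk_val, s29_ch_deltaZ, s35_co_wZ]
  simp only [Matrix.mul_fin_two]
  exact s29_ch_of_eq (by ring) (by ring) (by ring) (by ring)

/-- real matrix identities from integral ones (conjugation by a fixed matrix). -/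
theorem s35_co_real_of_int {N : ℕ} (γ γ' : Gamma0 N) (g : GL (Fin 2) ℝ)
    (gZ : Matrix (Fin 2) (Fin 2) ℤ)
    (hg : (g : Matrix (Fin 2) (Fin 2) ℝ) = gZ.map (Int.castRingHom ℝ))
    (h : gZ * ((γ : SL(2, ℤ)) : Matrix (Fin 2) (Fin 2) ℤ) =
      ((γ' : SL(2, ℤ)) : Matrix (Fin 2) (Fin 2) ℤ) * gZ) :
    g * s29_ch_iota N γ = s29_ch_iota N γ' * g := by
  apply Units.ext
  rw [Units.val_mul, Units.val_mul, hg, s29_ch_iota_val, s29_ch_iota_val, ← Matrix.map_mul,
    ← Matrix.map_mul, h]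

/-- `w Γ₀(N ℓ) w⁻¹ ⊆ Γ₀(N ℓ)`. -/
theorem s35_co_w_conj (N l : ℕ) (hl : l.Prime) (hlN : ¬ l ∣ N) (η : Gamma0 (N * l)) :
    ∃ η' : Gamma0 (N * l),
      s35_co_w N l hl hlN * s29_ch_iota (N * l) η = s29_ch_iota (N * l) η' * s35_co_w N l hl hlN := by
  have hb := s35_co_bez N l hl hlN
  set b := s35_co_b N l with hbdef
  set d := s35_co_d N l with hddef
  obtain ⟨z, hz⟩ := s29_ch_dvd η
  have hdet := s29_ch_det η
  set x := (η : SL(2, ℤ)) 0 0 with hx
  set y := (η : SL(2, ℤ)) 0 1 with hy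
  set t := (η : SL(2, ℤ)) 1 1 with ht
  rw [hz] at hdet
  push_cast at hz hdet
  have hdet' : (l * x * d + b * N * l * z * d - l * y * N - b * t * N) *
      (-(b * N * x) - b * l * d * N * z + N * l * y + l * d * t) -
      (-(b * x) - b * b * N * z + l * y + b * t) *
        (((N * l : ℕ) : ℤ) * (x * d + l * d * d * z - N * y - d * t)) = 1 := by
    have e : (l * x * d + b * N * l * z * d - l * y * N - b * t * N) *
        (-(b * N * x) - b * l * d * N * z + N * l * y + l * d * t) -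
        (-(b * x) - b * b * N * z + l * y + b * t) *
          (((N * l : ℕ) : ℤ) * (x * d + l * d * d * z - N * y - d * t)) =
        ((l : ℤ) * d - N * b) ^ 2 * (x * t - y * ((N : ℤ) * l * z)) := by
      push_cast
      ring
    rw [e, hb, hdet]
    ring
  refine ⟨s29_ch_mk (N * l) _ _ _ _ hdet' (dvd_mul_right _ _), ?_⟩
  apply s35_co_real_of_int η _ _ (s35_co_wZ N l) (s35_co_w_val N l hl hlN)
  rw [s29_ch_val_eq η, s29_ch_mk_val, s35_co_wZ, ← hx, ← hy, ← ht, hz, ← hbdef, ← hddef]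
  simp only [Matrix.mul_fin_two]
  push_cast
  exact s29_ch_of_eq (by linear_combination (-(l * (x + b * N * z))) * hb)
    (by linear_combination (-(l * y + b * t)) * hb)
    (by linear_combination (-(N * l * (x + l * d * z))) * hb)
    (by linear_combination (-(N * l * y + l * d * t)) * hb)

/-- `w⁻¹ Γ₀(N ℓ) w ⊆ Γ₀(N ℓ)`. -/
theorem s35_co_w_conj' (N l : ℕ) (hl : l.Prime) (hlN : ¬ l ∣ N) (η' : Gamma0 (N * l)) :
    ∃ η : Gamma0 (N * l),
      s35_co_w N l hl hlN * s29_ch_iota (N * l) η = s29_ch_iota (N * l) η' * s35_co_w N l hl hlN := by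
  have hb := s35_co_bez N l hl hlN
  set b := s35_co_b N l with hbdef
  set d := s35_co_d N l with hddef
  obtain ⟨z, hz⟩ := s29_ch_dvd η'
  have hdet := s29_ch_det η'
  set x := (η' : SL(2, ℤ)) 0 0 with hx
  set y := (η' : SL(2, ℤ)) 0 1 with hy
  set t := (η' : SL(2, ℤ)) 1 1 with ht
  rw [hz] at hdet
  push_cast at hz hdet
  have hdet' : (l * d * x + N * l * d * y - N * l * b * z - N * b * t) *
      (-(N * b * x) - N * l * d * y + N * l * b * z + l * d * t) -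
      (d * b * x + l * d * d * y - N * b * b * z - b * d * t) *
        (((N * l : ℕ) : ℤ) * (-x - N * y + l * z + t)) = 1 := by
    have e : (l * d * x + N * l * d * y - N * l * b * z - N * b * t) *
        (-(N * b * x) - N * l * d * y + N * l * b * z + l * d * t) -
        (d * b * x + l * d * d * y - N * b * b * z - b * d * t) *
          (((N * l : ℕ) : ℤ) * (-x - N * y + l * z + t)) =
        ((l : ℤ) * d - N * b) ^ 2 * (x * t - y * ((N : ℤ) * l * z)) := by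
      push_cast
      ring
    rw [e, hb, hdet]
    ring
  refine ⟨s29_ch_mk (N * l) _ _ _ _ hdet' (dvd_mul_right _ _), ?_⟩
  apply s35_co_real_of_int _ η' _ (s35_co_wZ N l) (s35_co_w_val N l hl hlN)
  rw [s29_ch_val_eq η', s29_ch_mk_val, s35_co_wZ, ← hx, ← hy, ← ht, hz, ← hbdef, ← hddef]
  simp only [Matrix.mul_fin_two]
  push_cast
  exact s29_ch_of_eq (by linear_combination (l * x + N * l * y) * hb)
    (by linear_combination (b * x + l * d * y) * hb)
    (by linear_combination (N * l * (l * z + t)) * hb)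
    (by linear_combination (N * l * b * z + l * d * t) * hb)

/-- **the corestriction data after conjugation by the Atkin–Lehner matrix**. -/
def s35_co_data2 (N l : ℕ) (hl : l.Prime) (hlN : ¬ l ∣ N) :
    s35_co_Data (Gamma0 (N * l)) (Gamma0 N) (GL (Fin 2) ℝ) (Option (Fin l)) where
  ι' := s29_ch_iota (N * l)
  ι'_inj := s29_ch_iota_injective (N * l)
  ι := s29_ch_iota N
  δ i := s35_co_w N l hl hlN * s29_ch_iota N (s35_co_rep N l hl hlN i)
  ex γ i := by
    have h1 := (s35_co_data1 N l hl hlN).spec γ i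
    obtain ⟨η', hη'⟩ := s35_co_w_conj N l hl hlN ((s35_co_data1 N l hl hlN).coc γ i)
    refine ⟨(s35_co_data1 N l hl hlN).idx γ i, η', ?_⟩
    have h2 : s29_ch_iota N (s35_co_rep N l hl hlN i) * s29_ch_iota N γ =
        s29_ch_iota (N * l) ((s35_co_data1 N l hl hlN).coc γ i) *
          s29_ch_iota N (s35_co_rep N l hl hlN ((s35_co_data1 N l hl hlN).idx γ i)) := h1
    rw [mul_assoc, h2, ← mul_assoc, hη', mul_assoc]
  uniq i j γ' h := by
    obtain ⟨η, hη⟩ := s35_co_w_conj' N l hl hlN γ'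
    refine (s35_co_data1 N l hl hlN).uniq i j η ?_
    show s29_ch_iota N (s35_co_rep N l hl hlN i) =
      s29_ch_iota (N * l) η * s29_ch_iota N (s35_co_rep N l hl hlN j)
    have h3 : s35_co_w N l hl hlN * s29_ch_iota N (s35_co_rep N l hl hlN i) =
        s35_co_w N l hl hlN *
          (s29_ch_iota (N * l) η * s29_ch_iota N (s35_co_rep N l hl hlN j)) := by
      rw [← mul_assoc, hη, mul_assoc]
      exact h
    exact mul_left_cancel h3

theorem s35_co_data1_iota' (N l : ℕ) (hl : l.Prime) (hlN : ¬ l ∣ N) :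
    (s35_co_data1 N l hl hlN).ι' = s29_ch_iota (N * l) := rfl

theorem s35_co_data1_iota (N l : ℕ) (hl : l.Prime) (hlN : ¬ l ∣ N) :
    (s35_co_data1 N l hl hlN).ι = s29_ch_iota N := rfl

theorem s35_co_data1_delta (N l : ℕ) (hl : l.Prime) (hlN : ¬ l ∣ N) (i : Option (Fin l)) :
    (s35_co_data1 N l hl hlN).δ i = s29_ch_iota N (s35_co_rep N l hl hlN i) := rfl

theorem s35_co_data2_iota' (N l : ℕ) (hl : l.Prime) (hlN : ¬ l ∣ N) :
    (s35_co_data2 N l hl hlN).ι' = s29_ch_iota (N * l) := rfl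

theorem s35_co_data2_iota (N l : ℕ) (hl : l.Prime) (hlN : ¬ l ∣ N) :
    (s35_co_data2 N l hl hlN).ι = s29_ch_iota N := rfl

theorem s35_co_data2_delta (N l : ℕ) (hl : l.Prime) (hlN : ¬ l ∣ N) (i : Option (Fin l)) :
    (s35_co_data2 N l hl hlN).δ i =
      s35_co_w N l hl hlN * s29_ch_iota N (s35_co_rep N l hl hlN i) := rfl

end Fermat.Agent.S35
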