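import Fermat.Agent.S35.FDefs
import Fermat.Agent.S35.FrobChain
import Fermat.Agent.S34.GalBook

/-!
# S35: the fold of the hub `s35_FPow` under an inclusion of fields

`j : F →+* E` a ring homomorphism of fields (e.g. `s18_baseIncl K₁ L : K₁ · F(L) → Q̄ · F(L)`),
`σ₁ : F ≃+* F` a ring automorphism of `F` and `Sg` a semilinear automorphism of `E` with
`j (σ₁ x) = Sg • j x`.

* `s35_ff_fold_map` : `s35_fp_mul Sg rs (j g) = j (fold of y ↦ σ₁ y / y ^ r over rs at g)`;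
* `s35_ff_hub_eq` : for `rs = [l, -l, 1, -1, 1, -1]` the fold is `j (s u / u^(l²))`,
  `u = s²g · g / (s g)²`, `s = σ₁²`;
* `s35_ff_hub` : if `H := s u / (u^(l²) Ψ^m)` becomes an `m`-th power in `E`, so does the fold
  (the conclusion of the hub `s35_FPow`);
* `s35_ff_hdiv` : all orders of `j H` are divisible by `m` when those of `j g` are.
-/

set_option autoImplicit false

open AlgebraicCurve

namespace Fermat.Agent.S35

variable {K E F : Type*} [Field K] [Field E] [Algebra K E] [Field F]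

/-- The multiplicative fold commutes with an inclusion intertwining `σ₁` and `Sg`. -/
theorem s35_ff_fold_map (j : F →+* E) (σ₁ : F ≃+* F) (Sg : SemilinearAut K E)
    (hj : ∀ x, j (σ₁ x) = Sg • j x) (rs : List ℤ) (g : F) :
    s35_fp_mul Sg rs (j g) = j (rs.foldr (fun (r : ℤ) (y : F) => σ₁ y / y ^ r) g) := by
  induction rs with
  | nil => rfl
  | cons r rs ih =>
    rw [s35_fp_mul_cons, ih, List.foldr_cons, map_div₀, map_zpow₀, hj]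

/-- The fold of the hub is `j (s u / u^(l²))` for `u = s²g · g / (s g)²`, `s = σ₁²`. -/
theorem s35_ff_hub_eq (j : F →+* E) (σ₁ s₁ : F ≃+* F) (hs : ∀ x, s₁ x = σ₁ (σ₁ x))
    (Sg : SemilinearAut K E) (hj : ∀ x, j (σ₁ x) = Sg • j x) (l : ℕ) (g : F) (hg : g ≠ 0) :
    s35_fp_mul Sg [(l : ℤ), -(l : ℤ), 1, -1, 1, -1] (j g) =
      j (s₁ (s₁ (s₁ g) * g / (s₁ g) ^ 2) / (s₁ (s₁ g) * g / (s₁ g) ^ 2) ^ (l ^ 2)) := by
  rw [s35_ff_fold_map j σ₁ Sg hj, s35_fc_fold_s σ₁ s₁ hs l g hg]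

/-- If `H := s u / (u^(l²) Ψ^m)` is an `m`-th power in `E`, then so is the fold of the hub. -/
theorem s35_ff_hub (j : F →+* E) (σ₁ s₁ : F ≃+* F) (hs : ∀ x, s₁ x = σ₁ (σ₁ x))
    (Sg : SemilinearAut K E) (hj : ∀ x, j (σ₁ x) = Sg • j x) (l m : ℕ) (g Ψ : F) (hg : g ≠ 0)
    (hΨ : Ψ ≠ 0)
    (hpow : ∃ x : E, x ^ m = j (s₁ (s₁ (s₁ g) * g / (s₁ g) ^ 2) /
      ((s₁ (s₁ g) * g / (s₁ g) ^ 2) ^ (l ^ 2) * Ψ ^ m))) :
    ∃ h : E, h ^ m = s35_fp_mul Sg [(l : ℤ), -(l : ℤ), 1, -1, 1, -1] (j g) := by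
  obtain ⟨x, hx⟩ := hpow
  refine ⟨x * j Ψ, ?_⟩
  rw [s35_ff_hub_eq j σ₁ s₁ hs Sg hj l g hg, mul_pow, hx, ← map_pow j Ψ m, ← map_mul j]
  congr 1
  have h1 : s₁ g ≠ 0 := (map_ne_zero s₁).mpr hg
  have h2 : s₁ (s₁ g) ≠ 0 := (map_ne_zero s₁).mpr h1
  have hu : s₁ (s₁ g) * g / (s₁ g) ^ 2 ≠ 0 := div_ne_zero (mul_ne_zero h2 hg) (pow_ne_zero _ h1)
  have hΨm : Ψ ^ m ≠ 0 := pow_ne_zero _ hΨ
  field_simp

/-- Orders of `x * y`. -/
theorem s35_ff_dvd_mul (m : ℤ) {x y : E} (hx : ∀ P : Place K E, m ∣ P.ord x)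
    (hy : ∀ P : Place K E, m ∣ P.ord y) (P : Place K E) : m ∣ P.ord (x * y) := by
  by_cases hx0 : x = 0
  · rw [hx0, zero_mul, Place.ord_zero]; exact dvd_zero m
  by_cases hy0 : y = 0
  · rw [hy0, mul_zero, Place.ord_zero]; exact dvd_zero m
  rw [P.ord_mul hx0 hy0]
  exact dvd_add (hx P) (hy P)

/-- Orders of `x / y`. -/
theorem s35_ff_dvd_div (m : ℤ) {x y : E} (hx : ∀ P : Place K E, m ∣ P.ord x)
    (hy : ∀ P : Place K E, m ∣ P.ord y) (P : Place K E) : m ∣ P.ord (x / y) := by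
  rw [div_eq_mul_inv]
  exact s35_ff_dvd_mul m hx (fun P' => by rw [P'.ord_inv]; exact (dvd_neg).mpr (hy P')) P

/-- Orders of `x ^ n`. -/
theorem s35_ff_dvd_pow (m : ℤ) {x : E} (hx : ∀ P : Place K E, m ∣ P.ord x) (n : ℕ)
    (P : Place K E) : m ∣ P.ord (x ^ n) := by
  rw [← zpow_natCast, P.ord_zpow]
  exact Dvd.dvd.mul_left (hx P) _

/-- Orders of `Sg • x`. -/
theorem s35_ff_dvd_smul (m : ℤ) (Sg : SemilinearAut K E) {x : E}
    (hx : ∀ P : Place K E, m ∣ P.ord x) (P : Place K E) : m ∣ P.ord (Sg • x) := by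
  rw [Fermat.Agent.S34.s34_gb_ord_smul]
  exact hx _

/-- **hdiv for `H`.**  If all orders of `j g` are divisible by `m`, so are those of `j H` for
`H := s u / (u^Q Ψ^m)`, `u = s²g · g / (s g)²`. -/
theorem s35_ff_hdiv (j : F →+* E) (σ₁ s₁ : F ≃+* F) (hs : ∀ x, s₁ x = σ₁ (σ₁ x))
    (Sg : SemilinearAut K E) (hj : ∀ x, j (σ₁ x) = Sg • j x) (Q m : ℕ) (g Ψ : F)
    (hdivg : ∀ P : Place K E, (m : ℤ) ∣ P.ord (j g)) (P : Place K E) :
    (m : ℤ) ∣ P.ord (j (s₁ (s₁ (s₁ g) * g / (s₁ g) ^ 2) /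
      ((s₁ (s₁ g) * g / (s₁ g) ^ 2) ^ Q * Ψ ^ m))) := by
  have hjs : ∀ x, j (s₁ x) = Sg • Sg • j x := fun x => by rw [hs, hj, hj]
  have hsm : ∀ x : E, (∀ P : Place K E, (m : ℤ) ∣ P.ord x) →
      ∀ P : Place K E, (m : ℤ) ∣ P.ord (Sg • Sg • x) := fun x hx =>
    s35_ff_dvd_smul _ Sg (s35_ff_dvd_smul _ Sg hx)
  -- the function `u`
  have hu : ∀ P : Place K E, (m : ℤ) ∣ P.ord (j (s₁ (s₁ g) * g / (s₁ g) ^ 2)) := by
    intro P
    rw [map_div₀, map_mul, map_pow, hjs, hjs]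
    exact s35_ff_dvd_div _ (s35_ff_dvd_mul _ (hsm _ (hsm _ hdivg)) hdivg)
      (s35_ff_dvd_pow _ (hsm _ hdivg) 2) P
  rw [map_div₀, map_mul, map_pow, map_pow, hjs]
  refine s35_ff_dvd_div _ (hsm _ hu) (s35_ff_dvd_mul _ (s35_ff_dvd_pow _ hu Q) ?_) P
  intro P'
  rw [← zpow_natCast, P'.ord_zpow]
  exact Dvd.intro _ rfl

end Fermat.Agent.S35
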