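import Fermat.Agent.S35.CorDefs
import Fermat.Agent.S29.BrTowerMain

/-!
# S35 (NODE-2), block (E2)/(E3): `κ` and the norm along `α : F_N → F_{Nℓ}`

For `x ∈ J₀(N ℓ)[m]` with witness `(D, g, G)` (`m D = div g`, `G ^ m = g` on the upper half
plane): `(α_* D, N_α g, ∏_i G ∘ γ_i)` is a witness at level `N` whose character is the transfer
`(s35_co_data1 N ℓ).T (κ x)`.  Hence, by the injectivity of `κ` at level `N`:

* `s35_kc_alpha` : if the transfer of `κ x` vanishes then `N_α g = c · f ^ m`.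
-/

set_option autoImplicit false
set_option linter.unusedSectionVars false
set_option linter.style.haveILetI false

open UpperHalfPlane ModularCurve AlgebraicCurve
open scoped MatrixGroups Manifold

noncomputable section

namespace Fermat.Agent.S35

open Fermat.Agent.S29 Fermat.Agent.S24
open CongruenceSubgroup ModularCurve.Period

attribute [local instance] algKC

local notation "Qb" => AlgebraicClosure ℚ

/-! ### Characters of products over transfer data -/

/-- **the character of `∏_i d_i⁻¹ • G`** for transfer data with lifts `d_i ∈ GL₂⁺(ℝ)`. -/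
theorem s35_kc_char_gen {N M : ℕ} {I : Type*} [Fintype I]
    (D : s35_co_Data (Gamma0 M) (Gamma0 N) (GL (Fin 2) ℝ) I)
    (hι' : D.ι' = s29_ch_iota M) (hι : D.ι = s29_ch_iota N) (d : I → GL(2, ℝ)⁺)
    (hd : ∀ i, ((d i : GL(2, ℝ)⁺) : GL (Fin 2) ℝ) = D.δ i) (m : ℕ) [NeZero m] (G : s29_Mer)
    (χ : Additive (Gamma0 M) →+ ZMod m) (h : s29_ka_IsChar M m G χ) :
    s29_ka_IsChar N m (∏ i : I, (d i)⁻¹ • G) (D.T (ZMod m) χ) := by
  classical
  intro γ
  have key : ∀ i : I, ((γ : SL(2, ℤ))⁻¹) • ((d i)⁻¹ • G) =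
      algebraMap ℂ s29_Mer (s29_ka_pow m (χ (Additive.ofMul (D.coc γ i)))) *
        (d (D.perm γ i))⁻¹ • G := by
    intro i
    have h0 : d i * s29_sl (γ : SL(2, ℤ)) =
        s29_sl (D.coc γ i : SL(2, ℤ)) * d (D.perm γ i) := by
      apply Subtype.ext
      have h1 := D.spec' γ i
      rw [hι, hι'] at h1
      show ((d i : GL(2, ℝ)⁺) : GL (Fin 2) ℝ) * ((s29_sl (γ : SL(2, ℤ)) : GL(2, ℝ)⁺) : GL (Fin 2) ℝ) =
        ((s29_sl (D.coc γ i : SL(2, ℤ)) : GL(2, ℝ)⁺) : GL (Fin 2) ℝ) *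
          ((d (D.perm γ i) : GL(2, ℝ)⁺) : GL (Fin 2) ℝ)
      rw [hd, hd]
      exact h1
    have h1 : (s29_sl (γ : SL(2, ℤ)))⁻¹ * (d i)⁻¹ =
        (d (D.perm γ i))⁻¹ * (s29_sl (D.coc γ i : SL(2, ℤ)))⁻¹ := by
      rw [← mul_inv_rev, ← mul_inv_rev, h0]
    have h2 := h (D.coc γ i)
    rw [s29_sl_smul_def, map_inv] at h2
    rw [s29_sl_smul_def, map_inv, smul_smul, h1, mul_smul, h2, smul_mul', s29_smul_const]
  rw [Finset.smul_prod']
  simp only [key]
  rw [Finset.prod_mul_distrib, ← map_prod, s35_co_Data.T_apply, s29_kh_pow_sum]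
  congr 1
  exact Equiv.prod_comp (D.perm γ) (fun j => (d j)⁻¹ • G)

/-! ### The norm along `α` in the analytic realisation -/

/-- the product `∏_i G ∘ γ_i` over the coset representatives of `Γ₀(N ℓ) \ Γ₀(N)`. -/
def s35_kc_prod (N l : ℕ) (hl : l.Prime) (hlN : ¬ l ∣ N) (G : s29_Mer) : s29_Mer :=
  ∏ i : Option (Fin l), (s29_sl ((s35_co_rep N l hl hlN i : Gamma0 N) : SL(2, ℤ)))⁻¹ • G

theorem s35_kc_prod_pow (N l : ℕ) (hl : l.Prime) (hlN : ¬ l ∣ N) (G : s29_Mer) (m : ℕ) :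
    s35_kc_prod N l hl hlN (G ^ m) = s35_kc_prod N l hl hlN G ^ m := by
  simp only [s35_kc_prod, smul_pow', Finset.prod_pow]

/-- **The norm along `α` in the analytic realisation** (arbitrary element):
`N_α y = ∏_i y ∘ γ_i` as meromorphic functions on the upper half plane. -/
theorem s35_kc_an_norm (N l : ℕ) [NeZero N] [NeZero l] (hl : l.Prime) (hlN : ¬ l ∣ N)
    (y : modularFunctionFieldBar (N * l)) :
    s29_an N (s29_kh_normAlong (heckeAlphaBar Qb N l) y) =
      s35_kc_prod N l hl hlN (s29_an (N * l) y) := by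
  obtain ⟨hfin, hrank⟩ := Fermat.Agent.S37.s37_es_finrank_alpha N l hl hlN
  letI := algebraAlong (heckeAlphaBar Qb N l)
  haveI : FiniteDimensional (modularFunctionFieldBar N) (modularFunctionFieldBar (N * l)) := hfin
  have hrank' : Module.finrank (modularFunctionFieldBar N) (modularFunctionFieldBar (N * l)) =
      l + 1 := hrank
  have hγ := s35_co_rep_spec N l hl hlN
  have hf : ∀ i, (s29_kh_sigma N l ((s35_co_rep N l hl hlN i : Gamma0 N) : SL(2, ℤ))).comp
      (algebraMap (modularFunctionFieldBar N) (modularFunctionFieldBar (N * l))) = s29_an N := by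
    intro i
    ext f
    exact s29_kh_sigma_alpha N l (s35_co_rep N l hl hlN i) f
  have hσ : Function.Injective
      (fun i => s29_kh_sigma N l ((s35_co_rep N l hl hlN i : Gamma0 N) : SL(2, ℤ))) := by
    intro i j hij
    have := s29_kh_sigma_inj N l hl hlN (s35_co_rep N l hl hlN i) (s35_co_rep N l hl hlN j) hij
    rwa [hγ, hγ] at this
  have hcard : Fintype.card (Option (Fin l)) =
      Module.finrank (modularFunctionFieldBar N) (modularFunctionFieldBar (N * l)) := by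
    rw [hrank', Fintype.card_option, Fintype.card_fin]
  have h := s29_kh_norm_map_eq_prod (s29_an N)
    (fun i => s29_kh_sigma N l ((s35_co_rep N l hl hlN i : Gamma0 N) : SL(2, ℤ))) hf hσ hcard y
  have h2 : s29_kh_normAlong (heckeAlphaBar Qb N l) y =
      Algebra.norm (modularFunctionFieldBar N) y := rfl
  rw [h2, h, s35_kc_prod]
  rfl

/-- the character of `∏_i G ∘ γ_i` is the transfer of the character of `G`. -/
theorem s35_kc_char1 (N l : ℕ) (hl : l.Prime) (hlN : ¬ l ∣ N) (m : ℕ) [NeZero m] (G : s29_Mer)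
    (χ : Additive (Gamma0 (N * l)) →+ ZMod m) (h : s29_ka_IsChar (N * l) m G χ) :
    s29_ka_IsChar N m (s35_kc_prod N l hl hlN G) ((s35_co_data1 N l hl hlN).T (ZMod m) χ) :=
  s35_kc_char_gen (s35_co_data1 N l hl hlN) rfl rfl
    (fun i => s29_sl ((s35_co_rep N l hl hlN i : Gamma0 N) : SL(2, ℤ))) (fun _ => rfl) m G χ h

/-! ### Witnesses at level `N` -/

/-- the push-forward witness: if `m D = div g` at level `N ℓ` and `G' ^ m = N_α g` on the upper
half plane, then `(α_* D, N_α g, G')` is a witness at level `N`. -/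
theorem s35_kc_witness (N l : ℕ) [NeZero N] [NeZero l] (m : ℕ)
    (D : Divisor Qb (modularFunctionFieldBar (N * l)))
    (hD : D ∈ Divisor.degZero (K := Qb) (F := modularFunctionFieldBar (N * l)))
    (g : modularFunctionFieldBar (N * l)) (hg : g ≠ 0)
    (hdiv : ∀ P : Place Qb (modularFunctionFieldBar (N * l)), P.ord g = (m : ℤ) * D P)
    (G' : s29_Mer) (hG' : G' ^ m = s29_an N (s29_kh_normAlong (heckeAlphaBar Qb N l) g)) :
    ∃ D' : Divisor.degZero (K := Qb) (F := modularFunctionFieldBar N),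
      s29_ka_IsWitness N m (Pic0.mk D') D' (s29_kh_normAlong (heckeAlphaBar Qb N l) g) G' := by
  obtain ⟨hα, hβ, hP, hfin, hFI, hN⟩ := Fermat.Agent.S37.s37_h_heckeInputsAlong N l
  haveI := hP
  refine ⟨⟨Divisor.pushforwardAlong (heckeAlphaBar Qb N l) hα D,
    Divisor.pushforwardAlong_mem_degZero _ hα hD⟩, rfl,
    s29_kh_normAlong_ne_zero _ hfin hg, fun P => ?_, hG'⟩
  have h1 := hN g hg ((m : ℤ) • D) (fun w => by
    rw [Finsupp.smul_apply, smul_eq_mul, hdiv w]) P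
  have h2 : Divisor.pushforwardAlong (heckeAlphaBar Qb N l) hα ((m : ℤ) • D) P =
      (m : ℤ) * Divisor.pushforwardAlong (heckeAlphaBar Qb N l) hα D P := by
    rw [map_zsmul, Finsupp.smul_apply, smul_eq_mul]
  rw [← h2]
  exact h1.symm

/-- a witness of the zero class: `g = c · f ^ m`. -/
theorem s35_kc_pow_of_zero (N m : ℕ) [NeZero N] [NeZero m]
    (D : Divisor.degZero (K := Qb) (F := modularFunctionFieldBar N))
    (hD : Pic0.mk D = (0 : JZero N)) (g : modularFunctionFieldBar N) (hg : g ≠ 0)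
    (hdiv : ∀ P : Place Qb (modularFunctionFieldBar N),
      P.ord g = (m : ℤ) * (D : Divisor Qb (modularFunctionFieldBar N)) P) :
    ∃ (c : Qb) (f : modularFunctionFieldBar N),
      g = algebraMap Qb (modularFunctionFieldBar N) c * f ^ m := by
  have h1 : (D : Divisor.degZero (K := Qb) (F := modularFunctionFieldBar N)) ∈
      (Divisor.principal (K := Qb) (F := modularFunctionFieldBar N)).addSubgroupOf
        (Divisor.degZero (K := Qb) (F := modularFunctionFieldBar N)) := by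
    rw [← QuotientAddGroup.eq_zero_iff]
    exact hD
  rw [AddSubgroup.mem_addSubgroupOf] at h1
  obtain ⟨u, hu, huD⟩ := h1
  have hum : u ^ m ≠ 0 := pow_ne_zero _ hu
  obtain ⟨c, hc⟩ := s29_ka_const_of_ord N (g / u ^ m) (fun P => by
    rw [div_eq_mul_inv, P.ord_mul hg (inv_ne_zero hum), P.ord_inv, ord_pow, hdiv P, ← huD P]
    ring)
  exact ⟨c, u, by rw [← hc, div_mul_cancel₀ _ hum]⟩

/-- **(KC) for `α`**: if the transfer of `κ x` vanishes then the norm along `α` of every Kummer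
function of `x` is a constant times an `m`-th power. -/
theorem s35_kc_alpha (N l : ℕ) [NeZero N] [NeZero l] (hl : l.Prime) (hlN : ¬ l ∣ N) (m : ℕ)
    [NeZero m]
    (x : Pic0.torsion Qb (modularFunctionFieldBar (N * l)) m)
    (hκ : (s35_co_data1 N l hl hlN).T (ZMod m) (s29_kappa (N * l) m x) = 0)
    (D : Divisor.degZero (K := Qb) (F := modularFunctionFieldBar (N * l)))
    (g : modularFunctionFieldBar (N * l)) (hx : Pic0.mk D = (x : JZero (N * l))) (hg : g ≠ 0)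
    (hdiv : ∀ P : Place Qb (modularFunctionFieldBar (N * l)),
      P.ord g = (m : ℤ) * (D : Divisor Qb (modularFunctionFieldBar (N * l))) P) :
    ∃ (c : Qb) (f : modularFunctionFieldBar N),
      s29_kh_normAlong (heckeAlphaBar Qb N l) g =
        algebraMap Qb (modularFunctionFieldBar N) c * f ^ m := by
  -- a root of `g` on the upper half plane
  have hord : ∀ τ : ℍ, (m : ℤ) ∣ s29_ord τ (s29_an (N * l) g) :=
    s29_ord_an_dvd (N * l) (m : ℤ) g hg (fun P => ⟨_, hdiv P⟩)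
  obtain ⟨G, hG⟩ := s29_mer_root m (Nat.pos_of_ne_zero (NeZero.ne m)) (s29_an (N * l) g)
    (s29_an_ne_zero (N * l) hg) hord
  have hw : s29_ka_IsWitness (N * l) m (x : JZero (N * l)) D g G := ⟨hx, hg, hdiv, hG⟩
  have hχ := s29_kappaFun_spec x hw
  -- the witness at level `N`
  have hG' : s35_kc_prod N l hl hlN G ^ m =
      s29_an N (s29_kh_normAlong (heckeAlphaBar Qb N l) g) := by
    rw [← s35_kc_prod_pow, hG, s35_kc_an_norm]
  obtain ⟨D', hw'⟩ := s35_kc_witness N l m D D.2 g hg hdiv _ hG'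
  have hmem : Pic0.mk D' ∈ Pic0.torsion Qb (modularFunctionFieldBar N) m := by
    rw [Pic0.mem_torsion]
    have h1 : ((m : ℤ) • D' : Divisor.degZero (K := Qb) (F := modularFunctionFieldBar N)) ∈
        (Divisor.principal (K := Qb) (F := modularFunctionFieldBar N)).addSubgroupOf
          (Divisor.degZero (K := Qb) (F := modularFunctionFieldBar N)) := by
      rw [AddSubgroup.mem_addSubgroupOf]
      refine ⟨_, hw'.2.1, fun P => ?_⟩
      rw [hw'.2.2.1 P, AddSubgroup.coe_zsmul, Finsupp.smul_apply, smul_eq_mul]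
    exact (QuotientAddGroup.eq_zero_iff _).mpr h1
  have hk : s29_kappa N m ⟨Pic0.mk D', hmem⟩ =
      (s35_co_data1 N l hl hlN).T (ZMod m) (s29_kappa (N * l) m x) :=
    s29_kappa_eq_of_witness ⟨Pic0.mk D', hmem⟩ hw' (s35_kc_char1 N l hl hlN m G _ hχ)
  rw [hκ] at hk
  have h0 : (⟨Pic0.mk D', hmem⟩ : Pic0.torsion Qb (modularFunctionFieldBar N) m) = 0 :=
    (s29_kappa_eq_zero_iff N m _).mp hk
  have h0' : Pic0.mk D' = (0 : JZero N) := congrArg Subtype.val h0
  exact s35_kc_pow_of_zero N m D' h0' _ hw'.2.1 hw'.2.2.1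

/-! ### The Atkin–Lehner swap in the analytic realisation -/

/-- the action on meromorphic functions only depends on the Möbius action. -/
theorem s35_kc_smul_congr (g g' : GL(2, ℝ)⁺) (h : ∀ τ : ℍ, g⁻¹ • τ = g'⁻¹ • τ) (F : s29_Mer) :
    g • F = g' • F := by
  obtain ⟨a, b, -, rfl⟩ := s29_mer_exists_div F
  have key : ∀ f : s29_hol, g • f = g' • f := by
    intro f
    apply s29_hol_ext
    intro τ
    rw [s29_hol_smul_apply, s29_hol_smul_apply, h τ]
  rw [smul_div₀', smul_div₀', s29_smul_algebraMap, s29_smul_algebraMap, s29_smul_algebraMap,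
    s29_smul_algebraMap, key a, key b]

/-- proportional matrices have the same Möbius action. -/
theorem s35_kc_smul_eq_of_scalar (g g' : GL(2, ℝ)⁺) (c : ℝ) (hc : c ≠ 0)
    (h : (((g : GL(2, ℝ)⁺) : GL (Fin 2) ℝ) : Matrix (Fin 2) (Fin 2) ℝ) =
      c • (((g' : GL(2, ℝ)⁺) : GL (Fin 2) ℝ) : Matrix (Fin 2) (Fin 2) ℝ)) (τ : ℍ) :
    g • τ = g' • τ := by
  apply UpperHalfPlane.ext
  have h1 : (g • τ : ℍ) = ((g : GL(2, ℝ)⁺) : GL (Fin 2) ℝ) • τ := rfl
  have h2 : (g' • τ : ℍ) = ((g' : GL(2, ℝ)⁺) : GL (Fin 2) ℝ) • τ := rfl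
  have hdet : 0 < ((g : GL(2, ℝ)⁺) : GL (Fin 2) ℝ).det.val := g.2
  have hdet' : 0 < ((g' : GL(2, ℝ)⁺) : GL (Fin 2) ℝ).det.val := g'.2
  rw [h1, h2, UpperHalfPlane.coe_smul_of_det_pos hdet, UpperHalfPlane.coe_smul_of_det_pos hdet',
    UpperHalfPlane.num, UpperHalfPlane.denom, UpperHalfPlane.num, UpperHalfPlane.denom]
  have e : ∀ i j, ((g : GL(2, ℝ)⁺) : GL (Fin 2) ℝ) i j =
      c * ((g' : GL(2, ℝ)⁺) : GL (Fin 2) ℝ) i j := fun i j => by
    have := congrFun (congrFun h i) j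
    simpa using this
  have hden : (((g' : GL(2, ℝ)⁺) : GL (Fin 2) ℝ) 1 0 : ℂ) * τ +
      (((g' : GL(2, ℝ)⁺) : GL (Fin 2) ℝ) 1 1 : ℂ) ≠ 0 :=
    UpperHalfPlane.denom_ne_zero ((g' : GL(2, ℝ)⁺) : GL (Fin 2) ℝ) τ
  have hc' : (c : ℂ) ≠ 0 := by exact_mod_cast hc
  rw [e, e, e, e]
  push_cast
  field_simp

/-- the Atkin–Lehner matrix as an element of `GL₂⁺(ℝ)`. -/
def s35_kc_w (N l : ℕ) (hl : l.Prime) (hlN : ¬ l ∣ N) : GL(2, ℝ)⁺ :=
  s29_sl ((s35_co_g0 N l hl hlN : Gamma0 N) : SL(2, ℤ)) * s29_kh_delta l hl.ne_zero none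

theorem s35_kc_w_coe (N l : ℕ) (hl : l.Prime) (hlN : ¬ l ∣ N) :
    ((s35_kc_w N l hl hlN : GL(2, ℝ)⁺) : GL (Fin 2) ℝ) = s35_co_w N l hl hlN := rfl

/-- two `ℚ̄`-algebra homomorphisms on `F̄(N ℓ)` which agree on the images of `α` and `β` are
equal. -/
theorem s35_kc_algHom_ext (N l : ℕ) [NeZero N] [NeZero l] (hl : l.Prime) {E : Type*} [Field E]
    [Algebra Qb E] (φ₁ φ₂ : modularFunctionFieldBar (N * l) →ₐ[Qb] E)
    (hα : ∀ x, φ₁ (heckeAlphaBar Qb N l x) = φ₂ (heckeAlphaBar Qb N l x))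
    (hβ : ∀ x, φ₁ (heckeBetaBar Qb N l x) = φ₂ (heckeBetaBar Qb N l x)) : φ₁ = φ₂ := by
  apply Fermat.Agent.S37.s37_ew_algHom_ext
  intro e _ he
  obtain ⟨d, m₁, hd, hm, hdm⟩ := (Nat.dvd_mul).mp he
  have hd0 : d ≠ 0 := fun h => by
    rw [h, zero_mul] at hdm
    exact (NeZero.ne e) hdm.symm
  haveI : NeZero d := ⟨hd0⟩
  rcases (Nat.dvd_prime hl).mp hm with h1 | h1
  · have hx : (⟨coeffEmb Kbar (qExpand ℚ e jq), Fermat.Agent.S37.s37_ew_s_mem (N * l) e he⟩ :
        modularFunctionFieldBar (N * l)) =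
        heckeAlphaBar Qb N l ⟨coeffEmb Kbar (qExpand ℚ d jq),
          Fermat.Agent.S37.s37_ew_s_mem N d hd⟩ := by
      apply Subtype.ext
      rw [coe_heckeAlphaBar]
      have hed : e = d := by rw [← hdm, h1, mul_one]
      subst hed
      rfl
    rw [hx]
    exact hα _
  · have hx : (⟨coeffEmb Kbar (qExpand ℚ e jq), Fermat.Agent.S37.s37_ew_s_mem (N * l) e he⟩ :
        modularFunctionFieldBar (N * l)) =
        heckeBetaBar Qb N l ⟨coeffEmb Kbar (qExpand ℚ d jq),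
          Fermat.Agent.S37.s37_ew_s_mem N d hd⟩ := by
      apply Subtype.ext
      rw [coe_heckeBetaBar]
      have hed : e = l * d := by rw [← hdm, h1, mul_comm]
      show coeffEmb Kbar (qExpand ℚ e jq) =
        qExpand Kbar l (coeffMap (algebraMap ℚ Kbar) (qExpand ℚ d jq))
      rw [← coeffMap_qExpand, qExpand_qExpand, qExpand_congr hed]
      rfl
    rw [hx]
    exact hβ _

/-- `δ_∞ · w = ℓ · γ₁` with `γ₁ = (ℓ b; N d') ∈ Γ₀(N)`. -/
theorem s35_kc_delta_w (N l : ℕ) (hl : l.Prime) (hlN : ¬ l ∣ N) :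
    ∃ γ₁ : Gamma0 N, ∀ τ : ℍ,
      (s29_kh_delta l hl.ne_zero none * s35_kc_w N l hl hlN) • τ =
        s29_sl (γ₁ : SL(2, ℤ)) • τ := by
  have hb := s35_co_bez N l hl hlN
  refine ⟨s29_ch_mk N l (s35_co_b N l) N (s35_co_d N l) (by linarith) dvd_rfl, fun τ => ?_⟩
  apply s35_kc_smul_eq_of_scalar _ _ (l : ℝ) (by exact_mod_cast hl.ne_zero)
  have h1 : (((s29_kh_delta l hl.ne_zero none * s35_kc_w N l hl hlN : GL(2, ℝ)⁺) :
      GL (Fin 2) ℝ) : Matrix (Fin 2) (Fin 2) ℝ) =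
      (s29_ch_deltaZ l none * s35_co_wZ N l).map (Int.castRingHom ℝ) := by
    show ((s29_ch_delta l none * s35_co_w N l hl hlN : GL (Fin 2) ℝ) :
      Matrix (Fin 2) (Fin 2) ℝ) = _
    rw [Units.val_mul, s29_ch_delta_val hl.ne_zero, s35_co_w_val, ← Matrix.map_mul]
  have h2 : (((s29_sl ((s29_ch_mk N l (s35_co_b N l) N (s35_co_d N l) (by linarith) dvd_rfl :
      Gamma0 N) : SL(2, ℤ)) : GL(2, ℝ)⁺) : GL (Fin 2) ℝ) : Matrix (Fin 2) (Fin 2) ℝ) =
      (!![(l : ℤ), s35_co_b N l; (N : ℤ), s35_co_d N l]).map (Int.castRingHom ℝ) := by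
    show ((s29_ch_iota N (s29_ch_mk N l (s35_co_b N l) N (s35_co_d N l) (by linarith) dvd_rfl) :
      GL (Fin 2) ℝ) : Matrix (Fin 2) (Fin 2) ℝ) = _
    rw [s29_ch_iota_val, s29_ch_mk_val]
  rw [h1, h2]
  ext i j
  fin_cases i <;> fin_cases j <;> (simp [s29_ch_deltaZ, s35_co_wZ]; try ring)

/-- **the Atkin–Lehner swap in the analytic realisation**: `(W y)(τ) = y(w τ)`. -/
theorem s35_kc_an_W (N l : ℕ) [NeZero N] [NeZero l] (hl : l.Prime) (hlN : ¬ l ∣ N)
    (W : modularFunctionFieldBar (N * l) ≃ₐ[Qb] modularFunctionFieldBar (N * l))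
    (hWα : ∀ x, W (heckeAlphaBar Qb N l x) = heckeBetaBar Qb N l x)
    (hWβ : ∀ x, W (heckeBetaBar Qb N l x) = heckeAlphaBar Qb N l x)
    (y : modularFunctionFieldBar (N * l)) :
    s29_an (N * l) (W y) = (s35_kc_w N l hl hlN)⁻¹ • s29_an (N * l) y := by
  letI : Algebra Qb s29_Mer := ((algebraMap ℂ s29_Mer).comp iotaK).toAlgebra
  let φ₁ : modularFunctionFieldBar (N * l) →ₐ[Qb] s29_Mer :=
    { toRingHom := (s29_an (N * l)).comp
        (W : modularFunctionFieldBar (N * l) →+* modularFunctionFieldBar (N * l))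
      commutes' := fun c => by
        show s29_an (N * l) (W (algebraMap Qb _ c)) = algebraMap ℂ s29_Mer (iotaK c)
        rw [AlgEquiv.commutes, s29_an_const] }
  let φ₂ : modularFunctionFieldBar (N * l) →ₐ[Qb] s29_Mer :=
    { toRingHom := (MulSemiringAction.toRingHom GL(2, ℝ)⁺ s29_Mer (s35_kc_w N l hl hlN)⁻¹).comp
        (s29_an (N * l))
      commutes' := fun c => by
        show (s35_kc_w N l hl hlN)⁻¹ • s29_an (N * l) (algebraMap Qb _ c) =
          algebraMap ℂ s29_Mer (iotaK c)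
        rw [s29_an_const, s29_smul_const] }
  have hg0 : ∀ x : modularFunctionFieldBar N,
      (s29_sl ((s35_co_g0 N l hl hlN : Gamma0 N) : SL(2, ℤ)))⁻¹ • s29_an N x = s29_an N x := by
    intro x
    rw [← map_inv, ← s29_sl_smul_def]
    exact s29_an_smul N _ (inv_mem (s35_co_g0 N l hl hlN).2) x
  have key : φ₁ = φ₂ := by
    apply s35_kc_algHom_ext N l hl
    · intro x
      show s29_an (N * l) (W (heckeAlphaBar Qb N l x)) =
        (s35_kc_w N l hl hlN)⁻¹ • s29_an (N * l) (heckeAlphaBar Qb N l x)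
      rw [hWα, s29_kh_an_beta, s29_kh_an_alpha, s35_kc_w, mul_inv_rev, mul_smul, hg0]
    · intro x
      show s29_an (N * l) (W (heckeBetaBar Qb N l x)) =
        (s35_kc_w N l hl hlN)⁻¹ • s29_an (N * l) (heckeBetaBar Qb N l x)
      rw [hWβ, s29_kh_an_alpha, s29_kh_an_beta, smul_smul, ← mul_inv_rev]
      obtain ⟨γ₁, hγ₁⟩ := s35_kc_delta_w N l hl hlN
      have h3 : (s29_kh_delta l (NeZero.ne l) none * s35_kc_w N l hl hlN)⁻¹ • s29_an N x =
          (s29_sl (γ₁ : SL(2, ℤ)))⁻¹ • s29_an N x :=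
        s35_kc_smul_congr _ _ (fun τ => by rw [inv_inv, inv_inv]; exact hγ₁ τ) _
      rw [h3, ← map_inv, ← s29_sl_smul_def]
      exact (s29_an_smul N _ (inv_mem γ₁.2) x).symm
  exact DFunLike.congr_fun key y

/-! ### (KC) for `α ∘ W` -/

/-- the character of `∏_i G ∘ (w γ_i)` is the `w`-twisted transfer of the character of `G`. -/
theorem s35_kc_char2 (N l : ℕ) (hl : l.Prime) (hlN : ¬ l ∣ N) (m : ℕ) [NeZero m] (G : s29_Mer)
    (χ : Additive (Gamma0 (N * l)) →+ ZMod m) (h : s29_ka_IsChar (N * l) m G χ) :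
    s29_ka_IsChar N m (s35_kc_prod N l hl hlN ((s35_kc_w N l hl hlN)⁻¹ • G))
      ((s35_co_data2 N l hl hlN).T (ZMod m) χ) := by
  have h1 := s35_kc_char_gen (s35_co_data2 N l hl hlN) rfl rfl
    (fun i => s35_kc_w N l hl hlN * s29_sl ((s35_co_rep N l hl hlN i : Gamma0 N) : SL(2, ℤ)))
    (fun _ => rfl) m G χ h
  have h2 : s35_kc_prod N l hl hlN ((s35_kc_w N l hl hlN)⁻¹ • G) =
      ∏ i : Option (Fin l),
        (s35_kc_w N l hl hlN * s29_sl ((s35_co_rep N l hl hlN i : Gamma0 N) : SL(2, ℤ)))⁻¹ • G := by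
    rw [s35_kc_prod]
    refine Finset.prod_congr rfl (fun i _ => ?_)
    rw [smul_smul, ← mul_inv_rev]
  rw [h2]
  exact h1

/-- **(KC) for `α ∘ W`**: if the `w`-twisted transfer of `κ x` vanishes then the norm along `α`
of `W g`, for every Kummer function `g` of `x`, is a constant times an `m`-th power. -/
theorem s35_kc_alphaW (N l : ℕ) [NeZero N] [NeZero l] (hl : l.Prime) (hlN : ¬ l ∣ N) (m : ℕ)
    [NeZero m] (x : Pic0.torsion Qb (modularFunctionFieldBar (N * l)) m)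
    (hκ : (s35_co_data2 N l hl hlN).T (ZMod m) (s29_kappa (N * l) m x) = 0)
    (W : modularFunctionFieldBar (N * l) ≃ₐ[Qb] modularFunctionFieldBar (N * l))
    (hWα : ∀ x, W (heckeAlphaBar Qb N l x) = heckeBetaBar Qb N l x)
    (hWβ : ∀ x, W (heckeBetaBar Qb N l x) = heckeAlphaBar Qb N l x)
    (D : Divisor.degZero (K := Qb) (F := modularFunctionFieldBar (N * l)))
    (g : modularFunctionFieldBar (N * l)) (hx : Pic0.mk D = (x : JZero (N * l))) (hg : g ≠ 0)
    (hdiv : ∀ P : Place Qb (modularFunctionFieldBar (N * l)),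
      P.ord g = (m : ℤ) * (D : Divisor Qb (modularFunctionFieldBar (N * l))) P) :
    ∃ (c : Qb) (f : modularFunctionFieldBar N),
      s29_kh_normAlong (heckeAlphaBar Qb N l) (W g) =
        algebraMap Qb (modularFunctionFieldBar N) c * f ^ m := by
  -- a root of `g` on the upper half plane
  have hord : ∀ τ : ℍ, (m : ℤ) ∣ s29_ord τ (s29_an (N * l) g) :=
    s29_ord_an_dvd (N * l) (m : ℤ) g hg (fun P => ⟨_, hdiv P⟩)
  obtain ⟨G, hG⟩ := s29_mer_root m (Nat.pos_of_ne_zero (NeZero.ne m)) (s29_an (N * l) g)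
    (s29_an_ne_zero (N * l) hg) hord
  have hw : s29_ka_IsWitness (N * l) m (x : JZero (N * l)) D g G := ⟨hx, hg, hdiv, hG⟩
  have hχ := s29_kappaFun_spec x hw
  have hWg : W g ≠ 0 := fun h => hg (W.injective (h.trans (map_zero W).symm))
  -- the divisor of `W g`
  haveI hfdNl := (Fermat.Agent.S24.asm_generic (N * l)).1
  have hxNl := Fermat.Agent.S24.transcendental_jF (N * l)
  haveI hP := Fermat.Agent.S37.s37_h_hasPrincipalDivisors_bar (N * l)
  set Wh : modularFunctionFieldBar (N * l) →ₐ[Qb] modularFunctionFieldBar (N * l) :=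
    (W : modularFunctionFieldBar (N * l) →ₐ[Qb] modularFunctionFieldBar (N * l)) with hWh
  have hWint := Fermat.Agent.S37.s37_h_isIntegral_along Wh
    (Fermat.Agent.S24.jF (N * l)) hxNl (Fermat.Agent.S24.jF (N * l)) hxNl
  have hFI := Fermat.Agent.S37.s37_h_fundamentalIdentityAlong Wh hWint
    (Fermat.Agent.S24.jF (N * l)) hxNl (Fermat.Agent.S24.jF (N * l)) hxNl
  have hD₂ : Divisor.pullbackAlong Wh hWint (D : Divisor Qb (modularFunctionFieldBar (N * l))) ∈
      Divisor.degZero (K := Qb) (F := modularFunctionFieldBar (N * l)) :=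
    Divisor.pullbackAlong_mem_degZero Wh hWint hFI D.2
  have hdiv₂ : ∀ P : Place Qb (modularFunctionFieldBar (N * l)), P.ord (W g) =
      (m : ℤ) * Divisor.pullbackAlong Wh hWint
        (D : Divisor Qb (modularFunctionFieldBar (N * l))) P := by
    intro P
    rw [Divisor.pullbackAlong_apply, mul_left_comm, ← hdiv, ← Place.ord_restrictAlong]
    rfl
  -- the witness at level `N`
  have hG₂ : ((s35_kc_w N l hl hlN)⁻¹ • G) ^ m = s29_an (N * l) (W g) := by
    rw [← smul_pow', hG, s35_kc_an_W N l hl hlN W hWα hWβ]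
  have hG' : s35_kc_prod N l hl hlN ((s35_kc_w N l hl hlN)⁻¹ • G) ^ m =
      s29_an N (s29_kh_normAlong (heckeAlphaBar Qb N l) (W g)) := by
    rw [← s35_kc_prod_pow, hG₂, s35_kc_an_norm]
  obtain ⟨D', hw'⟩ := s35_kc_witness N l m _ hD₂ (W g) hWg hdiv₂ _ hG'
  have hmem : Pic0.mk D' ∈ Pic0.torsion Qb (modularFunctionFieldBar N) m := by
    rw [Pic0.mem_torsion]
    have h1 : ((m : ℤ) • D' : Divisor.degZero (K := Qb) (F := modularFunctionFieldBar N)) ∈
        (Divisor.principal (K := Qb) (F := modularFunctionFieldBar N)).addSubgroupOf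
          (Divisor.degZero (K := Qb) (F := modularFunctionFieldBar N)) := by
      rw [AddSubgroup.mem_addSubgroupOf]
      refine ⟨_, hw'.2.1, fun P => ?_⟩
      rw [hw'.2.2.1 P, AddSubgroup.coe_zsmul, Finsupp.smul_apply, smul_eq_mul]
    exact (QuotientAddGroup.eq_zero_iff _).mpr h1
  have hk : s29_kappa N m ⟨Pic0.mk D', hmem⟩ =
      (s35_co_data2 N l hl hlN).T (ZMod m) (s29_kappa (N * l) m x) :=
    s29_kappa_eq_of_witness ⟨Pic0.mk D', hmem⟩ hw' (s35_kc_char2 N l hl hlN m G _ hχ)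
  rw [hκ] at hk
  have h0 : (⟨Pic0.mk D', hmem⟩ : Pic0.torsion Qb (modularFunctionFieldBar N) m) = 0 :=
    (s29_kappa_eq_zero_iff N m _).mp hk
  have h0' : Pic0.mk D' = (0 : JZero N) := congrArg Subtype.val h0
  exact s35_kc_pow_of_zero N m D' h0' _ hw'.2.1 hw'.2.2.1

/-! ### The tower -/

/-- **(E3)**: the `κ`-normalised comparison tower `ι_n : Λ_{Nℓ} → J₀(N ℓ)[p^n]` (with the four
BRIDGE properties), such that for `ψ` killed by the transfer (resp. the `w`-twisted transfer) to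
level `N`, every Kummer function `g` of `ι_n ψ` has `N_α g` (resp. `N_α (W g)`) equal to a
constant times a `p^n`-th power. -/
theorem s35_kc_main (N l : ℕ) [NeZero N] [NeZero l] (hl : l.Prime) (hlN : ¬ l ∣ N) (p : ℕ)
    (hp : p ≠ 0) :
    ∃ ι : ℕ → (↥(parabolicHoms ℤ (Gamma0 (N * l)) ℤ) →+ JZero (N * l)),
      (∀ n (ψ : ↥(parabolicHoms ℤ (Gamma0 (N * l)) ℤ)), p ^ n • ι n ψ = 0) ∧
      (∀ n (ψ : ↥(parabolicHoms ℤ (Gamma0 (N * l)) ℤ)), ι n ψ = 0 →
        ∃ ψ' : ↥(parabolicHoms ℤ (Gamma0 (N * l)) ℤ), ψ = p ^ n • ψ') ∧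
      (∀ n (l' : ℕ) (hl' : l'.Prime) (hl'N : ¬ l' ∣ N * l)
        (ψ : ↥(parabolicHoms ℤ (Gamma0 (N * l)) ℤ)),
        ι n (s29_cp_Tpar (N * l) l' hl' hl'N ℤ ℤ ψ) =
          heckeOperatorBar (N * l) ⟨l', hl'⟩ (ι n ψ)) ∧
      (∀ n (ψ : ↥(parabolicHoms ℤ (Gamma0 (N * l)) ℤ)), p • ι (n + 1) ψ = ι n ψ) ∧
      (∀ n (ψ : ↥(parabolicHoms ℤ (Gamma0 (N * l)) ℤ)),
        (s35_co_data1 N l hl hlN).T ℤ (ψ : Additive (Gamma0 (N * l)) →+ ℤ) = 0 →
        ∀ (D : Divisor.degZero (K := Qb) (F := modularFunctionFieldBar (N * l)))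
          (g : modularFunctionFieldBar (N * l)), Pic0.mk D = ι n ψ → g ≠ 0 →
          (∀ P : Place Qb (modularFunctionFieldBar (N * l)),
            P.ord g = ((p ^ n : ℕ) : ℤ) * (D : Divisor Qb (modularFunctionFieldBar (N * l))) P) →
          ∃ (c : Qb) (f : modularFunctionFieldBar N),
            s29_kh_normAlong (heckeAlphaBar Qb N l) g =
              algebraMap Qb (modularFunctionFieldBar N) c * f ^ (p ^ n)) ∧
      (∀ n (ψ : ↥(parabolicHoms ℤ (Gamma0 (N * l)) ℤ)),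
        (s35_co_data2 N l hl hlN).T ℤ (ψ : Additive (Gamma0 (N * l)) →+ ℤ) = 0 →
        ∀ (W : modularFunctionFieldBar (N * l) ≃ₐ[Qb] modularFunctionFieldBar (N * l)),
          (∀ x, W (heckeAlphaBar Qb N l x) = heckeBetaBar Qb N l x) →
          (∀ x, W (heckeBetaBar Qb N l x) = heckeAlphaBar Qb N l x) →
        ∀ (D : Divisor.degZero (K := Qb) (F := modularFunctionFieldBar (N * l)))
          (g : modularFunctionFieldBar (N * l)), Pic0.mk D = ι n ψ → g ≠ 0 →
          (∀ P : Place Qb (modularFunctionFieldBar (N * l)),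
            P.ord g = ((p ^ n : ℕ) : ℤ) * (D : Divisor Qb (modularFunctionFieldBar (N * l))) P) →
          ∃ (c : Qb) (f : modularFunctionFieldBar N),
            s29_kh_normAlong (heckeAlphaBar Qb N l) (W g) =
              algebraMap Qb (modularFunctionFieldBar N) c * f ^ (p ^ n)) := by
  obtain ⟨ι, hspec, h1, h2, h3, h4⟩ := s29_bt_tower' (N * l)
    (fun m _ ψ hψ => s29_ck_ex (N * l) m ψ hψ) (fun m _ => s29_kappa_injective (N * l) m)
  have hpn : ∀ n : ℕ, p ^ n ≠ 0 := fun n => pow_ne_zero n hp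
  refine ⟨fun n => ι (p ^ n), fun n ψ => h1 _ (hpn n) ψ, fun n ψ => h2 _ (hpn n) ψ,
    fun n l' hl' hl'N ψ => h3 _ (hpn n) l' hl' hl'N ψ, fun n ψ => ?_, ?_, ?_⟩
  · have h := h4 (p ^ n) p (hpn n) hp ψ
    rwa [← pow_succ'] at h
  · intro n ψ hψ D g hD hg hdiv
    haveI : NeZero (p ^ n) := ⟨hpn n⟩
    obtain ⟨hx, hk⟩ := hspec (p ^ n) ψ
    refine s35_kc_alpha N l hl hlN (p ^ n) ⟨ι (p ^ n) ψ, hx⟩ ?_ D g hD hg hdiv
    rw [hk, s35_co_Data.T_comp, hψ, AddMonoidHom.comp_zero]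
  · intro n ψ hψ W hWα hWβ D g hD hg hdiv
    haveI : NeZero (p ^ n) := ⟨hpn n⟩
    obtain ⟨hx, hk⟩ := hspec (p ^ n) ψ
    refine s35_kc_alphaW N l hl hlN (p ^ n) ⟨ι (p ^ n) ψ, hx⟩ ?_ W hWα hWβ D g hD hg hdiv
    rw [hk, s35_co_Data.T_comp, hψ, AddMonoidHom.comp_zero]

end Fermat.Agent.S35
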