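import Fermat.Agent.S35.TransferAL
import Fermat.Agent.S35.CorDefs

/-!
# S35, block (E1): the transfers `c₁`, `c₂` of `CorDefs.lean` commute with the Hecke operators

Bridge between the two formalisations of the corestriction `Γ₀(N ℓ) ⊆ Γ₀(N)`:
`s35_co_data1`, `s35_co_data2` (`CorDefs.lean`, explicit representatives, Atkin–Lehner twist) and
`s35_tr_cor`, `s35_al_pull` (`TransferCor.lean`, `TransferAL.lean`).

* `s35_tb_data1_T` : `(s35_co_data1 N l hl hlN).T A = s35_tr_cor N l A`;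
* `s35_tb_data2_T` : `(s35_co_data2 N l hl hlN).T A χ = s35_tr_cor N l A (s35_al_pull … χ)`;
* `s35_tb_comm1`, `s35_tb_comm2` : both transfers commute with `s29_ch_T` (`l' ∤ N l`);
* `s35_tb_parabolic1`, `s35_tb_parabolic2` : both preserve parabolic homomorphisms;
* `s35_tb_c1`, `s35_tb_c2` : the induced `ℤ`-linear maps on `parabolicHoms` and
  `s35_tb_c1_comm`, `s35_tb_c2_comm` (commutation with `s29_cp_Tpar`).
-/

set_option autoImplicit false

open CongruenceSubgroup ModularForm ModularCurve.Period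
open scoped MatrixGroups

namespace Fermat.Agent.S35

open Fermat.Agent.S29

/-- the two-group data of `CorAbs.lean` as relative transfer data of `Transfer.lean`. -/
def s35_tb_toTr {Γ' Γ G I : Type*} [Group Γ'] [Group Γ] [Group G] (D : s35_co_Data Γ' Γ G I) :
    s35_tr_Data Γ' Γ G I where
  ι := D.ι'
  ι_inj := D.ι'_inj
  ι' := D.ι
  δ := D.δ
  ex := D.ex
  uniq := D.uniq

theorem s35_tb_toTr_T {Γ' Γ G I : Type*} [Group Γ'] [Group Γ] [Group G] [Fintype I]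
    (D : s35_co_Data Γ' Γ G I) (A : Type*) [AddCommGroup A] :
    (s35_tb_toTr D).T A = D.T A := by
  refine AddMonoidHom.ext fun χ => AddMonoidHom.ext fun γ' => ?_
  obtain ⟨γ, rfl⟩ := Additive.ofMul.surjective γ'
  rw [(s35_tb_toTr D).T_apply_of_spec χ γ (D.coc γ) (D.idx γ) (D.spec γ), D.T_apply]

/-- `rep none ∈ Γ₀(N ℓ)`. -/
theorem s35_tb_rep_none (N l : ℕ) (hl : l.Prime) (hlN : ¬ l ∣ N) :
    ∃ ε : Gamma0 (N * l), s35_tr_incl N l ε = s35_co_rep N l hl hlN none :=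
  ⟨⟨(s35_co_rep N l hl hlN none : SL(2, ℤ)),
    s35_co_mem_of_perm_none N l hl hlN _ (s35_co_rep_spec N l hl hlN none)⟩, Subtype.ext rfl⟩

/-- **`c₁` of `CorDefs.lean` is the corestriction.** -/
theorem s35_tb_data1_T (N l : ℕ) [NeZero N] [NeZero l] (hl : l.Prime) (hlN : ¬ l ∣ N)
    (A : Type*) [AddCommGroup A] : (s35_co_data1 N l hl hlN).T A = s35_tr_cor N l A := by
  rw [← s35_tb_toTr_T]
  refine (s35_tb_toTr (s35_co_data1 N l hl hlN)).T_eq_of_cosets' (s35_tr_corData N l) rfl rfl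
    ?_ ?_ A
  · intro i
    obtain ⟨k, ε, hk⟩ := s35_tr_Data.ofHom_decomp (s35_tr_incl N l)
      (s35_tr_incl_injective N l) (s29_ch_iota N) (s29_ch_iota_injective N)
      (s35_co_rep N l hl hlN i)
    exact ⟨k, ε, hk⟩
  · intro k
    obtain ⟨ε₀, hε₀⟩ := s35_tb_rep_none N l hl hlN
    have h1 := (s35_co_data1 N l hl hlN).spec (Quotient.out k)⁻¹ none
    refine ⟨(s35_co_data1 N l hl hlN).idx (Quotient.out k)⁻¹ none,
      ε₀⁻¹ * (s35_co_data1 N l hl hlN).coc (Quotient.out k)⁻¹ none, ?_⟩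
    show s29_ch_iota N (Quotient.out k)⁻¹ = s29_ch_iota (N * l) _ *
      s29_ch_iota N (s35_co_rep N l hl hlN _)
    have h2 : s29_ch_iota N (s35_co_rep N l hl hlN none) * s29_ch_iota N (Quotient.out k)⁻¹ =
        s29_ch_iota (N * l) ((s35_co_data1 N l hl hlN).coc (Quotient.out k)⁻¹ none) *
          s29_ch_iota N (s35_co_rep N l hl hlN
            ((s35_co_data1 N l hl hlN).idx (Quotient.out k)⁻¹ none)) := h1
    have h3 : s29_ch_iota (N * l) ε₀ = s29_ch_iota N (s35_co_rep N l hl hlN none) := by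
      rw [← hε₀]
      rfl
    have h4 : s29_ch_iota (N * l)
        (ε₀⁻¹ * (s35_co_data1 N l hl hlN).coc (Quotient.out k)⁻¹ none) =
        (s29_ch_iota N (s35_co_rep N l hl hlN none))⁻¹ *
          s29_ch_iota (N * l) ((s35_co_data1 N l hl hlN).coc (Quotient.out k)⁻¹ none) := by
      rw [map_mul, map_inv, h3]
    rw [h4, mul_assoc, ← h2, inv_mul_cancel_left]

theorem s35_tb_bez (N l : ℕ) (hl : l.Prime) (hlN : ¬ l ∣ N) :
    (l : ℤ) * 1 * s35_co_d N l - N * s35_co_b N l * 1 = 1 := by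
  linear_combination s35_co_bez N l hl hlN

/-- the Atkin–Lehner matrices of `CorDefs.lean` and `TransferAL.lean` agree. -/
theorem s35_tb_w_eq (N l : ℕ) [NeZero l] (hl : l.Prime) (hlN : ¬ l ∣ N) :
    s35_co_w N l hl hlN =
      s35_al_g N l 1 (s35_co_b N l) 1 (s35_co_d N l) (s35_tb_bez N l hl hlN) := by
  apply Units.ext
  rw [s35_co_w_val, s35_al_g_val]
  congr 1
  rw [s35_co_wZ, s35_al_W]
  exact s29_ch_of_eq (by ring) rfl (by ring) rfl

/-- **`c₂` of `CorDefs.lean` is the corestriction of the Atkin–Lehner pull-back.** -/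
theorem s35_tb_data2_T (N l : ℕ) [NeZero N] [NeZero l] (hl : l.Prime) (hlN : ¬ l ∣ N)
    {A : Type*} [AddCommGroup A] (χ : Additive (Gamma0 (N * l)) →+ A) :
    (s35_co_data2 N l hl hlN).T A χ =
      s35_tr_cor N l A
        (s35_al_pull N l 1 (s35_co_b N l) 1 (s35_co_d N l) (s35_tb_bez N l hl hlN) A χ) := by
  rw [← s35_tb_data1_T N l hl hlN A]
  refine AddMonoidHom.ext fun γ' => ?_
  obtain ⟨γ, rfl⟩ := Additive.ofMul.surjective γ'
  rw [s35_co_Data.T_apply, s35_co_Data.T_apply]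
  refine Finset.sum_congr rfl fun i _ => ?_
  rw [s35_al_pull_apply]
  congr 2
  -- the cocycle of `data2` is the conjugate of the cocycle of `data1`
  set c := s35_al_conj N l 1 (s35_co_b N l) 1 (s35_co_d N l) (s35_tb_bez N l hl hlN) with hc
  have h1 := (s35_co_data1 N l hl hlN).spec γ i
  have h2 : s29_ch_iota N (s35_co_rep N l hl hlN i) * s29_ch_iota N γ =
      s29_ch_iota (N * l) ((s35_co_data1 N l hl hlN).coc γ i) *
        s29_ch_iota N (s35_co_rep N l hl hlN ((s35_co_data1 N l hl hlN).idx γ i)) := h1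
  have h3 := s35_al_conj_iota N l 1 (s35_co_b N l) 1 (s35_co_d N l) (s35_tb_bez N l hl hlN)
    ((s35_co_data1 N l hl hlN).coc γ i)
  rw [← s35_tb_w_eq N l hl hlN] at h3
  have h4 : (s35_co_data2 N l hl hlN).δ i * (s35_co_data2 N l hl hlN).ι γ =
      (s35_co_data2 N l hl hlN).ι' (c ((s35_co_data1 N l hl hlN).coc γ i)) *
        (s35_co_data2 N l hl hlN).δ ((s35_co_data1 N l hl hlN).idx γ i) := by
    show s35_co_w N l hl hlN * s29_ch_iota N (s35_co_rep N l hl hlN i) * s29_ch_iota N γ =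
      s29_ch_iota (N * l) (c ((s35_co_data1 N l hl hlN).coc γ i)) *
        (s35_co_w N l hl hlN *
          s29_ch_iota N (s35_co_rep N l hl hlN ((s35_co_data1 N l hl hlN).idx γ i)))
    rw [mul_assoc, h2, hc, h3]
    group
  exact (((s35_co_data2 N l hl hlN).eq_of_spec h4).2).symm

/-- **(b) for `c₁`**: the transfer `c₁` commutes with `T_{l'}`, `l' ∤ N l`. -/
theorem s35_tb_comm1 (N l l' : ℕ) [NeZero N] [NeZero l] (hl : l.Prime) (hlN : ¬ l ∣ N)
    (hl' : l'.Prime) (hl'M : ¬ l' ∣ N * l) (hl'N : ¬ l' ∣ N) {A : Type*} [AddCommGroup A]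
    (χ : Additive (Gamma0 (N * l)) →+ A) :
    (s35_co_data1 N l hl hlN).T A (s29_ch_T (N * l) l' hl' hl'M A χ) =
      s29_ch_T N l' hl' hl'N A ((s35_co_data1 N l hl hlN).T A χ) := by
  rw [s35_tb_data1_T N l hl hlN A]
  exact s35_tr_cor_comm N l l' hl hlN hl' hl'M hl'N χ

/-- **(b) for `c₂`**: the transfer `c₂` commutes with `T_{l'}`, `l' ∤ N l`. -/
theorem s35_tb_comm2 (N l l' : ℕ) [NeZero N] [NeZero l] (hl : l.Prime) (hlN : ¬ l ∣ N)
    (hl' : l'.Prime) (hl'M : ¬ l' ∣ N * l) (hl'N : ¬ l' ∣ N) {A : Type*} [AddCommGroup A]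
    (χ : Additive (Gamma0 (N * l)) →+ A) :
    (s35_co_data2 N l hl hlN).T A (s29_ch_T (N * l) l' hl' hl'M A χ) =
      s29_ch_T N l' hl' hl'N A ((s35_co_data2 N l hl hlN).T A χ) := by
  rw [s35_tb_data2_T N l hl hlN, s35_tb_data2_T N l hl hlN,
    ← s35_al_comm N l l' 1 (s35_co_b N l) 1 (s35_co_d N l) (s35_tb_bez N l hl hlN) hl' hl'M χ]
  exact s35_tr_cor_comm N l l' hl hlN hl' hl'M hl'N _

/-- **(a) for `c₁`**: the transfer `c₁` preserves parabolic homomorphisms. -/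
theorem s35_tb_parabolic1 (N l : ℕ) [NeZero N] [NeZero l] (hl : l.Prime) (hlN : ¬ l ∣ N)
    {A : Type*} [AddCommGroup A] [IsAddTorsionFree A] (χ : Additive (Gamma0 (N * l)) →+ A)
    (hχ : IsParabolicHom (Gamma0 (N * l)) χ) :
    IsParabolicHom (Gamma0 N) ((s35_co_data1 N l hl hlN).T A χ) := by
  rw [s35_tb_data1_T N l hl hlN A]
  exact s35_tr_cor_parabolic N l χ hχ

/-- **(a) for `c₂`**: the transfer `c₂` preserves parabolic homomorphisms. -/
theorem s35_tb_parabolic2 (N l : ℕ) [NeZero N] [NeZero l] (hl : l.Prime) (hlN : ¬ l ∣ N)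
    {A : Type*} [AddCommGroup A] [IsAddTorsionFree A] (χ : Additive (Gamma0 (N * l)) →+ A)
    (hχ : IsParabolicHom (Gamma0 (N * l)) χ) :
    IsParabolicHom (Gamma0 N) ((s35_co_data2 N l hl hlN).T A χ) := by
  rw [s35_tb_data2_T N l hl hlN]
  exact s35_tr_cor_parabolic N l _ (s35_al_pull_parabolic N l 1 _ 1 _ _ χ hχ)

/-- `c₁` as a `ℤ`-linear map on parabolic homomorphisms. -/
noncomputable def s35_tb_c1 (N l : ℕ) [NeZero N] [NeZero l] (hl : l.Prime) (hlN : ¬ l ∣ N) :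
    ↥(parabolicHoms ℤ (Gamma0 (N * l)) ℤ) →ₗ[ℤ] ↥(parabolicHoms ℤ (Gamma0 N) ℤ) :=
  ((s35_co_data1 N l hl hlN).T ℤ).toIntLinearMap.restrict
    (fun χ hχ => s35_tb_parabolic1 N l hl hlN χ hχ)

/-- `c₂` as a `ℤ`-linear map on parabolic homomorphisms. -/
noncomputable def s35_tb_c2 (N l : ℕ) [NeZero N] [NeZero l] (hl : l.Prime) (hlN : ¬ l ∣ N) :
    ↥(parabolicHoms ℤ (Gamma0 (N * l)) ℤ) →ₗ[ℤ] ↥(parabolicHoms ℤ (Gamma0 N) ℤ) :=
  ((s35_co_data2 N l hl hlN).T ℤ).toIntLinearMap.restrict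
    (fun χ hχ => s35_tb_parabolic2 N l hl hlN χ hχ)

theorem s35_tb_c1_coe (N l : ℕ) [NeZero N] [NeZero l] (hl : l.Prime) (hlN : ¬ l ∣ N)
    (ψ : ↥(parabolicHoms ℤ (Gamma0 (N * l)) ℤ)) :
    ((s35_tb_c1 N l hl hlN ψ : ↥(parabolicHoms ℤ (Gamma0 N) ℤ)) : Additive (Gamma0 N) →+ ℤ) =
      (s35_co_data1 N l hl hlN).T ℤ (ψ : Additive (Gamma0 (N * l)) →+ ℤ) := rfl

theorem s35_tb_c2_coe (N l : ℕ) [NeZero N] [NeZero l] (hl : l.Prime) (hlN : ¬ l ∣ N)
    (ψ : ↥(parabolicHoms ℤ (Gamma0 (N * l)) ℤ)) :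
    ((s35_tb_c2 N l hl hlN ψ : ↥(parabolicHoms ℤ (Gamma0 N) ℤ)) : Additive (Gamma0 N) →+ ℤ) =
      (s35_co_data2 N l hl hlN).T ℤ (ψ : Additive (Gamma0 (N * l)) →+ ℤ) := rfl

/-- **`c₁` commutes with `T_{l'}` on parabolic homomorphisms.** -/
theorem s35_tb_c1_comm (N l l' : ℕ) [NeZero N] [NeZero l] (hl : l.Prime) (hlN : ¬ l ∣ N)
    (hl' : l'.Prime) (hl'M : ¬ l' ∣ N * l) (hl'N : ¬ l' ∣ N)
    (ψ : ↥(parabolicHoms ℤ (Gamma0 (N * l)) ℤ)) :
    s35_tb_c1 N l hl hlN (s29_cp_Tpar (N * l) l' hl' hl'M ℤ ℤ ψ) =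
      s29_cp_Tpar N l' hl' hl'N ℤ ℤ (s35_tb_c1 N l hl hlN ψ) := by
  apply Subtype.ext
  exact s35_tb_comm1 N l l' hl hlN hl' hl'M hl'N (ψ : Additive (Gamma0 (N * l)) →+ ℤ)

/-- **`c₂` commutes with `T_{l'}` on parabolic homomorphisms.** -/
theorem s35_tb_c2_comm (N l l' : ℕ) [NeZero N] [NeZero l] (hl : l.Prime) (hlN : ¬ l ∣ N)
    (hl' : l'.Prime) (hl'M : ¬ l' ∣ N * l) (hl'N : ¬ l' ∣ N)
    (ψ : ↥(parabolicHoms ℤ (Gamma0 (N * l)) ℤ)) :
    s35_tb_c2 N l hl hlN (s29_cp_Tpar (N * l) l' hl' hl'M ℤ ℤ ψ) =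
      s29_cp_Tpar N l' hl' hl'N ℤ ℤ (s35_tb_c2 N l hl hlN ψ) := by
  apply Subtype.ext
  exact s35_tb_comm2 N l l' hl hlN hl' hl'M hl'N (ψ : Additive (Gamma0 (N * l)) →+ ℤ)

end Fermat.Agent.S35
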