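import Fermat.Agent.S34.GalBook
import Fermat.Agent.S37.EsSwap
import Fermat.Agent.S35.FDefs
import Fermat.Agent.S35.FrobTransfer
import Fermat.Agent.S35.HeckePol
import Fermat.Agent.S35.KapCor
import Fermat.Agent.S35.TransferBridge

/-!
# S35, leaf (HF): the kill property from the power statement `s35_FPow`

* `s35_hf_div σ rs D` : the divisor twin of `s35_fp_mul` / `s35_ft_app`: the fold of
  `E ↦ σ E - r E` on degree-zero divisors.
* `s35_hf_ord` : if `div g = m D` then `div (s35_fp_mul σ rs g) = m (s35_hf_div σ rs D)`.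
* `s35_hf_gen` : if moreover `s35_fp_mul σ rs g` is an `m`-th power, the class of
  `s35_hf_div σ rs D`, i.e. `∏_{r ∈ rs} (σ - r) [D]`, vanishes.
* `s35_hf_app` : the same for `J₀(M)` and `s35_ft_app`.
* `s35_hf_c_ev` : a linear map `Λ_{N l} → Λ_N` commuting with the `T_ℓ` intertwines the
  actions of Hecke polynomials.
* `s35_hf_main` : **(HF)** from `s35_FPow N l`, the `κ`-normalised tower `s35_kc_main`, the
  transfers `c₁`, `c₂` and `ev_N(e) = 0`: the kill hypothesis `hF` of `s35_ft_clause_pol` /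
  `s35_pt_clause` at level `N l`, for `rs = [l, -l, 1, -1, 1, -1]`.
-/

set_option autoImplicit false

open ModularCurve AlgebraicCurve

noncomputable section

namespace Fermat.Agent.S35

open Fermat.Agent.S29 Fermat.Agent.S34

local notation "Qb" => AlgebraicClosure ℚ
local notation "Γ" => (AlgebraicClosure ℚ ≃ₐ[ℚ] AlgebraicClosure ℚ)

section Generic

variable {K F : Type*} [Field K] [Field F] [Algebra K F]

/-- The fold of `E ↦ σ E - r E` on degree-zero divisors. -/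
def s35_hf_div (σ : SemilinearAut K F) (rs : List ℤ)
    (D : Divisor.degZero (K := K) (F := F)) : Divisor.degZero (K := K) (F := F) :=
  rs.foldr (fun (r : ℤ) (E : Divisor.degZero (K := K) (F := F)) =>
    SemilinearAut.degZeroSMulHom σ E - r • E) D

theorem s35_hf_div_nil (σ : SemilinearAut K F) (D : Divisor.degZero (K := K) (F := F)) :
    s35_hf_div σ [] D = D := rfl

theorem s35_hf_div_cons (σ : SemilinearAut K F) (r : ℤ) (rs : List ℤ)
    (D : Divisor.degZero (K := K) (F := F)) :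
    s35_hf_div σ (r :: rs) D
      = SemilinearAut.degZeroSMulHom σ (s35_hf_div σ rs D) - r • s35_hf_div σ rs D := rfl

/-- If `div g = m D` then `div (s35_fp_mul σ rs g) = m (s35_hf_div σ rs D)`. -/
theorem s35_hf_ord (σ : SemilinearAut K F) (m : ℤ) (rs : List ℤ)
    (D : Divisor.degZero (K := K) (F := F)) (g : F) (hg : g ≠ 0)
    (hgD : ∀ v : Place K F, v.ord g = m * (D : Divisor K F) v) :
    s35_fp_mul σ rs g ≠ 0 ∧ ∀ v : Place K F,
      v.ord (s35_fp_mul σ rs g) = m * (s35_hf_div σ rs D : Divisor K F) v := by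
  induction rs with
  | nil => exact ⟨hg, hgD⟩
  | cons r rs ih =>
    obtain ⟨h0, hord⟩ := ih
    have hσ0 : σ • s35_fp_mul σ rs g ≠ 0 := (smul_ne_zero_iff_ne σ).mpr h0
    refine ⟨?_, fun w => ?_⟩
    · rw [s35_fp_mul_cons]
      exact div_ne_zero hσ0 (zpow_ne_zero r h0)
    · have h1 := s34_gb_div_smul σ m (s35_hf_div σ rs D : Divisor K F) (s35_fp_mul σ rs g)
        (fun v => (hord v).symm) w
      rw [s35_fp_mul_cons, s35_hf_div_cons, div_eq_mul_inv,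
        w.ord_mul hσ0 (inv_ne_zero (zpow_ne_zero r h0)), w.ord_inv, w.ord_zpow, ← h1, hord w,
        AddSubgroup.coe_sub, AddSubgroup.coe_zsmul, SemilinearAut.coe_degZeroSMulHom,
        Finsupp.sub_apply, Finsupp.smul_apply, smul_eq_mul]
      ring

/-- The class of `s35_hf_div σ rs D` is `∏_{r ∈ rs} (σ - r) [D]`. -/
theorem s35_hf_cls (σ : SemilinearAut K F) (rs : List ℤ)
    (D : Divisor.degZero (K := K) (F := F)) :
    rs.foldr (fun (r : ℤ) (y : Pic0 K F) => σ • y - r • y) (Pic0.mk D)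
      = Pic0.mk (s35_hf_div σ rs D) := by
  induction rs with
  | nil => rfl
  | cons r rs ih =>
    rw [List.foldr_cons, ih, s35_hf_div_cons, SemilinearAut.pic0_smul_mk]
    rfl

/-- **(HF), generic form.** If `div g = m D` and `s35_fp_mul σ rs g` is an `m`-th power, then
`∏_{r ∈ rs} (σ - r) [D] = 0`. -/
theorem s35_hf_gen (σ : SemilinearAut K F) (m : ℕ) (hm : 0 < m) (rs : List ℤ)
    (D : Divisor.degZero (K := K) (F := F)) (g : F) (hg : g ≠ 0)
    (hgD : ∀ v : Place K F, v.ord g = (m : ℤ) * (D : Divisor K F) v)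
    (h : F) (hh : h ^ m = s35_fp_mul σ rs g) :
    rs.foldr (fun (r : ℤ) (y : Pic0 K F) => σ • y - r • y) (Pic0.mk D) = 0 := by
  obtain ⟨h0, hord⟩ := s35_hf_ord σ (m : ℤ) rs D g hg hgD
  have hh0 : h ≠ 0 := by
    rintro rfl
    rw [zero_pow hm.ne'] at hh
    exact h0 hh.symm
  rw [s35_hf_cls]
  refine (QuotientAddGroup.eq_zero_iff _).mpr ?_
  rw [AddSubgroup.mem_addSubgroupOf]
  refine ⟨h, hh0, fun w => ?_⟩
  have hmz : (m : ℤ) ≠ 0 := by exact_mod_cast hm.ne'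
  apply mul_left_cancel₀ hmz
  have hordh : (m : ℤ) * w.ord h = w.ord (h ^ m) := by
    have := w.ord_zpow h (m : ℤ)
    rw [zpow_natCast] at this
    rw [this]
  rw [hordh, hh, hord w]

end Generic

/-- **(HF) for `J₀(M)`**: if `div g = m D` and `s35_fp_mul γ rs g` is an `m`-th power in
`Q̄ · F(M)`, then `s35_ft_app M γ rs [D] = 0`. -/
theorem s35_hf_app (M : ℕ) [NeZero M] (γ : Γ) (m : ℕ) (hm : 0 < m) (rs : List ℤ)
    (D : Divisor.degZero (K := Qb) (F := modularFunctionFieldBar M))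
    (g : modularFunctionFieldBar M) (hg : g ≠ 0)
    (hgD : ∀ v : Place Qb (modularFunctionFieldBar M),
      v.ord g = (m : ℤ) * (D : Divisor Qb (modularFunctionFieldBar M)) v)
    (h : modularFunctionFieldBar M)
    (hh : h ^ m = s35_fp_mul (arithmeticGalois (modularFunctionFieldFull M) γ) rs g) :
    s35_ft_app M γ rs (Pic0.mk D) = 0 :=
  s35_hf_gen (arithmeticGalois (modularFunctionFieldFull M) γ) m hm rs D g hg hgD h hh

open CongruenceSubgroup ModularCurve.Period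

/-- A `ℤ`-linear map `Λ_{N l} → Λ_N` commuting with the `T_ℓ` (`ℓ ∤ N l`) intertwines the
actions of Hecke polynomials. -/
theorem s35_hf_c_ev (N l : ℕ) [NeZero N] [NeZero l] (hNM : N ∣ N * l)
    (c : ↥(parabolicHoms ℤ (Gamma0 (N * l)) ℤ) →ₗ[ℤ] ↥(parabolicHoms ℤ (Gamma0 N) ℤ))
    (hc : ∀ (l' : ℕ) (hl' : l'.Prime) (hl'M : ¬ l' ∣ N * l) (hl'N : ¬ l' ∣ N)
      (ψ : ↥(parabolicHoms ℤ (Gamma0 (N * l)) ℤ)),
      c (s29_cp_Tpar (N * l) l' hl' hl'M ℤ ℤ ψ) = s29_cp_Tpar N l' hl' hl'N ℤ ℤ (c ψ))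
    (e : s35_Pol (N * l)) (ψ : ↥(parabolicHoms ℤ (Gamma0 (N * l)) ℤ)) :
    c (s35_ev (N * l) (N * l) dvd_rfl e ψ) = s35_ev N (N * l) hNM e (c ψ) := by
  induction e using MvPolynomial.induction_on generalizing ψ with
  | C a =>
    rw [eq_intCast (MvPolynomial.C (σ := s35_Idx (N * l))) a, map_intCast, map_intCast,
      Module.End.intCast_apply, Module.End.intCast_apply, map_zsmul]
  | add p₁ p₂ h₁ h₂ =>
    rw [map_add, map_add, LinearMap.add_apply, LinearMap.add_apply, map_add, h₁, h₂]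
  | mul_X p₁ i h₁ =>
    rw [map_mul, map_mul, Module.End.mul_apply, Module.End.mul_apply, h₁, s35_ev_X, s35_ev_X,
      hc]

/-- **(HF).** The kill hypothesis of the transfer at level `N l` from the power statement
`s35_FPow N l`. -/
theorem s35_hf_main (N l : ℕ) [NeZero N] [NeZero l] (hl : l.Prime) (hlN : ¬ l ∣ N)
    (hFP : s35_FPow N l) (p : ℕ) (hp : p.Prime) (hlp : l ≠ p)
    (e : s35_Pol (N * l)) (hNM : N ∣ N * l) (he : s35_ev N (N * l) hNM e = 0)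
    (P : ValuationSubring Qb) (hP : P.LiesOverPrime l) (γ : Γ) (hγ : P.IsFrobeniusAt γ l)
    (n : ℕ) :
    ∃ ι : ↥(parabolicHoms ℤ (Gamma0 (N * l)) ℤ) →+ JZero (N * l),
      (∀ ψ, (p ^ n) • ι ψ = 0) ∧ (∀ ψ, ι ψ = 0 → ∃ ψ', ψ = (p ^ n) • ψ') ∧
      (∀ (ℓ : ℕ) (hℓ : ℓ.Prime) (hℓN : ¬ ℓ ∣ N * l), ¬ ℓ ∣ N * l * p → ∀ ψ,
        ι (s29_cp_Tpar (N * l) ℓ hℓ hℓN ℤ ℤ ψ) = heckeOperatorBar (N * l) ⟨ℓ, hℓ⟩ (ι ψ)) ∧
      ∀ ψ, s35_ft_app (N * l) γ [(l : ℤ), -(l : ℤ), 1, -1, 1, -1]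
        (ι (s35_ev (N * l) (N * l) dvd_rfl e ψ)) = 0 := by
  obtain ⟨ι, h1, h2, h3, -, h5, h6⟩ := s35_kc_main N l hl hlN p hp.ne_zero
  obtain ⟨W, hWα, hWβ⟩ := Fermat.Agent.S37.s37_es_swap N l ((Nat.Prime.coprime_iff_not_dvd hl).mpr hlN)
  refine ⟨ι n, h1 n, h2 n, fun ℓ hℓ hℓN _ ψ => h3 n ℓ hℓ hℓN ψ, fun ψ => ?_⟩
  have hm : 0 < p ^ n := pow_pos hp.pos n
  have hlm : ¬ l ∣ p ^ n := fun hd =>
    hlp ((Nat.prime_dvd_prime_iff_eq hl hp).mp (hl.dvd_of_dvd_pow hd))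
  -- the transfers vanish
  have hc1 : (s35_co_data1 N l hl hlN).T ℤ
      ((s35_ev (N * l) (N * l) dvd_rfl e ψ : ↥(parabolicHoms ℤ (Gamma0 (N * l)) ℤ)) :
        Additive (Gamma0 (N * l)) →+ ℤ) = 0 := by
    rw [← s35_tb_c1_coe, s35_hf_c_ev N l hNM (s35_tb_c1 N l hl hlN)
      (fun l' hl' hl'M hl'N ψ => s35_tb_c1_comm N l l' hl hlN hl' hl'M hl'N ψ) e ψ, he]
    rfl
  have hc2 : (s35_co_data2 N l hl hlN).T ℤ
      ((s35_ev (N * l) (N * l) dvd_rfl e ψ : ↥(parabolicHoms ℤ (Gamma0 (N * l)) ℤ)) :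
        Additive (Gamma0 (N * l)) →+ ℤ) = 0 := by
    rw [← s35_tb_c2_coe, s35_hf_c_ev N l hNM (s35_tb_c2 N l hl hlN)
      (fun l' hl' hl'M hl'N ψ => s35_tb_c2_comm N l l' hl hlN hl' hl'M hl'N ψ) e ψ, he]
    rfl
  -- a Kummer function of `ι n ψ'`
  obtain ⟨D, hD⟩ := Pic0.mk_surjective (ι n (s35_ev (N * l) (N * l) dvd_rfl e ψ))
  have hx := h1 n (s35_ev (N * l) (N * l) dvd_rfl e ψ)
  rw [← hD] at hx
  have hmD : ((p ^ n) • D : Divisor.degZero (K := Qb) (F := modularFunctionFieldBar (N * l))) ∈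
      (Divisor.principal (K := Qb) (F := modularFunctionFieldBar (N * l))).addSubgroupOf
        (Divisor.degZero (K := Qb) (F := modularFunctionFieldBar (N * l))) := by
    have h1' : Pic0.mk ((p ^ n) • D) = (0 : Pic0 Qb (modularFunctionFieldBar (N * l))) := by
      rw [← hx]; rfl
    exact (QuotientAddGroup.eq_zero_iff _).mp h1'
  rw [AddSubgroup.mem_addSubgroupOf] at hmD
  obtain ⟨g, hg0, hg⟩ := hmD
  have hgD : ∀ v : Place Qb (modularFunctionFieldBar (N * l)),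
      v.ord g = ((p ^ n : ℕ) : ℤ) * (D : Divisor Qb (modularFunctionFieldBar (N * l))) v := by
    intro v
    rw [← hg v]
    simp [Finsupp.smul_apply]
  obtain ⟨c1, f1, hN1⟩ := h5 n _ hc1 D g hD hg0 hgD
  obtain ⟨c2, f2, hN2⟩ := h6 n _ hc2 W hWα hWβ D g hD hg0 hgD
  obtain ⟨h, hh⟩ := hFP P hP γ hγ (p ^ n) hm hlm W hWα hWβ g hg0 (fun v => ⟨_, hgD v⟩)
    ⟨c1, f1, hN1⟩ ⟨c2, f2, hN2⟩
  rw [← hD]
  exact s35_hf_app (N * l) γ (p ^ n) hm _ D g hg0 hgD h hh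

end Fermat.Agent.S35
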