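import Mathlib
import Fermat.Agent.S35.FDefs
import Fermat.Agent.S35.ChooseK
import Fermat.Agent.S34.InstDefs

/-!
# S35, block (INST2), function-dependent front end

`s35_if_fpow` : the hub statement `s35_FPow N l` (over `Q̄`) from the `K₁`-level statement
`s35_if_Model N l S` : for every Galois number field `K₁ ⊆ Q̄` containing the finite set `S`,
every Atkin–Lehner swap `W₁` of `K₁ · F(N l)`, every `g₁ ≠ 0` over `K₁` whose orders are
divisible by `m`, whose zeros and poles are `K₁`-rational and whose norms (and those of `W₁ g₁`)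
to level `N` are constants times `m`-th powers, the fold `[l, -l, 1, -1, 1, -1]` of the extension
of constants of `g₁` is an `m`-th power.

The number field and the descent of the function and of the norm relations come from block (K1)
(`s35_ck_main_nmAlong`); the swap over `K₁` from `s34_md_exists_swap`.
-/

set_option autoImplicit false
set_option synthInstance.maxHeartbeats 400000

open ModularCurve AlgebraicCurve

noncomputable section

namespace Fermat.Agent.S35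

open Fermat.Agent.S18 Fermat.Agent.S29 Fermat.Agent.S34

local notation "Qb" => AlgebraicClosure ℚ
local notation "Γ" => (AlgebraicClosure ℚ ≃ₐ[ℚ] AlgebraicClosure ℚ)

set_option maxHeartbeats 2000000 in
/-- The two `K₁`-level norm relations for `g₁` and `W₁ g₁` (norm along `heckeAlphaBar K₁ N l`,
as an endomorphism of `K₁ · F(N l)`). -/
def s35_if_NormRel (K₁ : IntermediateField ℚ Qb) (N l : ℕ) [NeZero N] [NeZero l] (m : ℕ)
    (W₁ : s18_F1 K₁ (N * l) ≃ₐ[K₁] s18_F1 K₁ (N * l)) (g₁ : s18_F1 K₁ (N * l)) : Prop :=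
  ∃ (c₁ c₂ : K₁) (f₁ f₂ : s18_F1 K₁ N), c₁ ≠ 0 ∧ c₂ ≠ 0 ∧ f₁ ≠ 0 ∧ f₂ ≠ 0 ∧
    s35_nmAlong (heckeAlphaBar K₁ N l).toRingHom g₁ =
      algebraMap K₁ (s18_F1 K₁ (N * l)) c₁ * (heckeAlphaBar K₁ N l f₁) ^ m ∧
    s35_nmAlong (heckeAlphaBar K₁ N l).toRingHom (W₁ g₁) =
      algebraMap K₁ (s18_F1 K₁ (N * l)) c₂ * (heckeAlphaBar K₁ N l f₂) ^ m

set_option maxHeartbeats 2000000 in
/-- **The `K₁`-level statement** which the concrete nodal model has to deliver. -/
def s35_if_Model (N l : ℕ) [NeZero N] [NeZero l] (S : Finset Qb) : Prop :=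
  ∀ P : ValuationSubring Qb, P.LiesOverPrime l →
  ∀ K₁ : IntermediateField ℚ Qb, s18_d1_IsGaloisNF K₁ → (∀ a ∈ S, a ∈ K₁) →
  ∀ γ : Γ, P.IsFrobeniusAt γ l →
  ∀ m : ℕ, 0 < m → ¬ l ∣ m →
  ∀ W₁ : s18_F1 K₁ (N * l) ≃ₐ[K₁] s18_F1 K₁ (N * l), s34_md_IsSwap K₁ N l W₁ →
  ∀ g₁ : s18_F1 K₁ (N * l), g₁ ≠ 0 →
    (∀ v : Place Qb (modularFunctionFieldBar (N * l)),
      (m : ℤ) ∣ v.ord (s18_baseIncl K₁ (N * l) g₁)) →
    (∀ v : Place Qb (modularFunctionFieldBar (N * l)),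
      v.ord (s18_baseIncl K₁ (N * l) g₁) ≠ 0 →
      ∀ σ : Γ, (∀ c ∈ K₁, σ c = c) →
        arithmeticGalois (modularFunctionFieldFull (N * l)) σ • v = v) →
    s35_if_NormRel K₁ N l m W₁ g₁ →
    ∃ x : modularFunctionFieldBar (N * l),
      x ^ m = s35_fp_mul (arithmeticGalois (modularFunctionFieldFull (N * l)) γ)
        [(l : ℤ), -(l : ℤ), 1, -1, 1, -1] (s18_baseIncl K₁ (N * l) g₁)

set_option maxHeartbeats 2000000 in
/-- **(INST2), front end**: the hub statement from the `K₁`-level statement. -/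
theorem s35_if_fpow (N l : ℕ) [NeZero N] [NeZero l] (hl : l.Prime) (hlN : ¬ l ∣ N)
    (S : Finset Qb) (hmod : s35_if_Model N l S) : s35_FPow N l := by
  intro P hP γ hγ m hm0 hlm W hWα hWβ g hg0 hdiv h₁ h₂
  obtain ⟨K₀, hK₀, hS, hK⟩ := s35_ck_main_nmAlong N l hl hlN W hWα hWβ m hm0 g hg0 h₁ h₂ S
  obtain ⟨hfix, g₁, hg₁, hg₁0, hrel⟩ := hK K₀ le_rfl
  have hcop : Nat.Coprime l N := (hl.coprime_iff_not_dvd).mpr hlN
  obtain ⟨W₁, hW₁⟩ := s34_md_exists_swap K₀ N l hcop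
  have key := hmod P hP K₀ hK₀ hS γ hγ m hm0 hlm W₁ hW₁ g₁ hg₁0
    (by rw [hg₁]; exact hdiv) (by rw [hg₁]; exact hfix) (hrel W₁ hW₁.1 hW₁.2.1).2
  rw [hg₁] at key
  exact key

end Fermat.Agent.S35
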