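import Fermat.Agent.S35.TransferCor

/-!
# S35, block (E1): pull-back by conjugation with an Atkin–Lehner matrix

For integers `x y z t` with `q x t - N' y z = 1` the matrix `W = [[q x, y], [N' q z, q t]]`
(determinant `q`) normalises `Γ₀(N'q)`.

* `s35_al_conj` : the automorphism `γ ↦ W γ W⁻¹` of `Γ₀(N'q)` (`s35_al_conj_spec`:
  `W * γ = (conj γ) * W` as integral matrices);
* `s35_al_pull` : `χ ↦ χ ∘ conj` on `Hom(Γ₀(N'q), A)`;
* `s35_al_comm` : `s35_al_pull` commutes with `T_l` for every prime `l ∤ N'q`;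
* `s35_al_pullPar`, `s35_tr_c2` : the induced maps on parabolic homomorphisms,
  `s35_tr_c2_comm`.
-/

set_option autoImplicit false

open CongruenceSubgroup ModularForm ModularCurve.Period
open scoped MatrixGroups

namespace Fermat.Agent.S35

open Fermat.Agent.S29

/-- the Atkin–Lehner matrix `[[q x, y], [N' q z, q t]]`. -/
def s35_al_W (N' q : ℕ) (x y z t : ℤ) : Matrix (Fin 2) (Fin 2) ℤ :=
  !![(q : ℤ) * x, y; (N' : ℤ) * q * z, (q : ℤ) * t]

theorem s35_al_W_det (N' q : ℕ) (x y z t : ℤ) (h : (q : ℤ) * x * t - N' * y * z = 1) :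
    (s35_al_W N' q x y z t).det = q := by
  rw [s35_al_W, Matrix.det_fin_two_of]
  linear_combination (q : ℤ) * h

/-- the Atkin–Lehner matrix as an element of `GL₂(ℝ)`. -/
noncomputable def s35_al_g (N' q : ℕ) [NeZero q] (x y z t : ℤ)
    (h : (q : ℤ) * x * t - N' * y * z = 1) : GL (Fin 2) ℝ :=
  Matrix.GeneralLinearGroup.mkOfDetNeZero ((s35_al_W N' q x y z t).map (Int.castRingHom ℝ)) (by
    have h1 : ((s35_al_W N' q x y z t).map (Int.castRingHom ℝ)).det =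
        ((s35_al_W N' q x y z t).det : ℝ) :=
      (RingHom.map_det (Int.castRingHom ℝ) (s35_al_W N' q x y z t)).symm
    rw [h1, s35_al_W_det N' q x y z t h]
    exact_mod_cast NeZero.ne q)

theorem s35_al_g_val (N' q : ℕ) [NeZero q] (x y z t : ℤ)
    (h : (q : ℤ) * x * t - N' * y * z = 1) :
    ((s35_al_g N' q x y z t h : GL (Fin 2) ℝ) : Matrix (Fin 2) (Fin 2) ℝ) =
      (s35_al_W N' q x y z t).map (Int.castRingHom ℝ) := rfl

/-- real identities from integral ones. -/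
theorem s35_al_real_of_int {N : ℕ} (γ γ' : Gamma0 N) (g : GL (Fin 2) ℝ)
    (W : Matrix (Fin 2) (Fin 2) ℤ)
    (hg : (g : Matrix (Fin 2) (Fin 2) ℝ) = W.map (Int.castRingHom ℝ))
    (h : W * ((γ : SL(2, ℤ)) : Matrix (Fin 2) (Fin 2) ℤ) =
      ((γ' : SL(2, ℤ)) : Matrix (Fin 2) (Fin 2) ℤ) * W) :
    g * s29_ch_iota N γ = s29_ch_iota N γ' * g := by
  apply Units.ext
  rw [Units.val_mul, Units.val_mul, hg, s29_ch_iota_val, s29_ch_iota_val, ← Matrix.map_mul,
    ← Matrix.map_mul, h]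

theorem s35_al_conj_aux (N' q : ℕ) (x y z t a b c' d : ℤ)
    (h : (q : ℤ) * x * t - N' * y * z = 1) (hdet : a * d - b * (((N' * q : ℕ) : ℤ) * c') = 1) :
    ∃ γ' : Gamma0 (N' * q),
      s35_al_W N' q x y z t * !![a, b; ((N' * q : ℕ) : ℤ) * c', d] =
        ((γ' : SL(2, ℤ)) : Matrix (Fin 2) (Fin 2) ℤ) * s35_al_W N' q x y z t := by
  push_cast at hdet
  refine ⟨s29_ch_mk (N' * q)
    (q * x * t * a + t * y * (N' * q * c') - N' * q * x * z * b - N' * y * z * d)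
    (-x * y * a - y ^ 2 * N' * c' + q * x ^ 2 * b + x * y * d)
    (((N' * q : ℕ) : ℤ) * (z * t * a + q * t ^ 2 * c' - N' * z ^ 2 * b - t * z * d))
    (-N' * y * z * a - t * y * (N' * q * c') + N' * q * x * z * b + q * x * t * d) ?_
    (Dvd.intro _ rfl), ?_⟩
  · push_cast
    linear_combination ((q : ℤ) * x * t - N' * y * z) ^ 2 * hdet +
      ((q : ℤ) * x * t - N' * y * z + 1) * h
  · rw [s29_ch_mk_val, s35_al_W]
    simp only [Matrix.mul_fin_two]
    refine s29_ch_of_eq ?_ ?_ ?_ ?_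
    · push_cast
      linear_combination (-((q : ℤ) * x * a + y * (N' * q * c'))) * h
    · linear_combination (-((q : ℤ) * x * b + y * d)) * h
    · push_cast
      linear_combination (-((N' : ℤ) * q * z * a + q * t * (N' * q * c'))) * h
    · push_cast
      linear_combination (-((N' : ℤ) * q * z * b + q * t * d)) * h

/-- `W γ = γ' W` for some `γ' ∈ Γ₀(N'q)`. -/
theorem s35_al_conj_ex (N' q : ℕ) (x y z t : ℤ) (h : (q : ℤ) * x * t - N' * y * z = 1)
    (γ : Gamma0 (N' * q)) :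
    ∃ γ' : Gamma0 (N' * q), s35_al_W N' q x y z t * ((γ : SL(2, ℤ)) : Matrix (Fin 2) (Fin 2) ℤ) =
      ((γ' : SL(2, ℤ)) : Matrix (Fin 2) (Fin 2) ℤ) * s35_al_W N' q x y z t := by
  obtain ⟨c', hc'⟩ : ((N' * q : ℕ) : ℤ) ∣ (γ : SL(2, ℤ)) 1 0 := s29_ch_dvd γ
  have hdet := s29_ch_det γ
  rw [hc'] at hdet
  obtain ⟨γ', hγ'⟩ := s35_al_conj_aux N' q x y z t _ _ c' _ h hdet
  have e : ((γ : SL(2, ℤ)) : Matrix (Fin 2) (Fin 2) ℤ) =
      !![(γ : SL(2, ℤ)) 0 0, (γ : SL(2, ℤ)) 0 1; ((N' * q : ℕ) : ℤ) * c', (γ : SL(2, ℤ)) 1 1] := by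
    rw [← hc']
    exact s29_ch_val_eq γ
  refine ⟨γ', ?_⟩
  rw [← hγ']
  exact congrArg _ e

theorem s35_al_W_mul_adj (N' q : ℕ) (x y z t : ℤ) (h : (q : ℤ) * x * t - N' * y * z = 1) :
    s35_al_W N' q x y z t * s35_al_W N' q t (-y) (-z) x =
      (q : ℤ) • (1 : Matrix (Fin 2) (Fin 2) ℤ) := by
  rw [s35_al_W, s35_al_W]
  simp only [Matrix.mul_fin_two]
  ext i j
  fin_cases i <;> fin_cases j
  · simp
    linear_combination (q : ℤ) * h
  · simp
    ring
  · simp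
    ring
  · simp
    linear_combination (q : ℤ) * h

theorem s35_al_adj_mul_W (N' q : ℕ) (x y z t : ℤ) (h : (q : ℤ) * x * t - N' * y * z = 1) :
    s35_al_W N' q t (-y) (-z) x * s35_al_W N' q x y z t =
      (q : ℤ) • (1 : Matrix (Fin 2) (Fin 2) ℤ) := by
  rw [s35_al_W, s35_al_W]
  simp only [Matrix.mul_fin_two]
  ext i j
  fin_cases i <;> fin_cases j
  · simp
    linear_combination (q : ℤ) * h
  · simp
    ring
  · simp
    ring
  · simp
    linear_combination (q : ℤ) * h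

/-- `γ W = W γ'` for some `γ' ∈ Γ₀(N'q)`. -/
theorem s35_al_conj_ex' (N' q : ℕ) [NeZero q] (x y z t : ℤ)
    (h : (q : ℤ) * x * t - N' * y * z = 1) (γ : Gamma0 (N' * q)) :
    ∃ γ' : Gamma0 (N' * q), ((γ : SL(2, ℤ)) : Matrix (Fin 2) (Fin 2) ℤ) * s35_al_W N' q x y z t =
      s35_al_W N' q x y z t * ((γ' : SL(2, ℤ)) : Matrix (Fin 2) (Fin 2) ℤ) := by
  obtain ⟨γ', hγ'⟩ := s35_al_conj_ex N' q t (-y) (-z) x (by linear_combination h) γ
  refine ⟨γ', ?_⟩
  have hq0 : (q : ℤ) ≠ 0 := by exact_mod_cast NeZero.ne q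
  have h1 : (q : ℤ) • (((γ : SL(2, ℤ)) : Matrix (Fin 2) (Fin 2) ℤ) * s35_al_W N' q x y z t) =
      (q : ℤ) • (s35_al_W N' q x y z t * ((γ' : SL(2, ℤ)) : Matrix (Fin 2) (Fin 2) ℤ)) := by
    calc (q : ℤ) • (((γ : SL(2, ℤ)) : Matrix (Fin 2) (Fin 2) ℤ) * s35_al_W N' q x y z t)
        = (s35_al_W N' q x y z t * s35_al_W N' q t (-y) (-z) x) *
            ((γ : SL(2, ℤ)) : Matrix (Fin 2) (Fin 2) ℤ) * s35_al_W N' q x y z t := by
          rw [s35_al_W_mul_adj N' q x y z t h, Matrix.smul_mul, Matrix.one_mul, Matrix.smul_mul]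
      _ = s35_al_W N' q x y z t * ((γ' : SL(2, ℤ)) : Matrix (Fin 2) (Fin 2) ℤ) *
            (s35_al_W N' q t (-y) (-z) x * s35_al_W N' q x y z t) := by
          rw [Matrix.mul_assoc (s35_al_W N' q x y z t), hγ']
          simp only [Matrix.mul_assoc]
      _ = (q : ℤ) • (s35_al_W N' q x y z t * ((γ' : SL(2, ℤ)) : Matrix (Fin 2) (Fin 2) ℤ)) := by
          rw [s35_al_adj_mul_W N' q x y z t h, Matrix.mul_smul, Matrix.mul_one]
  exact smul_right_injective _ hq0 h1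

theorem s35_al_normal1 (N' q : ℕ) [NeZero q] (x y z t : ℤ)
    (h : (q : ℤ) * x * t - N' * y * z = 1) (γ : Gamma0 (N' * q)) :
    ∃ γ' : Gamma0 (N' * q), s29_ch_iota (N' * q) γ' =
      s35_al_g N' q x y z t h * s29_ch_iota (N' * q) γ * (s35_al_g N' q x y z t h)⁻¹ := by
  obtain ⟨γ', hγ'⟩ := s35_al_conj_ex N' q x y z t h γ
  refine ⟨γ', ?_⟩
  rw [s35_al_real_of_int γ γ' (s35_al_g N' q x y z t h) _ (s35_al_g_val N' q x y z t h) hγ',
    mul_inv_cancel_right]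

theorem s35_al_normal2 (N' q : ℕ) [NeZero q] (x y z t : ℤ)
    (h : (q : ℤ) * x * t - N' * y * z = 1) (γ : Gamma0 (N' * q)) :
    ∃ γ' : Gamma0 (N' * q), s29_ch_iota (N' * q) γ' =
      (s35_al_g N' q x y z t h)⁻¹ * s29_ch_iota (N' * q) γ * s35_al_g N' q x y z t h := by
  obtain ⟨γ', hγ'⟩ := s35_al_conj_ex' N' q x y z t h γ
  refine ⟨γ', ?_⟩
  have h1 := s35_al_real_of_int γ' γ (s35_al_g N' q x y z t h) _ (s35_al_g_val N' q x y z t h)
    hγ'.symm
  rw [mul_assoc, ← h1, inv_mul_cancel_left]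

/-- **the Atkin–Lehner conjugation** `γ ↦ W γ W⁻¹` of `Γ₀(N'q)`. -/
noncomputable def s35_al_conj (N' q : ℕ) [NeZero q] (x y z t : ℤ)
    (h : (q : ℤ) * x * t - N' * y * z = 1) : Gamma0 (N' * q) ≃* Gamma0 (N' * q) :=
  s35_tr_conjEquiv (s29_ch_iota (N' * q)) (s29_ch_iota_injective (N' * q))
    (s35_al_g N' q x y z t h) (s35_al_normal1 N' q x y z t h) (s35_al_normal2 N' q x y z t h)

theorem s35_al_conj_iota (N' q : ℕ) [NeZero q] (x y z t : ℤ)
    (h : (q : ℤ) * x * t - N' * y * z = 1) (γ : Gamma0 (N' * q)) :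
    s29_ch_iota (N' * q) (s35_al_conj N' q x y z t h γ) =
      s35_al_g N' q x y z t h * s29_ch_iota (N' * q) γ * (s35_al_g N' q x y z t h)⁻¹ :=
  s35_tr_conjEquiv_spec _ _ _ _ _ γ

/-- `W * γ = (conj γ) * W` as integral matrices. -/
theorem s35_al_conj_spec (N' q : ℕ) [NeZero q] (x y z t : ℤ)
    (h : (q : ℤ) * x * t - N' * y * z = 1) (γ : Gamma0 (N' * q)) :
    s35_al_W N' q x y z t * ((γ : SL(2, ℤ)) : Matrix (Fin 2) (Fin 2) ℤ) =
      ((s35_al_conj N' q x y z t h γ : SL(2, ℤ)) : Matrix (Fin 2) (Fin 2) ℤ) *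
        s35_al_W N' q x y z t := by
  have h1 := s35_al_conj_iota N' q x y z t h γ
  have h2 : s35_al_g N' q x y z t h * s29_ch_iota (N' * q) γ =
      s29_ch_iota (N' * q) (s35_al_conj N' q x y z t h γ) * s35_al_g N' q x y z t h := by
    rw [h1, inv_mul_cancel_right]
  have h3 := congrArg (fun g : GL (Fin 2) ℝ => (g : Matrix (Fin 2) (Fin 2) ℝ)) h2
  simp only [Units.val_mul] at h3
  rw [s35_al_g_val, s29_ch_iota_val, s29_ch_iota_val, ← Matrix.map_mul, ← Matrix.map_mul] at h3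
  exact Matrix.map_injective (Int.castRingHom ℝ).injective_int h3

/-- coset decomposition of an integral matrix of determinant `l` with `N ∣ c`. -/
theorem s35_al_decomp (N l : ℕ) (hl : l.Prime) (hlN : ¬ l ∣ N) (a b c d : ℤ)
    (hdet : a * d - b * c = l) (hN : (N : ℤ) ∣ c) :
    ∃ (j : Option (Fin l)) (γ' : Gamma0 N),
      !![a, b; c, d] = ((γ' : SL(2, ℤ)) : Matrix (Fin 2) (Fin 2) ℤ) * s29_ch_deltaZ l j := by
  have : Fact l.Prime := ⟨hl⟩
  have hlp : Prime (l : ℤ) := Nat.prime_iff_prime_int.1 hl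
  have hl0 : (l : ℤ) ≠ 0 := by exact_mod_cast hl.ne_zero
  -- solving `u * x ≡ v mod l` for `l ∤ u`
  have hsolve : ∀ u v : ℤ, ¬ (l : ℤ) ∣ u → ∃ j : Fin l, (l : ℤ) ∣ v - (j : ℕ) * u := by
    intro u v hu
    have hu' : ((u : ℤ) : ZMod l) ≠ 0 := fun h => hu ((ZMod.intCast_zmod_eq_zero_iff_dvd u l).1 h)
    refine ⟨⟨(((v : ZMod l)) * ((u : ZMod l))⁻¹).val, ZMod.val_lt _⟩, ?_⟩
    rw [← ZMod.intCast_zmod_eq_zero_iff_dvd]
    push_cast
    rw [ZMod.natCast_zmod_val, mul_assoc, inv_mul_cancel₀ hu', mul_one, sub_self]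
  by_cases hac : (l : ℤ) ∣ a ∧ (l : ℤ) ∣ c
  · obtain ⟨⟨a₁, ha₁⟩, ⟨c₁, hc₁⟩⟩ := hac
    have hNc : (N : ℤ) ∣ c₁ := by
      have h1 : (N : ℤ) ∣ l * c₁ := hc₁ ▸ hN
      have hcop : IsCoprime (N : ℤ) (l : ℤ) := by
        rw [Int.isCoprime_iff_gcd_eq_one, Int.gcd_natCast_natCast]
        exact (Nat.Coprime.symm ((Nat.Prime.coprime_iff_not_dvd hl).2 hlN))
      exact hcop.dvd_of_dvd_mul_left h1
    refine ⟨none, s29_ch_mk N a₁ b c₁ d ?_ hNc, ?_⟩
    · have h1 : (l : ℤ) * (a₁ * d - b * c₁) = l * 1 := by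
        rw [ha₁, hc₁] at hdet
        linear_combination hdet
      exact mul_left_cancel₀ hl0 h1
    · simp only [s29_ch_mk_val, s29_ch_deltaZ, Matrix.mul_fin_two]
      exact s29_ch_of_eq (by rw [ha₁]; ring) (by ring) (by rw [hc₁]; ring) (by ring)
  · have hj : ∃ j : Fin l, (l : ℤ) ∣ b - (j : ℕ) * a ∧ (l : ℤ) ∣ d - (j : ℕ) * c := by
      by_cases ha : (l : ℤ) ∣ a
      · have hc : ¬ (l : ℤ) ∣ c := fun hc => hac ⟨ha, hc⟩
        obtain ⟨j, hj⟩ := hsolve c d hc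
        refine ⟨j, ?_, hj⟩
        have h1 : (l : ℤ) ∣ c * (b - (j : ℕ) * a) := by
          have e : c * (b - (j : ℕ) * a) = a * (d - (j : ℕ) * c) - l := by
            linear_combination -hdet
          rw [e]
          exact dvd_sub (Dvd.dvd.mul_left hj _) dvd_rfl
        exact (hlp.dvd_or_dvd h1).resolve_left hc
      · obtain ⟨j, hj⟩ := hsolve a b ha
        refine ⟨j, hj, ?_⟩
        have h1 : (l : ℤ) ∣ a * (d - (j : ℕ) * c) := by
          have e : a * (d - (j : ℕ) * c) = c * (b - (j : ℕ) * a) + l := by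
            linear_combination hdet
          rw [e]
          exact dvd_add (Dvd.dvd.mul_left hj _) dvd_rfl
        exact (hlp.dvd_or_dvd h1).resolve_left ha
    obtain ⟨j, ⟨b₁, hb₁⟩, ⟨d₁, hd₁⟩⟩ := hj
    refine ⟨some j, s29_ch_mk N a b₁ c d₁ ?_ hN, ?_⟩
    · have h1 : (l : ℤ) * (a * d₁ - b₁ * c) = l * 1 := by
        linear_combination hdet - a * hd₁ + c * hb₁
      exact mul_left_cancel₀ hl0 h1
    · simp only [s29_ch_mk_val, s29_ch_deltaZ, Matrix.mul_fin_two]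
      exact s29_ch_of_eq (by ring) (by linear_combination hb₁) (by ring)
        (by linear_combination hd₁)

/-- `[[A, B], [0, D]] * W = W * ε * δ_i'` for upper triangular matrices of determinant `l`. -/
theorem s35_al_cos_aux (N' q l : ℕ) (hl : l.Prime) (hlM : ¬ l ∣ N' * q) (x y z t : ℤ)
    (h : (q : ℤ) * x * t - N' * y * z = 1) (A B D : ℤ) (hAD : A * D = l) :
    ∃ (i' : Option (Fin l)) (ε : Gamma0 (N' * q)),
      !![A, B; 0, D] * s35_al_W N' q x y z t =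
        s35_al_W N' q x y z t * ((ε : SL(2, ℤ)) : Matrix (Fin 2) (Fin 2) ℤ) *
          s29_ch_deltaZ l i' := by
  obtain ⟨i', ε, hε⟩ := s35_al_decomp (N' * q) l hl hlM
    (q * A * t * x + t * B * (N' * q) * z - y * D * N' * z)
    (t * A * y + q * B * t ^ 2 - y * D * t)
    (((N' * q : ℕ) : ℤ) * (-z * A * x - B * N' * z ^ 2 + x * D * z))
    (-N' * z * A * y - N' * q * z * B * t + q * x * D * t)
    (by
      push_cast
      linear_combination (A * D * ((q : ℤ) * x * t - N' * y * z + 1)) * h + hAD)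
    (Dvd.intro _ rfl)
  refine ⟨i', ε, ?_⟩
  rw [Matrix.mul_assoc, ← hε, s35_al_W]
  simp only [Matrix.mul_fin_two]
  refine s29_ch_of_eq ?_ ?_ ?_ ?_
  · push_cast
    linear_combination (-(A * (q * x) + B * (N' * q * z))) * h
  · linear_combination (-(A * y + B * (q * t))) * h
  · push_cast
    linear_combination (-(D * (N' * q * z))) * h
  · linear_combination (-(D * (q * t))) * h

/-- the cosets `Γ₀(N'q) δ_i` are permuted by conjugation with `W`. -/
theorem s35_al_cos (N' q l : ℕ) [NeZero q] (hl : l.Prime) (hlM : ¬ l ∣ N' * q) (x y z t : ℤ)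
    (h : (q : ℤ) * x * t - N' * y * z = 1) (i : Option (Fin l)) :
    ∃ (i' : Option (Fin l)) (ε : Gamma0 (N' * q)),
      s29_ch_delta l i * s35_al_g N' q x y z t h =
        s35_al_g N' q x y z t h * s29_ch_iota (N' * q) ε * s29_ch_delta l i' := by
  have key : ∃ (i' : Option (Fin l)) (ε : Gamma0 (N' * q)),
      s29_ch_deltaZ l i * s35_al_W N' q x y z t =
        s35_al_W N' q x y z t * ((ε : SL(2, ℤ)) : Matrix (Fin 2) (Fin 2) ℤ) *
          s29_ch_deltaZ l i' := by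
    cases i with
    | none => exact s35_al_cos_aux N' q l hl hlM x y z t h l 0 1 (by ring)
    | some j => exact s35_al_cos_aux N' q l hl hlM x y z t h 1 ((j : ℕ) : ℤ) l (by ring)
  obtain ⟨i', ε, hε⟩ := key
  refine ⟨i', ε, ?_⟩
  apply Units.ext
  rw [Units.val_mul, Units.val_mul, Units.val_mul, s29_ch_delta_val hl.ne_zero,
    s29_ch_delta_val hl.ne_zero, s35_al_g_val, s29_ch_iota_val, ← Matrix.map_mul,
    ← Matrix.map_mul, ← Matrix.map_mul, hε]

/-- **pull-back by the Atkin–Lehner conjugation** on `Hom(Γ₀(N'q), A)`: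
`(pull χ)(γ) = χ(W γ W⁻¹)`. -/
noncomputable def s35_al_pull (N' q : ℕ) [NeZero q] (x y z t : ℤ)
    (h : (q : ℤ) * x * t - N' * y * z = 1) (A : Type*) [AddCommGroup A] :
    (Additive (Gamma0 (N' * q)) →+ A) →+ (Additive (Gamma0 (N' * q)) →+ A) where
  toFun χ := χ.comp (MonoidHom.toAdditive (s35_al_conj N' q x y z t h).toMonoidHom)
  map_zero' := rfl
  map_add' _ _ := rfl

theorem s35_al_pull_apply (N' q : ℕ) [NeZero q] (x y z t : ℤ)
    (h : (q : ℤ) * x * t - N' * y * z = 1) {A : Type*} [AddCommGroup A]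
    (χ : Additive (Gamma0 (N' * q)) →+ A) (γ : Gamma0 (N' * q)) :
    s35_al_pull N' q x y z t h A χ (Additive.ofMul γ) =
      χ (Additive.ofMul (s35_al_conj N' q x y z t h γ)) := rfl

/-- naturality in the coefficients. -/
theorem s35_al_pull_comp (N' q : ℕ) [NeZero q] (x y z t : ℤ)
    (h : (q : ℤ) * x * t - N' * y * z = 1) {A B : Type*} [AddCommGroup A] [AddCommGroup B]
    (f : A →+ B) (χ : Additive (Gamma0 (N' * q)) →+ A) :
    s35_al_pull N' q x y z t h B (f.comp χ) = f.comp (s35_al_pull N' q x y z t h A χ) := rfl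

/-- **the Atkin–Lehner pull-back commutes with `T_l`**, `l ∤ N'q`. -/
theorem s35_al_comm (N' q l : ℕ) [NeZero q] (x y z t : ℤ)
    (h : (q : ℤ) * x * t - N' * y * z = 1) (hl : l.Prime) (hlM : ¬ l ∣ N' * q)
    {A : Type*} [AddCommGroup A] (χ : Additive (Gamma0 (N' * q)) →+ A) :
    s29_ch_T (N' * q) l hl hlM A (s35_al_pull N' q x y z t h A χ) =
      s35_al_pull N' q x y z t h A (s29_ch_T (N' * q) l hl hlM A χ) := by
  refine AddMonoidHom.ext fun γ' => ?_
  obtain ⟨γ, rfl⟩ := Additive.ofMul.surjective γ'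
  have e : s29_ch_T (N' * q) l hl hlM A =
      (s35_tr_Data.ofCh (s29_ch_data (N' * q) l hl hlM)).T A :=
    (s35_tr_Data.ofCh_T (s29_ch_data (N' * q) l hl hlM) A).symm
  rw [s35_al_pull_apply, e]
  exact s35_tr_Data.T_conj (s35_tr_Data.ofCh (s29_ch_data (N' * q) l hl hlM)) rfl
    (s35_al_conj N' q x y z t h) (s35_al_g N' q x y z t h)
    (s35_al_conj_iota N' q x y z t h) (s35_al_cos N' q l hl hlM x y z t h) A χ γ

/-- the Atkin–Lehner pull-back preserves parabolic homomorphisms. -/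
theorem s35_al_pull_parabolic (N' q : ℕ) [NeZero q] (x y z t : ℤ)
    (h : (q : ℤ) * x * t - N' * y * z = 1) {A : Type*} [AddCommGroup A]
    (χ : Additive (Gamma0 (N' * q)) →+ A) (hχ : IsParabolicHom (Gamma0 (N' * q)) χ) :
    IsParabolicHom (Gamma0 (N' * q)) (s35_al_pull N' q x y z t h A χ) := by
  intro γ hγ
  rw [s35_al_pull_apply]
  refine hχ _ ?_
  rw [s29_cp_trace_conj γ (s35_al_conj N' q x y z t h γ) (s35_al_g N' q x y z t h)
    (s35_al_conj_iota N' q x y z t h γ)]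
  exact hγ

/-- the Atkin–Lehner pull-back as an `R`-linear map. -/
noncomputable def s35_al_pullLin (N' q : ℕ) [NeZero q] (x y z t : ℤ)
    (h : (q : ℤ) * x * t - N' * y * z = 1) (R : Type*) [Semiring R] (A : Type*)
    [AddCommGroup A] [Module R A] :
    (Additive (Gamma0 (N' * q)) →+ A) →ₗ[R] (Additive (Gamma0 (N' * q)) →+ A) where
  toFun := s35_al_pull N' q x y z t h A
  map_add' := map_add _
  map_smul' _ _ := rfl

/-- the Atkin–Lehner pull-back on parabolic homomorphisms. -/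
noncomputable def s35_al_pullPar (N' q : ℕ) [NeZero q] (x y z t : ℤ)
    (h : (q : ℤ) * x * t - N' * y * z = 1) (R : Type*) [Semiring R] (A : Type*)
    [AddCommGroup A] [Module R A] :
    ↥(parabolicHoms R (Gamma0 (N' * q)) A) →ₗ[R] ↥(parabolicHoms R (Gamma0 (N' * q)) A) :=
  (s35_al_pullLin N' q x y z t h R A).restrict
    (fun χ hχ => s35_al_pull_parabolic N' q x y z t h χ hχ)

theorem s35_al_pullPar_coe (N' q : ℕ) [NeZero q] (x y z t : ℤ)
    (h : (q : ℤ) * x * t - N' * y * z = 1) (R : Type*) [Semiring R] (A : Type*)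
    [AddCommGroup A] [Module R A] (ψ : ↥(parabolicHoms R (Gamma0 (N' * q)) A)) :
    ((s35_al_pullPar N' q x y z t h R A ψ : ↥(parabolicHoms R (Gamma0 (N' * q)) A)) :
      Additive (Gamma0 (N' * q)) →+ A) =
      s35_al_pull N' q x y z t h A (ψ : Additive (Gamma0 (N' * q)) →+ A) := rfl

/-- the Atkin–Lehner pull-back on parabolic homomorphisms commutes with `T_l`. -/
theorem s35_al_pullPar_comm (N' q l : ℕ) [NeZero q] (x y z t : ℤ)
    (h : (q : ℤ) * x * t - N' * y * z = 1) (hl : l.Prime) (hlM : ¬ l ∣ N' * q)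
    (R : Type*) [Semiring R] (A : Type*) [AddCommGroup A] [Module R A] [IsAddTorsionFree A]
    (ψ : ↥(parabolicHoms R (Gamma0 (N' * q)) A)) :
    s35_al_pullPar N' q x y z t h R A (s29_cp_Tpar (N' * q) l hl hlM R A ψ) =
      s29_cp_Tpar (N' * q) l hl hlM R A (s35_al_pullPar N' q x y z t h R A ψ) := by
  apply Subtype.ext
  exact (s35_al_comm N' q l x y z t h hl hlM (ψ : Additive (Gamma0 (N' * q)) →+ A)).symm

/-- **the second integral transfer** `c₂ = c₁ ∘ (conjugation by W)^*`. -/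
noncomputable def s35_tr_c2 (N' q : ℕ) [NeZero N'] [NeZero q] (x y z t : ℤ)
    (h : (q : ℤ) * x * t - N' * y * z = 1) (R : Type*) [Semiring R] (A : Type*)
    [AddCommGroup A] [Module R A] [IsAddTorsionFree A] :
    ↥(parabolicHoms R (Gamma0 (N' * q)) A) →ₗ[R] ↥(parabolicHoms R (Gamma0 N') A) :=
  (s35_tr_c1 N' q R A).comp (s35_al_pullPar N' q x y z t h R A)

theorem s35_tr_c2_coe (N' q : ℕ) [NeZero N'] [NeZero q] (x y z t : ℤ)
    (h : (q : ℤ) * x * t - N' * y * z = 1) (R : Type*) [Semiring R] (A : Type*)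
    [AddCommGroup A] [Module R A] [IsAddTorsionFree A]
    (ψ : ↥(parabolicHoms R (Gamma0 (N' * q)) A)) :
    ((s35_tr_c2 N' q x y z t h R A ψ : ↥(parabolicHoms R (Gamma0 N') A)) :
      Additive (Gamma0 N') →+ A) =
      s35_tr_cor N' q A (s35_al_pull N' q x y z t h A (ψ : Additive (Gamma0 (N' * q)) →+ A)) :=
  rfl

/-- **`c₂` commutes with `T_l`** (`l ∤ N'q`). -/
theorem s35_tr_c2_comm (N' q l : ℕ) [NeZero N'] [NeZero q] (hq : q.Prime) (hqN : ¬ q ∣ N')
    (x y z t : ℤ) (h : (q : ℤ) * x * t - N' * y * z = 1)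
    (hl : l.Prime) (hlM : ¬ l ∣ N' * q) (hlN : ¬ l ∣ N') (R : Type*) [Semiring R]
    (A : Type*) [AddCommGroup A] [Module R A] [IsAddTorsionFree A]
    (ψ : ↥(parabolicHoms R (Gamma0 (N' * q)) A)) :
    s35_tr_c2 N' q x y z t h R A (s29_cp_Tpar (N' * q) l hl hlM R A ψ) =
      s29_cp_Tpar N' l hl hlN R A (s35_tr_c2 N' q x y z t h R A ψ) := by
  show s35_tr_c1 N' q R A (s35_al_pullPar N' q x y z t h R A (s29_cp_Tpar (N' * q) l hl hlM R A ψ))
    = _
  rw [s35_al_pullPar_comm N' q l x y z t h hl hlM R A ψ,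
    s35_tr_c1_comm N' q l hq hqN hl hlM hlN R A]
  rfl

end Fermat.Agent.S35
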