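import Fermat.Agent.S35.KapCor
import Fermat.Agent.S35.TransferAL
import Fermat.Agent.S35.HeckePol

/-!
# S35 (NODE-2), block (E): the final form of (E3)

Glue between

* `KapCor.lean` (`s35_kc_main`: the `κ`-normalised tower and the two norm relations for classes
  whose transfers to level `N` vanish),
* `Transfer*.lean` (the integral transfers `c₁ = s35_tr_c1`, `c₂ = s35_tr_c2`, commuting with the
  Hecke operators), and
* `HeckePol.lean` (the polynomial Hecke ring `s35_Pol` and its evaluations `s35_ev`).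

`s35_kb_main` : for every `e ∈ s35_Pol (N ℓ)` acting as `0` on the level-`N` lattice and every
`ψ`, every Kummer function `g` of `ι_n (e ψ)` has `N_α g` and `N_α (W g)` of the form
constant times a `p^n`-th power.
-/

set_option autoImplicit false
set_option linter.unusedSectionVars false
set_option linter.style.haveILetI false

open UpperHalfPlane ModularCurve AlgebraicCurve
open scoped MatrixGroups Manifold

noncomputable section

namespace Fermat.Agent.S35

open Fermat.Agent.S29 Fermat.Agent.S24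
open CongruenceSubgroup ModularCurve.Period

local notation "Qb" => AlgebraicClosure ℚ

/-- **(B1)** the corestriction of `Transfer*.lean` is the transfer of `s35_co_data1`. -/
theorem s35_kb_cor_eq (N l : ℕ) [NeZero N] [NeZero l] (hl : l.Prime) (hlN : ¬ l ∣ N)
    (A : Type*) [AddCommGroup A] (χ : Additive (Gamma0 (N * l)) →+ A) :
    s35_tr_cor N l A χ = (s35_co_data1 N l hl hlN).T A χ := by
  refine AddMonoidHom.ext fun γ' => ?_
  obtain ⟨γ, rfl⟩ := Additive.ofMul.surjective γ'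
  rw [s35_co_Data.T_apply]
  refine s35_tr_cor_apply_of_transversal N l (s35_co_rep N l hl hlN) ?_ ?_ χ γ
    (fun i => (s35_co_data1 N l hl hlN).coc γ i) (fun i => (s35_co_data1 N l hl hlN).idx γ i) ?_
  · intro γ₀
    set i := s29_ch_perm N l hl hlN γ₀ none with hi
    set η : Gamma0 N := γ₀ * (s35_co_rep N l hl hlN i)⁻¹ with hη
    have hperm : s29_ch_perm N l hl hlN η none = none := by
      rw [hη, s35_co_perm_mul, s35_co_perm_inv, Equiv.Perm.mul_apply, ← hi,
        Equiv.Perm.inv_eq_iff_eq, s35_co_rep_spec]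
    refine ⟨i, ⟨(η : SL(2, ℤ)), s35_co_mem_of_perm_none N l hl hlN η hperm⟩, ?_⟩
    have h1 : s35_tr_incl N l ⟨(η : SL(2, ℤ)), s35_co_mem_of_perm_none N l hl hlN η hperm⟩ = η :=
      Subtype.ext rfl
    rw [h1, hη, inv_mul_cancel_right]
  · intro i j ε h
    refine (s35_co_data1 N l hl hlN).uniq i j ε ?_
    show s29_ch_iota N (s35_co_rep N l hl hlN i) =
      s29_ch_iota (N * l) ε * s29_ch_iota N (s35_co_rep N l hl hlN j)
    rw [h, map_mul]
    rfl
  · intro i
    have h1 := (s35_co_data1 N l hl hlN).spec γ i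
    apply s29_ch_iota_injective N
    rw [map_mul, map_mul]
    exact h1

theorem s35_kb_bez (N l : ℕ) (hl : l.Prime) (hlN : ¬ l ∣ N) :
    (l : ℤ) * 1 * s35_co_d N l - N * s35_co_b N l * 1 = 1 := by
  linarith [s35_co_bez N l hl hlN]

/-- the Atkin–Lehner matrix of `TransferAL.lean` with parameters `(1, b, 1, d')` is `s35_co_w`. -/
theorem s35_kb_g_eq (N l : ℕ) [NeZero l] (hl : l.Prime) (hlN : ¬ l ∣ N) :
    s35_al_g N l 1 (s35_co_b N l) 1 (s35_co_d N l) (s35_kb_bez N l hl hlN) =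
      s35_co_w N l hl hlN := by
  apply Units.ext
  rw [s35_al_g_val, s35_co_w_val]
  congr 1
  simp [s35_al_W, s35_co_wZ]

/-- **(B2)** corestriction after the Atkin–Lehner pull-back is the transfer of `s35_co_data2`. -/
theorem s35_kb_cor_pull_eq (N l : ℕ) [NeZero N] [NeZero l] (hl : l.Prime) (hlN : ¬ l ∣ N)
    (A : Type*) [AddCommGroup A] (χ : Additive (Gamma0 (N * l)) →+ A) :
    s35_tr_cor N l A (s35_al_pull N l 1 (s35_co_b N l) 1 (s35_co_d N l)
        (s35_kb_bez N l hl hlN) A χ) = (s35_co_data2 N l hl hlN).T A χ := by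
  rw [s35_kb_cor_eq N l hl hlN]
  refine AddMonoidHom.ext fun γ' => ?_
  obtain ⟨γ, rfl⟩ := Additive.ofMul.surjective γ'
  rw [s35_co_Data.T_apply, s35_co_Data.T_apply]
  refine Finset.sum_congr rfl fun i _ => ?_
  rw [s35_al_pull_apply]
  have h1 : s29_ch_iota N (s35_co_rep N l hl hlN i) * s29_ch_iota N γ =
      s29_ch_iota (N * l) ((s35_co_data1 N l hl hlN).coc γ i) *
        s29_ch_iota N (s35_co_rep N l hl hlN ((s35_co_data1 N l hl hlN).idx γ i)) :=
    (s35_co_data1 N l hl hlN).spec γ i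
  have h2 := s35_al_conj_iota N l 1 (s35_co_b N l) 1 (s35_co_d N l) (s35_kb_bez N l hl hlN)
    ((s35_co_data1 N l hl hlN).coc γ i)
  rw [s35_kb_g_eq N l hl hlN] at h2
  have h3 : (s35_co_data2 N l hl hlN).δ i * (s35_co_data2 N l hl hlN).ι γ =
      (s35_co_data2 N l hl hlN).ι' (s35_al_conj N l 1 (s35_co_b N l) 1 (s35_co_d N l)
        (s35_kb_bez N l hl hlN) ((s35_co_data1 N l hl hlN).coc γ i)) *
      (s35_co_data2 N l hl hlN).δ ((s35_co_data1 N l hl hlN).idx γ i) := by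
    show s35_co_w N l hl hlN * s29_ch_iota N (s35_co_rep N l hl hlN i) * s29_ch_iota N γ =
      s29_ch_iota (N * l) (s35_al_conj N l 1 (s35_co_b N l) 1 (s35_co_d N l)
        (s35_kb_bez N l hl hlN) ((s35_co_data1 N l hl hlN).coc γ i)) *
      (s35_co_w N l hl hlN *
        s29_ch_iota N (s35_co_rep N l hl hlN ((s35_co_data1 N l hl hlN).idx γ i)))
    rw [h2, mul_assoc, h1]
    group
  rw [((s35_co_data2 N l hl hlN).eq_of_spec h3).2]

/-- **(B3)** a linear map `Λ_{Nℓ} → Λ_N` commuting with all `T_{ℓ'}` (`ℓ' ∤ N ℓ`) intertwines the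
evaluations of the polynomial Hecke ring. -/
theorem s35_kb_ev_comm (N l : ℕ) [NeZero N] [NeZero l]
    (c : ↥(parabolicHoms ℤ (Gamma0 (N * l)) ℤ) →ₗ[ℤ] ↥(parabolicHoms ℤ (Gamma0 N) ℤ))
    (hc : ∀ (l' : ℕ) (hl' : l'.Prime) (hl'M : ¬ l' ∣ N * l) (hl'N : ¬ l' ∣ N)
      (ψ : ↥(parabolicHoms ℤ (Gamma0 (N * l)) ℤ)),
      c (s29_cp_Tpar (N * l) l' hl' hl'M ℤ ℤ ψ) = s29_cp_Tpar N l' hl' hl'N ℤ ℤ (c ψ))
    (e : s35_Pol (N * l)) (ψ : ↥(parabolicHoms ℤ (Gamma0 (N * l)) ℤ)) :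
    c (s35_ev (N * l) (N * l) dvd_rfl e ψ) = s35_ev N (N * l) (dvd_mul_right N l) e (c ψ) := by
  induction e using MvPolynomial.induction_on generalizing ψ with
  | C a =>
    rw [show (MvPolynomial.C a : s35_Pol (N * l)) = ((a : ℤ) : s35_Pol (N * l)) from
      eq_intCast MvPolynomial.C a, map_intCast, map_intCast, Module.End.intCast_apply,
      Module.End.intCast_apply, map_zsmul]
  | add p q hp hq =>
    rw [map_add, map_add, LinearMap.add_apply, LinearMap.add_apply, map_add, hp, hq]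
  | mul_X p i hp =>
    rw [map_mul, map_mul, Module.End.mul_apply, Module.End.mul_apply, hp, s35_ev_X, s35_ev_X,
      hc]

/-- **(E), final form.** The `κ`-normalised comparison tower `ι_n : Λ_{Nℓ} → J₀(N ℓ)[p^n]`
(with the four BRIDGE properties) such that for every Hecke polynomial `e` killing the
level-`N` lattice and every `ψ`, every Kummer function `g` of `ι_n (e ψ)` has both `N_α g` and
`N_α (W g)` of the form constant times a `p^n`-th power. -/
theorem s35_kb_main (N l : ℕ) [NeZero N] [NeZero l] (hl : l.Prime) (hlN : ¬ l ∣ N) (p : ℕ)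
    (hp : p ≠ 0) :
    ∃ ι : ℕ → (↥(parabolicHoms ℤ (Gamma0 (N * l)) ℤ) →+ JZero (N * l)),
      (∀ n (ψ : ↥(parabolicHoms ℤ (Gamma0 (N * l)) ℤ)), p ^ n • ι n ψ = 0) ∧
      (∀ n (ψ : ↥(parabolicHoms ℤ (Gamma0 (N * l)) ℤ)), ι n ψ = 0 →
        ∃ ψ' : ↥(parabolicHoms ℤ (Gamma0 (N * l)) ℤ), ψ = p ^ n • ψ') ∧
      (∀ n (l' : ℕ) (hl' : l'.Prime) (hl'N : ¬ l' ∣ N * l)
        (ψ : ↥(parabolicHoms ℤ (Gamma0 (N * l)) ℤ)),
        ι n (s29_cp_Tpar (N * l) l' hl' hl'N ℤ ℤ ψ) =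
          heckeOperatorBar (N * l) ⟨l', hl'⟩ (ι n ψ)) ∧
      (∀ n (ψ : ↥(parabolicHoms ℤ (Gamma0 (N * l)) ℤ)), p • ι (n + 1) ψ = ι n ψ) ∧
      (∀ e : s35_Pol (N * l), s35_ev N (N * l) (dvd_mul_right N l) e = 0 →
        ∀ n (ψ : ↥(parabolicHoms ℤ (Gamma0 (N * l)) ℤ))
          (D : Divisor.degZero (K := Qb) (F := modularFunctionFieldBar (N * l)))
          (g : modularFunctionFieldBar (N * l)),
          Pic0.mk D = ι n (s35_ev (N * l) (N * l) dvd_rfl e ψ) → g ≠ 0 →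
          (∀ P : Place Qb (modularFunctionFieldBar (N * l)),
            P.ord g = ((p ^ n : ℕ) : ℤ) * (D : Divisor Qb (modularFunctionFieldBar (N * l))) P) →
          (∃ (c : Qb) (f : modularFunctionFieldBar N),
            s29_kh_normAlong (heckeAlphaBar Qb N l) g =
              algebraMap Qb (modularFunctionFieldBar N) c * f ^ (p ^ n)) ∧
          ∀ (W : modularFunctionFieldBar (N * l) ≃ₐ[Qb] modularFunctionFieldBar (N * l)),
            (∀ x, W (heckeAlphaBar Qb N l x) = heckeBetaBar Qb N l x) →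
            (∀ x, W (heckeBetaBar Qb N l x) = heckeAlphaBar Qb N l x) →
            ∃ (c : Qb) (f : modularFunctionFieldBar N),
              s29_kh_normAlong (heckeAlphaBar Qb N l) (W g) =
                algebraMap Qb (modularFunctionFieldBar N) c * f ^ (p ^ n)) := by
  obtain ⟨ι, h1, h2, h3, h4, h5, h6⟩ := s35_kc_main N l hl hlN p hp
  refine ⟨ι, h1, h2, h3, h4, fun e he n ψ D g hD hg hdiv =>
    ⟨h5 n _ ?_ D g hD hg hdiv, fun W hWα hWβ => h6 n _ ?_ W hWα hWβ D g hD hg hdiv⟩⟩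
  · rw [← s35_kb_cor_eq N l hl hlN, ← s35_tr_c1_coe N l ℤ ℤ,
      s35_kb_ev_comm N l (s35_tr_c1 N l ℤ ℤ)
        (fun l' hl' hl'M hl'N ψ => s35_tr_c1_comm N l l' hl hlN hl' hl'M hl'N ℤ ℤ ψ) e ψ, he]
    rfl
  · rw [← s35_kb_cor_pull_eq N l hl hlN, ← s35_tr_c2_coe N l 1 (s35_co_b N l) 1 (s35_co_d N l)
        (s35_kb_bez N l hl hlN) ℤ ℤ,
      s35_kb_ev_comm N l (s35_tr_c2 N l 1 (s35_co_b N l) 1 (s35_co_d N l)
          (s35_kb_bez N l hl hlN) ℤ ℤ)
        (fun l' hl' hl'M hl'N ψ => s35_tr_c2_comm N l l' hl hlN 1 (s35_co_b N l) 1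
          (s35_co_d N l) (s35_kb_bez N l hl hlN) hl' hl'M hl'N ℤ ℤ ψ) e ψ, he]
    rfl

end Fermat.Agent.S35
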