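import Mathlib
import Fermat.Agent.S35.ModelPkg
import Fermat.Agent.S34.FinInst
import Fermat.Agent.S34.ContractV
import Fermat.Agent.S34.CapContract
import Fermat.Agent.S34.SmInst
import Fermat.Agent.S34.XYInst

/-!
# S35 (NODE-2), block (INST2), front half: the model package, unconditional

`S35/ModelPkg.lean` with NODE-1's landed contract theorems plugged in
(`s34_fi_ct_fin`, `s34_cv_unif`, `s34_cv_le`, `s34_ci_ct_cap`, `s34_smi_ct_sm`, `s34_xi_ct_xy`):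

* `s35_pkgi_chart` : the chart block `s35_pkg_Chart` of the concrete nodal model;
* `s35_pkgi_hdvr` : the horizontal primes of both charts are discrete valuation rings;
* `s35_pkgi_hG` : the crossing-point hypotheses `hG0`, `hGi` for a function `g₁`;
* `s35_pkgi_xy` : the branch parameters (`s34_md_XY`) at the rational crossing points.
-/

set_option autoImplicit false
set_option synthInstance.maxHeartbeats 400000
set_option linter.unusedSectionVars false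

open ModularCurve AlgebraicCurve

noncomputable section

namespace Fermat.Agent.S35

open Fermat.Agent.S18 Fermat.Agent.S34

section Pkg

variable (N₁ q : ℕ) [NeZero N₁] [NeZero (N₁ * q)] [Fact q.Prime]
  (P : ValuationSubring (AlgebraicClosure ℚ))
  (K₁ : IntermediateField ℚ (AlgebraicClosure ℚ)) [FiniteDimensional ℚ K₁] [IsGalois ℚ K₁]
  [IsDiscreteValuationRing (s18_A1 P K₁)]

/-- **The chart block of the model** (all hypotheses of `s34_pow_of_model` not mentioning `τ` or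
the function). -/
theorem s35_pkgi_chart (hqN : ¬ q ∣ N₁) (hP : P.LiesOverPrime q)
    (π : s18_A1 P K₁) (hπ : Irreducible π)
    (tL : modularFunctionFieldFull (N₁ * q)) (htL : s34_md_IsT N₁ q tL)
    (W : s18_F1 K₁ (N₁ * q) ≃ₐ[K₁] s18_F1 K₁ (N₁ * q))
    (hW : haveI : NeZero q := ⟨(Fact.out : q.Prime).ne_zero⟩; s34_md_IsSwap K₁ N₁ q W) :
    s35_pkg_Chart π (s18_coord K₁ tL) (s34_md_B0 P K₁ (N₁ * q) tL)
      (s34_md_Binf P K₁ (N₁ * q) tL) (s34_md_V1 P K₁ (N₁ * q)) (s34_md_V2 P K₁ (N₁ * q) W) :=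
  s35_pkg_chart N₁ q P K₁ s34_fi_ct_fin s34_cv_unif s34_cv_le s34_ci_ct_cap
    (s34_smi_ct_sm s34_ci_ct_cap) hqN hP π hπ tL htL W hW

/-- **The horizontal primes of both charts are discrete valuation rings.** -/
theorem s35_pkgi_hdvr (π : s18_A1 P K₁) (hπ : Irreducible π)
    (tL : modularFunctionFieldFull (N₁ * q)) (htL : s34_md_IsT N₁ q tL) :
    s35_pkg_Hdvr π (s34_md_B0 P K₁ (N₁ * q) tL) ∧
      s35_pkg_Hdvr π (s34_md_Binf P K₁ (N₁ * q) tL) :=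
  s35_pkg_hdvr N₁ q P K₁ s34_fi_ct_fin π hπ tL htL

/-- **The crossing-point hypotheses `hG0`, `hGi`** of `s34_pow_of_model` for a function `g₁` whose
orders are divisible by `m` and whose support is fixed by `Gal(Q̄/K₁)`. -/
theorem s35_pkgi_hG (hqN : ¬ q ∣ N₁) (hP : P.LiesOverPrime q)
    (π : s18_A1 P K₁) (hπ : Irreducible π)
    (tL : modularFunctionFieldFull (N₁ * q)) (htL : s34_md_IsT N₁ q tL)
    (W : s18_F1 K₁ (N₁ * q) ≃ₐ[K₁] s18_F1 K₁ (N₁ * q))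
    (hW : haveI : NeZero q := ⟨(Fact.out : q.Prime).ne_zero⟩; s34_md_IsSwap K₁ N₁ q W)
    (m : ℕ) (g₁ : s18_F1 K₁ (N₁ * q)) (hg₁ : g₁ ≠ 0)
    (hdivg : ∀ P' : Place (AlgebraicClosure ℚ) (modularFunctionFieldBar (N₁ * q)),
      (m : ℤ) ∣ P'.ord (s18_baseIncl K₁ (N₁ * q) g₁))
    (hfix : ∀ P' : Place (AlgebraicClosure ℚ) (modularFunctionFieldBar (N₁ * q)),
      P'.ord (s18_baseIncl K₁ (N₁ * q) g₁) ≠ 0 →
      ∀ σ : AlgebraicClosure ℚ ≃ₐ[ℚ] AlgebraicClosure ℚ, (∀ c ∈ K₁, σ c = c) →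
        arithmeticGalois (modularFunctionFieldFull (N₁ * q)) σ • P' = P') :
    s35_pkg_HG π (s34_md_B0 P K₁ (N₁ * q) tL) (s34_md_V1 P K₁ (N₁ * q))
        (s34_md_V2 P K₁ (N₁ * q) W) m g₁ ∧
      s35_pkg_HG π (s34_md_Binf P K₁ (N₁ * q) tL) (s34_md_V1 P K₁ (N₁ * q))
        (s34_md_V2 P K₁ (N₁ * q) W) m g₁ :=
  s35_pkg_hG N₁ q P K₁ s34_fi_ct_fin s34_cv_unif s34_cv_le s34_ci_ct_cap s34_xi_ct_xy hqN hP π hπ
    tL htL W hW m g₁ hg₁ hdivg hfix

/-- **The branch parameters at the rational crossing points** of both charts (`s34_md_XY`), for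
the inclusions `h01 … hi2` of the chart block. -/
theorem s35_pkgi_xy (hqN : ¬ q ∣ N₁) (hP : P.LiesOverPrime q)
    (π : s18_A1 P K₁) (hπ : Irreducible π)
    (tL : modularFunctionFieldFull (N₁ * q)) (htL : s34_md_IsT N₁ q tL)
    (W : s18_F1 K₁ (N₁ * q) ≃ₐ[K₁] s18_F1 K₁ (N₁ * q))
    (hW : haveI : NeZero q := ⟨(Fact.out : q.Prime).ne_zero⟩; s34_md_IsSwap K₁ N₁ q W)
    (h01 : (s34_md_B0 P K₁ (N₁ * q) tL).toSubring ≤ s34_md_V1 P K₁ (N₁ * q))
    (h02 : (s34_md_B0 P K₁ (N₁ * q) tL).toSubring ≤ s34_md_V2 P K₁ (N₁ * q) W)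
    (hi1 : (s34_md_Binf P K₁ (N₁ * q) tL).toSubring ≤ s34_md_V1 P K₁ (N₁ * q))
    (hi2 : (s34_md_Binf P K₁ (N₁ * q) tL).toSubring ≤ s34_md_V2 P K₁ (N₁ * q) W) :
    s34_md_XY π (s34_md_B0 P K₁ (N₁ * q) tL) (s34_md_V1 P K₁ (N₁ * q))
        (s34_md_V2 P K₁ (N₁ * q) W) h01 h02 ∧
      s34_md_XY π (s34_md_Binf P K₁ (N₁ * q) tL) (s34_md_V1 P K₁ (N₁ * q))
        (s34_md_V2 P K₁ (N₁ * q) W) hi1 hi2 :=
  s34_xi_ct_xy N₁ q hqN P hP K₁ π hπ tL htL W hW h01 h02 hi1 hi2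

end Pkg

end Fermat.Agent.S35
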