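import Mathlib
import Fermat.Agent.S35.InstDefs
import Fermat.Agent.S34.XYInst

/-!
# S35 (NODE-2), block (INST2): the branch parameters at ALL crossing points

`s35_pow_of_model` needs the branch parameters `x`, `y` at every crossing point of both charts,
unconditionally (hypotheses `hx0`, `hy0`, `hxi`, `hyi`).  NODE-1's contract `s34_md_XY` gives them
at the rational crossing points (premises `hres`, `hker`); `hker` always holds over a DVR, and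
`hres` is the contract fact `s35_md_Rat`.

* `s35_pkn_hker` : `hker` at every proper ideal containing nothing but non-units of `A₀`;
* `s35_pkn_xy_raw` : `s34_md_XY` + `s35_md_Rat` give `hx`, `hy` in the literal shapes of
  `s35_pow_of_model` / `s35_nfo_pts` for one chart;
* `s35_pkn_xy_model` : the four hypotheses `hx0`, `hy0`, `hxi`, `hyi` of `s35_pow_of_model` in the
  concrete nodal model, from `s35_ct_rat` (and the landed `s34_xi_ct_xy`).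
-/

set_option autoImplicit false
set_option synthInstance.maxHeartbeats 400000
set_option linter.unusedSectionVars false

open ModularCurve AlgebraicCurve

noncomputable section

namespace Fermat.Agent.S35

open Fermat.Agent.S18 Fermat.Agent.S34

section Abstract

variable {A₀ F : Type*} [CommRing A₀] [IsDomain A₀] [IsDiscreteValuationRing A₀] [Field F]
  [Algebra A₀ F]

/-- `hker` : a constant lying in a proper ideal of a chart is divisible by the uniformizer. -/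
theorem s35_pkn_hker {π : A₀} (hπ : Irreducible π) (B : Subalgebra A₀ F)
    (𝔪 : Ideal B.toSubring) (h𝔪 : 𝔪 ≠ ⊤) (a : A₀)
    (ha : (⟨algebraMap A₀ F a, B.algebraMap_mem a⟩ : B.toSubring) ∈ 𝔪) : ∃ a', a = π * a' := by
  have hnu : ¬ IsUnit a := by
    intro hu
    obtain ⟨b, hb⟩ := hu.exists_right_inv
    apply h𝔪
    rw [Ideal.eq_top_iff_one]
    have h1 : (1 : B.toSubring) = ⟨algebraMap A₀ F a, B.algebraMap_mem a⟩ *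
        ⟨algebraMap A₀ F b, B.algebraMap_mem b⟩ := by
      apply Subtype.ext
      show (1 : F) = algebraMap A₀ F a * algebraMap A₀ F b
      rw [← map_mul, hb, map_one]
    rw [h1]
    exact 𝔪.mul_mem_right _ ha
  have hmem : a ∈ IsLocalRing.maximalIdeal A₀ := hnu
  rw [hπ.maximalIdeal_eq, Ideal.mem_span_singleton'] at hmem
  obtain ⟨b, hb⟩ := hmem
  exact ⟨b, by rw [← hb, mul_comm]⟩

/-- **The branch parameters at all crossing points of one chart**, in the literal shapes of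
`hx0` / `hy0` (`hxi` / `hyi`) of `s35_pow_of_model`. -/
theorem s35_pkn_xy_raw {π : A₀} (hπ : Irreducible π) (B : Subalgebra A₀ F) (V₁ V₂ : Subring F)
    (hB₁ : B.toSubring ≤ V₁) (hB₂ : B.toSubring ≤ V₂)
    (hxy : s34_md_XY π B V₁ V₂ hB₁ hB₂) (hrat : s35_md_Rat π B V₁ V₂) :
    (∀ 𝔪 : Ideal B.toSubring, 𝔪.IsMaximal →
      (⟨algebraMap A₀ F π, B.algebraMap_mem π⟩ : B.toSubring) ∈ 𝔪 →
      (∀ b : B.toSubring, b ∉ 𝔪 →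
        (algebraMap A₀ F π)⁻¹ * (b : F) ∉ V₁ ∧ (algebraMap A₀ F π)⁻¹ * (b : F) ∉ V₂) →
      ∃ x : B.toSubring, (algebraMap A₀ F π)⁻¹ * (x : F) ∈ V₂ ∧
        (algebraMap A₀ F π)⁻¹ * (x : F) ∉ V₁ ∧
        ∀ z ∈ 𝔪, ∃ r u : B.toSubring, u ∉ 𝔪 ∧
          (algebraMap A₀ F π)⁻¹ * ((u * z - x * r : B.toSubring) : F) ∈ V₁) ∧
    (∀ 𝔪 : Ideal B.toSubring, 𝔪.IsMaximal →
      (⟨algebraMap A₀ F π, B.algebraMap_mem π⟩ : B.toSubring) ∈ 𝔪 →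
      (∀ b : B.toSubring, b ∉ 𝔪 →
        (algebraMap A₀ F π)⁻¹ * (b : F) ∉ V₁ ∧ (algebraMap A₀ F π)⁻¹ * (b : F) ∉ V₂) →
      ∃ y : B.toSubring, (algebraMap A₀ F π)⁻¹ * (y : F) ∈ V₁ ∧
        (algebraMap A₀ F π)⁻¹ * (y : F) ∉ V₂ ∧
        ∀ z ∈ 𝔪, ∃ r u : B.toSubring, u ∉ 𝔪 ∧
          (algebraMap A₀ F π)⁻¹ * ((u * z - y * r : B.toSubring) : F) ∈ V₂) := by
  have key : ∀ 𝔪 : Ideal B.toSubring, 𝔪.IsMaximal →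
      (⟨algebraMap A₀ F π, B.algebraMap_mem π⟩ : B.toSubring) ∈ 𝔪 →
      (∀ b : B.toSubring, b ∉ 𝔪 →
        (algebraMap A₀ F π)⁻¹ * (b : F) ∉ V₁ ∧ (algebraMap A₀ F π)⁻¹ * (b : F) ∉ V₂) → _ :=
    fun 𝔪 h𝔪 hϖ𝔪 hnode => hxy 𝔪 h𝔪 hϖ𝔪 hnode (hrat 𝔪 ⟨h𝔪, hϖ𝔪, hnode⟩)
      (fun a ha => s35_pkn_hker hπ B 𝔪 h𝔪.ne_top a ha)
  refine ⟨fun 𝔪 h𝔪 hϖ𝔪 hnode => ?_, fun 𝔪 h𝔪 hϖ𝔪 hnode => ?_⟩
  · obtain ⟨x, hx2, hx1, hx⟩ := (key 𝔪 h𝔪 hϖ𝔪 hnode).1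
    exact ⟨x, hx2, hx1, hx⟩
  · obtain ⟨y, hy1, hy2, hy⟩ := (key 𝔪 h𝔪 hϖ𝔪 hnode).2
    exact ⟨y, hy1, hy2, hy⟩

end Abstract

section Model

variable (N₁ q : ℕ) [NeZero N₁] [NeZero (N₁ * q)] [Fact q.Prime]
  (P : ValuationSubring (AlgebraicClosure ℚ))
  (K₁ : IntermediateField ℚ (AlgebraicClosure ℚ)) [FiniteDimensional ℚ K₁] [IsGalois ℚ K₁]
  [IsDiscreteValuationRing (s18_A1 P K₁)]

set_option maxHeartbeats 4000000 in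
/-- **The hypotheses `hx0`, `hy0`, `hxi`, `hyi` of `s35_pow_of_model`** in the concrete nodal model
(`K₁ ∋ ζ` a primitive `(q² - 1)`-th root of unity), from the contract fact `s35_ct_rat`. -/
theorem s35_pkn_xy_model (hrat : s35_ct_rat) (hqN : ¬ q ∣ N₁) (hP : P.LiesOverPrime q)
    (π : s18_A1 P K₁) (hπ : Irreducible π) (ζ : K₁) (hζ : IsPrimitiveRoot ζ (q ^ 2 - 1))
    (tL : modularFunctionFieldFull (N₁ * q)) (htL : s34_md_IsT N₁ q tL)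
    (W : s18_F1 K₁ (N₁ * q) ≃ₐ[K₁] s18_F1 K₁ (N₁ * q))
    (hW : haveI : NeZero q := ⟨(Fact.out : q.Prime).ne_zero⟩; s34_md_IsSwap K₁ N₁ q W)
    (h01 : (s34_md_B0 P K₁ (N₁ * q) tL).toSubring ≤ s34_md_V1 P K₁ (N₁ * q))
    (h02 : (s34_md_B0 P K₁ (N₁ * q) tL).toSubring ≤ s34_md_V2 P K₁ (N₁ * q) W)
    (hi1 : (s34_md_Binf P K₁ (N₁ * q) tL).toSubring ≤ s34_md_V1 P K₁ (N₁ * q))
    (hi2 : (s34_md_Binf P K₁ (N₁ * q) tL).toSubring ≤ s34_md_V2 P K₁ (N₁ * q) W) :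
    ((∀ 𝔪 : Ideal (s34_md_B0 P K₁ (N₁ * q) tL).toSubring, 𝔪.IsMaximal →
      (⟨algebraMap (s18_A1 P K₁) (s18_F1 K₁ (N₁ * q)) π,
        (s34_md_B0 P K₁ (N₁ * q) tL).algebraMap_mem π⟩ :
          (s34_md_B0 P K₁ (N₁ * q) tL).toSubring) ∈ 𝔪 →
      (∀ b : (s34_md_B0 P K₁ (N₁ * q) tL).toSubring, b ∉ 𝔪 →
        (algebraMap (s18_A1 P K₁) (s18_F1 K₁ (N₁ * q)) π)⁻¹ * (b : s18_F1 K₁ (N₁ * q)) ∉
          s34_md_V1 P K₁ (N₁ * q) ∧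
        (algebraMap (s18_A1 P K₁) (s18_F1 K₁ (N₁ * q)) π)⁻¹ * (b : s18_F1 K₁ (N₁ * q)) ∉
          s34_md_V2 P K₁ (N₁ * q) W) →
      ∃ x : (s34_md_B0 P K₁ (N₁ * q) tL).toSubring,
        (algebraMap (s18_A1 P K₁) (s18_F1 K₁ (N₁ * q)) π)⁻¹ * (x : s18_F1 K₁ (N₁ * q)) ∈
          s34_md_V2 P K₁ (N₁ * q) W ∧
        (algebraMap (s18_A1 P K₁) (s18_F1 K₁ (N₁ * q)) π)⁻¹ * (x : s18_F1 K₁ (N₁ * q)) ∉
          s34_md_V1 P K₁ (N₁ * q) ∧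
        ∀ z ∈ 𝔪, ∃ r u : (s34_md_B0 P K₁ (N₁ * q) tL).toSubring, u ∉ 𝔪 ∧
          (algebraMap (s18_A1 P K₁) (s18_F1 K₁ (N₁ * q)) π)⁻¹ *
            ((u * z - x * r : (s34_md_B0 P K₁ (N₁ * q) tL).toSubring) : s18_F1 K₁ (N₁ * q)) ∈
            s34_md_V1 P K₁ (N₁ * q)) ∧
    (∀ 𝔪 : Ideal (s34_md_B0 P K₁ (N₁ * q) tL).toSubring, 𝔪.IsMaximal →
      (⟨algebraMap (s18_A1 P K₁) (s18_F1 K₁ (N₁ * q)) π,
        (s34_md_B0 P K₁ (N₁ * q) tL).algebraMap_mem π⟩ :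
          (s34_md_B0 P K₁ (N₁ * q) tL).toSubring) ∈ 𝔪 →
      (∀ b : (s34_md_B0 P K₁ (N₁ * q) tL).toSubring, b ∉ 𝔪 →
        (algebraMap (s18_A1 P K₁) (s18_F1 K₁ (N₁ * q)) π)⁻¹ * (b : s18_F1 K₁ (N₁ * q)) ∉
          s34_md_V1 P K₁ (N₁ * q) ∧
        (algebraMap (s18_A1 P K₁) (s18_F1 K₁ (N₁ * q)) π)⁻¹ * (b : s18_F1 K₁ (N₁ * q)) ∉
          s34_md_V2 P K₁ (N₁ * q) W) →
      ∃ y : (s34_md_B0 P K₁ (N₁ * q) tL).toSubring,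
        (algebraMap (s18_A1 P K₁) (s18_F1 K₁ (N₁ * q)) π)⁻¹ * (y : s18_F1 K₁ (N₁ * q)) ∈
          s34_md_V1 P K₁ (N₁ * q) ∧
        (algebraMap (s18_A1 P K₁) (s18_F1 K₁ (N₁ * q)) π)⁻¹ * (y : s18_F1 K₁ (N₁ * q)) ∉
          s34_md_V2 P K₁ (N₁ * q) W ∧
        ∀ z ∈ 𝔪, ∃ r u : (s34_md_B0 P K₁ (N₁ * q) tL).toSubring, u ∉ 𝔪 ∧
          (algebraMap (s18_A1 P K₁) (s18_F1 K₁ (N₁ * q)) π)⁻¹ *
            ((u * z - y * r : (s34_md_B0 P K₁ (N₁ * q) tL).toSubring) : s18_F1 K₁ (N₁ * q)) ∈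
            s34_md_V2 P K₁ (N₁ * q) W)) ∧
    ((∀ 𝔪 : Ideal (s34_md_Binf P K₁ (N₁ * q) tL).toSubring, 𝔪.IsMaximal →
      (⟨algebraMap (s18_A1 P K₁) (s18_F1 K₁ (N₁ * q)) π,
        (s34_md_Binf P K₁ (N₁ * q) tL).algebraMap_mem π⟩ :
          (s34_md_Binf P K₁ (N₁ * q) tL).toSubring) ∈ 𝔪 →
      (∀ b : (s34_md_Binf P K₁ (N₁ * q) tL).toSubring, b ∉ 𝔪 →
        (algebraMap (s18_A1 P K₁) (s18_F1 K₁ (N₁ * q)) π)⁻¹ * (b : s18_F1 K₁ (N₁ * q)) ∉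
          s34_md_V1 P K₁ (N₁ * q) ∧
        (algebraMap (s18_A1 P K₁) (s18_F1 K₁ (N₁ * q)) π)⁻¹ * (b : s18_F1 K₁ (N₁ * q)) ∉
          s34_md_V2 P K₁ (N₁ * q) W) →
      ∃ x : (s34_md_Binf P K₁ (N₁ * q) tL).toSubring,
        (algebraMap (s18_A1 P K₁) (s18_F1 K₁ (N₁ * q)) π)⁻¹ * (x : s18_F1 K₁ (N₁ * q)) ∈
          s34_md_V2 P K₁ (N₁ * q) W ∧
        (algebraMap (s18_A1 P K₁) (s18_F1 K₁ (N₁ * q)) π)⁻¹ * (x : s18_F1 K₁ (N₁ * q)) ∉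
          s34_md_V1 P K₁ (N₁ * q) ∧
        ∀ z ∈ 𝔪, ∃ r u : (s34_md_Binf P K₁ (N₁ * q) tL).toSubring, u ∉ 𝔪 ∧
          (algebraMap (s18_A1 P K₁) (s18_F1 K₁ (N₁ * q)) π)⁻¹ *
            ((u * z - x * r : (s34_md_Binf P K₁ (N₁ * q) tL).toSubring) : s18_F1 K₁ (N₁ * q)) ∈
            s34_md_V1 P K₁ (N₁ * q)) ∧
    (∀ 𝔪 : Ideal (s34_md_Binf P K₁ (N₁ * q) tL).toSubring, 𝔪.IsMaximal →
      (⟨algebraMap (s18_A1 P K₁) (s18_F1 K₁ (N₁ * q)) π,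
        (s34_md_Binf P K₁ (N₁ * q) tL).algebraMap_mem π⟩ :
          (s34_md_Binf P K₁ (N₁ * q) tL).toSubring) ∈ 𝔪 →
      (∀ b : (s34_md_Binf P K₁ (N₁ * q) tL).toSubring, b ∉ 𝔪 →
        (algebraMap (s18_A1 P K₁) (s18_F1 K₁ (N₁ * q)) π)⁻¹ * (b : s18_F1 K₁ (N₁ * q)) ∉
          s34_md_V1 P K₁ (N₁ * q) ∧
        (algebraMap (s18_A1 P K₁) (s18_F1 K₁ (N₁ * q)) π)⁻¹ * (b : s18_F1 K₁ (N₁ * q)) ∉
          s34_md_V2 P K₁ (N₁ * q) W) →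
      ∃ y : (s34_md_Binf P K₁ (N₁ * q) tL).toSubring,
        (algebraMap (s18_A1 P K₁) (s18_F1 K₁ (N₁ * q)) π)⁻¹ * (y : s18_F1 K₁ (N₁ * q)) ∈
          s34_md_V1 P K₁ (N₁ * q) ∧
        (algebraMap (s18_A1 P K₁) (s18_F1 K₁ (N₁ * q)) π)⁻¹ * (y : s18_F1 K₁ (N₁ * q)) ∉
          s34_md_V2 P K₁ (N₁ * q) W ∧
        ∀ z ∈ 𝔪, ∃ r u : (s34_md_Binf P K₁ (N₁ * q) tL).toSubring, u ∉ 𝔪 ∧
          (algebraMap (s18_A1 P K₁) (s18_F1 K₁ (N₁ * q)) π)⁻¹ *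
            ((u * z - y * r : (s34_md_Binf P K₁ (N₁ * q) tL).toSubring) : s18_F1 K₁ (N₁ * q)) ∈
            s34_md_V2 P K₁ (N₁ * q) W)) := by
  obtain ⟨hxy0, hxyi⟩ := s34_xi_ct_xy N₁ q hqN P hP K₁ π hπ tL htL W hW h01 h02 hi1 hi2
  obtain ⟨hr0, hri⟩ := hrat N₁ q hqN P hP K₁ π hπ ζ hζ tL htL W hW
  exact ⟨s35_pkn_xy_raw hπ _ _ _ h01 h02 hxy0 hr0, s35_pkn_xy_raw hπ _ _ _ hi1 hi2 hxyi hri⟩

end Model

end Fermat.Agent.S35
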