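import Mathlib
import Fermat.Agent.S18.ChartDefs
import Fermat.Agent.S18.Gauss
import Fermat.Agent.S34.SmoothPoint
import Fermat.Agent.S34.NodeInst

/-!
# S35 (NODE-2), leaf (NFG), items (iii)+(iv): the branch hypotheses of `s35_nf_main`

At a crossing point `𝔪` of a chart `B` with the two components `𝔓₁ = B ∩ ϖ V₁`, `𝔓₂ = B ∩ ϖ V₂`
(`V₁`, `V₂` the two Gauss valuation rings, `ϖ V₁ ∩ ϖ V₂ ∩ B = ϖ B`), and with local parameters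
`x ∈ 𝔓₂ \ 𝔓₁`, `y ∈ 𝔓₁ \ 𝔓₂` generating `𝔪 B_𝔪` modulo `𝔓₁`, resp. `𝔓₂`
(the very data consumed by `s34_node_G` / `s34_ni_hG`), we prove the three hypotheses
`hN3`, `hA₁`, `hA₂` of `s35_nf_main`:

* `hN3` : every `z ∈ 𝔪` is `p₁ + p₂` with `pᵢ ∈ B_𝔪 ∩ ϖ Vᵢ`;
* `hAᵢ` : an element of `F` whose `m`-th power is congruent modulo `ϖ Vᵢ` to a unit of `B_𝔪`
  is itself congruent modulo `ϖ Vᵢ` to a unit of `B_𝔪` (the branch `(B/𝔓ᵢ)_𝔪` is a discrete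
  valuation ring with uniformizer the image of the local parameter, and the exponent of the
  uniformizer in an `m`-th root of a unit is zero).

Main statement: `s35_nb_main`.
-/

set_option autoImplicit false

namespace Fermat.Agent.S35

open Fermat.Agent.S18 Fermat.Agent.S34

section Abstract

variable {R : Type*} [CommRing R]

/-- The ideal `{b | ∃ u ∉ 𝔪, ∃ c, u b - a c ∈ P}`: the contraction to `R` of `a R_𝔪 + P R_𝔪`. -/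
def s35_nb_S (P 𝔪 : Ideal R) [h𝔪 : 𝔪.IsPrime] (a : R) : Ideal R where
  carrier := {b | ∃ u c : R, u ∉ 𝔪 ∧ u * b - a * c ∈ P}
  add_mem' := by
    rintro b₁ b₂ ⟨u₁, c₁, hu₁, h₁⟩ ⟨u₂, c₂, hu₂, h₂⟩
    refine ⟨u₁ * u₂, u₂ * c₁ + u₁ * c₂, fun h => (h𝔪.mem_or_mem h).elim hu₁ hu₂, ?_⟩
    have e : u₁ * u₂ * (b₁ + b₂) - a * (u₂ * c₁ + u₁ * c₂)
        = u₂ * (u₁ * b₁ - a * c₁) + u₁ * (u₂ * b₂ - a * c₂) := by ring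
    rw [e]
    exact P.add_mem (P.mul_mem_left _ h₁) (P.mul_mem_left _ h₂)
  zero_mem' := ⟨1, 0, fun h => h𝔪.ne_top ((Ideal.eq_top_iff_one _).mpr h), by simp⟩
  smul_mem' := by
    rintro t b ⟨u, c, hu, h⟩
    refine ⟨u, t * c, hu, ?_⟩
    have e : u * (t • b) - a * (t * c) = t * (u * b - a * c) := by
      rw [smul_eq_mul]; ring
    rw [e]
    exact P.mul_mem_left _ h

/-- **The branch is a discrete valuation ring.**  If `x ∈ 𝔪` generates `𝔪 R_𝔪` modulo the prime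
`P ≤ 𝔪` and `R` is noetherian, then every `a ∉ P` is, modulo `P` and up to elements outside `𝔪`,
a power of `x`. -/
theorem s35_nb_decomp [IsNoetherianRing R] (P 𝔪 : Ideal R) [hP : P.IsPrime] [h𝔪 : 𝔪.IsPrime]
    (hP𝔪 : P ≤ 𝔪) (x : R) (hx𝔪 : x ∈ 𝔪)
    (hx : ∀ m' ∈ 𝔪, ∃ r u : R, u ∉ 𝔪 ∧ u * m' - x * r ∈ P) :
    ∀ a : R, a ∉ P → ∃ (i : ℕ) (r u : R), u ∉ 𝔪 ∧ r ∉ 𝔪 ∧ u * a - x ^ i * r ∈ P := by
  have h1 : (1 : R) ∉ 𝔪 := fun h => h𝔪.ne_top ((Ideal.eq_top_iff_one _).mpr h)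
  have key : ∀ I : Ideal R, ∀ a : R, s35_nb_S P 𝔪 a = I → a ∉ P →
      ∃ (i : ℕ) (r u : R), u ∉ 𝔪 ∧ r ∉ 𝔪 ∧ u * a - x ^ i * r ∈ P := by
    intro I
    induction I using IsNoetherian.induction with
    | hgt I ih =>
      intro a haI haP
      by_cases ha𝔪 : a ∈ 𝔪
      · obtain ⟨a', u₀, hu₀, h₀⟩ := hx a ha𝔪
        have ha'P : a' ∉ P := by
          intro h
          have h2 : u₀ * a ∈ P := by
            have e : u₀ * a = (u₀ * a - x * a') + x * a' := by ring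
            rw [e]; exact P.add_mem h₀ (P.mul_mem_left _ h)
          rcases hP.mem_or_mem h2 with h' | h'
          · exact hu₀ (hP𝔪 h')
          · exact haP h'
        have hlt : I < s35_nb_S P 𝔪 a' := by
          rw [← haI]
          refine lt_of_le_of_ne ?_ ?_
          · rintro b ⟨u, c, hu, h⟩
            refine ⟨u * u₀, x * c, fun h => (h𝔪.mem_or_mem h).elim hu hu₀, ?_⟩
            have e : u * u₀ * b - a' * (x * c)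
                = u₀ * (u * b - a * c) + c * (u₀ * a - x * a') := by ring
            rw [e]; exact P.add_mem (P.mul_mem_left _ h) (P.mul_mem_left _ h₀)
          · intro heq
            have hmem : a' ∈ s35_nb_S P 𝔪 a' := ⟨1, 1, h1, by simp⟩
            rw [← heq] at hmem
            obtain ⟨u, c, hu, h⟩ := hmem
            have h2 : (u₀ * u - x * c) * a' ∈ P := by
              have e : (u₀ * u - x * c) * a'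
                  = u₀ * (u * a' - a * c) + c * (u₀ * a - x * a') := by ring
              rw [e]; exact P.add_mem (P.mul_mem_left _ h) (P.mul_mem_left _ h₀)
            rcases hP.mem_or_mem h2 with h' | h'
            · have h3 : u₀ * u ∈ 𝔪 := by
                have e : u₀ * u = (u₀ * u - x * c) + x * c := by ring
                rw [e]; exact 𝔪.add_mem (hP𝔪 h') (𝔪.mul_mem_right _ hx𝔪)
              exact (h𝔪.mem_or_mem h3).elim hu₀ hu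
            · exact ha'P h'
        obtain ⟨i, r, u', hu', hr, h⟩ := ih _ hlt a' rfl ha'P
        refine ⟨i + 1, r, u' * u₀, fun h => (h𝔪.mem_or_mem h).elim hu' hu₀, hr, ?_⟩
        have e : u' * u₀ * a - x ^ (i + 1) * r
            = u' * (u₀ * a - x * a') + x * (u' * a' - x ^ i * r) := by ring
        rw [e]; exact P.add_mem (P.mul_mem_left _ h₀) (P.mul_mem_left _ h)
      · exact ⟨0, a, 1, h1, ha𝔪, by simp⟩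
  exact fun a ha => key _ a rfl ha

/-- The exponent of `x` is well defined (one inequality). -/
theorem s35_nb_exp_not_lt (P 𝔪 : Ideal R) [hP : P.IsPrime] (hP𝔪 : P ≤ 𝔪) (x : R)
    (hx𝔪 : x ∈ 𝔪) (hxP : x ∉ P) {α β : R} (hα : α ∉ 𝔪) {i j : ℕ} (hij : i < j)
    (h : x ^ i * α - x ^ j * β ∈ P) : False := by
  obtain ⟨k, rfl⟩ := Nat.exists_eq_add_of_lt hij
  have e : x ^ i * α - x ^ (i + k + 1) * β = x ^ i * (α - x ^ (k + 1) * β) := by ring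
  rw [e] at h
  rcases hP.mem_or_mem h with h' | h'
  · exact hxP (hP.mem_of_pow_mem _ h')
  · apply hα
    have e2 : α = (α - x ^ (k + 1) * β) + x * (x ^ k * β) := by ring
    rw [e2]; exact 𝔪.add_mem (hP𝔪 h') (𝔪.mul_mem_right _ hx𝔪)

/-- The exponent of `x` is well defined. -/
theorem s35_nb_exp_eq (P 𝔪 : Ideal R) [hP : P.IsPrime] (hP𝔪 : P ≤ 𝔪) (x : R)
    (hx𝔪 : x ∈ 𝔪) (hxP : x ∉ P) {α β : R} (hα : α ∉ 𝔪) (hβ : β ∉ 𝔪) {i j : ℕ}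
    (h : x ^ i * α - x ^ j * β ∈ P) : i = j := by
  rcases lt_trichotomy i j with hij | hij | hij
  · exact (s35_nb_exp_not_lt P 𝔪 hP𝔪 x hx𝔪 hxP hα hij h).elim
  · exact hij
  · have h' : x ^ j * β - x ^ i * α ∈ P := by
      have e : x ^ j * β - x ^ i * α = -(x ^ i * α - x ^ j * β) := by ring
      rw [e]; exact P.neg_mem h
    exact (s35_nb_exp_not_lt P 𝔪 hP𝔪 x hx𝔪 hxP hβ hij h').elim

end Abstract

section Field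

variable {F : Type*} [Field F] {ϖ : F}

/-- A nonzero element of `B_𝔪` with inverse in `B_𝔪` is a quotient of two elements outside `𝔪`. -/
theorem s35_nb_loc_unit {B : Subring F} (𝔪 : Ideal B) [h𝔪 : 𝔪.IsPrime] {w : F} (hw0 : w ≠ 0)
    (hw : w ∈ s18_loc B 𝔪) (hwi : w⁻¹ ∈ s18_loc B 𝔪) :
    ∃ c u : B, c ∉ 𝔪 ∧ u ∉ 𝔪 ∧ w = (c : F) / (u : F) := by
  obtain ⟨c, u, hu, rfl⟩ := hw
  obtain ⟨c', u', hu', h⟩ := hwi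
  refine ⟨c, u, ?_, hu, rfl⟩
  intro hc
  have hc0 : (c : F) ≠ 0 := by
    intro h0; apply hw0; rw [h0, zero_div]
  have hu'0 : (u' : F) ≠ 0 := by
    intro h0
    apply hu'
    have : u' = 0 := Subtype.ext h0
    rw [this]; exact 𝔪.zero_mem
  rw [inv_div, div_eq_div_iff hc0 hu'0] at h
  have h2 : u * u' = c' * c := Subtype.ext (by push_cast; exact h)
  have h3 : u * u' ∈ 𝔪 := by rw [h2]; exact 𝔪.mul_mem_left _ hc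
  exact (h𝔪.mem_or_mem h3).elim hu hu'

/-- `V₁` is the localization of `B` at `𝔓₁ = B ∩ ϖ V₁`: every element of `V₁` is a quotient of
elements of `B` with denominator outside `𝔓₁`. -/
theorem s35_nb_frac {B V₁ V₂ : Subring F} (hV₁ : s34_Unif ϖ V₁) (hB₁ : B ≤ V₁) (hB₂ : B ≤ V₂)
    (hcap : ∀ x ∈ B, ϖ⁻¹ * x ∈ V₁ → ϖ⁻¹ * x ∈ V₂ → ϖ⁻¹ * x ∈ B)
    (hfrac : ∀ x : F, ∃ a ∈ B, ∃ b ∈ B, b ≠ 0 ∧ x = a / b)
    (x : B) (hx₂ : ϖ⁻¹ * (x : F) ∈ V₂) (hx₁ : ϖ⁻¹ * (x : F) ∉ V₁)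
    {v : F} (hv : v ∈ V₁) : ∃ a b : B, ϖ⁻¹ * (b : F) ∉ V₁ ∧ v = (a : F) / (b : F) := by
  have hϖ0 := hV₁.ne_zero
  have hx0 : (x : F) ≠ 0 := by
    intro h0; apply hx₁; rw [h0, mul_zero]; exact V₁.zero_mem
  have hxi : (x : F)⁻¹ ∈ V₁ := hV₁.inv_mem_of_not_dvd (hB₁ x.2) hx₁
  have key : ∀ k : ℕ, ∀ a c : F, a ∈ B → c ∈ B → c ≠ 0 → a / c ∈ V₁ → ϖ⁻¹ ^ k * c ∈ V₁ →
      (ϖ⁻¹ ^ k * c)⁻¹ ∈ V₁ → ∃ a' b' : B, ϖ⁻¹ * (b' : F) ∉ V₁ ∧ a / c = (a' : F) / (b' : F) := by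
    intro k
    induction k with
    | zero =>
      intro a c ha hc hc0 _ _ hki
      rw [pow_zero, one_mul] at hki
      exact ⟨⟨a, ha⟩, ⟨c, hc⟩, hV₁.not_dvd_of_inv_mem hc0 hki, rfl⟩
    | succ k ih =>
      intro a c ha hc hc0 hv hk hki
      have hc₁ : ϖ⁻¹ * c ∈ V₁ := by
        have e : ϖ⁻¹ * c = ϖ ^ k * (ϖ⁻¹ ^ (k + 1) * c) := by
          rw [pow_succ, inv_pow]; field_simp
        rw [e]; exact V₁.mul_mem (V₁.pow_mem hV₁.mem k) hk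
      have ha₁ : ϖ⁻¹ * a ∈ V₁ := by
        have e : ϖ⁻¹ * a = (a / c) * (ϖ⁻¹ * c) := by field_simp
        rw [e]; exact V₁.mul_mem hv hc₁
      have hxa : ϖ⁻¹ * ((x : F) * a) ∈ B := by
        refine hcap _ (B.mul_mem x.2 ha) ?_ ?_
        · rw [mul_left_comm]; exact V₁.mul_mem (hB₁ x.2) ha₁
        · rw [← mul_assoc]; exact V₂.mul_mem hx₂ (hB₂ ha)
      have hxc : ϖ⁻¹ * ((x : F) * c) ∈ B := by
        refine hcap _ (B.mul_mem x.2 hc) ?_ ?_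
        · rw [mul_left_comm]; exact V₁.mul_mem (hB₁ x.2) hc₁
        · rw [← mul_assoc]; exact V₂.mul_mem hx₂ (hB₂ hc)
      have hxc0 : ϖ⁻¹ * ((x : F) * c) ≠ 0 :=
        mul_ne_zero (inv_ne_zero hϖ0) (mul_ne_zero hx0 hc0)
      have e : a / c = (ϖ⁻¹ * ((x : F) * a)) / (ϖ⁻¹ * ((x : F) * c)) := by field_simp
      have e2 : ϖ⁻¹ ^ k * (ϖ⁻¹ * ((x : F) * c)) = (ϖ⁻¹ ^ (k + 1) * c) * x := by
        rw [pow_succ]; ring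
      obtain ⟨a', b', hb', h⟩ := ih _ _ hxa hxc hxc0 (by rw [← e]; exact hv)
        (by rw [e2]; exact V₁.mul_mem hk (hB₁ x.2))
        (by rw [e2, mul_inv]; exact V₁.mul_mem hki hxi)
      exact ⟨a', b', hb', by rw [e, h]⟩
  obtain ⟨a, ha, c, hc, hc0, rfl⟩ := hfrac v
  obtain ⟨k, hk, hki⟩ := hV₁.exists_pow (hB₁ hc) hc0
  exact key k a c ha hc hc0 hv hk hki

/-- **The branch hypothesis `hA` of `s35_nf_main`**: on the branch `V₁` through the crossing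
point `𝔪`, an `m`-th root of a unit of `B_𝔪` modulo `ϖ V₁` is a unit of `B_𝔪` modulo `ϖ V₁`. -/
theorem s35_nb_branch {B V₁ V₂ : Subring F} (hV₁ : s34_Unif ϖ V₁) (hB₁ : B ≤ V₁) (hB₂ : B ≤ V₂)
    (hcap : ∀ x ∈ B, ϖ⁻¹ * x ∈ V₁ → ϖ⁻¹ * x ∈ V₂ → ϖ⁻¹ * x ∈ B) (hnoeth : IsNoetherianRing B)
    (hfrac : ∀ x : F, ∃ a ∈ B, ∃ b ∈ B, b ≠ 0 ∧ x = a / b)
    (𝔪 : Ideal B) [h𝔪 : 𝔪.IsPrime]
    (hnode₁ : ∀ b : B, b ∉ 𝔪 → ϖ⁻¹ * (b : F) ∉ V₁)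
    (x : B) (hx₂ : ϖ⁻¹ * (x : F) ∈ V₂) (hx₁ : x ∉ s34_ni_P ϖ B V₁ hB₁) (hx𝔪 : x ∈ 𝔪)
    (hx : ∀ m' ∈ 𝔪, ∃ r u : B, u ∉ 𝔪 ∧ u * m' - x * r ∈ s34_ni_P ϖ B V₁ hB₁)
    (m : ℕ) (hm : 0 < m) :
    ∀ X w : F, w ∈ s18_loc B 𝔪 → w⁻¹ ∈ s18_loc B 𝔪 → ϖ⁻¹ * (X ^ m - w) ∈ V₁ →
      ∃ y : F, y ∈ s18_loc B 𝔪 ∧ y⁻¹ ∈ s18_loc B 𝔪 ∧ ϖ⁻¹ * (X - y) ∈ V₁ := by
  intro X w hw hwi hXw
  have hϖ0 := hV₁.ne_zero
  have h1 : (1 : B) ∉ 𝔪 := fun h => h𝔪.ne_top ((Ideal.eq_top_iff_one _).mpr h)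
  have hloc : ∀ b : B, b ∉ 𝔪 → ((b : F))⁻¹ ∈ V₁ := fun b hb =>
    hV₁.inv_mem_of_not_dvd (hB₁ b.2) (hnode₁ b hb)
  have hm' : (0 : ℤ) < (m : ℤ) := by exact_mod_cast hm
  by_cases hw0 : w = 0
  · -- the degenerate case `w = 0`
    subst hw0
    rw [sub_zero] at hXw
    refine ⟨0, ⟨0, 1, h1, by simp⟩, by rw [inv_zero]; exact ⟨0, 1, h1, by simp⟩, ?_⟩
    rw [sub_zero]
    by_cases hX0 : X = 0
    · rw [hX0, mul_zero]; exact V₁.zero_mem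
    obtain ⟨j, u, hu, hui, rfl⟩ := hV₁.decomp X hX0
    have hu0 : u ≠ 0 := by rintro rfl; simp at hX0
    have e1 : ϖ⁻¹ * (ϖ ^ j * u) ^ m = ϖ ^ (j * (m : ℤ) - 1) * u ^ m := by
      rw [mul_pow, ← zpow_natCast (ϖ ^ j), ← zpow_mul, zpow_sub₀ hϖ0, zpow_one]; field_simp
    rw [e1, hV₁.mem_iff (pow_ne_zero m hu0) (V₁.pow_mem hu m)
      (by rw [← inv_pow]; exact V₁.pow_mem hui m)] at hXw
    have hj : 1 ≤ j := by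
      by_contra hcon
      have hj0 : j ≤ 0 := by omega
      have : j * (m : ℤ) ≤ 0 := mul_nonpos_of_nonpos_of_nonneg hj0 hm'.le
      omega
    have e2 : ϖ⁻¹ * (ϖ ^ j * u) = ϖ ^ (j - 1) * u := by
      rw [zpow_sub₀ hϖ0, zpow_one]; field_simp
    rw [e2, hV₁.mem_iff hu0 hu hui]; omega
  -- the main case: `w` is a unit of `B_𝔪`
  obtain ⟨cw, uw, hcw, huw, rfl⟩ := s35_nb_loc_unit 𝔪 hw0 hw hwi
  have hwV : (cw : F) / uw ∈ V₁ := by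
    rw [div_eq_mul_inv]; exact V₁.mul_mem (hB₁ cw.2) (hloc uw huw)
  have hwVi : ((cw : F) / uw)⁻¹ ∈ V₁ := by
    rw [inv_div, div_eq_mul_inv]; exact V₁.mul_mem (hB₁ uw.2) (hloc cw hcw)
  have huw0 : (uw : F) ≠ 0 := by
    intro h0
    apply huw
    have : uw = 0 := Subtype.ext h0
    rw [this]; exact 𝔪.zero_mem
  -- `X ^ m` is a unit of `V₁`
  have hXm : X ^ m ∈ V₁ := by
    have e : X ^ m = ϖ * (ϖ⁻¹ * (X ^ m - (cw : F) / uw)) + (cw : F) / uw := by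
      field_simp; ring
    rw [e]; exact V₁.add_mem (V₁.mul_mem hV₁.mem hXw) hwV
  have hXm' : ϖ⁻¹ * X ^ m ∉ V₁ := by
    intro h
    apply hV₁.not_dvd_of_inv_mem hw0 hwVi
    have e : ϖ⁻¹ * ((cw : F) / uw) = ϖ⁻¹ * X ^ m - ϖ⁻¹ * (X ^ m - (cw : F) / uw) := by ring
    rw [e]; exact V₁.sub_mem h hXw
  have hX0 : X ≠ 0 := by
    rintro rfl
    apply hXm'
    rw [zero_pow hm.ne', mul_zero]; exact V₁.zero_mem
  -- hence `X` is a unit of `V₁`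
  have hXu : X ∈ V₁ ∧ X⁻¹ ∈ V₁ := by
    obtain ⟨j, u, hu, hui, rfl⟩ := hV₁.decomp X hX0
    have hu0 : u ≠ 0 := by rintro rfl; simp at hX0
    have hum0 : u ^ m ≠ 0 := pow_ne_zero m hu0
    have humi : (u ^ m)⁻¹ ∈ V₁ := by rw [← inv_pow]; exact V₁.pow_mem hui m
    have e0 : (ϖ ^ j * u) ^ m = ϖ ^ (j * (m : ℤ)) * u ^ m := by
      rw [mul_pow, ← zpow_natCast (ϖ ^ j), ← zpow_mul]
    have e1 : ϖ⁻¹ * (ϖ ^ j * u) ^ m = ϖ ^ (j * (m : ℤ) - 1) * u ^ m := by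
      rw [e0, zpow_sub₀ hϖ0, zpow_one]; field_simp
    rw [e0, hV₁.mem_iff hum0 (V₁.pow_mem hu m) humi] at hXm
    rw [e1, hV₁.mem_iff hum0 (V₁.pow_mem hu m) humi] at hXm'
    have hjm : j * (m : ℤ) = 0 := by omega
    have hj : j = 0 := by
      rcases mul_eq_zero.mp hjm with h | h
      · exact h
      · omega
    subst hj
    rw [zpow_zero, one_mul]
    exact ⟨hu, hui⟩
  obtain ⟨hXV, hXVi⟩ := hXu
  -- write `X = a / b` with `a`, `b` outside `𝔓₁`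
  have hx₁' : ϖ⁻¹ * (x : F) ∉ V₁ := hx₁
  obtain ⟨a, b, hb, rfl⟩ := s35_nb_frac hV₁ hB₁ hB₂ hcap hfrac x hx₂ hx₁' hXV
  have hb0 : (b : F) ≠ 0 := by
    intro h0; apply hb; rw [h0, mul_zero]; exact V₁.zero_mem
  have ha0 : (a : F) ≠ 0 := by
    intro h0; apply hX0; rw [h0, zero_div]
  have ha : ϖ⁻¹ * (a : F) ∉ V₁ := by
    intro h
    apply hb
    have e : ϖ⁻¹ * (b : F) = ((a : F) / b)⁻¹ * (ϖ⁻¹ * (a : F)) := by field_simp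
    rw [e]; exact V₁.mul_mem hXVi h
  have hbi : ((b : F))⁻¹ ∈ V₁ := hV₁.inv_mem_of_not_dvd (hB₁ b.2) hb
  -- the prime `𝔓₁`
  have hP : (s34_ni_P ϖ B V₁ hB₁).IsPrime := s34_ni_P_prime hV₁ hB₁
  have hP𝔪 : s34_ni_P ϖ B V₁ hB₁ ≤ 𝔪 := by
    intro c hc
    by_contra hc𝔪
    exact hnode₁ c hc𝔪 hc
  have h0 : uw * a ^ m - cw * b ^ m ∈ s34_ni_P ϖ B V₁ hB₁ := by
    show ϖ⁻¹ * ((uw * a ^ m - cw * b ^ m : B) : F) ∈ V₁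
    have e : ϖ⁻¹ * ((uw * a ^ m - cw * b ^ m : B) : F)
        = (ϖ⁻¹ * (((a : F) / b) ^ m - (cw : F) / uw)) * ((uw : F) * (b : F) ^ m) := by
      have hbm0 : (b : F) ^ m ≠ 0 := pow_ne_zero m hb0
      push_cast; rw [div_pow]; field_simp
    rw [e]
    exact V₁.mul_mem hXw (V₁.mul_mem (hB₁ uw.2) (V₁.pow_mem (hB₁ b.2) m))
  obtain ⟨i, ra, ua, hua, hra, h_a⟩ :=
    s35_nb_decomp (s34_ni_P ϖ B V₁ hB₁) 𝔪 hP𝔪 x hx𝔪 hx a ha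
  obtain ⟨j, rb, ub, hub, hrb, h_b⟩ :=
    s35_nb_decomp (s34_ni_P ϖ B V₁ hB₁) 𝔪 hP𝔪 x hx𝔪 hx b hb
  -- the three congruences in the quotient `B ⧸ 𝔓₁`
  have Ea : Ideal.Quotient.mk (s34_ni_P ϖ B V₁ hB₁) ua * Ideal.Quotient.mk _ a
      = Ideal.Quotient.mk _ x ^ i * Ideal.Quotient.mk _ ra := by
    rw [← map_mul, ← map_pow, ← map_mul, Ideal.Quotient.eq]; exact h_a
  have Eb : Ideal.Quotient.mk (s34_ni_P ϖ B V₁ hB₁) ub * Ideal.Quotient.mk _ b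
      = Ideal.Quotient.mk _ x ^ j * Ideal.Quotient.mk _ rb := by
    rw [← map_mul, ← map_pow, ← map_mul, Ideal.Quotient.eq]; exact h_b
  have E0 : Ideal.Quotient.mk (s34_ni_P ϖ B V₁ hB₁) uw * Ideal.Quotient.mk _ a ^ m
      = Ideal.Quotient.mk _ cw * Ideal.Quotient.mk _ b ^ m := by
    rw [← map_pow, ← map_mul, ← map_pow, ← map_mul, Ideal.Quotient.eq]; exact h0
  have Eam : (Ideal.Quotient.mk (s34_ni_P ϖ B V₁ hB₁) ua * Ideal.Quotient.mk _ a) ^ m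
      = (Ideal.Quotient.mk _ x ^ i * Ideal.Quotient.mk _ ra) ^ m := by rw [Ea]
  have Ebm : (Ideal.Quotient.mk (s34_ni_P ϖ B V₁ hB₁) ub * Ideal.Quotient.mk _ b) ^ m
      = (Ideal.Quotient.mk _ x ^ j * Ideal.Quotient.mk _ rb) ^ m := by rw [Eb]
  have hexp : x ^ (i * m) * (uw * ub ^ m * ra ^ m) - x ^ (j * m) * (cw * ua ^ m * rb ^ m)
      ∈ s34_ni_P ϖ B V₁ hB₁ := by
    rw [← Ideal.Quotient.eq]
    simp only [map_mul, map_pow]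
    linear_combination (-(Ideal.Quotient.mk (s34_ni_P ϖ B V₁ hB₁) uw)
      * Ideal.Quotient.mk (s34_ni_P ϖ B V₁ hB₁) ub ^ m) * Eam
      + Ideal.Quotient.mk (s34_ni_P ϖ B V₁ hB₁) ub ^ m
        * Ideal.Quotient.mk (s34_ni_P ϖ B V₁ hB₁) ua ^ m * E0
      + Ideal.Quotient.mk (s34_ni_P ϖ B V₁ hB₁) cw
        * Ideal.Quotient.mk (s34_ni_P ϖ B V₁ hB₁) ua ^ m * Ebm
  have hnm : ∀ {c : B} (k : ℕ), c ∉ 𝔪 → c ^ k ∉ 𝔪 := fun k hc h => hc (h𝔪.mem_of_pow_mem k h)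
  have hα : uw * ub ^ m * ra ^ m ∉ 𝔪 := fun h =>
    (h𝔪.mem_or_mem h).elim (fun h' => (h𝔪.mem_or_mem h').elim huw (hnm m hub)) (hnm m hra)
  have hβ : cw * ua ^ m * rb ^ m ∉ 𝔪 := fun h =>
    (h𝔪.mem_or_mem h).elim (fun h' => (h𝔪.mem_or_mem h').elim hcw (hnm m hua)) (hnm m hrb)
  have him : i * m = j * m := s35_nb_exp_eq (s34_ni_P ϖ B V₁ hB₁) 𝔪 hP𝔪 x hx𝔪 hx₁ hα hβ hexp
  have hij : i = j := Nat.eq_of_mul_eq_mul_right hm him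
  subst hij
  -- the unit `y` of `B_𝔪`
  have hden : ua * rb ∉ 𝔪 := fun h => (h𝔪.mem_or_mem h).elim hua hrb
  have hnum : ra * ub ∉ 𝔪 := fun h => (h𝔪.mem_or_mem h).elim hra hub
  have hn : a * ua * rb - b * ub * ra ∈ s34_ni_P ϖ B V₁ hB₁ := by
    rw [← Ideal.Quotient.eq]
    simp only [map_mul]
    linear_combination Ideal.Quotient.mk (s34_ni_P ϖ B V₁ hB₁) rb * Ea
      - Ideal.Quotient.mk (s34_ni_P ϖ B V₁ hB₁) ra * Eb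
  have hn' : ϖ⁻¹ * ((a * ua * rb - b * ub * ra : B) : F) ∈ V₁ := hn
  have hua0 : (ua : F) ≠ 0 := by
    intro h0
    apply hua
    have : ua = 0 := Subtype.ext h0
    rw [this]; exact 𝔪.zero_mem
  have hrb0 : (rb : F) ≠ 0 := by
    intro h0
    apply hrb
    have : rb = 0 := Subtype.ext h0
    rw [this]; exact 𝔪.zero_mem
  refine ⟨((ra * ub : B) : F) / ((ua * rb : B) : F), ⟨ra * ub, ua * rb, hden, rfl⟩,
    ⟨ua * rb, ra * ub, hnum, by rw [inv_div]⟩, ?_⟩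
  have e : ϖ⁻¹ * ((a : F) / b - ((ra * ub : B) : F) / ((ua * rb : B) : F))
      = (ϖ⁻¹ * ((a * ua * rb - b * ub * ra : B) : F))
        * (((b : F))⁻¹ * (((ua : F))⁻¹ * ((rb : F))⁻¹)) := by
    push_cast; field_simp
  rw [e]
  exact V₁.mul_mem hn' (V₁.mul_mem hbi (V₁.mul_mem (hloc ua hua) (hloc rb hrb)))

/-- **The hypothesis `hN3` of `s35_nf_main`**: every element of `𝔪` splits along the two
branches. -/
theorem s35_nb_split {B V₁ V₂ : Subring F} (hV₁ : s34_Unif ϖ V₁) (hV₂ : s34_Unif ϖ V₂)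
    (hB₁ : B ≤ V₁) (hB₂ : B ≤ V₂) (𝔪 : Ideal B)
    (hnode : ∀ b : B, b ∉ 𝔪 → ϖ⁻¹ * (b : F) ∉ V₁ ∧ ϖ⁻¹ * (b : F) ∉ V₂)
    (x : B) (hx₂ : ϖ⁻¹ * (x : F) ∈ V₂)
    (hx : ∀ m' ∈ 𝔪, ∃ r u : B, u ∉ 𝔪 ∧ u * m' - x * r ∈ s34_ni_P ϖ B V₁ hB₁) :
    ∀ z : B, z ∈ 𝔪 → ∃ p₁ p₂ : F, p₁ ∈ s18_loc B 𝔪 ∧ p₂ ∈ s18_loc B 𝔪 ∧
      (z : F) = p₁ + p₂ ∧ ϖ⁻¹ * p₁ ∈ V₁ ∧ ϖ⁻¹ * p₂ ∈ V₂ := by
  intro z hz
  obtain ⟨r, u, hu, h⟩ := hx z hz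
  have h' : ϖ⁻¹ * ((u * z - x * r : B) : F) ∈ V₁ := h
  have hu₁ : ((u : F))⁻¹ ∈ V₁ := hV₁.inv_mem_of_not_dvd (hB₁ u.2) (hnode u hu).1
  have hu₂ : ((u : F))⁻¹ ∈ V₂ := hV₂.inv_mem_of_not_dvd (hB₂ u.2) (hnode u hu).2
  have hu0 : (u : F) ≠ 0 := by
    intro h0
    apply (hnode u hu).1
    rw [h0, mul_zero]; exact V₁.zero_mem
  refine ⟨((u * z - x * r : B) : F) / (u : F), ((x * r : B) : F) / (u : F),
    ⟨u * z - x * r, u, hu, rfl⟩, ⟨x * r, u, hu, rfl⟩, ?_, ?_, ?_⟩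
  · push_cast; field_simp; ring
  · have e : ϖ⁻¹ * (((u * z - x * r : B) : F) / (u : F))
        = (ϖ⁻¹ * ((u * z - x * r : B) : F)) * ((u : F))⁻¹ := by
      rw [div_eq_mul_inv, mul_assoc]
    rw [e]; exact V₁.mul_mem h' hu₁
  · have e : ϖ⁻¹ * (((x * r : B) : F) / (u : F))
        = (ϖ⁻¹ * (x : F)) * ((r : F) * ((u : F))⁻¹) := by
      push_cast; rw [div_eq_mul_inv]; ring
    rw [e]; exact V₂.mul_mem hx₂ (V₂.mul_mem (hB₂ r.2) hu₂)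

/-- **NODE-2, leaf (NFG), items (iii)+(iv).**  The hypotheses `hN3`, `hA₁`, `hA₂` of
`s35_nf_main` at a crossing point `𝔪`, from the local parameters `x`, `y` of the two branches
(the same data as in `s34_ni_hG`), the cap property `ϖ V₁ ∩ ϖ V₂ ∩ B = ϖ B`, and noetherianity
of the chart. -/
theorem s35_nb_main {B V₁ V₂ : Subring F} (hV₁ : s34_Unif ϖ V₁) (hV₂ : s34_Unif ϖ V₂)
    (hB₁ : B ≤ V₁) (hB₂ : B ≤ V₂)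
    (hcap : ∀ x ∈ B, ϖ⁻¹ * x ∈ V₁ → ϖ⁻¹ * x ∈ V₂ → ϖ⁻¹ * x ∈ B) (hnoeth : IsNoetherianRing B)
    (hfrac : ∀ x : F, ∃ a ∈ B, ∃ b ∈ B, b ≠ 0 ∧ x = a / b)
    (𝔪 : Ideal B) [h𝔪 : 𝔪.IsPrime]
    (hnode : ∀ b : B, b ∉ 𝔪 → ϖ⁻¹ * (b : F) ∉ V₁ ∧ ϖ⁻¹ * (b : F) ∉ V₂)
    (hx : ∃ x : B, x ∈ s34_ni_P ϖ B V₂ hB₂ ∧ x ∉ s34_ni_P ϖ B V₁ hB₁ ∧
      ∀ m' ∈ 𝔪, ∃ r u : B, u ∉ 𝔪 ∧ u * m' - x * r ∈ s34_ni_P ϖ B V₁ hB₁)
    (hy : ∃ y : B, y ∈ s34_ni_P ϖ B V₁ hB₁ ∧ y ∉ s34_ni_P ϖ B V₂ hB₂ ∧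
      ∀ m' ∈ 𝔪, ∃ r u : B, u ∉ 𝔪 ∧ u * m' - y * r ∈ s34_ni_P ϖ B V₂ hB₂)
    (m : ℕ) (hm : 0 < m) :
    (∀ z : B, z ∈ 𝔪 → ∃ p₁ p₂ : F, p₁ ∈ s18_loc B 𝔪 ∧ p₂ ∈ s18_loc B 𝔪 ∧
      (z : F) = p₁ + p₂ ∧ ϖ⁻¹ * p₁ ∈ V₁ ∧ ϖ⁻¹ * p₂ ∈ V₂) ∧
    (∀ x w : F, w ∈ s18_loc B 𝔪 → w⁻¹ ∈ s18_loc B 𝔪 → ϖ⁻¹ * (x ^ m - w) ∈ V₁ →
      ∃ y : F, y ∈ s18_loc B 𝔪 ∧ y⁻¹ ∈ s18_loc B 𝔪 ∧ ϖ⁻¹ * (x - y) ∈ V₁) ∧
    (∀ x w : F, w ∈ s18_loc B 𝔪 → w⁻¹ ∈ s18_loc B 𝔪 → ϖ⁻¹ * (x ^ m - w) ∈ V₂ →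
      ∃ y : F, y ∈ s18_loc B 𝔪 ∧ y⁻¹ ∈ s18_loc B 𝔪 ∧ ϖ⁻¹ * (x - y) ∈ V₂) := by
  obtain ⟨x, hx₂, hx₁, hx⟩ := hx
  obtain ⟨y, hy₁, hy₂, hy⟩ := hy
  have hx𝔪 : x ∈ 𝔪 := by
    by_contra h
    exact (hnode x h).2 hx₂
  have hy𝔪 : y ∈ 𝔪 := by
    by_contra h
    exact (hnode y h).1 hy₁
  refine ⟨s35_nb_split hV₁ hV₂ hB₁ hB₂ 𝔪 hnode x hx₂ hx, ?_, ?_⟩
  · exact s35_nb_branch hV₁ hB₁ hB₂ hcap hnoeth hfrac 𝔪 (fun b hb => (hnode b hb).1) x hx₂ hx₁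
      hx𝔪 hx m hm
  · exact s35_nb_branch hV₂ hB₂ hB₁ (fun z hz h2 h1 => hcap z hz h1 h2) hnoeth hfrac 𝔪
      (fun b hb => (hnode b hb).2) y hy₁ hy₂ hy𝔪 hy m hm

end Field

end Fermat.Agent.S35
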