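import Mathlib
import Fermat.Agent.S34.XYInst
import Fermat.Agent.S35.SigmaNodeFull

/-!
# S35 (NODE-2), block (INST2): the crossing points of the concrete nodal model

In the vocabulary of NODE-1's contract (`S34/InstDefs.lean`): level `N₁ * q`, `P` a valuation ring
of `Q̄` over `q`, `K₁` a Galois number field with `A₁ = P ∩ K₁` a discrete valuation ring, `tL` a
Hauptmodul, `W` an Atkin–Lehner swap, charts `B0`, `Binf` (integral closures), components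
`V₁ = V∞`, `V₂ = V0 = W⁻¹ V∞`.  Let `γ` be a Frobenius element at `P`, `σ₁` its coefficientwise
action on `F = K₁ · F(N₁ q)` and `s = σ₁ ∘ σ₁`; assume `K₁` contains a primitive `(q² - 1)`-th root
of unity.

* `s35_nis_Node ϖ B V₁ V₂ s Q hsB 𝔪` : the three crossing-point hypotheses `hx`, `hy`, `hsQ` of
  `s35_nfo_pts` (`S35/NodeFrobG.lean`) at the point `𝔪` of the chart `B`;
* `s35_nis_xy` : `s35_nis_Node` at every crossing point of one integral-closure chart (generic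
  coordinate), from helper15's `s34_xi_xy` (branch parameters at rational crossing points) and
  helper23's `s35_sn_hsQ_full` (rationality and the Frobenius congruence at every crossing point);
* `s35_nis_main` : `s35_nis_Node` at every crossing point of both charts of the model, in the
  contract vocabulary.
-/

set_option autoImplicit false
set_option synthInstance.maxHeartbeats 400000
set_option maxHeartbeats 4000000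
set_option linter.unusedSectionVars false
set_option linter.unusedVariables false

open ModularCurve ModularCurve.IgusaScheme Fermat.Agent.S28

noncomputable section

namespace Fermat.Agent.S35

open Fermat.Agent.S18 Fermat.Agent.S34

local notation "Qb" => AlgebraicClosure ℚ

/-- The crossing-point hypotheses `hx`, `hy`, `hsQ` of `s35_nfo_pts` at one point `𝔪` of a chart
`B` with components `V₁`, `V₂`: local parameters of the two branches and the Frobenius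
congruence for `s`. -/
def s35_nis_Node {F : Type*} [Field F] (ϖ : F) (B V₁ V₂ : Subring F) (s : F ≃+* F) (Q : ℕ)
    (hsB : ∀ x ∈ B, s x ∈ B) (𝔪 : Ideal B) : Prop :=
  (∃ x : B, ϖ⁻¹ * (x : F) ∈ V₂ ∧ ϖ⁻¹ * (x : F) ∉ V₁ ∧
    ∀ z ∈ 𝔪, ∃ r u : B, u ∉ 𝔪 ∧ ϖ⁻¹ * ((u * z - x * r : B) : F) ∈ V₁) ∧
  (∃ y : B, ϖ⁻¹ * (y : F) ∈ V₁ ∧ ϖ⁻¹ * (y : F) ∉ V₂ ∧
    ∀ z ∈ 𝔪, ∃ r u : B, u ∉ 𝔪 ∧ ϖ⁻¹ * ((u * z - y * r : B) : F) ∈ V₂) ∧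
  ∀ b : B, (⟨s b, hsB b b.2⟩ - b ^ Q : B) ∈ 𝔪

theorem s35_nis_Node.hx {F : Type*} [Field F] {ϖ : F} {B V₁ V₂ : Subring F} {s : F ≃+* F}
    {Q : ℕ} {hsB : ∀ x ∈ B, s x ∈ B} {𝔪 : Ideal B} (h : s35_nis_Node ϖ B V₁ V₂ s Q hsB 𝔪) :
    ∃ x : B, ϖ⁻¹ * (x : F) ∈ V₂ ∧ ϖ⁻¹ * (x : F) ∉ V₁ ∧
      ∀ z ∈ 𝔪, ∃ r u : B, u ∉ 𝔪 ∧ ϖ⁻¹ * ((u * z - x * r : B) : F) ∈ V₁ := h.1

theorem s35_nis_Node.hy {F : Type*} [Field F] {ϖ : F} {B V₁ V₂ : Subring F} {s : F ≃+* F}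
    {Q : ℕ} {hsB : ∀ x ∈ B, s x ∈ B} {𝔪 : Ideal B} (h : s35_nis_Node ϖ B V₁ V₂ s Q hsB 𝔪) :
    ∃ y : B, ϖ⁻¹ * (y : F) ∈ V₁ ∧ ϖ⁻¹ * (y : F) ∉ V₂ ∧
      ∀ z ∈ 𝔪, ∃ r u : B, u ∉ 𝔪 ∧ ϖ⁻¹ * ((u * z - y * r : B) : F) ∈ V₂ := h.2.1

theorem s35_nis_Node.hsQ {F : Type*} [Field F] {ϖ : F} {B V₁ V₂ : Subring F} {s : F ≃+* F}
    {Q : ℕ} {hsB : ∀ x ∈ B, s x ∈ B} {𝔪 : Ideal B} (h : s35_nis_Node ϖ B V₁ V₂ s Q hsB 𝔪) :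
    ∀ b : B, (⟨s b, hsB b b.2⟩ - b ^ Q : B) ∈ 𝔪 := h.2.2

section Chart

variable (N ℓ : ℕ) [NeZero N] [NeZero ℓ] [Fact ℓ.Prime]
  (A : ValuationSubring Qb) (K₁ : IntermediateField ℚ Qb) [Normal ℚ K₁]
  [IsDiscreteValuationRing (s18_A1 A K₁)]

/-- **The crossing points of one integral-closure chart** `B = s34_ic_chart A₁ T`, `T = α t`:
branch parameters and the Frobenius congruence at EVERY crossing point. -/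
theorem s35_nis_xy {π : s18_A1 A K₁} {t : modularFunctionFieldFull N}
    (hR : s18_ResBasis ℓ (s18_A1 A K₁) π) (h : s18_cz_Coord N ℓ t)
    {B : Subring (LaurentSeries ℚ)} (hB : CoreData N ℓ B)
    (hchart : s18_Chart (algebraMap (s18_A1 A K₁) (s18_F1 K₁ N) π)
      (s18_chAlg N ℓ (s18_A1 A K₁) t).toSubring)
    (hsm : s18_SmHyp π (s18_coord K₁ t) (s18_chAlg N ℓ (s18_A1 A K₁) t))
    (T : s18_F1 K₁ (N * ℓ)) (hT : heckeAlphaBar K₁ N ℓ (s18_coord K₁ t) = T)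
    (W : s18_F1 K₁ (N * ℓ) ≃+* s18_F1 K₁ (N * ℓ)) (hWW : ∀ x, W (W x) = x)
    (hWα : ∀ x : s18_F1 K₁ N, W (heckeAlphaBar K₁ N ℓ x) = heckeBetaBar K₁ N ℓ x)
    (hWB : ∀ x ∈ (s34_ic_chart (s18_A1 A K₁) T).toSubring,
      W x ∈ (s34_ic_chart (s18_A1 A K₁) T).toSubring)
    (hκ : ∀ y ∈ s34_gi_V (s18_A1 A K₁) (N * ℓ), ∃ y' ∈ s34_gi_V (s18_A1 A K₁) N,
      (algebraMap (s18_A1 A K₁) (s18_F1 K₁ (N * ℓ)) π)⁻¹ * (y - heckeAlphaBar K₁ N ℓ y') ∈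
        s34_gi_V (s18_A1 A K₁) (N * ℓ))
    (Ts : LaurentSeries ℤ) (hTs : (t : LaurentSeries ℚ) = coeffMap (Int.castRingHom ℚ) Ts)
    (e : ℤ) (he : e ≠ 0) (hlead : IsLeading Ts e 1)
    (hB₁ : (s34_ic_chart (s18_A1 A K₁) T).toSubring ≤ s34_gi_V (s18_A1 A K₁) (N * ℓ))
    (hB₂ : (s34_ic_chart (s18_A1 A K₁) T).toSubring ≤
      (s34_gi_V (s18_A1 A K₁) (N * ℓ)).comap (W : s18_F1 K₁ (N * ℓ) →+* s18_F1 K₁ (N * ℓ)))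
    (ζ : K₁) (hζ : IsPrimitiveRoot ζ (ℓ ^ 2 - 1))
    (γ : Qb ≃ₐ[ℚ] Qb) (hγ : A.IsFrobeniusAt γ ℓ)
    (s : s18_F1 K₁ (N * ℓ) ≃+* s18_F1 K₁ (N * ℓ))
    (hs : ∀ x : s18_F1 K₁ (N * ℓ),
      s x = s34_gi_tau K₁ (N * ℓ) γ (s34_gi_tau K₁ (N * ℓ) γ x))
    (hsB : ∀ x ∈ (s34_ic_chart (s18_A1 A K₁) T).toSubring,
      s x ∈ (s34_ic_chart (s18_A1 A K₁) T).toSubring)
    (𝔪 : Ideal (s34_ic_chart (s18_A1 A K₁) T).toSubring) (h𝔪 : 𝔪.IsMaximal)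
    (hϖ𝔪 : (⟨algebraMap (s18_A1 A K₁) (s18_F1 K₁ (N * ℓ)) π,
      (s34_ic_chart (s18_A1 A K₁) T).algebraMap_mem π⟩ :
        (s34_ic_chart (s18_A1 A K₁) T).toSubring) ∈ 𝔪)
    (hnode : ∀ b : (s34_ic_chart (s18_A1 A K₁) T).toSubring, b ∉ 𝔪 →
      (algebraMap (s18_A1 A K₁) (s18_F1 K₁ (N * ℓ)) π)⁻¹ * (b : s18_F1 K₁ (N * ℓ)) ∉
        s34_gi_V (s18_A1 A K₁) (N * ℓ) ∧
      (algebraMap (s18_A1 A K₁) (s18_F1 K₁ (N * ℓ)) π)⁻¹ * (b : s18_F1 K₁ (N * ℓ)) ∉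
        (s34_gi_V (s18_A1 A K₁) (N * ℓ)).comap
          (W : s18_F1 K₁ (N * ℓ) →+* s18_F1 K₁ (N * ℓ))) :
    s35_nis_Node (algebraMap (s18_A1 A K₁) (s18_F1 K₁ (N * ℓ)) π)
      (s34_ic_chart (s18_A1 A K₁) T).toSubring (s34_gi_V (s18_A1 A K₁) (N * ℓ))
      ((s34_gi_V (s18_A1 A K₁) (N * ℓ)).comap (W : s18_F1 K₁ (N * ℓ) →+* s18_F1 K₁ (N * ℓ)))
      s (ℓ ^ 2) hsB 𝔪 := by
  subst hT
  have hℓ : ((ℓ : K₁))⁻¹ ∉ s18_A1 A K₁ := hR.unit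
  have hπ : Irreducible π := hR.irr
  have hCW : ∀ x ∈ s18_czRing N ℓ t, x ∈ Wring ℓ := by
    intro x hx
    rw [s18_Wring_eq]
    exact s18_czRing_le_W h hB x hx
  have hAB : ∀ a : s18_A1 A K₁, algebraMap (s18_A1 A K₁) (s18_F1 K₁ (N * ℓ)) a ∈
      (s34_ic_chart (s18_A1 A K₁) (heckeAlphaBar K₁ N ℓ (s18_coord K₁ t))).toSubring :=
    fun a => (s34_ic_chart (s18_A1 A K₁)
      (heckeAlphaBar K₁ N ℓ (s18_coord K₁ t))).algebraMap_mem a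
  have hαB : ∀ x ∈ (s18_chAlg N ℓ (s18_A1 A K₁) t).toSubring,
      (heckeAlphaBar K₁ N ℓ).toRingHom x ∈
      (s34_ic_chart (s18_A1 A K₁) (heckeAlphaBar K₁ N ℓ (s18_coord K₁ t))).toSubring :=
    fun x hx => s34_lc_incl_mem_ic ℓ hsm x hx
  have hresInf := s34_xi_hresInf hR h hB hchart hsm hκ
  have hXY := s34_xi_xy hR h hB hchart hsm _ rfl W hWW hWα hWB hκ Ts hTs e he hlead hB₁ hB₂
  obtain ⟨hres, -, hQ⟩ := s35_sn_hsQ_full N ℓ A K₁ hπ hℓ t hCW W hWW hWα _ hAB hWB hαB hB₁ hB₂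
    hresInf ζ hζ γ hγ s hs hsB 𝔪 h𝔪 hnode
  have hker : ∀ a : s18_A1 A K₁,
      (⟨algebraMap (s18_A1 A K₁) (s18_F1 K₁ (N * ℓ)) a, hAB a⟩ :
        (s34_ic_chart (s18_A1 A K₁) (heckeAlphaBar K₁ N ℓ (s18_coord K₁ t))).toSubring) ∈ 𝔪 →
      ∃ a', a = π * a' := by
    intro a ha
    apply s34_ni_dvr_nonunit (s18_A1 A K₁) hπ a
    intro hu
    obtain ⟨v, hv⟩ := hu.exists_right_inv
    apply h𝔪.ne_top
    rw [Ideal.eq_top_iff_one]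
    have h1 : (1 : (s34_ic_chart (s18_A1 A K₁)
        (heckeAlphaBar K₁ N ℓ (s18_coord K₁ t))).toSubring) =
        ⟨algebraMap (s18_A1 A K₁) (s18_F1 K₁ (N * ℓ)) a, hAB a⟩ *
          ⟨algebraMap (s18_A1 A K₁) (s18_F1 K₁ (N * ℓ)) v, hAB v⟩ := by
      apply Subtype.ext
      show (1 : s18_F1 K₁ (N * ℓ)) = algebraMap (s18_A1 A K₁) (s18_F1 K₁ (N * ℓ)) a *
        algebraMap (s18_A1 A K₁) (s18_F1 K₁ (N * ℓ)) v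
      rw [← map_mul, hv, map_one]
    rw [h1]
    exact 𝔪.mul_mem_right _ ha
  obtain ⟨hx, hy⟩ := hXY 𝔪 h𝔪 hϖ𝔪 hnode hres hker
  exact ⟨hx, hy, hQ⟩

end Chart

section Model

variable (N₁ : ℕ) [NeZero N₁] (q : ℕ) [NeZero q] [Fact q.Prime]
  (A : ValuationSubring (AlgebraicClosure ℚ)) (hA : A.LiesOverPrime q)
  (K₁ : IntermediateField ℚ (AlgebraicClosure ℚ)) [NumberField K₁] [IsGalois ℚ K₁]
  [IsDiscreteValuationRing (s18_A1 A K₁)]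

include hA in
/-- **The crossing points of both integral-closure charts, one coordinate**: from the S18 chart
package of a coordinate `t₀` of level `N₁` and the swap `W` (as `s34_xi_model_coord`). -/
theorem s35_nis_model_coord (hqN : ¬ q ∣ N₁) (M : ℕ) (hqM : q ≠ M) (hMN : M ∣ N₁)
    (hM23 : 2 ∣ N₁ ∨ 3 ∣ N₁)
    {π : s18_A1 A K₁} (hπ : Irreducible π)
    (t₀ : modularFunctionFieldFull N₁) (tL : modularFunctionFieldFull (N₁ * q))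
    (htL : (tL : LaurentSeries ℚ) = (t₀ : LaurentSeries ℚ))
    (h : s18_cz_Coord N₁ q t₀)
    (hT : s18_TwoChart π (s18_coord K₁ t₀) (s18_chAlg N₁ q (s18_A1 A K₁) t₀)
      (s18_chAlg N₁ q (s18_A1 A K₁) t₀⁻¹))
    (hP : s18_ChartPkg π (s18_coord K₁ t₀) (s18_chAlg N₁ q (s18_A1 A K₁) t₀)
      (s18_chAlg N₁ q (s18_A1 A K₁) t₀⁻¹))
    (hHaupt : Fermat.Agent.S37.s37_IsHaupt M (s18_baseIncl K₁ (N₁ * q) (s18_coord K₁ tL)))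
    (Ts Ti : LaurentSeries ℤ)
    (hTs : (t₀ : LaurentSeries ℚ) = coeffMap (Int.castRingHom ℚ) Ts)
    (hTi : ((t₀⁻¹ : modularFunctionFieldFull N₁) : LaurentSeries ℚ) =
      coeffMap (Int.castRingHom ℚ) Ti)
    (e e' : ℤ) (he : e ≠ 0) (he' : e' ≠ 0) (hlead : IsLeading Ts e 1) (hlead' : IsLeading Ti e' 1)
    (W : s18_F1 K₁ (N₁ * q) ≃+* s18_F1 K₁ (N₁ * q))
    (hWc : ∀ c : K₁, W (algebraMap K₁ (s18_F1 K₁ (N₁ * q)) c) =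
      algebraMap K₁ (s18_F1 K₁ (N₁ * q)) c)
    (hWα : ∀ x : s18_F1 K₁ N₁, W (heckeAlphaBar K₁ N₁ q x) = heckeBetaBar K₁ N₁ q x)
    (hWβ : ∀ x : s18_F1 K₁ N₁, W (heckeBetaBar K₁ N₁ q x) = heckeAlphaBar K₁ N₁ q x)
    (hWW : ∀ x : s18_F1 K₁ (N₁ * q), W (W x) = x)
    (h01 : (s34_ic_chart (s18_A1 A K₁) (s18_coord K₁ tL)).toSubring ≤
      s34_gi_V (s18_A1 A K₁) (N₁ * q))
    (h02 : (s34_ic_chart (s18_A1 A K₁) (s18_coord K₁ tL)).toSubring ≤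
      (s34_gi_V (s18_A1 A K₁) (N₁ * q)).comap
        (W : s18_F1 K₁ (N₁ * q) →+* s18_F1 K₁ (N₁ * q)))
    (hi1 : (s34_ic_chart (s18_A1 A K₁) (s18_coord K₁ tL)⁻¹).toSubring ≤
      s34_gi_V (s18_A1 A K₁) (N₁ * q))
    (hi2 : (s34_ic_chart (s18_A1 A K₁) (s18_coord K₁ tL)⁻¹).toSubring ≤
      (s34_gi_V (s18_A1 A K₁) (N₁ * q)).comap
        (W : s18_F1 K₁ (N₁ * q) →+* s18_F1 K₁ (N₁ * q)))
    (ζ : K₁) (hζ : IsPrimitiveRoot ζ (q ^ 2 - 1))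
    (γ : Qb ≃ₐ[ℚ] Qb) (hγ : A.IsFrobeniusAt γ q)
    (s : s18_F1 K₁ (N₁ * q) ≃+* s18_F1 K₁ (N₁ * q))
    (hs : ∀ x : s18_F1 K₁ (N₁ * q),
      s x = s34_gi_tau K₁ (N₁ * q) γ (s34_gi_tau K₁ (N₁ * q) γ x))
    (hsB0 : ∀ x ∈ (s34_ic_chart (s18_A1 A K₁) (s18_coord K₁ tL)).toSubring,
      s x ∈ (s34_ic_chart (s18_A1 A K₁) (s18_coord K₁ tL)).toSubring)
    (hsBi : ∀ x ∈ (s34_ic_chart (s18_A1 A K₁) (s18_coord K₁ tL)⁻¹).toSubring,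
      s x ∈ (s34_ic_chart (s18_A1 A K₁) (s18_coord K₁ tL)⁻¹).toSubring) :
    (∀ 𝔪 : Ideal (s34_ic_chart (s18_A1 A K₁) (s18_coord K₁ tL)).toSubring, 𝔪.IsMaximal →
      (⟨algebraMap (s18_A1 A K₁) (s18_F1 K₁ (N₁ * q)) π,
        (s34_ic_chart (s18_A1 A K₁) (s18_coord K₁ tL)).algebraMap_mem π⟩ :
          (s34_ic_chart (s18_A1 A K₁) (s18_coord K₁ tL)).toSubring) ∈ 𝔪 →
      (∀ b : (s34_ic_chart (s18_A1 A K₁) (s18_coord K₁ tL)).toSubring, b ∉ 𝔪 →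
        (algebraMap (s18_A1 A K₁) (s18_F1 K₁ (N₁ * q)) π)⁻¹ * (b : s18_F1 K₁ (N₁ * q)) ∉
          s34_gi_V (s18_A1 A K₁) (N₁ * q) ∧
        (algebraMap (s18_A1 A K₁) (s18_F1 K₁ (N₁ * q)) π)⁻¹ * (b : s18_F1 K₁ (N₁ * q)) ∉
          (s34_gi_V (s18_A1 A K₁) (N₁ * q)).comap
            (W : s18_F1 K₁ (N₁ * q) →+* s18_F1 K₁ (N₁ * q))) →
      s35_nis_Node (algebraMap (s18_A1 A K₁) (s18_F1 K₁ (N₁ * q)) π)
        (s34_ic_chart (s18_A1 A K₁) (s18_coord K₁ tL)).toSubring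
        (s34_gi_V (s18_A1 A K₁) (N₁ * q))
        ((s34_gi_V (s18_A1 A K₁) (N₁ * q)).comap
          (W : s18_F1 K₁ (N₁ * q) →+* s18_F1 K₁ (N₁ * q))) s (q ^ 2) hsB0 𝔪) ∧
    (∀ 𝔪 : Ideal (s34_ic_chart (s18_A1 A K₁) (s18_coord K₁ tL)⁻¹).toSubring, 𝔪.IsMaximal →
      (⟨algebraMap (s18_A1 A K₁) (s18_F1 K₁ (N₁ * q)) π,
        (s34_ic_chart (s18_A1 A K₁) (s18_coord K₁ tL)⁻¹).algebraMap_mem π⟩ :
          (s34_ic_chart (s18_A1 A K₁) (s18_coord K₁ tL)⁻¹).toSubring) ∈ 𝔪 →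
      (∀ b : (s34_ic_chart (s18_A1 A K₁) (s18_coord K₁ tL)⁻¹).toSubring, b ∉ 𝔪 →
        (algebraMap (s18_A1 A K₁) (s18_F1 K₁ (N₁ * q)) π)⁻¹ * (b : s18_F1 K₁ (N₁ * q)) ∉
          s34_gi_V (s18_A1 A K₁) (N₁ * q) ∧
        (algebraMap (s18_A1 A K₁) (s18_F1 K₁ (N₁ * q)) π)⁻¹ * (b : s18_F1 K₁ (N₁ * q)) ∉
          (s34_gi_V (s18_A1 A K₁) (N₁ * q)).comap
            (W : s18_F1 K₁ (N₁ * q) →+* s18_F1 K₁ (N₁ * q))) →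
      s35_nis_Node (algebraMap (s18_A1 A K₁) (s18_F1 K₁ (N₁ * q)) π)
        (s34_ic_chart (s18_A1 A K₁) (s18_coord K₁ tL)⁻¹).toSubring
        (s34_gi_V (s18_A1 A K₁) (N₁ * q))
        ((s34_gi_V (s18_A1 A K₁) (N₁ * q)).comap
          (W : s18_F1 K₁ (N₁ * q) →+* s18_F1 K₁ (N₁ * q))) s (q ^ 2) hsBi 𝔪) := by
  have hq : q.Prime := Fact.out
  have hR : s18_ResBasis q (s18_A1 A K₁) π := s18_a1_resbasis A hA K₁ π hπ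
  obtain ⟨B, hB⟩ := core N₁ q hqN
  -- the coordinate at the two levels
  have hcoord : heckeAlphaBar K₁ N₁ q (s18_coord K₁ t₀) = s18_coord K₁ tL :=
    s34_lc_incl_coord q tL htL
  have hcoord' : heckeAlphaBar K₁ N₁ q (s18_coord K₁ t₀⁻¹) = (s18_coord K₁ tL)⁻¹ := by
    rw [s18_coord_inv, map_inv₀, hcoord]
  -- the swap
  have hWt : ((W (s18_coord K₁ tL) : s18_F1 K₁ (N₁ * q)) : LaurentSeries K₁) =
      qExpand K₁ q ((s18_coord K₁ tL : s18_F1 K₁ (N₁ * q)) : LaurentSeries K₁) := by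
    rw [← hcoord, hWα, coe_heckeBetaBar, coe_heckeAlphaBar]
  obtain ⟨hW0, hWi⟩ := s34_ws_chart_stable N₁ q M hq hqN hqM hMN A hA K₁ (s18_coord K₁ tL) hHaupt
    (W : s18_F1 K₁ (N₁ * q) →+* s18_F1 K₁ (N₁ * q)) hWc hWt
  have hsmInf : s18_SmHyp π (s18_coord K₁ t₀⁻¹) (s18_chAlg N₁ q (s18_A1 A K₁) t₀⁻¹) := by
    rw [s18_coord_inv]
    exact hP.smInf
  have hchInf : s18_Chart (algebraMap (s18_A1 A K₁) (s18_F1 K₁ N₁) π)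
      (s18_chAlg N₁ q (s18_A1 A K₁) t₀⁻¹).toSubring := hT.chartInf
  have hκ := s34_rx_hres N₁ q A hA K₁ hqN hM23 hπ W hWc hWα hWβ
  exact ⟨fun 𝔪 h𝔪 hϖ𝔪 hnode => s35_nis_xy N₁ q A K₁ hR h hB hT.chart0 hP.sm0
      (s18_coord K₁ tL) hcoord W hWW hWα (fun x hx => hW0 x hx) hκ Ts hTs e he hlead h01 h02
      ζ hζ γ hγ s hs hsB0 𝔪 h𝔪 hϖ𝔪 hnode,
    fun 𝔪 h𝔪 hϖ𝔪 hnode => s35_nis_xy N₁ q A K₁ hR h.inv hB hchInf hsmInf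
      (s18_coord K₁ tL)⁻¹ hcoord' W hWW hWα (fun x hx => hWi x hx) hκ Ti hTi e' he' hlead' hi1
      hi2 ζ hζ γ hγ s hs hsBi 𝔪 h𝔪 hϖ𝔪 hnode⟩

end Model

/-- **(INST2), crossing points**: in the contract vocabulary of the concrete nodal model, at EVERY
crossing point of both charts, the branch parameters `x`, `y` and the Frobenius congruence
`s b ≡ b ^ (q²)` for `s = σ₁ ∘ σ₁`, `σ₁` the coefficientwise action of a Frobenius element `γ`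
at `P` (`K₁` contains a primitive `(q² - 1)`-th root of unity). -/
theorem s35_nis_main (N₁ q : ℕ) [NeZero N₁] [NeZero (N₁ * q)] [Fact q.Prime] (hqN : ¬ q ∣ N₁)
    (P : ValuationSubring (AlgebraicClosure ℚ)) (hP : P.LiesOverPrime q)
    (K₁ : IntermediateField ℚ (AlgebraicClosure ℚ)) [FiniteDimensional ℚ K₁] [IsGalois ℚ K₁]
    [IsDiscreteValuationRing (s18_A1 P K₁)] (π : s18_A1 P K₁) (hπ : Irreducible π)
    (tL : modularFunctionFieldFull (N₁ * q)) (htL : s34_md_IsT N₁ q tL)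
    (W : s18_F1 K₁ (N₁ * q) ≃ₐ[K₁] s18_F1 K₁ (N₁ * q))
    (hW : haveI : NeZero q := ⟨(Fact.out : q.Prime).ne_zero⟩; s34_md_IsSwap K₁ N₁ q W)
    (ζ : K₁) (hζ : IsPrimitiveRoot ζ (q ^ 2 - 1))
    (γ : Qb ≃ₐ[ℚ] Qb) (hγ : P.IsFrobeniusAt γ q)
    (s : s18_F1 K₁ (N₁ * q) ≃+* s18_F1 K₁ (N₁ * q))
    (hs : ∀ x : s18_F1 K₁ (N₁ * q),
      s x = s34_gi_tau K₁ (N₁ * q) γ (s34_gi_tau K₁ (N₁ * q) γ x))
    (hsB0 : ∀ x ∈ (s34_md_B0 P K₁ (N₁ * q) tL).toSubring,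
      s x ∈ (s34_md_B0 P K₁ (N₁ * q) tL).toSubring)
    (hsBi : ∀ x ∈ (s34_md_Binf P K₁ (N₁ * q) tL).toSubring,
      s x ∈ (s34_md_Binf P K₁ (N₁ * q) tL).toSubring)
    (h01 : (s34_md_B0 P K₁ (N₁ * q) tL).toSubring ≤ s34_md_V1 P K₁ (N₁ * q))
    (h02 : (s34_md_B0 P K₁ (N₁ * q) tL).toSubring ≤ s34_md_V2 P K₁ (N₁ * q) W)
    (hi1 : (s34_md_Binf P K₁ (N₁ * q) tL).toSubring ≤ s34_md_V1 P K₁ (N₁ * q))
    (hi2 : (s34_md_Binf P K₁ (N₁ * q) tL).toSubring ≤ s34_md_V2 P K₁ (N₁ * q) W) :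
    (∀ 𝔪 : Ideal (s34_md_B0 P K₁ (N₁ * q) tL).toSubring, 𝔪.IsMaximal →
      (⟨algebraMap (s18_A1 P K₁) (s18_F1 K₁ (N₁ * q)) π,
        (s34_md_B0 P K₁ (N₁ * q) tL).algebraMap_mem π⟩ :
          (s34_md_B0 P K₁ (N₁ * q) tL).toSubring) ∈ 𝔪 →
      (∀ b : (s34_md_B0 P K₁ (N₁ * q) tL).toSubring, b ∉ 𝔪 →
        (algebraMap (s18_A1 P K₁) (s18_F1 K₁ (N₁ * q)) π)⁻¹ * (b : s18_F1 K₁ (N₁ * q)) ∉
          s34_md_V1 P K₁ (N₁ * q) ∧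
        (algebraMap (s18_A1 P K₁) (s18_F1 K₁ (N₁ * q)) π)⁻¹ * (b : s18_F1 K₁ (N₁ * q)) ∉
          s34_md_V2 P K₁ (N₁ * q) W) →
      s35_nis_Node (algebraMap (s18_A1 P K₁) (s18_F1 K₁ (N₁ * q)) π)
        (s34_md_B0 P K₁ (N₁ * q) tL).toSubring (s34_md_V1 P K₁ (N₁ * q))
        (s34_md_V2 P K₁ (N₁ * q) W) s (q ^ 2) hsB0 𝔪) ∧
    (∀ 𝔪 : Ideal (s34_md_Binf P K₁ (N₁ * q) tL).toSubring, 𝔪.IsMaximal →
      (⟨algebraMap (s18_A1 P K₁) (s18_F1 K₁ (N₁ * q)) π,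
        (s34_md_Binf P K₁ (N₁ * q) tL).algebraMap_mem π⟩ :
          (s34_md_Binf P K₁ (N₁ * q) tL).toSubring) ∈ 𝔪 →
      (∀ b : (s34_md_Binf P K₁ (N₁ * q) tL).toSubring, b ∉ 𝔪 →
        (algebraMap (s18_A1 P K₁) (s18_F1 K₁ (N₁ * q)) π)⁻¹ * (b : s18_F1 K₁ (N₁ * q)) ∉
          s34_md_V1 P K₁ (N₁ * q) ∧
        (algebraMap (s18_A1 P K₁) (s18_F1 K₁ (N₁ * q)) π)⁻¹ * (b : s18_F1 K₁ (N₁ * q)) ∉
          s34_md_V2 P K₁ (N₁ * q) W) →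
      s35_nis_Node (algebraMap (s18_A1 P K₁) (s18_F1 K₁ (N₁ * q)) π)
        (s34_md_Binf P K₁ (N₁ * q) tL).toSubring (s34_md_V1 P K₁ (N₁ * q))
        (s34_md_V2 P K₁ (N₁ * q) W) s (q ^ 2) hsBi 𝔪) := by
  have : NeZero q := ⟨(Fact.out : q.Prime).ne_zero⟩
  have : NumberField K₁ := { to_charZero := inferInstance, to_finiteDimensional := inferInstance }
  obtain ⟨hWα, hWβ, hWW, -, -⟩ := hW
  rcases htL with ⟨h, h2⟩ | ⟨h, h3⟩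
  · obtain rfl : tL = s18_cz_t2 (N₁ * q) (dvd_mul_of_dvd_left h2 q) := Subtype.ext h
    have hqM : q ≠ 2 := fun h => hqN (h ▸ h2)
    exact s35_nis_model_coord N₁ q P hP K₁ hqN 2 hqM h2 (Or.inl h2) hπ (s18_cz_t2 N₁ h2)
      (s18_cz_t2 (N₁ * q) (dvd_mul_of_dvd_left h2 q)) rfl (s18_cz_coord_t2 N₁ q h2 hqM)
      (s34_lc_twoChart_t2 N₁ P hP K₁ hqN h2 π hπ)
      (s18_ch_pkg_t2 (s18_a1_ell P hP K₁) hqN h2 π hπ)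
      (s34_ws_isHaupt_t2 (N₁ * q) K₁ (dvd_mul_of_dvd_left h2 q))
      s18_t2 s18_t2inv (s18_cz_hT_t2 N₁ h2) (s18_cz_hT_t2_inv N₁ h2) (-1) 1 (by decide)
      one_ne_zero s18_cz_isLeading_t2 s18_cz_isLeading_t2inv
      (W : s18_F1 K₁ (N₁ * q) ≃+* s18_F1 K₁ (N₁ * q)) (fun c => W.commutes c) hWα hWβ hWW
      h01 h02 hi1 hi2 ζ hζ γ hγ s hs hsB0 hsBi
  · obtain rfl : tL = s18_cz_t3 (N₁ * q) (dvd_mul_of_dvd_left h3 q) := Subtype.ext h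
    have hqM : q ≠ 3 := fun h => hqN (h ▸ h3)
    exact s35_nis_model_coord N₁ q P hP K₁ hqN 3 hqM h3 (Or.inr h3) hπ (s18_cz_t3 N₁ h3)
      (s18_cz_t3 (N₁ * q) (dvd_mul_of_dvd_left h3 q)) rfl (s18_cz_coord_t3 N₁ q h3 hqM)
      (s34_lc_twoChart_t3 N₁ P hP K₁ hqN h3 π hπ)
      (s18_ch_pkg_t3 (s18_a1_ell P hP K₁) hqN h3 π hπ)
      (s34_ws_isHaupt_t3 (N₁ * q) K₁ (dvd_mul_of_dvd_left h3 q))
      s18_t3 s18_t3inv (s18_cz_hT_t3 N₁ h3) (s18_cz_hT_t3_inv N₁ h3) (-1) 1 (by decide)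
      one_ne_zero s18_cz_isLeading_t3 s18_cz_isLeading_t3inv
      (W : s18_F1 K₁ (N₁ * q) ≃+* s18_F1 K₁ (N₁ * q)) (fun c => W.commutes c) hWα hWβ hWW
      h01 h02 hi1 hi2 ζ hζ γ hγ s hs hsB0 hsBi

end Fermat.Agent.S35
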