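import Mathlib
import Fermat.Agent.S35.ModCore
import Fermat.Agent.S35.NodeFrobG
import Fermat.Agent.S35.FrobChain

/-!
# S35, block (MOD), second entry point: the power statement from the Frobenius-chain data

`s35_pow_of_fc` : the twin of `s35_pow_of_model` (PowModel.lean) in which the inputs of the
Frobenius chain `s35_fc_data` (swap, constants, norm, norm relations) are replaced by its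
OUTPUT `hFC` (`Ψ, Φa, Φb, κa, κb` with `H ≡ 1`), for an automorphism `s` with `s = σ₁ ∘ σ₁`.
Everything else (charts, `σ₁`, smooth points, crossing points) is verbatim as in
`s35_pow_of_model`.
-/

set_option autoImplicit false
set_option synthInstance.maxHeartbeats 400000

open ModularCurve AlgebraicCurve

noncomputable section

namespace Fermat.Agent.S35

open Fermat.Agent.S18 Fermat.Agent.S34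

set_option maxHeartbeats 4000000 in
/-- **(MOD)**, second entry point: the power statement (F'-pow) at level `L` from the nodal model
over `K₁` and the output `hFC` of the Frobenius chain `s35_fc_data` (for `s = σ₁ ∘ σ₁`,
`Q = q²`, `Vi = V₁`, `V0 = V₂`, `g = g₁`); the constants `κa, κb` lie in a subring `C` of both
charts. -/
theorem s35_pow_of_fc (L : ℕ) [NeZero L] (A : ValuationSubring (AlgebraicClosure ℚ))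
    (K₁ : IntermediateField ℚ (AlgebraicClosure ℚ)) [IsDiscreteValuationRing (s18_A1 A K₁)]
    {π : s18_A1 A K₁} (hπ : Irreducible π)
    {t : s18_F1 K₁ L} {B0 Binf : Subalgebra (s18_A1 A K₁) (s18_F1 K₁ L)}
    (V₁ V₂ : Subring (s18_F1 K₁ L))
    (hV₁ : s34_Unif (algebraMap (s18_A1 A K₁) (s18_F1 K₁ L) π) V₁)
    (hV₂ : s34_Unif (algebraMap (s18_A1 A K₁) (s18_F1 K₁ L) π) V₂)
    (hB0₁ : B0.toSubring ≤ V₁) (hB0₂ : B0.toSubring ≤ V₂)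
    (hBi₁ : Binf.toSubring ≤ V₁) (hBi₂ : Binf.toSubring ≤ V₂)
    (hcap0 : ∀ x ∈ B0.toSubring, (algebraMap (s18_A1 A K₁) (s18_F1 K₁ L) π)⁻¹ * x ∈ V₁ →
      (algebraMap (s18_A1 A K₁) (s18_F1 K₁ L) π)⁻¹ * x ∈ V₂ →
      (algebraMap (s18_A1 A K₁) (s18_F1 K₁ L) π)⁻¹ * x ∈ B0.toSubring)
    (hcapi : ∀ x ∈ Binf.toSubring, (algebraMap (s18_A1 A K₁) (s18_F1 K₁ L) π)⁻¹ * x ∈ V₁ →
      (algebraMap (s18_A1 A K₁) (s18_F1 K₁ L) π)⁻¹ * x ∈ V₂ →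
      (algebraMap (s18_A1 A K₁) (s18_F1 K₁ L) π)⁻¹ * x ∈ Binf.toSubring)
    (noeth0 : IsNoetherianRing B0.toSubring) (noethi : IsNoetherianRing Binf.toSubring)
    (frac0 : ∀ x : s18_F1 K₁ L, ∃ a ∈ B0.toSubring, ∃ b ∈ B0.toSubring, b ≠ 0 ∧ x = a / b)
    (fraci : ∀ x : s18_F1 K₁ L, ∃ a ∈ Binf.toSubring, ∃ b ∈ Binf.toSubring, b ≠ 0 ∧ x = a / b)
    (t_ne : t ≠ 0) (t_mem : t ∈ B0) (tinv_mem : t⁻¹ ∈ Binf)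
    (glue0 : ∀ x ∈ B0, ∃ k : ℕ, t⁻¹ ^ k * x ∈ Binf)
    (glueInf : ∀ x ∈ Binf, ∃ k : ℕ, t ^ k * x ∈ B0)
    (h1 : ∃ c₁ : ℕ, ∀ c, c₁ ≤ c → ∀ x ∈ B0, ∀ k : ℕ,
      ∃ a ∈ B0, ∃ b ∈ Binf, t⁻¹ ^ k * x = a + t ^ c * b)
    (fin : ∀ c : ℕ, ∃ s : Finset (s18_F1 K₁ L), ∀ x ∈ B0, t⁻¹ ^ c * x ∈ Binf →
      x ∈ Submodule.span (s18_A1 A K₁) (s : Set (s18_F1 K₁ L)))
    (m : ℕ) (hm0 : 0 < m) (hmu : IsUnit ((m : ℕ) : s18_A1 A K₁))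
    (hroot0 : ∀ z : s18_F1 K₁ L, z ^ m ∈ B0.toSubring → z ∈ B0.toSubring)
    (hrooti : ∀ z : s18_F1 K₁ L, z ^ m ∈ Binf.toSubring → z ∈ Binf.toSubring)
    -- the Frobenius lift and its coefficientwise action
    (γ : AlgebraicClosure ℚ ≃ₐ[ℚ] AlgebraicClosure ℚ)
    (σ₁ : s18_F1 K₁ L ≃+* s18_F1 K₁ L)
    (hσ₁ : ∀ x : s18_F1 K₁ L, s18_baseIncl K₁ L (σ₁ x) =
      arithmeticGalois (modularFunctionFieldFull L) γ • s18_baseIncl K₁ L x)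
    (hσB0 : ∀ x ∈ B0.toSubring, σ₁ x ∈ B0.toSubring)
    (hσBi : ∀ x ∈ Binf.toSubring, σ₁ x ∈ Binf.toSubring)
    (hσπ : ∃ c : s18_A1 A K₁, IsUnit c ∧
      σ₁ (algebraMap (s18_A1 A K₁) (s18_F1 K₁ L) π) =
        algebraMap (s18_A1 A K₁) (s18_F1 K₁ L) c * algebraMap (s18_A1 A K₁) (s18_F1 K₁ L) π)
    (hT1₁ : ∀ x : s18_F1 K₁ L, x ≠ 0 → σ₁ x / x ∈ V₁ ∧ x / σ₁ x ∈ V₁)
    (hT1₂ : ∀ x : s18_F1 K₁ L, x ≠ 0 → σ₁ x / x ∈ V₂ ∧ x / σ₁ x ∈ V₂)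
    -- `s = σ₁ ∘ σ₁`
    (s : s18_F1 K₁ L ≃+* s18_F1 K₁ L) (hs : ∀ x, s x = σ₁ (σ₁ x))
    -- the constants
    (C : Subring (s18_F1 K₁ L)) (hCB0 : C ≤ B0.toSubring) (hCBi : C ≤ Binf.toSubring)
    (q : ℕ)
    -- the function
    (g₁ : s18_F1 K₁ L) (hg₁ : g₁ ≠ 0)
    (hdivg : ∀ P : Place (AlgebraicClosure ℚ) (modularFunctionFieldBar L),
      (m : ℤ) ∣ P.ord (s18_baseIncl K₁ L g₁))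
    -- the output of the Frobenius chain `s35_fc_data`
    (hFC : ∃ Ψ Φa Φb κa κb : s18_F1 K₁ L,
      (Ψ ≠ 0 ∧ Ψ ∈ V₁ ⊓ V₂ ∧ Ψ⁻¹ ∈ V₁ ⊓ V₂) ∧
      (Φa ≠ 0 ∧ Φa ∈ V₁ ∧ Φa⁻¹ ∈ V₁) ∧ (Φb ≠ 0 ∧ Φb ∈ V₂ ∧ Φb⁻¹ ∈ V₂) ∧
      (κa ≠ 0 ∧ κa ∈ C ∧ κa⁻¹ ∈ C) ∧ (κb ≠ 0 ∧ κb ∈ C ∧ κb⁻¹ ∈ C) ∧
      (algebraMap (s18_A1 A K₁) (s18_F1 K₁ L) π)⁻¹ *
        (s (s g₁) * g₁ / (s g₁) ^ 2 - κa * Φa ^ m) ∈ V₁ ∧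
      (algebraMap (s18_A1 A K₁) (s18_F1 K₁ L) π)⁻¹ *
        (s (s g₁) * g₁ / (s g₁) ^ 2 - κb * Φb ^ m) ∈ V₂ ∧
      (algebraMap (s18_A1 A K₁) (s18_F1 K₁ L) π)⁻¹ * (Ψ - s Φa / Φa ^ (q ^ 2)) ∈ V₁ ∧
      (algebraMap (s18_A1 A K₁) (s18_F1 K₁ L) π)⁻¹ * (Ψ - s Φb / Φb ^ (q ^ 2)) ∈ V₂ ∧
      (algebraMap (s18_A1 A K₁) (s18_F1 K₁ L) π)⁻¹ * (s (s (s g₁) * g₁ / (s g₁) ^ 2) /
        ((s (s g₁) * g₁ / (s g₁) ^ 2) ^ (q ^ 2) * Ψ ^ m) - 1) ∈ V₁ ⊓ V₂)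
    -- regularity at the smooth points
    (hsm0 : ∀ f : B0.toSubring,
      ((algebraMap (s18_A1 A K₁) (s18_F1 K₁ L) π)⁻¹ * (f : s18_F1 K₁ L) ∈ V₁ ∨
        (algebraMap (s18_A1 A K₁) (s18_F1 K₁ L) π)⁻¹ * (f : s18_F1 K₁ L) ∈ V₂) →
      ∀ 𝔫 : Ideal (s34_away B0.toSubring (f : s18_F1 K₁ L) f.2), 𝔫.IsMaximal →
      (⟨algebraMap (s18_A1 A K₁) (s18_F1 K₁ L) π,
        s34_le_away B0.toSubring (f : s18_F1 K₁ L) f.2 (B0.algebraMap_mem π)⟩ :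
        s34_away B0.toSubring (f : s18_F1 K₁ L) f.2) ∈ 𝔫 →
      ∃ s ∈ 𝔫, ∀ x ∈ 𝔫, ∃ u, u ∉ 𝔫 ∧ u * x ∈ Ideal.span
        {(⟨algebraMap (s18_A1 A K₁) (s18_F1 K₁ L) π,
          s34_le_away B0.toSubring (f : s18_F1 K₁ L) f.2 (B0.algebraMap_mem π)⟩ :
          s34_away B0.toSubring (f : s18_F1 K₁ L) f.2), s})
    (hsmi : ∀ f : Binf.toSubring,
      ((algebraMap (s18_A1 A K₁) (s18_F1 K₁ L) π)⁻¹ * (f : s18_F1 K₁ L) ∈ V₁ ∨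
        (algebraMap (s18_A1 A K₁) (s18_F1 K₁ L) π)⁻¹ * (f : s18_F1 K₁ L) ∈ V₂) →
      ∀ 𝔫 : Ideal (s34_away Binf.toSubring (f : s18_F1 K₁ L) f.2), 𝔫.IsMaximal →
      (⟨algebraMap (s18_A1 A K₁) (s18_F1 K₁ L) π,
        s34_le_away Binf.toSubring (f : s18_F1 K₁ L) f.2 (Binf.algebraMap_mem π)⟩ :
        s34_away Binf.toSubring (f : s18_F1 K₁ L) f.2) ∈ 𝔫 →
      ∃ s ∈ 𝔫, ∀ x ∈ 𝔫, ∃ u, u ∉ 𝔫 ∧ u * x ∈ Ideal.span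
        {(⟨algebraMap (s18_A1 A K₁) (s18_F1 K₁ L) π,
          s34_le_away Binf.toSubring (f : s18_F1 K₁ L) f.2 (Binf.algebraMap_mem π)⟩ :
          s34_away Binf.toSubring (f : s18_F1 K₁ L) f.2), s})
    -- the crossing points: a function carrying the horizontal divisor of `g₁`
    (hG0 : ∀ 𝔪 : Ideal B0.toSubring, 𝔪.IsMaximal →
      (⟨algebraMap (s18_A1 A K₁) (s18_F1 K₁ L) π, B0.algebraMap_mem π⟩ : B0.toSubring) ∈ 𝔪 →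
      (∀ s : B0.toSubring, s ∉ 𝔪 →
        (algebraMap (s18_A1 A K₁) (s18_F1 K₁ L) π)⁻¹ * (s : s18_F1 K₁ L) ∉ V₁ ∧
        (algebraMap (s18_A1 A K₁) (s18_F1 K₁ L) π)⁻¹ * (s : s18_F1 K₁ L) ∉ V₂) →
      ∃ G : s18_F1 K₁ L, G ≠ 0 ∧
        ∀ 𝔮 : Ideal B0.toSubring, 𝔮.IsPrime → 𝔮 ≤ 𝔪 →
          (⟨algebraMap (s18_A1 A K₁) (s18_F1 K₁ L) π, B0.algebraMap_mem π⟩ : B0.toSubring) ∉ 𝔮 →
          g₁ * (G⁻¹) ^ m ∈ s18_loc B0.toSubring 𝔮 ∧ G ^ m * g₁⁻¹ ∈ s18_loc B0.toSubring 𝔮)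
    (hGi : ∀ 𝔪 : Ideal Binf.toSubring, 𝔪.IsMaximal →
      (⟨algebraMap (s18_A1 A K₁) (s18_F1 K₁ L) π, Binf.algebraMap_mem π⟩ : Binf.toSubring) ∈ 𝔪 →
      (∀ s : Binf.toSubring, s ∉ 𝔪 →
        (algebraMap (s18_A1 A K₁) (s18_F1 K₁ L) π)⁻¹ * (s : s18_F1 K₁ L) ∉ V₁ ∧
        (algebraMap (s18_A1 A K₁) (s18_F1 K₁ L) π)⁻¹ * (s : s18_F1 K₁ L) ∉ V₂) →
      ∃ G : s18_F1 K₁ L, G ≠ 0 ∧
        ∀ 𝔮 : Ideal Binf.toSubring, 𝔮.IsPrime → 𝔮 ≤ 𝔪 →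
          (⟨algebraMap (s18_A1 A K₁) (s18_F1 K₁ L) π, Binf.algebraMap_mem π⟩ :
            Binf.toSubring) ∉ 𝔮 →
          g₁ * (G⁻¹) ^ m ∈ s18_loc Binf.toSubring 𝔮 ∧
            G ^ m * g₁⁻¹ ∈ s18_loc Binf.toSubring 𝔮)
    -- the crossing points: the parameters `x`, `y` and the Frobenius property of `s = σ₁ ∘ σ₁`
    (hx0 : ∀ 𝔪 : Ideal B0.toSubring, 𝔪.IsMaximal →
      (⟨algebraMap (s18_A1 A K₁) (s18_F1 K₁ L) π, B0.algebraMap_mem π⟩ : B0.toSubring) ∈ 𝔪 →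
      (∀ b : B0.toSubring, b ∉ 𝔪 →
        (algebraMap (s18_A1 A K₁) (s18_F1 K₁ L) π)⁻¹ * (b : s18_F1 K₁ L) ∉ V₁ ∧
        (algebraMap (s18_A1 A K₁) (s18_F1 K₁ L) π)⁻¹ * (b : s18_F1 K₁ L) ∉ V₂) →
      ∃ x : B0.toSubring, (algebraMap (s18_A1 A K₁) (s18_F1 K₁ L) π)⁻¹ * (x : s18_F1 K₁ L) ∈ V₂ ∧
        (algebraMap (s18_A1 A K₁) (s18_F1 K₁ L) π)⁻¹ * (x : s18_F1 K₁ L) ∉ V₁ ∧
        ∀ z ∈ 𝔪, ∃ r u : B0.toSubring, u ∉ 𝔪 ∧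
          (algebraMap (s18_A1 A K₁) (s18_F1 K₁ L) π)⁻¹ * ((u * z - x * r : B0.toSubring) : s18_F1 K₁ L) ∈ V₁)
    (hy0 : ∀ 𝔪 : Ideal B0.toSubring, 𝔪.IsMaximal →
      (⟨algebraMap (s18_A1 A K₁) (s18_F1 K₁ L) π, B0.algebraMap_mem π⟩ : B0.toSubring) ∈ 𝔪 →
      (∀ b : B0.toSubring, b ∉ 𝔪 →
        (algebraMap (s18_A1 A K₁) (s18_F1 K₁ L) π)⁻¹ * (b : s18_F1 K₁ L) ∉ V₁ ∧
        (algebraMap (s18_A1 A K₁) (s18_F1 K₁ L) π)⁻¹ * (b : s18_F1 K₁ L) ∉ V₂) →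
      ∃ y : B0.toSubring, (algebraMap (s18_A1 A K₁) (s18_F1 K₁ L) π)⁻¹ * (y : s18_F1 K₁ L) ∈ V₁ ∧
        (algebraMap (s18_A1 A K₁) (s18_F1 K₁ L) π)⁻¹ * (y : s18_F1 K₁ L) ∉ V₂ ∧
        ∀ z ∈ 𝔪, ∃ r u : B0.toSubring, u ∉ 𝔪 ∧
          (algebraMap (s18_A1 A K₁) (s18_F1 K₁ L) π)⁻¹ * ((u * z - y * r : B0.toSubring) : s18_F1 K₁ L) ∈ V₂)
    (hsQ0 : ∀ 𝔪 : Ideal B0.toSubring, 𝔪.IsMaximal →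
      (⟨algebraMap (s18_A1 A K₁) (s18_F1 K₁ L) π, B0.algebraMap_mem π⟩ : B0.toSubring) ∈ 𝔪 →
      (∀ b : B0.toSubring, b ∉ 𝔪 →
        (algebraMap (s18_A1 A K₁) (s18_F1 K₁ L) π)⁻¹ * (b : s18_F1 K₁ L) ∉ V₁ ∧
        (algebraMap (s18_A1 A K₁) (s18_F1 K₁ L) π)⁻¹ * (b : s18_F1 K₁ L) ∉ V₂) →
      ∀ b : B0.toSubring,
        (⟨σ₁ (σ₁ (b : s18_F1 K₁ L)), hσB0 _ (hσB0 _ b.2)⟩ - b ^ (q ^ 2) : B0.toSubring) ∈ 𝔪)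
    (hxi : ∀ 𝔪 : Ideal Binf.toSubring, 𝔪.IsMaximal →
      (⟨algebraMap (s18_A1 A K₁) (s18_F1 K₁ L) π, Binf.algebraMap_mem π⟩ : Binf.toSubring) ∈ 𝔪 →
      (∀ b : Binf.toSubring, b ∉ 𝔪 →
        (algebraMap (s18_A1 A K₁) (s18_F1 K₁ L) π)⁻¹ * (b : s18_F1 K₁ L) ∉ V₁ ∧
        (algebraMap (s18_A1 A K₁) (s18_F1 K₁ L) π)⁻¹ * (b : s18_F1 K₁ L) ∉ V₂) →
      ∃ x : Binf.toSubring, (algebraMap (s18_A1 A K₁) (s18_F1 K₁ L) π)⁻¹ * (x : s18_F1 K₁ L) ∈ V₂ ∧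
        (algebraMap (s18_A1 A K₁) (s18_F1 K₁ L) π)⁻¹ * (x : s18_F1 K₁ L) ∉ V₁ ∧
        ∀ z ∈ 𝔪, ∃ r u : Binf.toSubring, u ∉ 𝔪 ∧
          (algebraMap (s18_A1 A K₁) (s18_F1 K₁ L) π)⁻¹ * ((u * z - x * r : Binf.toSubring) : s18_F1 K₁ L) ∈ V₁)
    (hyi : ∀ 𝔪 : Ideal Binf.toSubring, 𝔪.IsMaximal →
      (⟨algebraMap (s18_A1 A K₁) (s18_F1 K₁ L) π, Binf.algebraMap_mem π⟩ : Binf.toSubring) ∈ 𝔪 →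
      (∀ b : Binf.toSubring, b ∉ 𝔪 →
        (algebraMap (s18_A1 A K₁) (s18_F1 K₁ L) π)⁻¹ * (b : s18_F1 K₁ L) ∉ V₁ ∧
        (algebraMap (s18_A1 A K₁) (s18_F1 K₁ L) π)⁻¹ * (b : s18_F1 K₁ L) ∉ V₂) →
      ∃ y : Binf.toSubring, (algebraMap (s18_A1 A K₁) (s18_F1 K₁ L) π)⁻¹ * (y : s18_F1 K₁ L) ∈ V₁ ∧
        (algebraMap (s18_A1 A K₁) (s18_F1 K₁ L) π)⁻¹ * (y : s18_F1 K₁ L) ∉ V₂ ∧
        ∀ z ∈ 𝔪, ∃ r u : Binf.toSubring, u ∉ 𝔪 ∧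
          (algebraMap (s18_A1 A K₁) (s18_F1 K₁ L) π)⁻¹ * ((u * z - y * r : Binf.toSubring) : s18_F1 K₁ L) ∈ V₂)
    (hsQi : ∀ 𝔪 : Ideal Binf.toSubring, 𝔪.IsMaximal →
      (⟨algebraMap (s18_A1 A K₁) (s18_F1 K₁ L) π, Binf.algebraMap_mem π⟩ : Binf.toSubring) ∈ 𝔪 →
      (∀ b : Binf.toSubring, b ∉ 𝔪 →
        (algebraMap (s18_A1 A K₁) (s18_F1 K₁ L) π)⁻¹ * (b : s18_F1 K₁ L) ∉ V₁ ∧
        (algebraMap (s18_A1 A K₁) (s18_F1 K₁ L) π)⁻¹ * (b : s18_F1 K₁ L) ∉ V₂) →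
      ∀ b : Binf.toSubring,
        (⟨σ₁ (σ₁ (b : s18_F1 K₁ L)), hσBi _ (hσBi _ b.2)⟩ - b ^ (q ^ 2) : Binf.toSubring) ∈ 𝔪) :
    ∃ x : modularFunctionFieldBar L,
      x ^ m = s35_fp_mul (arithmeticGalois (modularFunctionFieldFull L) γ)
        [(q : ℤ), -(q : ℤ), 1, -1, 1, -1] (s18_baseIncl K₁ L g₁) := by
  classical
  have hϖ0 : (algebraMap (s18_A1 A K₁) (s18_F1 K₁ L) π) ≠ 0 := hV₁.ne_zero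
  -- the Frobenius chain
  obtain ⟨Ψ, Φa, Φb, κa, κb, hΨ, hΦa, hΦb, hκa, hκb, hu₁, hu₂, hΨ₁, hΨ₂, hh1⟩ := hFC
  -- the unit `c` with `σ₁ ϖ = c ϖ`
  obtain ⟨c, hcu, hcσ⟩ := hσπ
  obtain ⟨c', hc'⟩ := hcu.exists_right_inv
  have hcc' : algebraMap (s18_A1 A K₁) (s18_F1 K₁ L) c *
      algebraMap (s18_A1 A K₁) (s18_F1 K₁ L) c' = 1 := by
    rw [← map_mul, hc', map_one]
  have hcinv : (algebraMap (s18_A1 A K₁) (s18_F1 K₁ L) c)⁻¹ =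
      algebraMap (s18_A1 A K₁) (s18_F1 K₁ L) c' := (eq_inv_of_mul_eq_one_right hcc').symm
  -- `s ϖ = (σ₁ c · c) ϖ` in a chart
  have hsϖ : ∀ (B : Subalgebra (s18_A1 A K₁) (s18_F1 K₁ L))
      (hσB : ∀ x ∈ B.toSubring, σ₁ x ∈ B.toSubring),
      ∃ d ∈ B.toSubring, d⁻¹ ∈ B.toSubring ∧
        s (algebraMap (s18_A1 A K₁) (s18_F1 K₁ L) π) =
          d * algebraMap (s18_A1 A K₁) (s18_F1 K₁ L) π := by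
    intro B hσB
    refine ⟨σ₁ (algebraMap (s18_A1 A K₁) (s18_F1 K₁ L) c) *
      algebraMap (s18_A1 A K₁) (s18_F1 K₁ L) c, ?_, ?_, ?_⟩
    · exact B.toSubring.mul_mem (hσB _ (B.algebraMap_mem c)) (B.algebraMap_mem c)
    · rw [mul_inv, ← map_inv₀, hcinv]
      exact B.toSubring.mul_mem (hσB _ (B.algebraMap_mem c')) (B.algebraMap_mem c')
    · rw [hs, hcσ, map_mul, hcσ]
      ring
  -- `(T1)` for `s`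
  have hT1s₁ : ∀ x : s18_F1 K₁ L, x ≠ 0 → s x / x ∈ V₁ ∧ x / s x ∈ V₁ := fun x hx => by
    rw [hs]; exact s35_fc_T1_sq σ₁ hT1₁ x hx
  have hT1s₂ : ∀ x : s18_F1 K₁ L, x ≠ 0 → s x / x ∈ V₂ ∧ x / s x ∈ V₂ := fun x hx => by
    rw [hs]; exact s35_fc_T1_sq σ₁ hT1₂ x hx
  -- the function `H` in the shape of `s35_mc_core`
  have hσg : σ₁ g₁ ≠ 0 := (map_ne_zero σ₁).mpr hg₁
  have hσσg : σ₁ (σ₁ g₁) ≠ 0 := (map_ne_zero σ₁).mpr hσg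
  have hσ3 : σ₁ (σ₁ (σ₁ g₁)) ≠ 0 := (map_ne_zero σ₁).mpr hσσg
  have hσ4 : σ₁ (σ₁ (σ₁ (σ₁ g₁))) ≠ 0 := (map_ne_zero σ₁).mpr hσ3
  have eu : σ₁ (σ₁ (σ₁ (σ₁ g₁) / g₁)) / (σ₁ (σ₁ g₁) / g₁) =
      s (s g₁) * g₁ / (s g₁) ^ 2 := by
    simp only [hs, map_div₀]
    field_simp
  have eH : s35_mc_mul σ₁ [(q : ℤ), -(q : ℤ), 1, -1, 1, -1] g₁ / Ψ ^ m =
      s (s (s g₁) * g₁ / (s g₁) ^ 2) /
        ((s (s g₁) * g₁ / (s g₁) ^ 2) ^ (q ^ 2) * Ψ ^ m) := by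
    rw [s35_mc_six σ₁ q g₁ hg₁, eu, div_div, hs (s (s g₁) * g₁ / (s g₁) ^ 2)]
  -- point data in a chart
  have hpts : ∀ (B : Subalgebra (s18_A1 A K₁) (s18_F1 K₁ L)) (hB₁ : B.toSubring ≤ V₁)
      (hB₂ : B.toSubring ≤ V₂)
      (hcap : ∀ x ∈ B.toSubring, (algebraMap (s18_A1 A K₁) (s18_F1 K₁ L) π)⁻¹ * x ∈ V₁ →
        (algebraMap (s18_A1 A K₁) (s18_F1 K₁ L) π)⁻¹ * x ∈ V₂ →
        (algebraMap (s18_A1 A K₁) (s18_F1 K₁ L) π)⁻¹ * x ∈ B.toSubring)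
      (noeth : IsNoetherianRing B.toSubring)
      (frac : ∀ x : s18_F1 K₁ L, ∃ a ∈ B.toSubring, ∃ b ∈ B.toSubring, b ≠ 0 ∧ x = a / b)
      (hroot : ∀ z : s18_F1 K₁ L, z ^ m ∈ B.toSubring → z ∈ B.toSubring)
      (hσB : ∀ x ∈ B.toSubring, σ₁ x ∈ B.toSubring)
      (hCB : C ≤ B.toSubring)
      (hsm : ∀ f : B.toSubring,
        ((algebraMap (s18_A1 A K₁) (s18_F1 K₁ L) π)⁻¹ * (f : s18_F1 K₁ L) ∈ V₁ ∨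
          (algebraMap (s18_A1 A K₁) (s18_F1 K₁ L) π)⁻¹ * (f : s18_F1 K₁ L) ∈ V₂) →
        ∀ 𝔫 : Ideal (s34_away B.toSubring (f : s18_F1 K₁ L) f.2), 𝔫.IsMaximal →
        (⟨algebraMap (s18_A1 A K₁) (s18_F1 K₁ L) π,
          s34_le_away B.toSubring (f : s18_F1 K₁ L) f.2 (B.algebraMap_mem π)⟩ :
          s34_away B.toSubring (f : s18_F1 K₁ L) f.2) ∈ 𝔫 →
        ∃ s ∈ 𝔫, ∀ x ∈ 𝔫, ∃ u, u ∉ 𝔫 ∧ u * x ∈ Ideal.span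
          {(⟨algebraMap (s18_A1 A K₁) (s18_F1 K₁ L) π,
            s34_le_away B.toSubring (f : s18_F1 K₁ L) f.2 (B.algebraMap_mem π)⟩ :
            s34_away B.toSubring (f : s18_F1 K₁ L) f.2), s})
      (hG : ∀ 𝔪 : Ideal B.toSubring, 𝔪.IsMaximal →
        (⟨algebraMap (s18_A1 A K₁) (s18_F1 K₁ L) π, B.algebraMap_mem π⟩ : B.toSubring) ∈ 𝔪 →
        (∀ s : B.toSubring, s ∉ 𝔪 →
          (algebraMap (s18_A1 A K₁) (s18_F1 K₁ L) π)⁻¹ * (s : s18_F1 K₁ L) ∉ V₁ ∧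
          (algebraMap (s18_A1 A K₁) (s18_F1 K₁ L) π)⁻¹ * (s : s18_F1 K₁ L) ∉ V₂) →
        ∃ G : s18_F1 K₁ L, G ≠ 0 ∧
          ∀ 𝔮 : Ideal B.toSubring, 𝔮.IsPrime → 𝔮 ≤ 𝔪 →
            (⟨algebraMap (s18_A1 A K₁) (s18_F1 K₁ L) π, B.algebraMap_mem π⟩ : B.toSubring) ∉ 𝔮 →
            g₁ * (G⁻¹) ^ m ∈ s18_loc B.toSubring 𝔮 ∧ G ^ m * g₁⁻¹ ∈ s18_loc B.toSubring 𝔮)
      (hx : ∀ 𝔪 : Ideal B.toSubring, 𝔪.IsMaximal →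
        (⟨algebraMap (s18_A1 A K₁) (s18_F1 K₁ L) π, B.algebraMap_mem π⟩ : B.toSubring) ∈ 𝔪 →
        (∀ b : B.toSubring, b ∉ 𝔪 →
          (algebraMap (s18_A1 A K₁) (s18_F1 K₁ L) π)⁻¹ * (b : s18_F1 K₁ L) ∉ V₁ ∧
          (algebraMap (s18_A1 A K₁) (s18_F1 K₁ L) π)⁻¹ * (b : s18_F1 K₁ L) ∉ V₂) →
        ∃ x : B.toSubring, (algebraMap (s18_A1 A K₁) (s18_F1 K₁ L) π)⁻¹ * (x : s18_F1 K₁ L) ∈ V₂ ∧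
          (algebraMap (s18_A1 A K₁) (s18_F1 K₁ L) π)⁻¹ * (x : s18_F1 K₁ L) ∉ V₁ ∧
          ∀ z ∈ 𝔪, ∃ r u : B.toSubring, u ∉ 𝔪 ∧
            (algebraMap (s18_A1 A K₁) (s18_F1 K₁ L) π)⁻¹ * ((u * z - x * r : B.toSubring) : s18_F1 K₁ L) ∈ V₁)
      (hy : ∀ 𝔪 : Ideal B.toSubring, 𝔪.IsMaximal →
        (⟨algebraMap (s18_A1 A K₁) (s18_F1 K₁ L) π, B.algebraMap_mem π⟩ : B.toSubring) ∈ 𝔪 →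
        (∀ b : B.toSubring, b ∉ 𝔪 →
          (algebraMap (s18_A1 A K₁) (s18_F1 K₁ L) π)⁻¹ * (b : s18_F1 K₁ L) ∉ V₁ ∧
          (algebraMap (s18_A1 A K₁) (s18_F1 K₁ L) π)⁻¹ * (b : s18_F1 K₁ L) ∉ V₂) →
        ∃ y : B.toSubring, (algebraMap (s18_A1 A K₁) (s18_F1 K₁ L) π)⁻¹ * (y : s18_F1 K₁ L) ∈ V₁ ∧
          (algebraMap (s18_A1 A K₁) (s18_F1 K₁ L) π)⁻¹ * (y : s18_F1 K₁ L) ∉ V₂ ∧
          ∀ z ∈ 𝔪, ∃ r u : B.toSubring, u ∉ 𝔪 ∧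
            (algebraMap (s18_A1 A K₁) (s18_F1 K₁ L) π)⁻¹ * ((u * z - y * r : B.toSubring) : s18_F1 K₁ L) ∈ V₂)
      (hsQ : ∀ 𝔪 : Ideal B.toSubring, 𝔪.IsMaximal →
        (⟨algebraMap (s18_A1 A K₁) (s18_F1 K₁ L) π, B.algebraMap_mem π⟩ : B.toSubring) ∈ 𝔪 →
        (∀ b : B.toSubring, b ∉ 𝔪 →
          (algebraMap (s18_A1 A K₁) (s18_F1 K₁ L) π)⁻¹ * (b : s18_F1 K₁ L) ∉ V₁ ∧
          (algebraMap (s18_A1 A K₁) (s18_F1 K₁ L) π)⁻¹ * (b : s18_F1 K₁ L) ∉ V₂) →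
        ∀ b : B.toSubring,
          (⟨σ₁ (σ₁ (b : s18_F1 K₁ L)), hσB _ (hσB _ b.2)⟩ - b ^ (q ^ 2) : B.toSubring) ∈ 𝔪)
      (𝔪 : Ideal B.toSubring), 𝔪.IsMaximal →
      (⟨algebraMap (s18_A1 A K₁) (s18_F1 K₁ L) π, B.algebraMap_mem π⟩ : B.toSubring) ∈ 𝔪 →
      s34_PointData (algebraMap (s18_A1 A K₁) (s18_F1 K₁ L) π) B.toSubring (V₁ ⊓ V₂) m
        (s35_mc_mul σ₁ [(q : ℤ), -(q : ℤ), 1, -1, 1, -1] g₁ / Ψ ^ m) 𝔪 := by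
    intro B hB₁ hB₂ hcap noeth frac hroot hσB hCB hsm hG hx hy hsQ 𝔪 h𝔪 hϖ𝔪
    rw [eH]
    have hsB : ∀ x ∈ B.toSubring, s x ∈ B.toSubring := fun x hx => by
      rw [hs]; exact hσB _ (hσB _ hx)
    have hsQ' : ∀ 𝔪 : Ideal B.toSubring, 𝔪.IsMaximal →
        (⟨algebraMap (s18_A1 A K₁) (s18_F1 K₁ L) π, B.algebraMap_mem π⟩ : B.toSubring) ∈ 𝔪 →
        (∀ b : B.toSubring, b ∉ 𝔪 →
          (algebraMap (s18_A1 A K₁) (s18_F1 K₁ L) π)⁻¹ * (b : s18_F1 K₁ L) ∉ V₁ ∧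
          (algebraMap (s18_A1 A K₁) (s18_F1 K₁ L) π)⁻¹ * (b : s18_F1 K₁ L) ∉ V₂) →
        ∀ b : B.toSubring,
          (⟨s (b : s18_F1 K₁ L), hsB b b.2⟩ - b ^ (q ^ 2) : B.toSubring) ∈ 𝔪 := by
      intro 𝔪' h𝔪' hϖ𝔪' hcr b
      have e : (⟨s (b : s18_F1 K₁ L), hsB b b.2⟩ : B.toSubring) =
          ⟨σ₁ (σ₁ (b : s18_F1 K₁ L)), hσB _ (hσB _ b.2)⟩ := Subtype.ext (hs _)
      rw [e]
      exact hsQ 𝔪' h𝔪' hϖ𝔪' hcr b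
    exact s35_nfo_pts hV₁ hV₂ hB₁ hB₂ (B.algebraMap_mem π) hcap noeth frac m hm0 hroot hsm hx hy
      s (q ^ 2) hsB (hsϖ B hσB) hT1s₁ hT1s₂ hsQ' g₁ hg₁ hG
      Ψ Φa Φb κa κb hΦa.2.1 hΦa.2.2 hΦa.1 hΦb.2.1 hΦb.2.2 hΦb.1 (hCB hκa.2.1) (hCB hκa.2.2)
      (hCB hκb.2.1) (hCB hκb.2.2) hu₁ hu₂ hΨ₁ hΨ₂ hh1 𝔪 h𝔪 hϖ𝔪
  exact s35_mc_core L A K₁ hπ (V₁ ⊓ V₂) (fun x hx => ⟨hB0₁ hx, hB0₂ hx⟩)
    (fun x hx => ⟨hBi₁ hx, hBi₂ hx⟩) (fun x hx hxV => hcap0 x hx hxV.1 hxV.2)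
    (fun x hx hxV => hcapi x hx hxV.1 hxV.2) (fun x hx => s34_inf_one_add_inv hV₁ hV₂ x hx)
    frac0 t_ne t_mem tinv_mem glue0 glueInf h1 fin m hm0 hmu γ σ₁ hσ₁ q g₁ Ψ hg₁ hΨ.1 hdivg
    (by rw [eH]; exact hh1)
    (hpts B0 hB0₁ hB0₂ hcap0 noeth0 frac0 hroot0 hσB0 hCB0 hsm0 hG0 hx0 hy0 hsQ0)
    (hpts Binf hBi₁ hBi₂ hcapi noethi fraci hrooti hσBi hCBi hsmi hGi hxi hyi hsQi)

end Fermat.Agent.S35
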