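import Mathlib
import Fermat.Agent.S35.SigmaModel
import Fermat.Agent.S35.NormInst
import Fermat.Agent.S35.FrobChain
import Fermat.Agent.S34.GaussZeroInst

/-!
# S35 (NODE-2), (INST2) σ-glue: the (FC) data in the model

Setting of NODE-1's model (`ExtInst.lean`, `NormInst.lean`): `K` a field of constants with a
discrete valuation ring `A₁` (uniformizer `π`, residue characteristic `ℓ`), `F' = K · F(N)`,
`F = K · F(N ℓ)`, `α = heckeAlphaBar K N ℓ`, `β = heckeBetaBar K N ℓ`, `V∞ = s34_gi_V A₁ (N ℓ)`,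
`W` the swap, `V0 = V∞.comap W`, and `σK : K ≃ₐ[ℚ] K` a **Frobenius lift** (`σK A₁ = A₁`,
`σK a ≡ a ^ ℓ` modulo the maximal ideal), `σ₁ = arithmeticRingAut _ σK` its coefficientwise action.

* `s35_si_hNR` : the hypothesis `hNR` of `s35_fc_data` (general form, for all `h ∈ V∞ ⊓ V0`):
  `π⁻¹ (Nm h - h · σ₁ (W h)) ∈ V∞`, all `σ`-facts of `s35_ni_hNR` discharged by `SigmaModel`;
* `s35_si_fc` : `s35_fc_data` instantiated — from `g ≠ 0` and the two `K`-level norm relations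
  (shape of `s35_ck_main_nmAlong`) the literal conclusion of `s35_fc_data`;
* `s35_si_hne` : `V∞ ≠ V0`;
* `s35_si_fc_model` : the concrete version for `K₁ ⊆ Q̄`, `A₁ = P ∩ K₁`, `γ` a Frobenius element
  at `P`, `σ₁ = s34_gi_tau K₁ (N ℓ) γ`.
-/

set_option autoImplicit false
set_option linter.unusedSectionVars false
set_option linter.style.haveILetI false
set_option synthInstance.maxHeartbeats 400000

open ModularCurve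

open scoped Pointwise

noncomputable section

namespace Fermat.Agent.S35

open Fermat.Agent.S18 Fermat.Agent.S34

section Model

variable {K : Type*} [Field K] [Algebra ℚ K] [Algebra K (AlgebraicClosure ℚ)]
variable {A₁ : ValuationSubring K}
variable {N ℓ : ℕ} [NeZero N] [NeZero ℓ] [NeZero (N * ℓ)]
variable [IsDiscreteValuationRing A₁] {π : A₁}
variable [Fact ℓ.Prime] [CharP (IsLocalRing.ResidueField A₁) ℓ]

local notation "F'" => laurentBaseChange K (modularFunctionFieldFull N)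
local notation "FF" => laurentBaseChange K (modularFunctionFieldFull (N * ℓ))

set_option maxHeartbeats 1600000 in
/-- **`hNR` of `s35_fc_data` in the model** (general form): the norm–residue congruence for the
coefficientwise action of a Frobenius lift. -/
theorem s35_si_hNR (hM : 2 ∣ N ∨ 3 ∣ N) (hℓN : ¬ ℓ ∣ N)
    (hπ : Irreducible π) (hℓ : ((ℓ : K))⁻¹ ∉ A₁)
    (σK : K ≃ₐ[ℚ] K) (hσ : ∀ a : K, a ∈ A₁ → σK a ∈ A₁)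
    (hσ' : ∀ a : K, a ∈ A₁ → σK.symm a ∈ A₁)
    (hfr : ∀ a : K, a ∈ A₁ → σK a - a ^ ℓ ∈ A₁.nonunits)
    (W : FF ≃+* FF)
    (hWϖ : W (algebraMap K FF (π : K)) = algebraMap K FF (π : K))
    (hWα : ∀ x : F', W (heckeAlphaBar K N ℓ x) = heckeBetaBar K N ℓ x)
    (hWβ : ∀ x : F', W (heckeBetaBar K N ℓ x) = heckeAlphaBar K N ℓ x) :
    ∀ h : FF, h ∈ s34_gi_V A₁ (N * ℓ) → h ∈ (s34_gi_V A₁ (N * ℓ)).comap (W : FF →+* FF) →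
      (algebraMap K FF (π : K))⁻¹ *
        (s35_nmAlong (heckeAlphaBar K N ℓ).toRingHom h -
          h * arithmeticRingAut (modularFunctionFieldFull (N * ℓ)) σK (W h)) ∈
        s34_gi_V A₁ (N * ℓ) := by
  intro h hh₁ hh₂
  obtain ⟨c, hc⟩ := s34_gzi_ell_dvd hπ ℓ hℓ
  have hℓp : ℓ.Prime := Fact.out
  haveI : CharZero K := algebraRat.charZero K
  haveI : CharZero F' := charZero_of_injective_algebraMap (algebraMap K F').injective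
  have hιϖ : (heckeAlphaBar K N ℓ).toRingHom (algebraMap K F' (π : K)) =
      algebraMap K FF (π : K) := (heckeAlphaBar K N ℓ).commutes (π : K)
  -- uniformizers
  have hV'0 := s34_gi_unif (A₁ := A₁) (N := N) hπ
  have hV' : s35_Unif (algebraMap K F' (π : K)) (s34_gi_V A₁ N) :=
    ⟨hV'0.mem, hV'0.inv_not_mem, hV'0.decomp⟩
  have hV₁0 := s34_gi_unif (A₁ := A₁) (N := N * ℓ) hπ
  have hV₁ : s35_Unif ((heckeAlphaBar K N ℓ).toRingHom (algebraMap K F' (π : K)))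
      (s34_gi_V A₁ (N * ℓ)) := by
    rw [hιϖ]
    exact ⟨hV₁0.mem, hV₁0.inv_not_mem, hV₁0.decomp⟩
  have hV₂0 := s34_gz_V0_unif (A₁ := A₁) (N := N) (ℓ := ℓ) W hπ hWϖ
  have hV₂ : s35_Unif ((heckeAlphaBar K N ℓ).toRingHom (algebraMap K F' (π : K)))
      ((s34_gi_V A₁ (N * ℓ)).comap (W : FF →+* FF)) := by
    rw [hιϖ]
    exact ⟨hV₂0.mem, hV₂0.inv_not_mem, hV₂0.decomp⟩
  -- residue characteristic
  have hqϖ : (algebraMap K F' (π : K))⁻¹ * ((ℓ : ℕ) : F') ∈ s34_gi_V A₁ N := by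
    have h1 : ((ℓ : ℕ) : F') = algebraMap K F' (π : K) * algebraMap K F' (c : K) := by
      rw [← map_mul]
      have h2 : ((ℓ : ℕ) : K) = (π : K) * (c : K) := by
        have := congrArg (fun a : A₁ => (a : K)) hc
        simpa using this
      rw [← h2, map_natCast]
    rw [h1, inv_mul_cancel_left₀ hV'0.ne_zero]
    exact s34_gi_algebraMap_mem c
  -- (EXT) outputs
  obtain ⟨hint, hres⟩ := s34_ei_model_haupt (A₁ := A₁) hM hℓN hπ c hc W hWϖ hWα hWβ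
  -- the Frobenius congruence in the `W`-form
  have hFC' : ∀ y ∈ s34_gi_V A₁ N,
      ((heckeAlphaBar K N ℓ).toRingHom (algebraMap K F' (π : K)))⁻¹ *
        ((W : FF →+* FF) ((arithmeticRingAut (modularFunctionFieldFull (N * ℓ)) σK : FF →+* FF)
          ((heckeAlphaBar K N ℓ).toRingHom y)) - (heckeAlphaBar K N ℓ).toRingHom y ^ ℓ) ∈
          s34_gi_V A₁ (N * ℓ) := by
    intro y hy
    rw [hιϖ]
    have e : (W : FF →+* FF) ((arithmeticRingAut (modularFunctionFieldFull (N * ℓ)) σK :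
        FF →+* FF) ((heckeAlphaBar K N ℓ).toRingHom y)) =
        heckeBetaBar K N ℓ (arithmeticRingAut (modularFunctionFieldFull N) σK y) := by
      show W (arithmeticRingAut (modularFunctionFieldFull (N * ℓ)) σK (heckeAlphaBar K N ℓ y)) = _
      rw [s35_sg_alpha_sigma, hWα]
    rw [e]
    exact s35_sg_frob_beta hπ σK hσ hfr y hy
  have hfin := s35_nm_finrank K N ℓ hℓp hℓN
  have key := s35_nr_two (heckeAlphaBar K N ℓ).toRingHom ℓ hℓp hfin hV' hV₁ hV₂ hqϖ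
    (fun y hy => (s34_gz_alpha_mem_iff y).mpr hy)
    (fun y hy => (s34_gz_alpha_mem_V0_iff W hπ hWα y).mpr hy)
    hint (by rw [hιϖ]; exact hres) (W : FF →+* FF)
    (arithmeticRingAut (modularFunctionFieldFull (N * ℓ)) σK : FF →+* FF)
    (fun x => Iff.rfl) (by rw [hιϖ]; exact hWϖ)
    (fun x hx => s34_gi_tau_mem σK hσ hx)
    (by rw [hιϖ]; exact s35_sg_C_le_V (s35_sg_hφϖ hπ σK hσ hσ'))
    (arithmeticRingAut (modularFunctionFieldFull N) σK : F' →+* F')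
    (fun y => s35_sg_alpha_sigma σK y)
    (fun y hy => s34_gi_tau_mem σK hσ hy) hFC' hh₁ hh₂
  rw [hιϖ] at key
  exact key

set_option maxHeartbeats 1600000 in
/-- `V∞ ≠ V0` in the model. -/
theorem s35_si_hne (hM : 2 ∣ N ∨ 3 ∣ N) (hπ : Irreducible π) (hℓ : ((ℓ : K))⁻¹ ∉ A₁)
    (W : FF ≃ₐ[K] FF)
    (hWα : ∀ x : F', W (heckeAlphaBar K N ℓ x) = heckeBetaBar K N ℓ x)
    (hWβ : ∀ x : F', W (heckeBetaBar K N ℓ x) = heckeAlphaBar K N ℓ x) :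
    s34_gi_V A₁ (N * ℓ) ≠ (s34_gi_V A₁ (N * ℓ)).comap (W : FF →+* FF) := by
  have hWϖ : (W : FF ≃+* FF) (algebraMap K FF (π : K)) = algebraMap K FF (π : K) :=
    W.commutes _
  intro heq
  rcases hM with h2 | h3
  · obtain ⟨z, hz, hz'⟩ := s34_gzi_ne_t2 (W : FF ≃+* FF) hπ hℓ hWϖ hWα hWβ h2
    apply hz'
    have : z ∈ (s34_gi_V A₁ (N * ℓ)).comap (W : FF →+* FF) := heq ▸ hz
    exact this
  · obtain ⟨z, hz, hz'⟩ := s34_gzi_ne_t3 (W : FF ≃+* FF) hπ hℓ hWϖ hWα hWβ h3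
    apply hz'
    have : z ∈ (s34_gi_V A₁ (N * ℓ)).comap (W : FF →+* FF) := heq ▸ hz
    exact this

set_option maxHeartbeats 1600000 in
/-- **`s35_fc_data` instantiated in the model**: from `g ≠ 0` and the two norm relations over `K`
(shape of `s35_ck_main_nmAlong`), the (FC) data for the node lemma: every function-independent
hypothesis of `s35_fc_data` is discharged (`Vi = V∞`, `V0 = V∞.comap W`, `C = s35_sg_C A₁ (N ℓ)`,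
`Q = ℓ²`, `σ = σ₁`, `Nm = s35_nmAlong α`). -/
theorem s35_si_fc (hM : 2 ∣ N ∨ 3 ∣ N) (hℓN : ¬ ℓ ∣ N)
    (hπ : Irreducible π) (hℓ : ((ℓ : K))⁻¹ ∉ A₁)
    (σK : K ≃ₐ[ℚ] K) (hσ : ∀ a : K, a ∈ A₁ → σK a ∈ A₁)
    (hσ' : ∀ a : K, a ∈ A₁ → σK.symm a ∈ A₁)
    (hfr : ∀ a : K, a ∈ A₁ → σK a - a ^ ℓ ∈ A₁.nonunits)
    (W : FF ≃ₐ[K] FF)
    (hWα : ∀ x : F', W (heckeAlphaBar K N ℓ x) = heckeBetaBar K N ℓ x)
    (hWβ : ∀ x : F', W (heckeBetaBar K N ℓ x) = heckeAlphaBar K N ℓ x)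
    (hWW : ∀ x : FF, W (W x) = x)
    (hWσ : ∀ x : FF, W (arithmeticRingAut (modularFunctionFieldFull (N * ℓ)) σK x) =
      arithmeticRingAut (modularFunctionFieldFull (N * ℓ)) σK (W x))
    (s : FF ≃+* FF)
    (hs : ∀ x, s x = arithmeticRingAut (modularFunctionFieldFull (N * ℓ)) σK
      (arithmeticRingAut (modularFunctionFieldFull (N * ℓ)) σK x))
    (m : ℕ) (g : FF) (hg : g ≠ 0) (c₁ c₂ : K) (f₁ f₂ : F')
    (hc₁ : c₁ ≠ 0) (hc₂ : c₂ ≠ 0) (hf₁ : f₁ ≠ 0) (hf₂ : f₂ ≠ 0)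
    (hN₁ : s35_nmAlong (heckeAlphaBar K N ℓ).toRingHom g =
      algebraMap K FF c₁ * heckeAlphaBar K N ℓ f₁ ^ m)
    (hN₂ : s35_nmAlong (heckeAlphaBar K N ℓ).toRingHom (W g) =
      algebraMap K FF c₂ * heckeAlphaBar K N ℓ f₂ ^ m) :
    ∃ Ψ Φa Φb κa κb : FF,
      (Ψ ≠ 0 ∧ Ψ ∈ s34_gi_V A₁ (N * ℓ) ⊓ (s34_gi_V A₁ (N * ℓ)).comap (W : FF →+* FF) ∧
        Ψ⁻¹ ∈ s34_gi_V A₁ (N * ℓ) ⊓ (s34_gi_V A₁ (N * ℓ)).comap (W : FF →+* FF)) ∧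
      (Φa ≠ 0 ∧ Φa ∈ s34_gi_V A₁ (N * ℓ) ∧ Φa⁻¹ ∈ s34_gi_V A₁ (N * ℓ)) ∧
      (Φb ≠ 0 ∧ Φb ∈ (s34_gi_V A₁ (N * ℓ)).comap (W : FF →+* FF) ∧
        Φb⁻¹ ∈ (s34_gi_V A₁ (N * ℓ)).comap (W : FF →+* FF)) ∧
      (κa ≠ 0 ∧ κa ∈ s35_sg_C A₁ (N * ℓ) ∧ κa⁻¹ ∈ s35_sg_C A₁ (N * ℓ)) ∧
      (κb ≠ 0 ∧ κb ∈ s35_sg_C A₁ (N * ℓ) ∧ κb⁻¹ ∈ s35_sg_C A₁ (N * ℓ)) ∧
      (algebraMap K FF (π : K))⁻¹ * (s (s g) * g / (s g) ^ 2 - κa * Φa ^ m) ∈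
        s34_gi_V A₁ (N * ℓ) ∧
      (algebraMap K FF (π : K))⁻¹ * (s (s g) * g / (s g) ^ 2 - κb * Φb ^ m) ∈
        (s34_gi_V A₁ (N * ℓ)).comap (W : FF →+* FF) ∧
      (algebraMap K FF (π : K))⁻¹ * (Ψ - s Φa / Φa ^ (ℓ ^ 2)) ∈ s34_gi_V A₁ (N * ℓ) ∧
      (algebraMap K FF (π : K))⁻¹ * (Ψ - s Φb / Φb ^ (ℓ ^ 2)) ∈
        (s34_gi_V A₁ (N * ℓ)).comap (W : FF →+* FF) ∧
      (algebraMap K FF (π : K))⁻¹ * (s (s (s g) * g / (s g) ^ 2) /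
        ((s (s g) * g / (s g) ^ 2) ^ (ℓ ^ 2) * Ψ ^ m) - 1) ∈
        s34_gi_V A₁ (N * ℓ) ⊓ (s34_gi_V A₁ (N * ℓ)).comap (W : FF →+* FF) := by
  have hWϖ : (W : FF ≃+* FF) (algebraMap K FF (π : K)) = algebraMap K FF (π : K) :=
    W.commutes _
  have hV0 : s34_Unif (algebraMap K FF (π : K))
      ((s34_gi_V A₁ (N * ℓ)).comap (W : FF →+* FF)) :=
    s34_gz_V0_unif (W : FF ≃+* FF) hπ hWϖ
  have hT1i := s34_gi_tau_T1 (N := N * ℓ) hπ σK hσ hσ'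
  have hT10 : ∀ x : FF, x ≠ 0 →
      arithmeticRingAut (modularFunctionFieldFull (N * ℓ)) σK x / x ∈
        (s34_gi_V A₁ (N * ℓ)).comap (W : FF →+* FF) ∧
      x / arithmeticRingAut (modularFunctionFieldFull (N * ℓ)) σK x ∈
        (s34_gi_V A₁ (N * ℓ)).comap (W : FF →+* FF) :=
    s34_gz_T1 (W : FF ≃+* FF) (arithmeticRingAut (modularFunctionFieldFull (N * ℓ)) σK)
      hWσ hT1i
  have hc₁' : algebraMap K FF c₁ ≠ 0 := (map_ne_zero _).mpr hc₁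
  have hc₂' : algebraMap K FF c₂ ≠ 0 := (map_ne_zero _).mpr hc₂
  have hf₁' : heckeAlphaBar K N ℓ f₁ ≠ 0 := (map_ne_zero _).mpr hf₁
  have hf₂' : heckeAlphaBar K N ℓ f₂ ≠ 0 := (map_ne_zero _).mpr hf₂
  exact s35_fc_data (Vi := s34_gi_V A₁ (N * ℓ))
    (V0 := (s34_gi_V A₁ (N * ℓ)).comap (W : FF →+* FF))
    (s34_gi_unif hπ) hV0 (s35_si_hne hM hπ hℓ W hWα hWβ)
    (arithmeticRingAut (modularFunctionFieldFull (N * ℓ)) σK) (W : FF ≃+* FF) s hs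
    hT1i hT10 (fun x => Iff.rfl) hWϖ hWW hWσ
    (s35_sg_C A₁ (N * ℓ)) s35_sg_C_le_V (s35_sg_C_sigma σK hσ)
    (s35_sg_C_swap (W : FF →ₐ[K] FF))
    (ℓ ^ 2) (s35_sg_C_frob2 hπ ℓ σK hσ hfr)
    (s35_nmAlong (heckeAlphaBar K N ℓ).toRingHom) s35_ni_hNm
    (s35_ni_hNmσ _ (arithmeticRingAut (modularFunctionFieldFull N) σK) (s35_sg_alpha_sigma σK))
    (s35_si_hNR hM hℓN hπ hℓ σK hσ hσ' hfr (W : FF ≃+* FF) hWϖ hWα hWβ)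
    m g (algebraMap K FF c₁) (algebraMap K FF c₂) (heckeAlphaBar K N ℓ f₁)
    (heckeAlphaBar K N ℓ f₂) hg hc₁' hc₂' hf₁' hf₂' hN₁ hN₂
    (s35_sg_C_T1 hπ σK hσ hσ' c₁ hc₁) (s35_sg_C_T1 hπ σK hσ hσ' c₂ hc₂)

end Model

section Concrete

local notation "Qb" => AlgebraicClosure ℚ

variable (P : ValuationSubring Qb) (K₁ : IntermediateField ℚ Qb) [Normal ℚ K₁]
variable (N ℓ : ℕ) [NeZero N] [NeZero ℓ] [NeZero (N * ℓ)] [Fact ℓ.Prime]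
variable [IsDiscreteValuationRing (s18_A1 P K₁)] {π : s18_A1 P K₁}

set_option maxHeartbeats 1600000 in
/-- **`s35_fc_data` in the concrete model**: `K₁ ⊆ Q̄` normal, `A₁ = P ∩ K₁`, `γ` a Frobenius
element at `P`, `σ₁ = s34_gi_tau K₁ (N ℓ) γ`, `s = σ₁ ∘ σ₁`. -/
theorem s35_si_fc_model (hP : P.LiesOverPrime ℓ) {γ : Qb ≃ₐ[ℚ] Qb} (hγ : P.IsFrobeniusAt γ ℓ)
    (hM : 2 ∣ N ∨ 3 ∣ N) (hℓN : ¬ ℓ ∣ N) (hπ : Irreducible π)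
    (W : s18_F1 K₁ (N * ℓ) ≃ₐ[K₁] s18_F1 K₁ (N * ℓ))
    (hWα : ∀ x, W (heckeAlphaBar K₁ N ℓ x) = heckeBetaBar K₁ N ℓ x)
    (hWβ : ∀ x, W (heckeBetaBar K₁ N ℓ x) = heckeAlphaBar K₁ N ℓ x)
    (hWW : ∀ x, W (W x) = x)
    (hWσ : ∀ (σ : K₁ ≃ₐ[ℚ] K₁) (x : s18_F1 K₁ (N * ℓ)),
      W (arithmeticRingAut (modularFunctionFieldFull (N * ℓ)) σ x) =
        arithmeticRingAut (modularFunctionFieldFull (N * ℓ)) σ (W x))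
    (s : s18_F1 K₁ (N * ℓ) ≃+* s18_F1 K₁ (N * ℓ))
    (hs : ∀ x, s x = s34_gi_tau K₁ (N * ℓ) γ (s34_gi_tau K₁ (N * ℓ) γ x))
    (m : ℕ) (g : s18_F1 K₁ (N * ℓ)) (hg : g ≠ 0) (c₁ c₂ : K₁) (f₁ f₂ : s18_F1 K₁ N)
    (hc₁ : c₁ ≠ 0) (hc₂ : c₂ ≠ 0) (hf₁ : f₁ ≠ 0) (hf₂ : f₂ ≠ 0)
    (hN₁ : s35_nmAlong (heckeAlphaBar K₁ N ℓ).toRingHom g =
      algebraMap K₁ (s18_F1 K₁ (N * ℓ)) c₁ * heckeAlphaBar K₁ N ℓ f₁ ^ m)
    (hN₂ : s35_nmAlong (heckeAlphaBar K₁ N ℓ).toRingHom (W g) =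
      algebraMap K₁ (s18_F1 K₁ (N * ℓ)) c₂ * heckeAlphaBar K₁ N ℓ f₂ ^ m) :
    ∃ Ψ Φa Φb κa κb : s18_F1 K₁ (N * ℓ),
      (Ψ ≠ 0 ∧ Ψ ∈ s34_gi_V (s18_A1 P K₁) (N * ℓ) ⊓ (s34_gi_V (s18_A1 P K₁) (N * ℓ)).comap
          (W : s18_F1 K₁ (N * ℓ) →+* s18_F1 K₁ (N * ℓ)) ∧
        Ψ⁻¹ ∈ s34_gi_V (s18_A1 P K₁) (N * ℓ) ⊓ (s34_gi_V (s18_A1 P K₁) (N * ℓ)).comap
          (W : s18_F1 K₁ (N * ℓ) →+* s18_F1 K₁ (N * ℓ))) ∧
      (Φa ≠ 0 ∧ Φa ∈ s34_gi_V (s18_A1 P K₁) (N * ℓ) ∧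
        Φa⁻¹ ∈ s34_gi_V (s18_A1 P K₁) (N * ℓ)) ∧
      (Φb ≠ 0 ∧ Φb ∈ (s34_gi_V (s18_A1 P K₁) (N * ℓ)).comap
          (W : s18_F1 K₁ (N * ℓ) →+* s18_F1 K₁ (N * ℓ)) ∧
        Φb⁻¹ ∈ (s34_gi_V (s18_A1 P K₁) (N * ℓ)).comap
          (W : s18_F1 K₁ (N * ℓ) →+* s18_F1 K₁ (N * ℓ))) ∧
      (κa ≠ 0 ∧ κa ∈ s35_sg_C (s18_A1 P K₁) (N * ℓ) ∧
        κa⁻¹ ∈ s35_sg_C (s18_A1 P K₁) (N * ℓ)) ∧
      (κb ≠ 0 ∧ κb ∈ s35_sg_C (s18_A1 P K₁) (N * ℓ) ∧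
        κb⁻¹ ∈ s35_sg_C (s18_A1 P K₁) (N * ℓ)) ∧
      (algebraMap (s18_A1 P K₁) (s18_F1 K₁ (N * ℓ)) π)⁻¹ *
        (s (s g) * g / (s g) ^ 2 - κa * Φa ^ m) ∈ s34_gi_V (s18_A1 P K₁) (N * ℓ) ∧
      (algebraMap (s18_A1 P K₁) (s18_F1 K₁ (N * ℓ)) π)⁻¹ *
        (s (s g) * g / (s g) ^ 2 - κb * Φb ^ m) ∈ (s34_gi_V (s18_A1 P K₁) (N * ℓ)).comap
          (W : s18_F1 K₁ (N * ℓ) →+* s18_F1 K₁ (N * ℓ)) ∧
      (algebraMap (s18_A1 P K₁) (s18_F1 K₁ (N * ℓ)) π)⁻¹ * (Ψ - s Φa / Φa ^ (ℓ ^ 2)) ∈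
        s34_gi_V (s18_A1 P K₁) (N * ℓ) ∧
      (algebraMap (s18_A1 P K₁) (s18_F1 K₁ (N * ℓ)) π)⁻¹ * (Ψ - s Φb / Φb ^ (ℓ ^ 2)) ∈
        (s34_gi_V (s18_A1 P K₁) (N * ℓ)).comap
          (W : s18_F1 K₁ (N * ℓ) →+* s18_F1 K₁ (N * ℓ)) ∧
      (algebraMap (s18_A1 P K₁) (s18_F1 K₁ (N * ℓ)) π)⁻¹ *
        (s (s (s g) * g / (s g) ^ 2) / ((s (s g) * g / (s g) ^ 2) ^ (ℓ ^ 2) * Ψ ^ m) - 1) ∈
        s34_gi_V (s18_A1 P K₁) (N * ℓ) ⊓ (s34_gi_V (s18_A1 P K₁) (N * ℓ)).comap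
          (W : s18_F1 K₁ (N * ℓ) →+* s18_F1 K₁ (N * ℓ)) := by
  haveI : CharP (IsLocalRing.ResidueField (s18_A1 P K₁)) ℓ := s35_sg_charP P K₁ hP
  exact s35_si_fc hM hℓN hπ (s35_sg_ell_inv_not_mem P K₁ (Fact.out : ℓ.Prime).ne_zero hP)
    (γ.restrictNormal K₁) (s35_sg_restrict_mem P K₁ hγ) (s35_sg_restrict_symm_mem P K₁ hγ)
    (s35_sg_restrict_frob P K₁ hγ) W hWα hWβ hWW (hWσ (γ.restrictNormal K₁)) s hs m g hg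
    c₁ c₂ f₁ f₂ hc₁ hc₂ hf₁ hf₂ hN₁ hN₂

end Concrete

end Fermat.Agent.S35
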