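import Mathlib
import Fermat.Agent.S35.SigmaNodeFull
import Fermat.Agent.S35.InstDefs
import Fermat.Agent.S34.XYInst
import Fermat.Agent.S34.ContractV

/-!
# S35 (NODE-2), block (INST2): the contract facts (rat) and (sq)

For the objects of `S34/InstDefs.lean` (level `N₁ * q`, charts `s34_md_B0`, `s34_md_Binf`,
components `s34_md_V1`, `s34_md_V2`, swap `W`), when `K₁` contains a primitive `(q² - 1)`-th root
of unity:

* `s35_sq_ct_rat : s35_ct_rat` — every crossing point of either chart is rational over `A₁`;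
* `s35_sq_ct_sq : s35_ct_sq` — for a Frobenius element `γ` at `P`, `σ₁ = s34_gi_tau K₁ (N₁ q) γ`
  the coefficientwise action and `s = σ₁ ∘ σ₁`, the map `s` induces the `q²`-power map on the
  residue field of every crossing point of either chart.

Both are `s35_sn_hres` / `s35_sn_hsQ_full` (`S35/SigmaNodeFull.lean`) at the model; the wiring
mirrors `s34_xi_ct_xy` (`S34/XYInst.lean`), with `s34_cv_le` (`S34/ContractV.lean`) for the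
inclusions of the charts in the two components.
-/

set_option autoImplicit false
set_option synthInstance.maxHeartbeats 400000
set_option maxHeartbeats 4000000
set_option linter.unusedSectionVars false
set_option linter.unusedVariables false

open ModularCurve ModularCurve.IgusaScheme Fermat.Agent.S28

open scoped Pointwise

noncomputable section

namespace Fermat.Agent.S35

open Fermat.Agent.S18 Fermat.Agent.S34

section Model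

local notation "Qb" => AlgebraicClosure ℚ

variable (N₁ : ℕ) [NeZero N₁] (q : ℕ) [NeZero q] [Fact q.Prime]
  (A : ValuationSubring Qb) (hA : A.LiesOverPrime q)
  (K₁ : IntermediateField ℚ Qb) [NumberField K₁] [IsGalois ℚ K₁]
  [IsDiscreteValuationRing (s18_A1 A K₁)]

/-- **(rat) and (sq) for one integral-closure chart** `B = s34_ic_chart A₁ T`, `T = α t`. -/
theorem s35_sq_one {π : s18_A1 A K₁} {t : modularFunctionFieldFull N₁}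
    (hR : s18_ResBasis q (s18_A1 A K₁) π) (h : s18_cz_Coord N₁ q t)
    {B : Subring (LaurentSeries ℚ)} (hB : CoreData N₁ q B)
    (hchart : s18_Chart (algebraMap (s18_A1 A K₁) (s18_F1 K₁ N₁) π)
      (s18_chAlg N₁ q (s18_A1 A K₁) t).toSubring)
    (hsm : s18_SmHyp π (s18_coord K₁ t) (s18_chAlg N₁ q (s18_A1 A K₁) t))
    (T : s18_F1 K₁ (N₁ * q)) (hT : heckeAlphaBar K₁ N₁ q (s18_coord K₁ t) = T)
    (W : s18_F1 K₁ (N₁ * q) ≃+* s18_F1 K₁ (N₁ * q)) (hWW : ∀ x, W (W x) = x)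
    (hWα : ∀ x : s18_F1 K₁ N₁, W (heckeAlphaBar K₁ N₁ q x) = heckeBetaBar K₁ N₁ q x)
    (hWB : ∀ x ∈ (s34_ic_chart (s18_A1 A K₁) T).toSubring,
      W x ∈ (s34_ic_chart (s18_A1 A K₁) T).toSubring)
    (hκ : ∀ y ∈ s34_gi_V (s18_A1 A K₁) (N₁ * q), ∃ y' ∈ s34_gi_V (s18_A1 A K₁) N₁,
      (algebraMap (s18_A1 A K₁) (s18_F1 K₁ (N₁ * q)) π)⁻¹ * (y - heckeAlphaBar K₁ N₁ q y') ∈
        s34_gi_V (s18_A1 A K₁) (N₁ * q))
    (hB₁ : (s34_ic_chart (s18_A1 A K₁) T).toSubring ≤ s34_gi_V (s18_A1 A K₁) (N₁ * q))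
    (hB₂ : (s34_ic_chart (s18_A1 A K₁) T).toSubring ≤ (s34_gi_V (s18_A1 A K₁) (N₁ * q)).comap
      (W : s18_F1 K₁ (N₁ * q) →+* s18_F1 K₁ (N₁ * q)))
    (ζ : K₁) (hζ : IsPrimitiveRoot ζ (q ^ 2 - 1)) :
    s35_md_Rat π (s34_ic_chart (s18_A1 A K₁) T) (s34_gi_V (s18_A1 A K₁) (N₁ * q))
      ((s34_gi_V (s18_A1 A K₁) (N₁ * q)).comap
        (W : s18_F1 K₁ (N₁ * q) →+* s18_F1 K₁ (N₁ * q))) ∧
    ∀ (γ : Qb ≃ₐ[ℚ] Qb), A.IsFrobeniusAt γ q →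
    ∀ (s : s18_F1 K₁ (N₁ * q) ≃+* s18_F1 K₁ (N₁ * q)),
      (∀ x : s18_F1 K₁ (N₁ * q),
        s x = s34_gi_tau K₁ (N₁ * q) γ (s34_gi_tau K₁ (N₁ * q) γ x)) →
      s35_md_Sq π (s34_ic_chart (s18_A1 A K₁) T) (s34_gi_V (s18_A1 A K₁) (N₁ * q))
        ((s34_gi_V (s18_A1 A K₁) (N₁ * q)).comap
          (W : s18_F1 K₁ (N₁ * q) →+* s18_F1 K₁ (N₁ * q))) s (q ^ 2) := by
  subst hT
  have hℓ : ((q : K₁))⁻¹ ∉ s18_A1 A K₁ := hR.unit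
  have hπ : Irreducible π := hR.irr
  have hCW : ∀ x ∈ s18_czRing N₁ q t, x ∈ Wring q := by
    intro x hx
    rw [s18_Wring_eq]
    exact s18_czRing_le_W h hB x hx
  have hAB : ∀ a : s18_A1 A K₁, algebraMap (s18_A1 A K₁) (s18_F1 K₁ (N₁ * q)) a ∈
      (s34_ic_chart (s18_A1 A K₁) (heckeAlphaBar K₁ N₁ q (s18_coord K₁ t))).toSubring :=
    fun a => (s34_ic_chart (s18_A1 A K₁)
      (heckeAlphaBar K₁ N₁ q (s18_coord K₁ t))).algebraMap_mem a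
  have hαB : ∀ x ∈ (s18_chAlg N₁ q (s18_A1 A K₁) t).toSubring,
      (heckeAlphaBar K₁ N₁ q).toRingHom x ∈
        (s34_ic_chart (s18_A1 A K₁) (heckeAlphaBar K₁ N₁ q (s18_coord K₁ t))).toSubring :=
    fun x hx => s34_lc_incl_mem_ic q hsm x hx
  have hresInf := s34_xi_hresInf hR h hB hchart hsm hκ
  refine ⟨?_, ?_⟩
  · rintro 𝔪 ⟨h𝔪, -, hnode⟩
    have hP1𝔪 : s34_ni_P (algebraMap (s18_A1 A K₁) (s18_F1 K₁ (N₁ * q)) π)
        (s34_ic_chart (s18_A1 A K₁) (heckeAlphaBar K₁ N₁ q (s18_coord K₁ t))).toSubring _ hB₁ ≤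
        𝔪 := by
      intro x hx
      by_contra hcon
      exact (hnode x hcon).1 (s34_ni_mem_P.mp hx)
    have hP2𝔪 : s34_ni_P (algebraMap (s18_A1 A K₁) (s18_F1 K₁ (N₁ * q)) π)
        (s34_ic_chart (s18_A1 A K₁) (heckeAlphaBar K₁ N₁ q (s18_coord K₁ t))).toSubring _ hB₂ ≤
        𝔪 := by
      intro x hx
      by_contra hcon
      exact (hnode x hcon).2 (s34_ni_mem_P.mp hx)
    exact s35_sn_hres (s18_A1 A K₁) hℓ hπ t hCW W hWW hWα _ hAB hWB hαB hB₁ hB₂ hresInf ζ hζ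
      𝔪 h𝔪 hP1𝔪 hP2𝔪
  · rintro γ hγ s hs 𝔪 ⟨h𝔪, -, hnode⟩ hsB b
    exact (s35_sn_hsQ_full N₁ q A K₁ hπ hℓ t hCW W hWW hWα _ hAB hWB hαB hB₁ hB₂ hresInf ζ hζ
      γ hγ s hs hsB 𝔪 h𝔪 hnode).2.2 b

include hA in
/-- **(rat) and (sq), one coordinate**: both integral-closure charts of the model at level
`N₁ * q`. -/
theorem s35_sq_model_coord (hqN : ¬ q ∣ N₁) (M : ℕ) (hqM : q ≠ M) (hMN : M ∣ N₁)
    (hM23 : 2 ∣ N₁ ∨ 3 ∣ N₁)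
    {π : s18_A1 A K₁} (hπ : Irreducible π)
    (t₀ : modularFunctionFieldFull N₁) (tL : modularFunctionFieldFull (N₁ * q))
    (htL : (tL : LaurentSeries ℚ) = (t₀ : LaurentSeries ℚ))
    (h : s18_cz_Coord N₁ q t₀)
    (hT : s18_TwoChart π (s18_coord K₁ t₀) (s18_chAlg N₁ q (s18_A1 A K₁) t₀)
      (s18_chAlg N₁ q (s18_A1 A K₁) t₀⁻¹))
    (hP : s18_ChartPkg π (s18_coord K₁ t₀) (s18_chAlg N₁ q (s18_A1 A K₁) t₀)
      (s18_chAlg N₁ q (s18_A1 A K₁) t₀⁻¹))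
    (hHaupt : Fermat.Agent.S37.s37_IsHaupt M (s18_baseIncl K₁ (N₁ * q) (s18_coord K₁ tL)))
    (W : s18_F1 K₁ (N₁ * q) ≃+* s18_F1 K₁ (N₁ * q))
    (hWc : ∀ c : K₁, W (algebraMap K₁ (s18_F1 K₁ (N₁ * q)) c) =
      algebraMap K₁ (s18_F1 K₁ (N₁ * q)) c)
    (hWα : ∀ x : s18_F1 K₁ N₁, W (heckeAlphaBar K₁ N₁ q x) = heckeBetaBar K₁ N₁ q x)
    (hWβ : ∀ x : s18_F1 K₁ N₁, W (heckeBetaBar K₁ N₁ q x) = heckeAlphaBar K₁ N₁ q x)
    (hWW : ∀ x : s18_F1 K₁ (N₁ * q), W (W x) = x)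
    (h01 : (s34_ic_chart (s18_A1 A K₁) (s18_coord K₁ tL)).toSubring ≤
      s34_gi_V (s18_A1 A K₁) (N₁ * q))
    (h02 : (s34_ic_chart (s18_A1 A K₁) (s18_coord K₁ tL)).toSubring ≤
      (s34_gi_V (s18_A1 A K₁) (N₁ * q)).comap
        (W : s18_F1 K₁ (N₁ * q) →+* s18_F1 K₁ (N₁ * q)))
    (hi1 : (s34_ic_chart (s18_A1 A K₁) (s18_coord K₁ tL)⁻¹).toSubring ≤
      s34_gi_V (s18_A1 A K₁) (N₁ * q))
    (hi2 : (s34_ic_chart (s18_A1 A K₁) (s18_coord K₁ tL)⁻¹).toSubring ≤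
      (s34_gi_V (s18_A1 A K₁) (N₁ * q)).comap
        (W : s18_F1 K₁ (N₁ * q) →+* s18_F1 K₁ (N₁ * q)))
    (ζ : K₁) (hζ : IsPrimitiveRoot ζ (q ^ 2 - 1)) :
    (s35_md_Rat π (s34_ic_chart (s18_A1 A K₁) (s18_coord K₁ tL))
        (s34_gi_V (s18_A1 A K₁) (N₁ * q))
        ((s34_gi_V (s18_A1 A K₁) (N₁ * q)).comap
          (W : s18_F1 K₁ (N₁ * q) →+* s18_F1 K₁ (N₁ * q))) ∧
      s35_md_Rat π (s34_ic_chart (s18_A1 A K₁) (s18_coord K₁ tL)⁻¹)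
        (s34_gi_V (s18_A1 A K₁) (N₁ * q))
        ((s34_gi_V (s18_A1 A K₁) (N₁ * q)).comap
          (W : s18_F1 K₁ (N₁ * q) →+* s18_F1 K₁ (N₁ * q)))) ∧
    ∀ (γ : Qb ≃ₐ[ℚ] Qb), A.IsFrobeniusAt γ q →
    ∀ (s : s18_F1 K₁ (N₁ * q) ≃+* s18_F1 K₁ (N₁ * q)),
      (∀ x : s18_F1 K₁ (N₁ * q),
        s x = s34_gi_tau K₁ (N₁ * q) γ (s34_gi_tau K₁ (N₁ * q) γ x)) →
      s35_md_Sq π (s34_ic_chart (s18_A1 A K₁) (s18_coord K₁ tL))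
          (s34_gi_V (s18_A1 A K₁) (N₁ * q))
          ((s34_gi_V (s18_A1 A K₁) (N₁ * q)).comap
            (W : s18_F1 K₁ (N₁ * q) →+* s18_F1 K₁ (N₁ * q))) s (q ^ 2) ∧
        s35_md_Sq π (s34_ic_chart (s18_A1 A K₁) (s18_coord K₁ tL)⁻¹)
          (s34_gi_V (s18_A1 A K₁) (N₁ * q))
          ((s34_gi_V (s18_A1 A K₁) (N₁ * q)).comap
            (W : s18_F1 K₁ (N₁ * q) →+* s18_F1 K₁ (N₁ * q))) s (q ^ 2) := by
  have hq : q.Prime := Fact.out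
  have hR : s18_ResBasis q (s18_A1 A K₁) π := s18_a1_resbasis A hA K₁ π hπ
  obtain ⟨B, hB⟩ := core N₁ q hqN
  -- the coordinate at the two levels
  have hcoord : heckeAlphaBar K₁ N₁ q (s18_coord K₁ t₀) = s18_coord K₁ tL :=
    s34_lc_incl_coord q tL htL
  have hcoord' : heckeAlphaBar K₁ N₁ q (s18_coord K₁ t₀⁻¹) = (s18_coord K₁ tL)⁻¹ := by
    rw [s18_coord_inv, map_inv₀, hcoord]
  -- the swap
  have hWt : ((W (s18_coord K₁ tL) : s18_F1 K₁ (N₁ * q)) : LaurentSeries K₁) =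
      qExpand K₁ q ((s18_coord K₁ tL : s18_F1 K₁ (N₁ * q)) : LaurentSeries K₁) := by
    rw [← hcoord, hWα, coe_heckeBetaBar, coe_heckeAlphaBar]
  obtain ⟨hW0, hWi⟩ := s34_ws_chart_stable N₁ q M hq hqN hqM hMN A hA K₁ (s18_coord K₁ tL) hHaupt
    (W : s18_F1 K₁ (N₁ * q) →+* s18_F1 K₁ (N₁ * q)) hWc hWt
  have hsmInf : s18_SmHyp π (s18_coord K₁ t₀⁻¹) (s18_chAlg N₁ q (s18_A1 A K₁) t₀⁻¹) := by
    rw [s18_coord_inv]
    exact hP.smInf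
  have hchInf : s18_Chart (algebraMap (s18_A1 A K₁) (s18_F1 K₁ N₁) π)
      (s18_chAlg N₁ q (s18_A1 A K₁) t₀⁻¹).toSubring := hT.chartInf
  have hκ := s34_rx_hres N₁ q A hA K₁ hqN hM23 hπ W hWc hWα hWβ
  have h0 := s35_sq_one N₁ q A K₁ hR h hB hT.chart0 hP.sm0 (s18_coord K₁ tL) hcoord W hWW hWα
      (fun x hx => hW0 x hx) hκ h01 h02 ζ hζ
  have hi := s35_sq_one N₁ q A K₁ hR h.inv hB hchInf hsmInf (s18_coord K₁ tL)⁻¹ hcoord' W hWW hWα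
      (fun x hx => hWi x hx) hκ hi1 hi2 ζ hζ
  exact ⟨⟨h0.1, hi.1⟩, fun γ hγ s hs => ⟨h0.2 γ hγ s hs, hi.2 γ hγ s hs⟩⟩

end Model

/-- **(rat) and (sq) at the model of NODE-1's contract**, in one statement. -/
theorem s35_sq_model :
    ∀ (N₁ q : ℕ) [NeZero N₁] [NeZero (N₁ * q)] [Fact q.Prime], ¬ q ∣ N₁ →
    ∀ (P : ValuationSubring (AlgebraicClosure ℚ)), P.LiesOverPrime q →
    ∀ (K₁ : IntermediateField ℚ (AlgebraicClosure ℚ)) [FiniteDimensional ℚ K₁] [IsGalois ℚ K₁]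
      [IsDiscreteValuationRing (s18_A1 P K₁)] (π : s18_A1 P K₁), Irreducible π →
    ∀ ζ : K₁, IsPrimitiveRoot ζ (q ^ 2 - 1) →
    ∀ (tL : modularFunctionFieldFull (N₁ * q)), s34_md_IsT N₁ q tL →
    ∀ (W : s18_F1 K₁ (N₁ * q) ≃ₐ[K₁] s18_F1 K₁ (N₁ * q)),
      haveI : NeZero q := ⟨(Fact.out : q.Prime).ne_zero⟩
      s34_md_IsSwap K₁ N₁ q W →
    (s35_md_Rat π (s34_md_B0 P K₁ (N₁ * q) tL) (s34_md_V1 P K₁ (N₁ * q))
        (s34_md_V2 P K₁ (N₁ * q) W) ∧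
      s35_md_Rat π (s34_md_Binf P K₁ (N₁ * q) tL) (s34_md_V1 P K₁ (N₁ * q))
        (s34_md_V2 P K₁ (N₁ * q) W)) ∧
    ∀ γ : AlgebraicClosure ℚ ≃ₐ[ℚ] AlgebraicClosure ℚ, P.IsFrobeniusAt γ q →
    ∀ s : s18_F1 K₁ (N₁ * q) ≃+* s18_F1 K₁ (N₁ * q),
      (∀ x, s x = s34_gi_tau K₁ (N₁ * q) γ (s34_gi_tau K₁ (N₁ * q) γ x)) →
      s35_md_Sq π (s34_md_B0 P K₁ (N₁ * q) tL) (s34_md_V1 P K₁ (N₁ * q))
          (s34_md_V2 P K₁ (N₁ * q) W) s (q ^ 2) ∧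
        s35_md_Sq π (s34_md_Binf P K₁ (N₁ * q) tL) (s34_md_V1 P K₁ (N₁ * q))
          (s34_md_V2 P K₁ (N₁ * q) W) s (q ^ 2) := by
  intro N₁ q _ _ _ hqN P hP K₁ _ _ _ π hπ ζ hζ tL htL W hW
  have : NeZero q := ⟨(Fact.out : q.Prime).ne_zero⟩
  have : NumberField K₁ := { to_charZero := inferInstance, to_finiteDimensional := inferInstance }
  obtain ⟨h01, h02, hi1, hi2⟩ := s34_cv_le N₁ q hqN P hP K₁ π hπ tL htL W hW
  obtain ⟨hWα, hWβ, hWW, hWσ, -⟩ := hW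
  rcases htL with ⟨h, h2⟩ | ⟨h, h3⟩
  · obtain rfl : tL = s18_cz_t2 (N₁ * q) (dvd_mul_of_dvd_left h2 q) := Subtype.ext h
    have hqM : q ≠ 2 := fun h => hqN (h ▸ h2)
    exact s35_sq_model_coord N₁ q P hP K₁ hqN 2 hqM h2 (Or.inl h2) hπ (s18_cz_t2 N₁ h2)
      (s18_cz_t2 (N₁ * q) (dvd_mul_of_dvd_left h2 q)) rfl (s18_cz_coord_t2 N₁ q h2 hqM)
      (s34_lc_twoChart_t2 N₁ P hP K₁ hqN h2 π hπ)
      (s18_ch_pkg_t2 (s18_a1_ell P hP K₁) hqN h2 π hπ)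
      (s34_ws_isHaupt_t2 (N₁ * q) K₁ (dvd_mul_of_dvd_left h2 q))
      (W : s18_F1 K₁ (N₁ * q) ≃+* s18_F1 K₁ (N₁ * q)) (fun c => W.commutes c) hWα hWβ hWW
      h01 h02 hi1 hi2 ζ hζ
  · obtain rfl : tL = s18_cz_t3 (N₁ * q) (dvd_mul_of_dvd_left h3 q) := Subtype.ext h
    have hqM : q ≠ 3 := fun h => hqN (h ▸ h3)
    exact s35_sq_model_coord N₁ q P hP K₁ hqN 3 hqM h3 (Or.inr h3) hπ (s18_cz_t3 N₁ h3)
      (s18_cz_t3 (N₁ * q) (dvd_mul_of_dvd_left h3 q)) rfl (s18_cz_coord_t3 N₁ q h3 hqM)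
      (s34_lc_twoChart_t3 N₁ P hP K₁ hqN h3 π hπ)
      (s18_ch_pkg_t3 (s18_a1_ell P hP K₁) hqN h3 π hπ)
      (s34_ws_isHaupt_t3 (N₁ * q) K₁ (dvd_mul_of_dvd_left h3 q))
      (W : s18_F1 K₁ (N₁ * q) ≃+* s18_F1 K₁ (N₁ * q)) (fun c => W.commutes c) hWα hWβ hWW
      h01 h02 hi1 hi2 ζ hζ

/-- **Contract (rat).** -/
theorem s35_sq_ct_rat : s35_ct_rat := by
  intro N₁ q _ _ _ hqN P hP K₁ _ _ _ π hπ ζ hζ tL htL W hW
  exact (s35_sq_model N₁ q hqN P hP K₁ π hπ ζ hζ tL htL W hW).1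

/-- **Contract (sq).** -/
theorem s35_sq_ct_sq : s35_ct_sq := by
  intro N₁ q _ _ _ hqN P hP K₁ _ _ _ π hπ ζ hζ tL htL W hW γ hγ s hs
  exact (s35_sq_model N₁ q hqN P hP K₁ π hπ ζ hζ tL htL W hW).2 γ hγ s hs

end Fermat.Agent.S35
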