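import Mathlib
import Fermat.Agent.S29.CohHeckeAbs

/-!
# S35, block (E1): abstract relative transfer data

`ι : Γ →* G` injective, `ι' : Γ' →* G`, and a finite family `δ : I → G` such that the cosets
`ι(Γ) δ i` are pairwise distinct and their union is stable under right multiplication by `ι'(Γ')`.
Then `δ i * ι' γ = ι (coc γ i) * δ (idx γ i)` and `(T χ)(γ) := ∑ i, χ (coc γ i)` is a homomorphism
`Hom(Γ, A) → Hom(Γ', A)` (transfer / corestriction / Hecke operator), natural in `A`.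

* `s35_tr_Data.T_eq_of_cosets` : `T` only depends on the set of cosets `ι(Γ) δ i`;
* `s35_tr_Data.T_prod` : composition of transfers is the transfer of the product family;
* `s35_tr_Data.ofCh` : the `s29_ch_Data` of S29 as a special case (`Γ' = Γ`);
* `s35_tr_Data.ofHom` : the corestriction for an injective hom `j : Γ →* Γ'` of finite index;
* `s35_tr_Data.T_conj` : compatibility with a conjugation automorphism.
-/

set_option autoImplicit false

namespace Fermat.Agent.S35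

open Fermat.Agent.S29

/-- Abstract relative transfer data. -/
structure s35_tr_Data (Γ Γ' G I : Type*) [Group Γ] [Group Γ'] [Group G] where
  /-- the embedding of `Γ` -/
  ι : Γ →* G
  ι_inj : Function.Injective ι
  /-- the map of `Γ'` -/
  ι' : Γ' →* G
  /-- the coset representatives -/
  δ : I → G
  ex : ∀ (γ : Γ') (i : I), ∃ (j : I) (γ₁ : Γ), δ i * ι' γ = ι γ₁ * δ j
  uniq : ∀ (i j : I) (γ : Γ), δ i = ι γ * δ j → i = j

namespace s35_tr_Data

variable {Γ Γ' G I : Type*} [Group Γ] [Group Γ'] [Group G] (D : s35_tr_Data Γ Γ' G I)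

/-- the index `σ_γ(i)`. -/
noncomputable def idx (γ : Γ') (i : I) : I := (D.ex γ i).choose

/-- the cocycle `γ_i`. -/
noncomputable def coc (γ : Γ') (i : I) : Γ := (D.ex γ i).choose_spec.choose

theorem spec (γ : Γ') (i : I) : D.δ i * D.ι' γ = D.ι (D.coc γ i) * D.δ (D.idx γ i) :=
  (D.ex γ i).choose_spec.choose_spec

theorem eq_of_spec {γ : Γ'} {γ₁ : Γ} {i j : I} (h : D.δ i * D.ι' γ = D.ι γ₁ * D.δ j) :
    j = D.idx γ i ∧ γ₁ = D.coc γ i := by
  have h1 := D.spec γ i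
  rw [h] at h1
  have h2 : D.δ j = D.ι (γ₁⁻¹ * D.coc γ i) * D.δ (D.idx γ i) := by
    rw [map_mul, map_inv, mul_assoc, ← h1, inv_mul_cancel_left]
  have hj : j = D.idx γ i := D.uniq _ _ _ h2
  refine ⟨hj, ?_⟩
  rw [← hj] at h1
  exact D.ι_inj (mul_right_cancel h1)

theorem idx_one (i : I) : D.idx 1 i = i :=
  ((D.eq_of_spec (γ := 1) (γ₁ := 1) (i := i) (j := i) (by simp)).1).symm

theorem coc_one (i : I) : D.coc 1 i = 1 :=
  ((D.eq_of_spec (γ := 1) (γ₁ := 1) (i := i) (j := i) (by simp)).2).symm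

theorem spec_mul (γ γ' : Γ') (i : I) :
    D.δ i * D.ι' (γ * γ') =
      D.ι (D.coc γ i * D.coc γ' (D.idx γ i)) * D.δ (D.idx γ' (D.idx γ i)) := by
  rw [map_mul, ← mul_assoc, D.spec γ i, mul_assoc, D.spec γ' (D.idx γ i), ← mul_assoc, map_mul]

theorem idx_mul (γ γ' : Γ') (i : I) : D.idx (γ * γ') i = D.idx γ' (D.idx γ i) :=
  ((D.eq_of_spec (D.spec_mul γ γ' i)).1).symm

theorem coc_mul (γ γ' : Γ') (i : I) :
    D.coc (γ * γ') i = D.coc γ i * D.coc γ' (D.idx γ i) :=
  ((D.eq_of_spec (D.spec_mul γ γ' i)).2).symm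

/-- the permutation `σ_γ` of the index set. -/
noncomputable def perm (γ : Γ') : Equiv.Perm I where
  toFun := D.idx γ
  invFun := D.idx γ⁻¹
  left_inv i := by rw [← D.idx_mul, mul_inv_cancel, D.idx_one]
  right_inv i := by rw [← D.idx_mul, inv_mul_cancel, D.idx_one]

@[simp] theorem perm_apply (γ : Γ') (i : I) : D.perm γ i = D.idx γ i := rfl

theorem perm_mul (γ γ' : Γ') : D.perm (γ * γ') = D.perm γ' * D.perm γ := by
  ext i
  simp [D.idx_mul]

theorem perm_one : D.perm 1 = 1 := by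
  ext i
  simp [D.idx_one]

theorem perm_pow (γ : Γ') (n : ℕ) : D.perm (γ ^ n) = D.perm γ ^ n := by
  induction n with
  | zero => simp [D.perm_one]
  | succ n ih => rw [pow_succ, D.perm_mul, ih, pow_succ']

/-- if `σ_γ` fixes `i` then `γ_i = δ_i γ δ_i⁻¹`. -/
theorem coc_conj {γ : Γ'} {i : I} (h : D.idx γ i = i) :
    D.ι (D.coc γ i) = D.δ i * D.ι' γ * (D.δ i)⁻¹ := by
  have h1 := D.spec γ i
  rw [h] at h1
  rw [h1, mul_inv_cancel_right]

/-- if `σ_γ ^ n = 1` then `(γ ^ n)_i = δ_i γ ^ n δ_i⁻¹`. -/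
theorem coc_pow_conj {γ : Γ'} {n : ℕ} (h : D.perm γ ^ n = 1) (i : I) :
    D.ι (D.coc (γ ^ n) i) = D.δ i * D.ι' (γ ^ n) * (D.δ i)⁻¹ := by
  apply D.coc_conj
  rw [← D.perm_apply, D.perm_pow, h]
  rfl

section T

variable [Fintype I]

/-- **the transfer** `Hom(Γ, A) → Hom(Γ', A)`. -/
noncomputable def T (A : Type*) [AddCommGroup A] :
    (Additive Γ →+ A) →+ (Additive Γ' →+ A) where
  toFun χ :=
    { toFun := fun γ => ∑ i : I, χ (Additive.ofMul (D.coc (Additive.toMul γ) i))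
      map_zero' := by
        show ∑ i : I, χ (Additive.ofMul (D.coc 1 i)) = 0
        simp [D.coc_one]
      map_add' := fun γ γ' => by
        show ∑ i : I, χ (Additive.ofMul (D.coc (Additive.toMul γ * Additive.toMul γ') i)) = _
        simp only [D.coc_mul, ofMul_mul, map_add, Finset.sum_add_distrib]
        congr 1
        exact Equiv.sum_comp (D.perm (Additive.toMul γ))
          (fun j => χ (Additive.ofMul (D.coc (Additive.toMul γ') j))) }
  map_zero' := by
    ext γ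
    simp
  map_add' χ χ' := by
    ext γ
    simp [Finset.sum_add_distrib]

theorem T_apply {A : Type*} [AddCommGroup A] (χ : Additive Γ →+ A) (γ : Γ') :
    D.T A χ (Additive.ofMul γ) = ∑ i : I, χ (Additive.ofMul (D.coc γ i)) := rfl

/-- naturality in the coefficient group. -/
theorem T_comp {A B : Type*} [AddCommGroup A] [AddCommGroup B] (f : A →+ B)
    (χ : Additive Γ →+ A) : D.T B (f.comp χ) = f.comp (D.T A χ) := by
  ext γ
  show ∑ i : I, f (χ _) = f (∑ i : I, χ _)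
  rw [map_sum]

/-- the transfer from any decomposition `δ i * ι' γ = ι (c i) * δ (s i)`. -/
theorem T_apply_of_spec {A : Type*} [AddCommGroup A] (χ : Additive Γ →+ A) (γ : Γ')
    (c : I → Γ) (s : I → I) (h : ∀ i, D.δ i * D.ι' γ = D.ι (c i) * D.δ (s i)) :
    D.T A χ (Additive.ofMul γ) = ∑ i : I, χ (Additive.ofMul (c i)) := by
  rw [T_apply]
  refine Finset.sum_congr rfl fun i _ => ?_
  rw [(D.eq_of_spec (h i)).2]

/-- **independence of the representatives**: the transfer only depends on the set of cosets. -/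
theorem T_eq_of_cosets {I' : Type*} [Fintype I'] (D' : s35_tr_Data Γ Γ' G I')
    (hι : D.ι = D'.ι) (hι' : D.ι' = D'.ι') (hcard : Fintype.card I = Fintype.card I')
    (h : ∀ i : I, ∃ (i' : I') (η : Γ), D.δ i = D.ι η * D'.δ i')
    (A : Type*) [AddCommGroup A] : D.T A = D'.T A := by
  classical
  choose e η he using h
  have hinj : Function.Injective e := by
    intro i j hij
    refine D.uniq i j (η i * (η j)⁻¹) ?_
    rw [he i, he j, hij, map_mul, map_inv, mul_assoc, inv_mul_cancel_left]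
  have hbij : Function.Bijective e := (Fintype.bijective_iff_injective_and_card e).2 ⟨hinj, hcard⟩
  let E : I ≃ I' := Equiv.ofBijective e hbij
  have hE : ∀ i, E i = e i := fun i => rfl
  ext χ γ'
  obtain ⟨γ, rfl⟩ := Additive.ofMul.surjective γ'
  show D.T A χ (Additive.ofMul γ) = D'.T A χ (Additive.ofMul γ)
  -- the cocycle of `D` in terms of the cocycle of `D'`
  have key : ∀ i : I, D.δ i * D.ι' γ =
      D.ι (η i * D'.coc γ (e i) * (η (E.symm (D'.idx γ (e i))))⁻¹) *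
        D.δ (E.symm (D'.idx γ (e i))) := by
    intro i
    have h1 := D'.spec γ (e i)
    have h2 : D.δ (E.symm (D'.idx γ (e i))) =
        D.ι (η (E.symm (D'.idx γ (e i)))) * D'.δ (D'.idx γ (e i)) := by
      have h3 := he (E.symm (D'.idx γ (e i)))
      have h4 : e (E.symm (D'.idx γ (e i))) = D'.idx γ (e i) := E.apply_symm_apply _
      rw [h4] at h3
      exact h3
    rw [h2, he i, mul_assoc, hι', h1, map_mul, map_mul, map_inv, hι]
    simp only [mul_assoc, inv_mul_cancel_left]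
  have hidx : ∀ i : I, E.symm (D'.idx γ (e i)) = D.idx γ i := fun i => (D.eq_of_spec (key i)).1
  rw [D.T_apply_of_spec χ γ _ _ key, D'.T_apply]
  simp only [ofMul_mul, ofMul_inv, map_add, map_neg, Finset.sum_add_distrib, Finset.sum_neg_distrib]
  have h3 : ∑ i : I, χ (Additive.ofMul (η (E.symm (D'.idx γ (e i))))) =
      ∑ i : I, χ (Additive.ofMul (η i)) := by
    simp only [hidx]
    exact Equiv.sum_comp (D.perm γ) (fun j => χ (Additive.ofMul (η j)))
  rw [h3]
  have h4 : ∑ i : I, χ (Additive.ofMul (D'.coc γ (e i))) =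
      ∑ i' : I', χ (Additive.ofMul (D'.coc γ i')) :=
    Equiv.sum_comp E (fun j => χ (Additive.ofMul (D'.coc γ j)))
  rw [h4]
  abel

/-- variant of `T_eq_of_cosets` with a two-sided coset hypothesis instead of the cardinality. -/
theorem T_eq_of_cosets' {I' : Type*} [Fintype I'] (D' : s35_tr_Data Γ Γ' G I')
    (hι : D.ι = D'.ι) (hι' : D.ι' = D'.ι')
    (h : ∀ i : I, ∃ (i' : I') (η : Γ), D.δ i = D.ι η * D'.δ i')
    (h' : ∀ i' : I', ∃ (i : I) (η : Γ), D'.δ i' = D'.ι η * D.δ i)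
    (A : Type*) [AddCommGroup A] : D.T A = D'.T A := by
  refine D.T_eq_of_cosets D' hι hι' (le_antisymm ?_ ?_) h A
  · choose e η he using h
    refine Fintype.card_le_of_injective e ?_
    intro i j hij
    refine D.uniq i j (η i * (η j)⁻¹) ?_
    rw [he i, he j, hij, map_mul, map_inv, mul_assoc, inv_mul_cancel_left]
  · choose e η he using h'
    refine Fintype.card_le_of_injective e ?_
    intro i j hij
    refine D'.uniq i j (η i * (η j)⁻¹) ?_
    rw [he i, he j, hij, map_mul, map_inv, mul_assoc, inv_mul_cancel_left]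

end T

section Prod

variable {Γ'' K : Type*} [Group Γ'']

/-- the product family `δ₁ i * δ₂ k`. -/
def prod (D1 : s35_tr_Data Γ Γ' G I) (D2 : s35_tr_Data Γ' Γ'' G K) (h : D1.ι' = D2.ι)
    (huniq : ∀ (i j : I) (k l : K) (γ : Γ),
      D1.δ i * D2.δ k = D1.ι γ * (D1.δ j * D2.δ l) → i = j ∧ k = l) :
    s35_tr_Data Γ Γ'' G (I × K) where
  ι := D1.ι
  ι_inj := D1.ι_inj
  ι' := D2.ι'
  δ p := D1.δ p.1 * D2.δ p.2
  ex γ p := by
    refine ⟨(D1.idx (D2.coc γ p.2) p.1, D2.idx γ p.2), D1.coc (D2.coc γ p.2) p.1, ?_⟩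
    show D1.δ p.1 * D2.δ p.2 * D2.ι' γ = D1.ι _ * (D1.δ _ * D2.δ _)
    rw [mul_assoc, D2.spec γ p.2, ← mul_assoc, ← h, D1.spec, mul_assoc]
  uniq p p' γ hp := by
    obtain ⟨h1, h2⟩ := huniq p.1 p'.1 p.2 p'.2 γ hp
    exact Prod.ext h1 h2

theorem prod_spec (D1 : s35_tr_Data Γ Γ' G I) (D2 : s35_tr_Data Γ' Γ'' G K) (h : D1.ι' = D2.ι)
    (huniq : ∀ (i j : I) (k l : K) (γ : Γ),
      D1.δ i * D2.δ k = D1.ι γ * (D1.δ j * D2.δ l) → i = j ∧ k = l) (γ : Γ'') (p : I × K) :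
    (D1.prod D2 h huniq).δ p * (D1.prod D2 h huniq).ι' γ =
      (D1.prod D2 h huniq).ι (D1.coc (D2.coc γ p.2) p.1) *
        (D1.prod D2 h huniq).δ (D1.idx (D2.coc γ p.2) p.1, D2.idx γ p.2) := by
  show D1.δ p.1 * D2.δ p.2 * D2.ι' γ = D1.ι _ * (D1.δ _ * D2.δ _)
  rw [mul_assoc, D2.spec γ p.2, ← mul_assoc, ← h, D1.spec, mul_assoc]

/-- **composition of transfers**. -/
theorem T_prod [Fintype I] [Fintype K] (D1 : s35_tr_Data Γ Γ' G I) (D2 : s35_tr_Data Γ' Γ'' G K)
    (h : D1.ι' = D2.ι)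
    (huniq : ∀ (i j : I) (k l : K) (γ : Γ),
      D1.δ i * D2.δ k = D1.ι γ * (D1.δ j * D2.δ l) → i = j ∧ k = l)
    (A : Type*) [AddCommGroup A] (χ : Additive Γ →+ A) :
    (D1.prod D2 h huniq).T A χ = D2.T A (D1.T A χ) := by
  ext γ'
  obtain ⟨γ, rfl⟩ := Additive.ofMul.surjective γ'
  show (D1.prod D2 h huniq).T A χ (Additive.ofMul γ) = D2.T A (D1.T A χ) (Additive.ofMul γ)
  rw [(D1.prod D2 h huniq).T_apply_of_spec χ γ _ _ (D1.prod_spec D2 h huniq γ), D2.T_apply,
    Fintype.sum_prod_type_right]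
  rfl

end Prod

section OfCh

/-- the Hecke data of S29 as relative transfer data (`Γ' = Γ`). -/
def ofCh (D : s29_ch_Data Γ G I) : s35_tr_Data Γ Γ G I where
  ι := D.ι
  ι_inj := D.ι_inj
  ι' := D.ι
  δ := D.δ
  ex := D.ex
  uniq := D.uniq

theorem ofCh_T [Fintype I] (D : s29_ch_Data Γ G I) (A : Type*) [AddCommGroup A] :
    (ofCh D).T A = D.T A := by
  ext χ γ'
  obtain ⟨γ, rfl⟩ := Additive.ofMul.surjective γ'
  show (ofCh D).T A χ (Additive.ofMul γ) = D.T A χ (Additive.ofMul γ)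
  rw [(ofCh D).T_apply_of_spec χ γ (D.coc γ) (D.idx γ) (D.spec γ), D.T_apply]

end OfCh

section OfHom

/-- the corestriction data of an injective homomorphism `j : Γ →* Γ'`:
representatives `(out k)⁻¹` of the right cosets `j(Γ) r`. -/
noncomputable def ofHom (j : Γ →* Γ') (hj : Function.Injective j) (ι' : Γ' →* G)
    (hι' : Function.Injective ι') : s35_tr_Data Γ Γ' G (Γ' ⧸ j.range) where
  ι := ι'.comp j
  ι_inj := hι'.comp hj
  ι' := ι'
  δ k := ι' (Quotient.out k)⁻¹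
  ex γ k := by
    obtain ⟨h, hh⟩ := QuotientGroup.mk_out_eq_mul j.range (γ⁻¹ * Quotient.out k)
    obtain ⟨γ₁, hγ₁⟩ := h.2
    refine ⟨QuotientGroup.mk (γ⁻¹ * Quotient.out k), γ₁, ?_⟩
    rw [hh, MonoidHom.comp_apply, hγ₁, ← map_mul, ← map_mul]
    congr 1
    group
  uniq i i' γ h := by
    have h1 : (Quotient.out i)⁻¹ = j γ * (Quotient.out i')⁻¹ := hι' (by
      rw [map_mul]
      exact h)
    have h2 : (QuotientGroup.mk (Quotient.out i) : Γ' ⧸ j.range) =
        QuotientGroup.mk (Quotient.out i') := by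
      rw [QuotientGroup.eq, h1, inv_mul_cancel_right]
      exact ⟨γ, rfl⟩
    rwa [QuotientGroup.out_eq', QuotientGroup.out_eq'] at h2

theorem ofHom_ι (j : Γ →* Γ') (hj : Function.Injective j) (ι' : Γ' →* G)
    (hι' : Function.Injective ι') : (ofHom j hj ι' hι').ι = ι'.comp j := rfl

theorem ofHom_ι' (j : Γ →* Γ') (hj : Function.Injective j) (ι' : Γ' →* G)
    (hι' : Function.Injective ι') : (ofHom j hj ι' hι').ι' = ι' := rfl

theorem ofHom_δ (j : Γ →* Γ') (hj : Function.Injective j) (ι' : Γ' →* G)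
    (hι' : Function.Injective ι') (k : Γ' ⧸ j.range) :
    (ofHom j hj ι' hι').δ k = ι' (Quotient.out k)⁻¹ := rfl

/-- every element of `Γ'` lies in a coset `j(Γ) δ k`. -/
theorem ofHom_decomp (j : Γ →* Γ') (hj : Function.Injective j) (ι' : Γ' →* G)
    (hι' : Function.Injective ι') (γ : Γ') :
    ∃ (k : Γ' ⧸ j.range) (η : Γ), ι' γ = ι' (j η) * (ofHom j hj ι' hι').δ k := by
  obtain ⟨h, hh⟩ := QuotientGroup.mk_out_eq_mul j.range γ⁻¹
  obtain ⟨γ₁, hγ₁⟩ := h.2
  refine ⟨QuotientGroup.mk γ⁻¹, γ₁, ?_⟩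
  rw [ofHom_δ, hh, hγ₁, ← map_mul]
  congr 1
  group

end OfHom

section Conj

/-- **compatibility with a conjugation**: if `c` is the automorphism of `Γ` induced by conjugation
with `g` and the family `g⁻¹ δ i g` represents the same cosets, then `T (χ ∘ c) = (T χ) ∘ c`. -/
theorem T_conj [Fintype I] (D : s35_tr_Data Γ Γ G I) (hιι : D.ι' = D.ι) (c : Γ ≃* Γ) (g : G)
    (hc : ∀ γ, D.ι (c γ) = g * D.ι γ * g⁻¹)
    (hcos : ∀ i, ∃ (i' : I) (η : Γ), D.δ i * g = g * D.ι η * D.δ i')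
    (A : Type*) [AddCommGroup A] (χ : Additive Γ →+ A) (γ : Γ) :
    D.T A (χ.comp (MonoidHom.toAdditive c.toMonoidHom)) (Additive.ofMul γ) =
      D.T A χ (Additive.ofMul (c γ)) := by
  have hc' : ∀ x : Γ, g⁻¹ * D.ι x = D.ι (c.symm x) * g⁻¹ := by
    intro x
    have h1 := hc (c.symm x)
    rw [MulEquiv.apply_symm_apply] at h1
    rw [h1]
    group
  -- the conjugated data
  let Dg : s35_tr_Data Γ Γ G I :=
    { ι := D.ι
      ι_inj := D.ι_inj
      ι' := D.ι
      δ := fun i => g⁻¹ * D.δ i * g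
      ex := by
        intro γ i
        refine ⟨D.idx (c γ) i, c.symm (D.coc (c γ) i), ?_⟩
        have h1 := D.spec (c γ) i
        rw [hιι, hc γ] at h1
        have h2 : g⁻¹ * D.δ i * g * D.ι γ = g⁻¹ * (D.δ i * (g * D.ι γ * g⁻¹)) * g := by group
        rw [h2, h1, ← mul_assoc, ← mul_assoc, hc']
        group
      uniq := by
        intro i i' γ h
        refine D.uniq i i' (c γ) ?_
        rw [hc γ]
        have h2 : D.δ i = g * (g⁻¹ * D.δ i * g) * g⁻¹ := by group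
        rw [h2, h]
        group }
  have hDg : Dg.T A = D.T A := by
    refine Dg.T_eq_of_cosets D rfl hιι.symm rfl ?_ A
    intro i
    obtain ⟨i', η, h⟩ := hcos i
    refine ⟨i', η, ?_⟩
    show g⁻¹ * D.δ i * g = D.ι η * D.δ i'
    rw [mul_assoc, h]
    group
  have hspec : ∀ i, Dg.δ i * Dg.ι' γ = Dg.ι (c.symm (D.coc (c γ) i)) * Dg.δ (D.idx (c γ) i) := by
    intro i
    show g⁻¹ * D.δ i * g * D.ι γ = D.ι (c.symm (D.coc (c γ) i)) * (g⁻¹ * D.δ (D.idx (c γ) i) * g)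
    have h1 := D.spec (c γ) i
    rw [hιι, hc γ] at h1
    have h2 : g⁻¹ * D.δ i * g * D.ι γ = g⁻¹ * (D.δ i * (g * D.ι γ * g⁻¹)) * g := by group
    rw [h2, h1, ← mul_assoc, ← mul_assoc, hc']
    group
  have hL : D.T A (χ.comp (MonoidHom.toAdditive c.toMonoidHom)) (Additive.ofMul γ) =
      ∑ i : I, (χ.comp (MonoidHom.toAdditive c.toMonoidHom))
        (Additive.ofMul (c.symm (D.coc (c γ) i))) := by
    rw [← hDg]
    exact Dg.T_apply_of_spec _ γ _ _ hspec
  rw [hL, D.T_apply]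
  refine Finset.sum_congr rfl fun i _ => ?_
  show χ (Additive.ofMul (c (c.symm (D.coc (c γ) i)))) = _
  rw [MulEquiv.apply_symm_apply]

end Conj

end s35_tr_Data

/-- the endomorphism of `Γ` induced by conjugation with `g` (when `g ι(Γ) g⁻¹ ⊆ ι(Γ)`). -/
noncomputable def s35_tr_conjHom {Γ G : Type*} [Group Γ] [Group G] (ι : Γ →* G)
    (hι : Function.Injective ι) (g : G) (h1 : ∀ γ, ∃ γ', ι γ' = g * ι γ * g⁻¹) : Γ →* Γ where
  toFun γ := (h1 γ).choose
  map_one' := hι (by rw [(h1 1).choose_spec]; simp)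
  map_mul' a b := hι (by
    rw [(h1 (a * b)).choose_spec, map_mul, map_mul, (h1 a).choose_spec, (h1 b).choose_spec]
    group)

theorem s35_tr_conjHom_spec {Γ G : Type*} [Group Γ] [Group G] (ι : Γ →* G)
    (hι : Function.Injective ι) (g : G) (h1 : ∀ γ, ∃ γ', ι γ' = g * ι γ * g⁻¹) (γ : Γ) :
    ι (s35_tr_conjHom ι hι g h1 γ) = g * ι γ * g⁻¹ := (h1 γ).choose_spec

/-- the automorphism of `Γ` induced by conjugation with `g` (when `g ι(Γ) g⁻¹ = ι(Γ)`). -/
noncomputable def s35_tr_conjEquiv {Γ G : Type*} [Group Γ] [Group G] (ι : Γ →* G)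
    (hι : Function.Injective ι) (g : G) (h1 : ∀ γ, ∃ γ', ι γ' = g * ι γ * g⁻¹)
    (h2 : ∀ γ, ∃ γ', ι γ' = g⁻¹ * ι γ * g) : Γ ≃* Γ :=
  { s35_tr_conjHom ι hι g h1 with
    invFun := fun γ => (h2 γ).choose
    left_inv := fun γ => hι (by
      rw [(h2 _).choose_spec]
      show g⁻¹ * ι (s35_tr_conjHom ι hι g h1 γ) * g = ι γ
      rw [s35_tr_conjHom_spec]
      group)
    right_inv := fun γ => hι (by
      show ι (s35_tr_conjHom ι hι g h1 _) = ι γ
      rw [s35_tr_conjHom_spec, (h2 γ).choose_spec]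
      group) }

theorem s35_tr_conjEquiv_spec {Γ G : Type*} [Group Γ] [Group G] (ι : Γ →* G)
    (hι : Function.Injective ι) (g : G) (h1 : ∀ γ, ∃ γ', ι γ' = g * ι γ * g⁻¹)
    (h2 : ∀ γ, ∃ γ', ι γ' = g⁻¹ * ι γ * g) (γ : Γ) :
    ι (s35_tr_conjEquiv ι hι g h1 h2 γ) = g * ι γ * g⁻¹ := (h1 γ).choose_spec

end Fermat.Agent.S35
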