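import Fermat.Agent.S35.Transfer
import Fermat.Agent.S29.CohPar

/-!
# S35, block (E1): the corestriction `Hom(Γ₀(N'q), A) → Hom(Γ₀(N'), A)`

* `s35_tr_cor N' q A` : the transfer (corestriction) for `Γ₀(N'q) ⊆ Γ₀(N')`:
  `(cor χ)(γ) = ∑ χ(γ_k)` where `r_k γ = γ_k r_{σ k}` for representatives `r_k` of
  `Γ₀(N'q) \ Γ₀(N')` (`s35_tr_cor_apply_of_transversal`: any transversal may be used);
* `s35_tr_cor_comm` : `cor ∘ T_l = T_l ∘ cor` for primes `l ∤ N'q` (`q` prime, `q ∤ N'`);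
* `s35_tr_cor_parabolic`, `s35_tr_c1` : the induced map on parabolic homomorphisms and
  `s35_tr_c1_comm`.
-/

set_option autoImplicit false

open CongruenceSubgroup ModularForm ModularCurve.Period
open scoped MatrixGroups

namespace Fermat.Agent.S35

open Fermat.Agent.S29

theorem s35_tr_le (N' q : ℕ) : Gamma0 (N' * q) ≤ Gamma0 N' := by
  intro A hA
  rw [Gamma0_mem] at hA ⊢
  rw [ZMod.intCast_zmod_eq_zero_iff_dvd] at hA ⊢
  exact dvd_trans ⟨(q : ℤ), by push_cast; ring⟩ hA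

/-- the inclusion `Γ₀(N'q) → Γ₀(N')`. -/
def s35_tr_incl (N' q : ℕ) : Gamma0 (N' * q) →* Gamma0 N' :=
  Subgroup.inclusion (s35_tr_le N' q)

theorem s35_tr_incl_injective (N' q : ℕ) : Function.Injective (s35_tr_incl N' q) :=
  Subgroup.inclusion_injective _

@[simp] theorem s35_tr_incl_coe (N' q : ℕ) (γ : Gamma0 (N' * q)) :
    ((s35_tr_incl N' q γ : Gamma0 N') : SL(2, ℤ)) = (γ : SL(2, ℤ)) := rfl

theorem s35_tr_iota_incl (N' q : ℕ) :
    (s29_ch_iota N').comp (s35_tr_incl N' q) = s29_ch_iota (N' * q) := rfl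

theorem s35_tr_iota_incl_apply (N' q : ℕ) (γ : Gamma0 (N' * q)) :
    s29_ch_iota N' (s35_tr_incl N' q γ) = s29_ch_iota (N' * q) γ := rfl

instance s35_tr_finite (N' q : ℕ) [NeZero N'] [NeZero q] :
    Finite (Gamma0 N' ⧸ (s35_tr_incl N' q).range) := by
  have h : (s35_tr_incl N' q).range = (Gamma0 (N' * q)).subgroupOf (Gamma0 N') :=
    Subgroup.inclusion_range _
  rw [h]
  infer_instance

noncomputable instance s35_tr_fintype (N' q : ℕ) [NeZero N'] [NeZero q] :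
    Fintype (Gamma0 N' ⧸ (s35_tr_incl N' q).range) := Fintype.ofFinite _

/-- the corestriction data for `Γ₀(N'q) ⊆ Γ₀(N')`. -/
noncomputable def s35_tr_corData (N' q : ℕ) :
    s35_tr_Data (Gamma0 (N' * q)) (Gamma0 N') (GL (Fin 2) ℝ)
      (Gamma0 N' ⧸ (s35_tr_incl N' q).range) :=
  s35_tr_Data.ofHom (s35_tr_incl N' q) (s35_tr_incl_injective N' q) (s29_ch_iota N')
    (s29_ch_iota_injective N')

theorem s35_tr_corData_ι (N' q : ℕ) : (s35_tr_corData N' q).ι = s29_ch_iota (N' * q) := rfl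

theorem s35_tr_corData_ι' (N' q : ℕ) : (s35_tr_corData N' q).ι' = s29_ch_iota N' := rfl

theorem s35_tr_corData_δ (N' q : ℕ) (k : Gamma0 N' ⧸ (s35_tr_incl N' q).range) :
    (s35_tr_corData N' q).δ k = s29_ch_iota N' (Quotient.out k)⁻¹ := rfl

/-- **the corestriction** `Hom(Γ₀(N'q), A) → Hom(Γ₀(N'), A)`. -/
noncomputable def s35_tr_cor (N' q : ℕ) [NeZero N'] [NeZero q] (A : Type*) [AddCommGroup A] :
    (Additive (Gamma0 (N' * q)) →+ A) →+ (Additive (Gamma0 N') →+ A) :=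
  (s35_tr_corData N' q).T A

/-- naturality of the corestriction in the coefficients. -/
theorem s35_tr_cor_comp (N' q : ℕ) [NeZero N'] [NeZero q] {A B : Type*} [AddCommGroup A]
    [AddCommGroup B] (f : A →+ B) (χ : Additive (Gamma0 (N' * q)) →+ A) :
    s35_tr_cor N' q B (f.comp χ) = f.comp (s35_tr_cor N' q A χ) :=
  (s35_tr_corData N' q).T_comp f χ

/-- the `(1,0)`-entry argument: if `δ_i ρ = γ δ_i'` with `ρ ∈ Γ₀(N')`, `γ ∈ Γ₀(N'q)`, then
`ρ ∈ Γ₀(N'q)`. -/
theorem s35_tr_entry (N' q l : ℕ) (hq : q.Prime) (hqN : ¬ q ∣ N') (hl : l.Prime) (hql : q ≠ l)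
    (ρ : Gamma0 N') (γ : Gamma0 (N' * q)) (i i' : Option (Fin l))
    (h : s29_ch_delta l i * s29_ch_iota N' ρ = s29_ch_iota (N' * q) γ * s29_ch_delta l i') :
    ∃ ε : Gamma0 (N' * q), s35_tr_incl N' q ε = ρ := by
  -- the integral identity
  have h1 := congrArg (fun g : GL (Fin 2) ℝ => (g : Matrix (Fin 2) (Fin 2) ℝ)) h
  simp only [Units.val_mul] at h1
  rw [s29_ch_delta_val hl.ne_zero, s29_ch_delta_val hl.ne_zero, s29_ch_iota_val, s29_ch_iota_val,
    ← Matrix.map_mul, ← Matrix.map_mul] at h1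
  have h2 : s29_ch_deltaZ l i * ((ρ : SL(2, ℤ)) : Matrix (Fin 2) (Fin 2) ℤ) =
      ((γ : SL(2, ℤ)) : Matrix (Fin 2) (Fin 2) ℤ) * s29_ch_deltaZ l i' :=
    Matrix.map_injective (Int.castRingHom ℝ).injective_int h1
  have h3 := congrFun (congrFun h2 1) 0
  have hγ : ((N' * q : ℕ) : ℤ) ∣ (γ : SL(2, ℤ)) 1 0 := s29_ch_dvd γ
  have hρ : (N' : ℤ) ∣ (ρ : SL(2, ℤ)) 1 0 := s29_ch_dvd ρ
  have hqγ : (q : ℤ) ∣ (γ : SL(2, ℤ)) 1 0 := dvd_trans ⟨(N' : ℤ), by push_cast; ring⟩ hγ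
  have hqp : Prime (q : ℤ) := Nat.prime_iff_prime_int.1 hq
  have hql' : ¬ (q : ℤ) ∣ (l : ℤ) := by
    intro hd
    have := Int.natCast_dvd_natCast.1 hd
    exact hql ((Nat.prime_dvd_prime_iff_eq hq hl).1 this)
  have hqρ : (q : ℤ) ∣ (ρ : SL(2, ℤ)) 1 0 := by
    cases i with
    | none =>
      cases i' with
      | none =>
        simp [s29_ch_deltaZ, Matrix.mul_apply, Fin.sum_univ_two] at h3
        rw [h3]
        exact Dvd.dvd.mul_right hqγ _
      | some j' =>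
        simp [s29_ch_deltaZ, Matrix.mul_apply, Fin.sum_univ_two] at h3
        rw [h3]
        exact hqγ
    | some j =>
      cases i' with
      | none =>
        simp [s29_ch_deltaZ, Matrix.mul_apply, Fin.sum_univ_two] at h3
        have h4 : (q : ℤ) ∣ (l : ℤ) * (ρ : SL(2, ℤ)) 1 0 := by
          rw [h3]
          exact Dvd.dvd.mul_right hqγ _
        exact (hqp.dvd_or_dvd h4).resolve_left hql'
      | some j' =>
        simp [s29_ch_deltaZ, Matrix.mul_apply, Fin.sum_univ_two] at h3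
        have h4 : (q : ℤ) ∣ (l : ℤ) * (ρ : SL(2, ℤ)) 1 0 := by
          rw [h3]
          exact hqγ
        exact (hqp.dvd_or_dvd h4).resolve_left hql'
  have hcop : IsCoprime (N' : ℤ) (q : ℤ) := by
    rw [Int.isCoprime_iff_gcd_eq_one, Int.gcd_natCast_natCast]
    exact (Nat.Coprime.symm ((Nat.Prime.coprime_iff_not_dvd hq).2 hqN))
  have hNq : ((N' * q : ℕ) : ℤ) ∣ (ρ : SL(2, ℤ)) 1 0 := by
    push_cast
    exact hcop.mul_dvd hρ hqρ
  refine ⟨⟨(ρ : SL(2, ℤ)), Gamma0_mem.2 ((ZMod.intCast_zmod_eq_zero_iff_dvd _ _).2 hNq)⟩, ?_⟩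
  exact Subtype.ext rfl

/-- **the corestriction commutes with the Hecke operators `T_l`, `l ∤ N'q`.** -/
theorem s35_tr_cor_comm (N' q l : ℕ) [NeZero N'] [NeZero q] (hq : q.Prime) (hqN : ¬ q ∣ N')
    (hl : l.Prime) (hlM : ¬ l ∣ N' * q) (hlN : ¬ l ∣ N') {A : Type*} [AddCommGroup A]
    (χ : Additive (Gamma0 (N' * q)) →+ A) :
    s35_tr_cor N' q A (s29_ch_T (N' * q) l hl hlM A χ) =
      s29_ch_T N' l hl hlN A (s35_tr_cor N' q A χ) := by
  have hql : q ≠ l := by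
    rintro rfl
    exact hlM (Dvd.intro_left N' rfl)
  set Dc := s35_tr_corData N' q with hDc
  set DH' := s35_tr_Data.ofCh (s29_ch_data N' l hl hlN) with hDH'
  set DH := s35_tr_Data.ofCh (s29_ch_data (N' * q) l hl hlM) with hDH
  -- family (a): `r_k δ_i`
  have hua : ∀ (k k' : Gamma0 N' ⧸ (s35_tr_incl N' q).range) (i i' : Option (Fin l))
      (γ : Gamma0 (N' * q)), Dc.δ k * DH'.δ i = Dc.ι γ * (Dc.δ k' * DH'.δ i') →
      k = k' ∧ i = i' := by
    intro k k' i i' γ h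
    have hi : i = i' := by
      refine (s29_ch_data N' l hl hlN).uniq i i'
        ((Quotient.out k) * s35_tr_incl N' q γ * (Quotient.out k')⁻¹) ?_
      show s29_ch_delta l i = s29_ch_iota N' _ * s29_ch_delta l i'
      have h' : s29_ch_iota N' (Quotient.out k)⁻¹ * s29_ch_delta l i =
          s29_ch_iota N' (s35_tr_incl N' q γ) *
            (s29_ch_iota N' (Quotient.out k')⁻¹ * s29_ch_delta l i') := h
      rw [map_mul, map_mul, mul_assoc, mul_assoc, ← h', ← mul_assoc, ← map_mul,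
        mul_inv_cancel, map_one, one_mul]
    subst hi
    refine ⟨Dc.uniq k k' γ ?_, rfl⟩
    rw [← mul_assoc] at h
    exact mul_right_cancel h
  -- family (b): `δ_i r_k`
  have hub : ∀ (i i' : Option (Fin l)) (k k' : Gamma0 N' ⧸ (s35_tr_incl N' q).range)
      (γ : Gamma0 (N' * q)), DH.δ i * Dc.δ k = DH.ι γ * (DH.δ i' * Dc.δ k') →
      i = i' ∧ k = k' := by
    intro i i' k k' γ h
    have h' : s29_ch_delta l i * s29_ch_iota N' (Quotient.out k)⁻¹ =
        s29_ch_iota (N' * q) γ * (s29_ch_delta l i' * s29_ch_iota N' (Quotient.out k')⁻¹) := h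
    have h1 : s29_ch_delta l i * s29_ch_iota N' ((Quotient.out k)⁻¹ * Quotient.out k') =
        s29_ch_iota (N' * q) γ * s29_ch_delta l i' := by
      rw [map_mul, ← mul_assoc, h', mul_assoc, mul_assoc, ← map_mul, inv_mul_cancel, map_one,
        mul_one]
    obtain ⟨ε, hε⟩ := s35_tr_entry N' q l hq hqN hl hql _ γ i i' h1
    have hk : k = k' := by
      refine Dc.uniq k k' ε ?_
      show s29_ch_iota N' (Quotient.out k)⁻¹ =
        s29_ch_iota N' (s35_tr_incl N' q ε) * s29_ch_iota N' (Quotient.out k')⁻¹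
      rw [hε, ← map_mul, mul_assoc, mul_inv_cancel, mul_one]
    subst hk
    refine ⟨(s29_ch_data (N' * q) l hl hlM).uniq i i' γ ?_, rfl⟩
    show s29_ch_delta l i = s29_ch_iota (N' * q) γ * s29_ch_delta l i'
    rw [← mul_assoc] at h'
    exact mul_right_cancel h'
  have hTa := s35_tr_Data.T_prod Dc DH' rfl hua A χ
  have hTb := s35_tr_Data.T_prod DH Dc rfl hub A χ
  have hab : (DH.prod Dc rfl hub).T A = (Dc.prod DH' rfl hua).T A := by
    refine (DH.prod Dc rfl hub).T_eq_of_cosets (Dc.prod DH' rfl hua) rfl rfl ?_ ?_ A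
    · rw [Fintype.card_prod, Fintype.card_prod, mul_comm]
    · rintro ⟨i, k⟩
      have h1 := (s29_ch_data N' l hl hlN).spec (Quotient.out k)⁻¹ i
      obtain ⟨k', ε, h2⟩ := s35_tr_Data.ofHom_decomp (s35_tr_incl N' q)
        (s35_tr_incl_injective N' q) (s29_ch_iota N') (s29_ch_iota_injective N')
        ((s29_ch_data N' l hl hlN).coc (Quotient.out k)⁻¹ i)
      refine ⟨(k', (s29_ch_data N' l hl hlN).idx (Quotient.out k)⁻¹ i), ε, ?_⟩
      show s29_ch_delta l i * s29_ch_iota N' (Quotient.out k)⁻¹ =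
        s29_ch_iota (N' * q) ε * (Dc.δ k' * s29_ch_delta l _)
      have h1' : s29_ch_delta l i * s29_ch_iota N' (Quotient.out k)⁻¹ =
          s29_ch_iota N' ((s29_ch_data N' l hl hlN).coc (Quotient.out k)⁻¹ i) *
            s29_ch_delta l ((s29_ch_data N' l hl hlN).idx (Quotient.out k)⁻¹ i) := h1
      rw [h1', h2, mul_assoc]
      rfl
  have e1 : s29_ch_T N' l hl hlN A = DH'.T A :=
    (s35_tr_Data.ofCh_T (s29_ch_data N' l hl hlN) A).symm
  have e2 : s29_ch_T (N' * q) l hl hlM A = DH.T A :=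
    (s35_tr_Data.ofCh_T (s29_ch_data (N' * q) l hl hlM) A).symm
  rw [e1, e2]
  show Dc.T A (DH.T A χ) = DH'.T A (Dc.T A χ)
  rw [← hTa, ← hTb, hab]

/-- the trace is invariant under conjugation in `GL₂(ℝ)` (two levels). -/
theorem s35_tr_trace_conj {N N₁ : ℕ} (γ : Gamma0 N) (γ' : Gamma0 N₁) (g : GL (Fin 2) ℝ)
    (h : s29_ch_iota N₁ γ' = g * s29_ch_iota N γ * g⁻¹) :
    ((γ' : SL(2, ℤ)) : Matrix (Fin 2) (Fin 2) ℤ).trace =
      ((γ : SL(2, ℤ)) : Matrix (Fin 2) (Fin 2) ℤ).trace := by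
  have h1 := congrArg (fun x : GL (Fin 2) ℝ => (x : Matrix (Fin 2) (Fin 2) ℝ).trace) h
  simp only [Units.val_mul] at h1
  rw [Matrix.trace_units_conj, s29_ch_iota_val, s29_ch_iota_val] at h1
  have e : ∀ M : Matrix (Fin 2) (Fin 2) ℤ,
      (M.map (Int.castRingHom ℝ)).trace = ((M.trace : ℤ) : ℝ) := by
    intro M
    rw [Matrix.trace_fin_two, Matrix.trace_fin_two]
    simp
  rw [e, e] at h1
  exact_mod_cast h1

/-- the corestriction preserves parabolic homomorphisms (torsion-free coefficients). -/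
theorem s35_tr_cor_parabolic (N' q : ℕ) [NeZero N'] [NeZero q] {A : Type*} [AddCommGroup A]
    [IsAddTorsionFree A] (χ : Additive (Gamma0 (N' * q)) →+ A)
    (hχ : IsParabolicHom (Gamma0 (N' * q)) χ) :
    IsParabolicHom (Gamma0 N') (s35_tr_cor N' q A χ) := by
  classical
  intro γ hγ
  set D := s35_tr_corData N' q with hD
  set n := orderOf (D.perm γ) with hn
  have hn0 : n ≠ 0 := (orderOf_pos (D.perm γ)).ne'
  have hpow : D.perm γ ^ n = 1 := pow_orderOf_eq_one _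
  have h1 : n • s35_tr_cor N' q A χ (Additive.ofMul γ) = 0 := by
    rw [← map_nsmul, ← ofMul_pow]
    show D.T A χ (Additive.ofMul (γ ^ n)) = 0
    rw [D.T_apply]
    refine Finset.sum_eq_zero fun i _ => hχ _ ?_
    have hc : s29_ch_iota (N' * q) (D.coc (γ ^ n) i) =
        D.δ i * s29_ch_iota N' (γ ^ n) * (D.δ i)⁻¹ := D.coc_pow_conj hpow i
    rw [s35_tr_trace_conj _ _ _ hc]
    have hcoe : (((γ ^ n : Gamma0 N') : SL(2, ℤ)) : Matrix (Fin 2) (Fin 2) ℤ) =
        (((γ : SL(2, ℤ)) : Matrix (Fin 2) (Fin 2) ℤ)) ^ n := by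
      rw [SubmonoidClass.coe_pow, Matrix.SpecialLinearGroup.coe_pow]
    rw [hcoe]
    exact s29_cp_trace_pow _ (γ : SL(2, ℤ)).det_coe hγ n
  exact (nsmul_eq_zero_iff_right hn0).1 h1

/-- the corestriction as an `R`-linear map. -/
noncomputable def s35_tr_corLin (N' q : ℕ) [NeZero N'] [NeZero q] (R : Type*) [Semiring R]
    (A : Type*) [AddCommGroup A] [Module R A] :
    (Additive (Gamma0 (N' * q)) →+ A) →ₗ[R] (Additive (Gamma0 N') →+ A) where
  toFun := s35_tr_cor N' q A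
  map_add' := map_add _
  map_smul' r χ := by
    refine AddMonoidHom.ext fun γ' => ?_
    obtain ⟨γ, rfl⟩ := Additive.ofMul.surjective γ'
    show (s35_tr_corData N' q).T A (r • χ) (Additive.ofMul γ) =
      r • (s35_tr_corData N' q).T A χ (Additive.ofMul γ)
    rw [s35_tr_Data.T_apply, s35_tr_Data.T_apply, Finset.smul_sum]
    rfl

/-- **the integral transfer `c₁`** on parabolic homomorphisms. -/
noncomputable def s35_tr_c1 (N' q : ℕ) [NeZero N'] [NeZero q] (R : Type*) [Semiring R]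
    (A : Type*) [AddCommGroup A] [Module R A] [IsAddTorsionFree A] :
    ↥(parabolicHoms R (Gamma0 (N' * q)) A) →ₗ[R] ↥(parabolicHoms R (Gamma0 N') A) :=
  (s35_tr_corLin N' q R A).restrict (fun χ hχ => s35_tr_cor_parabolic N' q χ hχ)

theorem s35_tr_c1_coe (N' q : ℕ) [NeZero N'] [NeZero q] (R : Type*) [Semiring R]
    (A : Type*) [AddCommGroup A] [Module R A] [IsAddTorsionFree A]
    (ψ : ↥(parabolicHoms R (Gamma0 (N' * q)) A)) :
    ((s35_tr_c1 N' q R A ψ : ↥(parabolicHoms R (Gamma0 N') A)) : Additive (Gamma0 N') →+ A) =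
      s35_tr_cor N' q A (ψ : Additive (Gamma0 (N' * q)) →+ A) := rfl

/-- **`c₁` commutes with `T_l`** (`l ∤ N'q`). -/
theorem s35_tr_c1_comm (N' q l : ℕ) [NeZero N'] [NeZero q] (hq : q.Prime) (hqN : ¬ q ∣ N')
    (hl : l.Prime) (hlM : ¬ l ∣ N' * q) (hlN : ¬ l ∣ N') (R : Type*) [Semiring R]
    (A : Type*) [AddCommGroup A] [Module R A] [IsAddTorsionFree A]
    (ψ : ↥(parabolicHoms R (Gamma0 (N' * q)) A)) :
    s35_tr_c1 N' q R A (s29_cp_Tpar (N' * q) l hl hlM R A ψ) =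
      s29_cp_Tpar N' l hl hlN R A (s35_tr_c1 N' q R A ψ) := by
  apply Subtype.ext
  exact s35_tr_cor_comm N' q l hq hqN hl hlM hlN (ψ : Additive (Gamma0 (N' * q)) →+ A)

/-- **the corestriction computed with an arbitrary transversal** `r : I → Γ₀(N')` of
`Γ₀(N'q) \ Γ₀(N')`: if `r i * γ = c i * r (s i)` then `(cor χ)(γ) = ∑ i, χ (c i)`. -/
theorem s35_tr_cor_apply_of_transversal (N' q : ℕ) [NeZero N'] [NeZero q] {I : Type*} [Fintype I]
    (r : I → Gamma0 N')
    (hex : ∀ γ : Gamma0 N', ∃ (i : I) (ε : Gamma0 (N' * q)), γ = s35_tr_incl N' q ε * r i)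
    (huniq : ∀ (i j : I) (ε : Gamma0 (N' * q)), r i = s35_tr_incl N' q ε * r j → i = j)
    {A : Type*} [AddCommGroup A] (χ : Additive (Gamma0 (N' * q)) →+ A) (γ : Gamma0 N')
    (c : I → Gamma0 (N' * q)) (s : I → I)
    (h : ∀ i, r i * γ = s35_tr_incl N' q (c i) * r (s i)) :
    s35_tr_cor N' q A χ (Additive.ofMul γ) = ∑ i, χ (Additive.ofMul (c i)) := by
  let Dr : s35_tr_Data (Gamma0 (N' * q)) (Gamma0 N') (GL (Fin 2) ℝ) I :=
    { ι := s29_ch_iota (N' * q)
      ι_inj := s29_ch_iota_injective (N' * q)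
      ι' := s29_ch_iota N'
      δ := fun i => s29_ch_iota N' (r i)
      ex := by
        intro γ i
        obtain ⟨j, ε, hj⟩ := hex (r i * γ)
        refine ⟨j, ε, ?_⟩
        rw [← map_mul, hj, map_mul]
        rfl
      uniq := by
        intro i j ε hij
        refine huniq i j ε (s29_ch_iota_injective N' ?_)
        rw [map_mul]
        exact hij }
  have hT : Dr.T A = (s35_tr_corData N' q).T A := by
    refine Dr.T_eq_of_cosets' (s35_tr_corData N' q) rfl rfl ?_ ?_ A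
    · intro i
      obtain ⟨k, ε, hk⟩ := s35_tr_Data.ofHom_decomp (s35_tr_incl N' q)
        (s35_tr_incl_injective N' q) (s29_ch_iota N') (s29_ch_iota_injective N') (r i)
      exact ⟨k, ε, hk⟩
    · intro k
      obtain ⟨i, ε, hi⟩ := hex (Quotient.out k)⁻¹
      refine ⟨i, ε, ?_⟩
      show s29_ch_iota N' (Quotient.out k)⁻¹ = s29_ch_iota (N' * q) ε * s29_ch_iota N' (r i)
      rw [hi, map_mul]
      rfl
  show (s35_tr_corData N' q).T A χ (Additive.ofMul γ) = _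
  rw [← hT]
  refine Dr.T_apply_of_spec χ γ c s ?_
  intro i
  show s29_ch_iota N' (r i) * s29_ch_iota N' γ = s29_ch_iota (N' * q) (c i) * s29_ch_iota N' (r (s i))
  rw [← map_mul, h i, map_mul]
  rfl

end Fermat.Agent.S35
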