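import Fermat.Agent.S35.TransferBridge
import Fermat.Agent.S35.HeckePol

/-!
# S35, block (E1)+(E3): the transfers intertwine the polynomial Hecke actions

For `e ∈ s35_Pol (N * l) = ℤ[X_ℓ' : ℓ' ∤ N l]` and `c = c₁, c₂ : Λ_{N l} → Λ_N`:
`c (ev_{N l}(e) ψ) = ev_N(e) (c ψ)` (`s35_tp_c1_ev`, `s35_tp_c2_ev`).  Hence if `ev_N(e) = 0`
then both transfers kill `ev_{N l}(e) ψ` (`s35_tp_c1_zero`, `s35_tp_c2_zero`, and the forms
`s35_tp_data1_zero`, `s35_tp_data2_zero` matching the hypotheses of `s35_kc_main`).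
-/

set_option autoImplicit false

open CongruenceSubgroup ModularForm ModularCurve.Period
open scoped MatrixGroups

namespace Fermat.Agent.S35

open Fermat.Agent.S29

/-- a `ℤ`-linear map intertwining all `T_{l'}` intertwines the polynomial Hecke actions. -/
theorem s35_tp_intertwine (N l : ℕ) [NeZero N] [NeZero l] (h1 : N * l ∣ N * l) (h2 : N ∣ N * l)
    (c : ↥(parabolicHoms ℤ (Gamma0 (N * l)) ℤ) →ₗ[ℤ] ↥(parabolicHoms ℤ (Gamma0 N) ℤ))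
    (hc : ∀ (l' : ℕ) (hl' : l'.Prime) (hl'M : ¬ l' ∣ N * l) (hl'N : ¬ l' ∣ N)
      (ψ : ↥(parabolicHoms ℤ (Gamma0 (N * l)) ℤ)),
      c (s29_cp_Tpar (N * l) l' hl' hl'M ℤ ℤ ψ) = s29_cp_Tpar N l' hl' hl'N ℤ ℤ (c ψ))
    (e : s35_Pol (N * l)) (ψ : ↥(parabolicHoms ℤ (Gamma0 (N * l)) ℤ)) :
    c (s35_ev (N * l) (N * l) h1 e ψ) = s35_ev N (N * l) h2 e (c ψ) := by
  induction e using MvPolynomial.induction_on generalizing ψ with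
  | C a =>
    have e1 : (MvPolynomial.C a : s35_Pol (N * l)) = ((a : ℤ) : s35_Pol (N * l)) :=
      eq_intCast (MvPolynomial.C : ℤ →+* s35_Pol (N * l)) a
    rw [e1, map_intCast, map_intCast, Module.End.intCast_apply, Module.End.intCast_apply,
      map_zsmul]
  | add p q hp hq =>
    rw [map_add, map_add, LinearMap.add_apply, LinearMap.add_apply, map_add, hp, hq]
  | mul_X p i hp =>
    rw [map_mul, map_mul, Module.End.mul_apply, Module.End.mul_apply, hp, s35_ev_X, s35_ev_X,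
      hc]

/-- `c₁ (ev_{N l}(e) ψ) = ev_N(e) (c₁ ψ)`. -/
theorem s35_tp_c1_ev (N l : ℕ) [NeZero N] [NeZero l] (hl : l.Prime) (hlN : ¬ l ∣ N)
    (h1 : N * l ∣ N * l) (h2 : N ∣ N * l) (e : s35_Pol (N * l))
    (ψ : ↥(parabolicHoms ℤ (Gamma0 (N * l)) ℤ)) :
    s35_tb_c1 N l hl hlN (s35_ev (N * l) (N * l) h1 e ψ) =
      s35_ev N (N * l) h2 e (s35_tb_c1 N l hl hlN ψ) :=
  s35_tp_intertwine N l h1 h2 (s35_tb_c1 N l hl hlN)
    (fun l' hl' hl'M hl'N ψ => s35_tb_c1_comm N l l' hl hlN hl' hl'M hl'N ψ) e ψ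

/-- `c₂ (ev_{N l}(e) ψ) = ev_N(e) (c₂ ψ)`. -/
theorem s35_tp_c2_ev (N l : ℕ) [NeZero N] [NeZero l] (hl : l.Prime) (hlN : ¬ l ∣ N)
    (h1 : N * l ∣ N * l) (h2 : N ∣ N * l) (e : s35_Pol (N * l))
    (ψ : ↥(parabolicHoms ℤ (Gamma0 (N * l)) ℤ)) :
    s35_tb_c2 N l hl hlN (s35_ev (N * l) (N * l) h1 e ψ) =
      s35_ev N (N * l) h2 e (s35_tb_c2 N l hl hlN ψ) :=
  s35_tp_intertwine N l h1 h2 (s35_tb_c2 N l hl hlN)
    (fun l' hl' hl'M hl'N ψ => s35_tb_c2_comm N l l' hl hlN hl' hl'M hl'N ψ) e ψ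

/-- if `ev_N(e) = 0` then `c₁` kills `ev_{N l}(e) ψ`. -/
theorem s35_tp_c1_zero (N l : ℕ) [NeZero N] [NeZero l] (hl : l.Prime) (hlN : ¬ l ∣ N)
    (h1 : N * l ∣ N * l) (h2 : N ∣ N * l) (e : s35_Pol (N * l))
    (he : s35_ev N (N * l) h2 e = 0) (ψ : ↥(parabolicHoms ℤ (Gamma0 (N * l)) ℤ)) :
    s35_tb_c1 N l hl hlN (s35_ev (N * l) (N * l) h1 e ψ) = 0 := by
  rw [s35_tp_c1_ev N l hl hlN h1 h2, he, LinearMap.zero_apply]

/-- if `ev_N(e) = 0` then `c₂` kills `ev_{N l}(e) ψ`. -/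
theorem s35_tp_c2_zero (N l : ℕ) [NeZero N] [NeZero l] (hl : l.Prime) (hlN : ¬ l ∣ N)
    (h1 : N * l ∣ N * l) (h2 : N ∣ N * l) (e : s35_Pol (N * l))
    (he : s35_ev N (N * l) h2 e = 0) (ψ : ↥(parabolicHoms ℤ (Gamma0 (N * l)) ℤ)) :
    s35_tb_c2 N l hl hlN (s35_ev (N * l) (N * l) h1 e ψ) = 0 := by
  rw [s35_tp_c2_ev N l hl hlN h1 h2, he, LinearMap.zero_apply]

/-- the hypothesis of `s35_kc_main` for `c₁`: `(s35_co_data1 …).T ℤ (ev_{N l}(e) ψ) = 0`. -/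
theorem s35_tp_data1_zero (N l : ℕ) [NeZero N] [NeZero l] (hl : l.Prime) (hlN : ¬ l ∣ N)
    (h1 : N * l ∣ N * l) (h2 : N ∣ N * l) (e : s35_Pol (N * l))
    (he : s35_ev N (N * l) h2 e = 0) (ψ : ↥(parabolicHoms ℤ (Gamma0 (N * l)) ℤ)) :
    (s35_co_data1 N l hl hlN).T ℤ
      ((s35_ev (N * l) (N * l) h1 e ψ : ↥(parabolicHoms ℤ (Gamma0 (N * l)) ℤ)) :
        Additive (Gamma0 (N * l)) →+ ℤ) = 0 := by
  have h := congrArg (fun x : ↥(parabolicHoms ℤ (Gamma0 N) ℤ) => (x : Additive (Gamma0 N) →+ ℤ))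
    (s35_tp_c1_zero N l hl hlN h1 h2 e he ψ)
  exact h

/-- the hypothesis of `s35_kc_main` for `c₂`: `(s35_co_data2 …).T ℤ (ev_{N l}(e) ψ) = 0`. -/
theorem s35_tp_data2_zero (N l : ℕ) [NeZero N] [NeZero l] (hl : l.Prime) (hlN : ¬ l ∣ N)
    (h1 : N * l ∣ N * l) (h2 : N ∣ N * l) (e : s35_Pol (N * l))
    (he : s35_ev N (N * l) h2 e = 0) (ψ : ↥(parabolicHoms ℤ (Gamma0 (N * l)) ℤ)) :
    (s35_co_data2 N l hl hlN).T ℤ
      ((s35_ev (N * l) (N * l) h1 e ψ : ↥(parabolicHoms ℤ (Gamma0 (N * l)) ℤ)) :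
        Additive (Gamma0 (N * l)) →+ ℤ) = 0 := by
  have h := congrArg (fun x : ↥(parabolicHoms ℤ (Gamma0 N) ℤ) => (x : Additive (Gamma0 N) →+ ℤ))
    (s35_tp_c2_zero N l hl hlN h1 h2 e he ψ)
  exact h

end Fermat.Agent.S35
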